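/-
S56, [GEC-D4] (`moonshots` row 52), leaf D4e (helper27): **THE complex conjugation and the
archimedean places of a normal number field `L ⊂ ℚ̄` as a `Γ`-set.**

* `cc := complexConjugation` (prelude `Def_GaloisRep_ComplexConjugation`: the restriction to `ℚ̄` of
  the complex conjugation along the fixed embedding `complexEmbedding : ℚ̄ →ₐ[ℚ] ℂ`):
  `cc_mul_self`, `cc_inv`, `cycloChar_cc : cycloChar p cc = -1` (N4 `FrobDensity/CycloConj`),
  `cc_ne_one`, `orderOf_cc`;
* `resL L : Γ →* Gal(L/ℚ)` (`AlgEquiv.restrictNormalHom`), `resL_surjective`, `ker_resL`,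
  `coe_resL_apply`;
* the base place `w0 L := mk (complexEmbedding ∘ (L ↪ ℚ̄))`, `isConj_resL_cc`,
  `stabilizer_w0 : Stab (w0 L) = {1, cc|_L}`, `exists_smul_w0_eq` (transitivity),
  `resL_smul_w0_eq_iff`;
* **`infinitePlaceEquiv L : Γ ⧸ (Gal(ℚ̄/L) ⊔ ⟨cc⟩) ≃ InfinitePlace L`**, `γ ↦ (γ|_L) • w0 L`,
  `Γ`-equivariant (`infinitePlaceEquiv_smul`), and its `Gal(L/ℚ)`-form
  `infinitePlaceEquivGal L : Gal(L/ℚ) ⧸ ⟨cc|_L⟩ ≃ InfinitePlace L`;
* `resL_cc_ne_one` (`cc|_L ≠ 1` when `L` contains a primitive `p`-th root of unity, `2 < p`),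
  `card_infinitePlace_mul_two`.
-/
import Mathlib
import Fermat.Prelude.Def_GaloisRep_ComplexConjugation
import Fermat.Prelude.Def_ExtCitation_KummerBridge
import Fermat.Agent.N4.FrobDensity.CycloConj
import Fermat.Agent.S55.SUnitPow

set_option autoImplicit false
set_option linter.unusedSectionVars false
set_option linter.style.haveILetI false

open NumberField NumberField.InfinitePlace

namespace Fermat.Agent.S56.GEC.Equivariant.Arch

local notation "Qbar" => AlgebraicClosure ℚ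
local notation "Γ" => (AlgebraicClosure ℚ ≃ₐ[ℚ] AlgebraicClosure ℚ)

local instance isAlgebraicQbar_arch : Algebra.IsAlgebraic ℚ (AlgebraicClosure ℚ) :=
  AlgebraicClosure.isAlgebraic ℚ
local instance isAlgClosureQbar_arch : IsAlgClosure ℚ (AlgebraicClosure ℚ) :=
  ⟨inferInstance, inferInstance⟩
local instance normalQbar_arch : Normal ℚ (AlgebraicClosure ℚ) :=
  IsAlgClosure.normal ℚ (AlgebraicClosure ℚ)

/-! ### THE complex conjugation -/

/-- **THE complex conjugation** of `Γ = Gal(ℚ̄/ℚ)` (the prelude's `complexConjugation`). -/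
noncomputable abbrev cc : Γ := complexConjugation

theorem cc_mul_self : cc * cc = 1 := complexConjugation_mul_self

theorem cc_inv : cc⁻¹ = cc := complexConjugation_inv

theorem complexEmbedding_cc (x : Qbar) :
    complexEmbedding (cc x) = starRingEnd ℂ (complexEmbedding x) :=
  complexEmbedding_complexConjugation x

/-- the mod-`p` cyclotomic character of the complex conjugation is `-1` -/
theorem cycloChar_cc (p : ℕ) [Fact p.Prime] : ExtCitation.cycloChar p cc = -1 :=
  Fermat.Agent.N4.FrobDensity.cycloChar_complexConjugation p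

theorem mem_zpowers_cc_iff (γ : Γ) : γ ∈ Subgroup.zpowers cc ↔ γ = 1 ∨ γ = cc := by
  constructor
  · rw [Subgroup.mem_zpowers_iff]
    rintro ⟨n, rfl⟩
    rcases Int.even_or_odd n with ⟨m, rfl⟩ | ⟨m, rfl⟩
    · left
      rw [← two_mul, zpow_mul, zpow_two, cc_mul_self, one_zpow]
    · right
      rw [zpow_add, zpow_mul, zpow_two, cc_mul_self, one_zpow, one_mul, zpow_one]
  · rintro (rfl | rfl)
    · exact Subgroup.one_mem _
    · exact Subgroup.mem_zpowers _

/-! ### restriction to a normal subfield -/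

section Field

variable (L : IntermediateField ℚ Qbar) [Normal ℚ L]

/-- restriction `Γ → Gal(L/ℚ)` -/
noncomputable def resL : Γ →* (L ≃ₐ[ℚ] L) := AlgEquiv.restrictNormalHom L

theorem coe_resL_apply (γ : Γ) (x : L) : ((resL L γ x : L) : Qbar) = γ (x : Qbar) :=
  AlgEquiv.restrictNormal_commutes γ L x

theorem resL_surjective : Function.Surjective (resL L) :=
  AlgEquiv.restrictNormalHom_surjective Qbar

theorem ker_resL : (resL L).ker = L.fixingSubgroup := by
  have h1 : @Normal ℚ L _ _ L.algebra' := ‹Normal ℚ L›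
  exact @IntermediateField.restrictNormalHom_ker ℚ Qbar _ _ _ L h1

theorem resL_eq_one_iff (γ : Γ) : resL L γ = 1 ↔ γ ∈ L.fixingSubgroup := by
  rw [← ker_resL, MonoidHom.mem_ker]

instance isGalois_L : IsGalois ℚ L := ⟨⟩

/-- the embedding `L ⊂ ℚ̄ ↪ ℂ` -/
noncomputable def emb0 : L →+* ℂ := (complexEmbedding : Qbar →+* ℂ).comp (algebraMap L Qbar)

theorem emb0_apply (x : L) : emb0 L x = complexEmbedding (x : Qbar) := rfl

/-- **the base archimedean place** of `L`: the one of `L ⊂ ℚ̄ ↪ ℂ` -/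
noncomputable def w0 : InfinitePlace L := InfinitePlace.mk (emb0 L)

/-- the restriction of `cc` to `L` is the conjugation of the base embedding -/
theorem isConj_resL_cc : ComplexEmbedding.IsConj (emb0 L) (resL L cc) := by
  refine RingHom.ext fun x => ?_
  change starRingEnd ℂ (emb0 L x) = emb0 L (resL L cc x)
  rw [emb0_apply, emb0_apply, coe_resL_apply, complexEmbedding_cc]

/-- **the stabiliser of the base place is `{1, cc|_L}`** -/
theorem stabilizer_w0 :
    (MulAction.stabilizer (L ≃ₐ[ℚ] L) (w0 L) : Set (L ≃ₐ[ℚ] L)) = {1, resL L cc} :=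
  (isConj_resL_cc L).coe_stabilizer_mk

theorem mem_stabilizer_w0_iff (σ : L ≃ₐ[ℚ] L) :
    σ ∈ MulAction.stabilizer (L ≃ₐ[ℚ] L) (w0 L) ↔ σ = 1 ∨ σ = resL L cc := by
  rw [← SetLike.mem_coe, stabilizer_w0]
  simp

theorem stabilizer_w0_eq_zpowers :
    MulAction.stabilizer (L ≃ₐ[ℚ] L) (w0 L) = Subgroup.zpowers (resL L cc) := by
  ext σ
  rw [mem_stabilizer_w0_iff]
  constructor
  · rintro (rfl | rfl)
    · exact Subgroup.one_mem _
    · exact Subgroup.mem_zpowers _
  · rw [Subgroup.mem_zpowers_iff]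
    rintro ⟨n, rfl⟩
    rw [← map_zpow]
    rcases (mem_zpowers_cc_iff _).1 (Subgroup.zpow_mem_zpowers cc n) with h | h
    · left; rw [h, map_one]
    · right; rw [h]

/-- **`Gal(L/ℚ)` acts transitively on the archimedean places of `L`** -/
theorem exists_smul_w0_eq (w : InfinitePlace L) : ∃ σ : L ≃ₐ[ℚ] L, σ • w0 L = w :=
  exists_smul_eq_of_comap_eq (Subsingleton.elim _ _)

theorem exists_resL_smul_w0_eq (w : InfinitePlace L) : ∃ γ : Γ, resL L γ • w0 L = w := by
  obtain ⟨σ, hσ⟩ := exists_smul_w0_eq L w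
  obtain ⟨γ, rfl⟩ := resL_surjective L σ
  exact ⟨γ, hσ⟩

/-- the subgroup `Gal(ℚ̄/L) · ⟨cc⟩` of `Γ`: the stabiliser of the base place -/
noncomputable def stab0 : Subgroup Γ := L.fixingSubgroup ⊔ Subgroup.zpowers cc

theorem mem_stab0_iff (γ : Γ) : γ ∈ stab0 L ↔ resL L γ = 1 ∨ resL L γ = resL L cc := by
  constructor
  · intro h
    have h1 : stab0 L ≤ (MulAction.stabilizer (L ≃ₐ[ℚ] L) (w0 L)).comap (resL L) := by
      refine sup_le (fun u hu => ?_) ?_
      · rw [Subgroup.mem_comap, (resL_eq_one_iff L u).2 hu]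
        exact Subgroup.one_mem _
      · rw [Subgroup.zpowers_le, Subgroup.mem_comap, mem_stabilizer_w0_iff]
        exact Or.inr rfl
    exact (mem_stabilizer_w0_iff L _).1 (h1 h)
  · rintro (h | h)
    · exact Subgroup.mem_sup_left ((resL_eq_one_iff L γ).1 h)
    · have h2 : γ * cc⁻¹ ∈ L.fixingSubgroup := by
        rw [← resL_eq_one_iff, map_mul, map_inv, h, mul_inv_cancel]
      have e : γ = (γ * cc⁻¹) * cc := by group
      rw [e]
      exact Subgroup.mul_mem_sup h2 (Subgroup.mem_zpowers cc)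

theorem fixingSubgroup_le_stab0 : L.fixingSubgroup ≤ stab0 L := le_sup_left

theorem cc_mem_stab0 : cc ∈ stab0 L := Subgroup.mem_sup_right (Subgroup.mem_zpowers cc)

/-- `Gal(ℚ̄/L)·⟨cc⟩ = Gal(ℚ̄/L) ∪ Gal(ℚ̄/L)·cc` -/
theorem mem_stab0_iff' (γ : Γ) :
    γ ∈ stab0 L ↔ γ ∈ L.fixingSubgroup ∨ γ * cc ∈ L.fixingSubgroup := by
  rw [mem_stab0_iff, resL_eq_one_iff, ← resL_eq_one_iff L (γ * cc), map_mul]
  refine or_congr Iff.rfl ⟨fun h => ?_, fun h => ?_⟩
  · rw [h, ← map_mul, cc_mul_self, map_one]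
  · have h1 : resL L γ = (resL L cc)⁻¹ := eq_inv_of_mul_eq_one_left h
    rw [h1, ← map_inv, cc_inv]

theorem mem_stab0_iff_smul (γ : Γ) : γ ∈ stab0 L ↔ resL L γ • w0 L = w0 L := by
  rw [mem_stab0_iff, ← mem_stabilizer_w0_iff, MulAction.mem_stabilizer_iff]

theorem resL_smul_w0_eq_iff (γ γ' : Γ) :
    resL L γ • w0 L = resL L γ' • w0 L ↔ γ⁻¹ * γ' ∈ stab0 L := by
  rw [mem_stab0_iff_smul, map_mul, map_inv, mul_smul, inv_smul_eq_iff, eq_comm]

/-- **the archimedean places of `L` as a `Γ`-set: `Γ ⧸ (Gal(ℚ̄/L)·⟨cc⟩) ≃ InfinitePlace L`**,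
`γ ↦ γ|_L • w0`. -/
noncomputable def infinitePlaceEquiv : Γ ⧸ stab0 L ≃ InfinitePlace L :=
  Equiv.ofBijective
    (Quotient.lift (fun γ : Γ => resL L γ • w0 L) (fun a b hab => by
      have h : a⁻¹ * b ∈ stab0 L := QuotientGroup.leftRel_apply.1 hab
      exact (resL_smul_w0_eq_iff L a b).2 h))
    ⟨by
      rintro ⟨a⟩ ⟨b⟩ hab
      exact Quotient.sound (QuotientGroup.leftRel_apply.2 ((resL_smul_w0_eq_iff L a b).1 hab)),
     fun w => by
      obtain ⟨γ, hγ⟩ := exists_resL_smul_w0_eq L w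
      exact ⟨QuotientGroup.mk γ, hγ⟩⟩

@[simp] theorem infinitePlaceEquiv_mk (γ : Γ) :
    infinitePlaceEquiv L (QuotientGroup.mk γ) = resL L γ • w0 L := rfl

/-- `Γ`-equivariance: left translation on `Γ ⧸ stab0 L` corresponds to the Galois action (through
`Gal(L/ℚ)`) on the places. -/
theorem infinitePlaceEquiv_smul (γ : Γ) (x : Γ ⧸ stab0 L) :
    infinitePlaceEquiv L (γ • x) = resL L γ • infinitePlaceEquiv L x := by
  induction x using QuotientGroup.induction_on with
  | H a =>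
    change infinitePlaceEquiv L (QuotientGroup.mk (γ * a)) = _
    rw [infinitePlaceEquiv_mk, infinitePlaceEquiv_mk, map_mul, mul_smul]

/-- the same as a `Gal(L/ℚ)`-set: `Gal(L/ℚ) ⧸ ⟨cc|_L⟩ ≃ InfinitePlace L`, `σ ↦ σ • w0` -/
noncomputable def infinitePlaceEquivGal :
    (L ≃ₐ[ℚ] L) ⧸ Subgroup.zpowers (resL L cc) ≃ InfinitePlace L :=
  Equiv.ofBijective
    (Quotient.lift (fun σ : L ≃ₐ[ℚ] L => σ • w0 L) (fun a b hab => by
      have h : a⁻¹ * b ∈ Subgroup.zpowers (resL L cc) := QuotientGroup.leftRel_apply.1 hab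
      rw [← stabilizer_w0_eq_zpowers, MulAction.mem_stabilizer_iff, mul_smul,
        inv_smul_eq_iff] at h
      exact h.symm))
    ⟨by
      rintro ⟨a⟩ ⟨b⟩ hab
      refine Quotient.sound (QuotientGroup.leftRel_apply.2 ?_)
      rw [← stabilizer_w0_eq_zpowers, MulAction.mem_stabilizer_iff, mul_smul, inv_smul_eq_iff]
      exact hab.symm,
     fun w => by
      obtain ⟨σ, hσ⟩ := exists_smul_w0_eq L w
      exact ⟨QuotientGroup.mk σ, hσ⟩⟩

@[simp] theorem infinitePlaceEquivGal_mk (σ : L ≃ₐ[ℚ] L) :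
    infinitePlaceEquivGal L (QuotientGroup.mk σ) = σ • w0 L := rfl

theorem infinitePlaceEquivGal_smul (σ : L ≃ₐ[ℚ] L)
    (x : (L ≃ₐ[ℚ] L) ⧸ Subgroup.zpowers (resL L cc)) :
    infinitePlaceEquivGal L (σ • x) = σ • infinitePlaceEquivGal L x := by
  induction x using QuotientGroup.induction_on with
  | H a =>
    change infinitePlaceEquivGal L (QuotientGroup.mk (σ * a)) = _
    rw [infinitePlaceEquivGal_mk, infinitePlaceEquivGal_mk, mul_smul]

/-! ### `cc` acts non-trivially on fields with `μ_p`, `p` odd -/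

/-- `cc|_L ≠ 1` when `L` contains a primitive `p`-th root of unity, `2 < p` -/
theorem resL_cc_ne_one {p : ℕ} (hp : 2 < p) {ζ : Qbar} (hζ : IsPrimitiveRoot ζ p) (hζL : ζ ∈ L) :
    resL L cc ≠ 1 := by
  intro h
  have hζ' : IsPrimitiveRoot (⟨ζ, hζL⟩ : L) p :=
    IsPrimitiveRoot.of_map_of_injective (f := algebraMap L Qbar) (by exact hζ)
      (algebraMap L Qbar).injective
  have htc : IsTotallyComplex L :=
    Fermat.Agent.S55.SUnitPow.isTotallyComplex_of_isPrimitiveRoot hp hζ'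
  have hc : (w0 L).IsComplex := htc.isComplex (w0 L)
  have hreal : ComplexEmbedding.IsReal (emb0 L) := by
    have h1 := isConj_resL_cc L
    rw [h] at h1
    exact ComplexEmbedding.isConj_one_iff.1 h1
  have : (w0 L).IsReal := ⟨emb0 L, hreal, rfl⟩
  exact (not_isReal_iff_isComplex.2 hc) this

theorem cc_not_mem_fixingSubgroup {p : ℕ} (hp : 2 < p) {ζ : Qbar} (hζ : IsPrimitiveRoot ζ p)
    (hζL : ζ ∈ L) : cc ∉ L.fixingSubgroup := fun h =>
  resL_cc_ne_one L hp hζ hζL ((resL_eq_one_iff L cc).2 h)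

end Field

end Fermat.Agent.S56.GEC.Equivariant.Arch
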