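/-
S56 / block D (global Euler characteristic), leaf D4-G0 (helper13; `moonshots` row 52 §2, helper10):
**multiplicities `mult N X = dim (N ⊗ X)^C` for a finite group `C` of order invertible in `k`**
(Mathlib only).

`k` a field, `C` a finite group with `(Fintype.card C : k) ≠ 0`; representations are unbundled
(`Representation k C V`), morphisms are linear maps commuting with the actions.

* `avg ρ` : the averaging operator; `avg_mem_invariants`, `avg_of_mem_invariants`, `map_avg`;
* (m0) `finrank_invariants_add_of_exact` : invariants are exact;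
  `finrank_invariants_le_of_injective`, `finrank_invariants_eq_of_equiv`;
* `mult ρN ρX := finrank k (ρN.tprod ρX).invariants`;
  (m1) `mult_add_of_exact`, (m2) `mult_le_of_injective`, `mult_congr_right`, `mult_congr_left`;
* (m4) `twist ρ θ` (twist by a character `θ : C →* kˣ`), `mult_twist`;
* (m8) `mult_ofMulAction_congr` (permutation modules of isomorphic `C`-sets);
* `permRep k C S` (permutation representation on `S →₀ k`), `mult_ofMulAction` (bridge to Mathlib);
* `mult_trivial_right/left`, `charRep θ`, `mult_charRep`, `prodRep`, `mult_prod`,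
  `mult_of_subsingleton`, `mult_comm`;
* (m3') `finrank_invariants_dual`, `mult_dual_dual`, `mult_dual_dual_left`;
  (m3) `mult_of_perfect_pairing`.
-/
import Mathlib

set_option autoImplicit false

namespace Fermat.Agent.S56.GEC.Equivariant.Mult

open Module TensorProduct

variable {k : Type*} [Field k] {C : Type*} [Group C]

/-! ### averaging -/

section Avg

variable [Fintype C] {V W : Type*} [AddCommGroup V] [Module k V] [AddCommGroup W] [Module k W]

/-- the averaging operator `|C|⁻¹ ∑ c` -/
noncomputable def avg (ρ : Representation k C V) : V →ₗ[k] V :=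
  (Fintype.card C : k)⁻¹ • ∑ c : C, ρ c

theorem avg_apply (ρ : Representation k C V) (v : V) :
    avg ρ v = (Fintype.card C : k)⁻¹ • ∑ c : C, ρ c v := by
  simp [avg, LinearMap.sum_apply]

theorem avg_mem_invariants (ρ : Representation k C V) (v : V) : avg ρ v ∈ ρ.invariants := by
  intro g
  rw [avg_apply, map_smul, map_sum]
  congr 1
  refine Fintype.sum_equiv (Equiv.mulLeft g) _ _ (fun c => ?_)
  rw [Equiv.coe_mulLeft, map_mul]
  rfl

theorem avg_of_mem_invariants (hC : (Fintype.card C : k) ≠ 0) (ρ : Representation k C V) {v : V}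
    (hv : v ∈ ρ.invariants) : avg ρ v = v := by
  rw [avg_apply]
  have : ∀ c : C, ρ c v = v := hv
  simp only [this, Finset.sum_const, Finset.card_univ]
  rw [← Nat.cast_smul_eq_nsmul k, smul_smul, inv_mul_cancel₀ hC, one_smul]

/-- averaging commutes with equivariant maps -/
theorem map_avg (ρ : Representation k C V) (σ : Representation k C W) (f : V →ₗ[k] W)
    (hf : ∀ c v, f (ρ c v) = σ c (f v)) (v : V) : f (avg ρ v) = avg σ (f v) := by
  rw [avg_apply, avg_apply, map_smul, map_sum]
  simp only [hf]

theorem avg_smul (ρ : Representation k C V) (g : C) (v : V) : avg ρ (ρ g v) = avg ρ v := by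
  rw [avg_apply, avg_apply]
  congr 1
  refine Fintype.sum_equiv (Equiv.mulRight g) _ _ (fun c => ?_)
  rw [Equiv.coe_mulRight, map_mul]
  rfl

theorem range_avg (hC : (Fintype.card C : k) ≠ 0) (ρ : Representation k C V) :
    LinearMap.range (avg ρ) = ρ.invariants := by
  apply le_antisymm
  · rintro _ ⟨v, rfl⟩
    exact avg_mem_invariants ρ v
  · intro v hv
    exact ⟨v, avg_of_mem_invariants hC ρ hv⟩

end Avg

/-! ### invariants are exact -/

section Exact

variable {V₁ V₂ V₃ : Type*} [AddCommGroup V₁] [Module k V₁] [AddCommGroup V₂] [Module k V₂]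
  [AddCommGroup V₃] [Module k V₃]

/-- the map induced on invariants by an equivariant map -/
noncomputable def invMap (ρ₁ : Representation k C V₁) (ρ₂ : Representation k C V₂) (f : V₁ →ₗ[k] V₂)
    (hf : ∀ c v, f (ρ₁ c v) = ρ₂ c (f v)) : ρ₁.invariants →ₗ[k] ρ₂.invariants :=
  f.restrict (p := ρ₁.invariants) (q := ρ₂.invariants) (fun v hv c => by rw [← hf, hv c])

@[simp] theorem coe_invMap (ρ₁ : Representation k C V₁) (ρ₂ : Representation k C V₂)
    (f : V₁ →ₗ[k] V₂) (hf : ∀ c v, f (ρ₁ c v) = ρ₂ c (f v)) (v : ρ₁.invariants) :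
    (invMap ρ₁ ρ₂ f hf v : V₂) = f v := rfl

theorem invMap_injective (ρ₁ : Representation k C V₁) (ρ₂ : Representation k C V₂)
    (f : V₁ →ₗ[k] V₂) (hf : ∀ c v, f (ρ₁ c v) = ρ₂ c (f v)) (hinj : Function.Injective f) :
    Function.Injective (invMap ρ₁ ρ₂ f hf) := by
  intro v w h
  apply Subtype.ext
  apply hinj
  exact congrArg Subtype.val h

/-- (m2), abstract form -/
theorem finrank_invariants_le_of_injective [FiniteDimensional k V₂]
    (ρ₁ : Representation k C V₁) (ρ₂ : Representation k C V₂)
    (f : V₁ →ₗ[k] V₂) (hf : ∀ c v, f (ρ₁ c v) = ρ₂ c (f v)) (hinj : Function.Injective f) :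
    finrank k ρ₁.invariants ≤ finrank k ρ₂.invariants :=
  LinearMap.finrank_le_finrank_of_injective (invMap_injective ρ₁ ρ₂ f hf hinj)

/-- isomorphic representations have invariants of the same dimension -/
theorem finrank_invariants_eq_of_equiv
    (ρ₁ : Representation k C V₁) (ρ₂ : Representation k C V₂)
    (e : V₁ ≃ₗ[k] V₂) (he : ∀ c v, e (ρ₁ c v) = ρ₂ c (e v)) :
    finrank k ρ₁.invariants = finrank k ρ₂.invariants := by
  have he' : ∀ c w, e.symm (ρ₂ c w) = ρ₁ c (e.symm w) := by
    intro c w
    apply e.injective
    rw [he, e.apply_symm_apply, e.apply_symm_apply]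
  refine LinearEquiv.finrank_eq
    { toLinearMap := invMap ρ₁ ρ₂ e.toLinearMap he
      invFun := invMap ρ₂ ρ₁ e.symm.toLinearMap he'
      left_inv := fun v => Subtype.ext (e.symm_apply_apply v)
      right_inv := fun w => Subtype.ext (e.apply_symm_apply w) }

/-- **(m0): invariants are exact** when `|C|` is invertible in `k`. -/
theorem finrank_invariants_add_of_exact [Fintype C] [FiniteDimensional k V₂] (hC : (Fintype.card C : k) ≠ 0)
    (ρ₁ : Representation k C V₁) (ρ₂ : Representation k C V₂) (ρ₃ : Representation k C V₃)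
    (f : V₁ →ₗ[k] V₂) (g : V₂ →ₗ[k] V₃) (hf : ∀ c v, f (ρ₁ c v) = ρ₂ c (f v))
    (hg : ∀ c v, g (ρ₂ c v) = ρ₃ c (g v)) (hinj : Function.Injective f)
    (hsurj : Function.Surjective g) (hex : Function.Exact f g) :
    finrank k ρ₂.invariants = finrank k ρ₁.invariants + finrank k ρ₃.invariants := by
  have hs : Function.Surjective (invMap ρ₂ ρ₃ g hg) := by
    rintro ⟨w, hw⟩
    obtain ⟨v, rfl⟩ := hsurj w
    refine ⟨⟨avg ρ₂ v, avg_mem_invariants ρ₂ v⟩, Subtype.ext ?_⟩
    show g (avg ρ₂ v) = g v
    rw [map_avg ρ₂ ρ₃ g hg, avg_of_mem_invariants hC ρ₃ hw]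
  have hker : LinearMap.ker (invMap ρ₂ ρ₃ g hg) = LinearMap.range (invMap ρ₁ ρ₂ f hf) := by
    ext ⟨v, hv⟩
    constructor
    · intro h0
      have h0' : g v = 0 := congrArg Subtype.val (LinearMap.mem_ker.1 h0)
      obtain ⟨a, rfl⟩ := (hex v).1 h0'
      have ha : a ∈ ρ₁.invariants := by
        intro c
        apply hinj
        rw [hf, hv c]
      exact ⟨⟨a, ha⟩, Subtype.ext rfl⟩
    · rintro ⟨⟨a, ha⟩, h⟩
      rw [LinearMap.mem_ker]
      apply Subtype.ext
      have h1 : f a = v := congrArg Subtype.val h
      show g v = 0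
      rw [← h1]
      exact (hex (f a)).2 ⟨a, rfl⟩
  have r1 := LinearMap.finrank_range_add_finrank_ker (invMap ρ₂ ρ₃ g hg)
  have r2 : finrank k (LinearMap.range (invMap ρ₂ ρ₃ g hg)) = finrank k ρ₃.invariants := by
    rw [LinearMap.range_eq_top.2 hs]
    exact finrank_top k _
  have r3 : finrank k (LinearMap.range (invMap ρ₁ ρ₂ f hf)) = finrank k ρ₁.invariants :=
    LinearMap.finrank_range_of_inj (invMap_injective ρ₁ ρ₂ f hf hinj)
  rw [hker, r2, r3] at r1
  omega

end Exact

/-! ### multiplicities -/

section MultDef

variable {N X X₁ X₂ X₃ N' : Type*} [AddCommGroup N] [Module k N] [AddCommGroup X] [Module k X]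
  [AddCommGroup X₁] [Module k X₁] [AddCommGroup X₂] [Module k X₂] [AddCommGroup X₃] [Module k X₃]
  [AddCommGroup N'] [Module k N']

/-- **The multiplicity** `mult N X = dim (N ⊗ X)^C`. -/
noncomputable def mult (ρN : Representation k C N) (ρX : Representation k C X) : ℕ :=
  finrank k (ρN.tprod ρX).invariants

theorem lTensor_equivariant (ρN : Representation k C N) (ρ₁ : Representation k C X₁)
    (ρ₂ : Representation k C X₂) (f : X₁ →ₗ[k] X₂) (hf : ∀ c v, f (ρ₁ c v) = ρ₂ c (f v))
    (c : C) (t : N ⊗[k] X₁) :
    f.lTensor N ((ρN.tprod ρ₁) c t) = (ρN.tprod ρ₂) c (f.lTensor N t) := by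
  induction t using TensorProduct.induction_on with
  | zero => simp
  | tmul n x =>
    simp only [Representation.tprod_apply, TensorProduct.map_tmul, LinearMap.lTensor_tmul, hf]
  | add a b ha hb => simp only [map_add, ha, hb]

theorem rTensor_equivariant (ρX : Representation k C X) (ρ₁ : Representation k C N)
    (ρ₂ : Representation k C N') (f : N →ₗ[k] N') (hf : ∀ c v, f (ρ₁ c v) = ρ₂ c (f v))
    (c : C) (t : N ⊗[k] X) :
    f.rTensor X ((ρ₁.tprod ρX) c t) = (ρ₂.tprod ρX) c (f.rTensor X t) := by
  induction t using TensorProduct.induction_on with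
  | zero => simp
  | tmul n x =>
    simp only [Representation.tprod_apply, TensorProduct.map_tmul, LinearMap.rTensor_tmul, hf]
  | add a b ha hb => simp only [map_add, ha, hb]

/-- **(m1): `mult N` is additive on short exact sequences.** -/
theorem mult_add_of_exact [Fintype C] [FiniteDimensional k N] [FiniteDimensional k X₂]
    (hC : (Fintype.card C : k) ≠ 0) (ρN : Representation k C N)
    (ρ₁ : Representation k C X₁) (ρ₂ : Representation k C X₂) (ρ₃ : Representation k C X₃)
    (f : X₁ →ₗ[k] X₂) (g : X₂ →ₗ[k] X₃) (hf : ∀ c v, f (ρ₁ c v) = ρ₂ c (f v))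
    (hg : ∀ c v, g (ρ₂ c v) = ρ₃ c (g v)) (hinj : Function.Injective f)
    (hsurj : Function.Surjective g) (hex : Function.Exact f g) :
    mult ρN ρ₂ = mult ρN ρ₁ + mult ρN ρ₃ :=
  finrank_invariants_add_of_exact hC (ρN.tprod ρ₁) (ρN.tprod ρ₂) (ρN.tprod ρ₃)
    (f.lTensor N) (g.lTensor N) (lTensor_equivariant ρN ρ₁ ρ₂ f hf)
    (lTensor_equivariant ρN ρ₂ ρ₃ g hg)
    (Module.Flat.lTensor_preserves_injective_linearMap f hinj)
    (LinearMap.lTensor_surjective N hsurj) (lTensor_exact N hex hsurj)

/-- **(m2): `mult N` is monotone under equivariant injections.** -/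
theorem mult_le_of_injective [FiniteDimensional k N] [FiniteDimensional k X₂]
    (ρN : Representation k C N) (ρ₁ : Representation k C X₁) (ρ₂ : Representation k C X₂)
    (f : X₁ →ₗ[k] X₂) (hf : ∀ c v, f (ρ₁ c v) = ρ₂ c (f v)) (hinj : Function.Injective f) :
    mult ρN ρ₁ ≤ mult ρN ρ₂ :=
  finrank_invariants_le_of_injective (ρN.tprod ρ₁) (ρN.tprod ρ₂) (f.lTensor N)
    (lTensor_equivariant ρN ρ₁ ρ₂ f hf) (Module.Flat.lTensor_preserves_injective_linearMap f hinj)

/-- `mult N` is invariant under equivariant isomorphisms of the second argument -/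
theorem mult_congr_right (ρN : Representation k C N) (ρ₁ : Representation k C X₁)
    (ρ₂ : Representation k C X₂) (e : X₁ ≃ₗ[k] X₂) (he : ∀ c v, e (ρ₁ c v) = ρ₂ c (e v)) :
    mult ρN ρ₁ = mult ρN ρ₂ :=
  finrank_invariants_eq_of_equiv (ρN.tprod ρ₁) (ρN.tprod ρ₂) (e.lTensor N)
    (fun c t => lTensor_equivariant ρN ρ₁ ρ₂ e.toLinearMap he c t)

/-- `mult · X` is invariant under equivariant isomorphisms of the first argument -/
theorem mult_congr_left (ρX : Representation k C X) (ρ₁ : Representation k C N)
    (ρ₂ : Representation k C N') (e : N ≃ₗ[k] N') (he : ∀ c v, e (ρ₁ c v) = ρ₂ c (e v)) :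
    mult ρ₁ ρX = mult ρ₂ ρX :=
  finrank_invariants_eq_of_equiv (ρ₁.tprod ρX) (ρ₂.tprod ρX) (e.rTensor X)
    (fun c t => rTensor_equivariant ρX ρ₁ ρ₂ e.toLinearMap he c t)

/-- the two factors can be swapped -/
theorem mult_comm (ρN : Representation k C N) (ρX : Representation k C X) :
    mult ρN ρX = mult ρX ρN :=
  finrank_invariants_eq_of_equiv (ρN.tprod ρX) (ρX.tprod ρN) (TensorProduct.comm k N X)
    (fun c t => by
      induction t using TensorProduct.induction_on with
      | zero => simp
      | tmul n x => simp
      | add a b ha hb => simp only [map_add, ha, hb])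

end MultDef

/-! ### (m4): twist by a character -/

section Twist

variable {N X : Type*} [AddCommGroup N] [Module k N] [AddCommGroup X] [Module k X]

/-- the twist of a representation by a character `θ : C →* kˣ` -/
def twist (ρ : Representation k C X) (θ : C →* kˣ) : Representation k C X where
  toFun c := ((θ c : kˣ) : k) • ρ c
  map_one' := by simp
  map_mul' a b := by
    simp only [map_mul, Units.val_mul]
    ext v
    simp [smul_smul, mul_comm]

@[simp] theorem twist_apply (ρ : Representation k C X) (θ : C →* kˣ) (c : C) (v : X) :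
    twist ρ θ c v = ((θ c : kˣ) : k) • ρ c v := rfl

/-- **(m4)**: `mult N (X ⊗ θ) = mult (N ⊗ θ) X`. -/
theorem mult_twist (ρN : Representation k C N) (ρX : Representation k C X) (θ : C →* kˣ) :
    mult ρN (twist ρX θ) = mult (twist ρN θ) ρX := by
  have h : ρN.tprod (twist ρX θ) = (twist ρN θ).tprod ρX := by
    ext c : 1
    apply TensorProduct.ext'
    intro n x
    simp only [Representation.tprod_apply, TensorProduct.map_tmul, twist_apply,
      TensorProduct.tmul_smul, TensorProduct.smul_tmul']
  unfold mult
  rw [h]

/-- twisting twice -/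
theorem twist_twist (ρ : Representation k C X) (θ θ' : C →* kˣ) :
    twist (twist ρ θ) θ' = twist ρ (θ * θ') := by
  ext c v
  simp [smul_smul, mul_comm]

theorem twist_one (ρ : Representation k C X) : twist ρ (1 : C →* kˣ) = ρ := by
  ext c v
  simp

/-- an equivariant map stays equivariant after twisting both sides -/
theorem twist_equivariant {Y : Type*} [AddCommGroup Y] [Module k Y] (ρ : Representation k C X)
    (σ : Representation k C Y) (θ : C →* kˣ) (f : X →ₗ[k] Y)
    (hf : ∀ c v, f (ρ c v) = σ c (f v)) (c : C) (v : X) :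
    f (twist ρ θ c v) = twist σ θ c (f v) := by
  simp only [twist_apply, map_smul, hf]

end Twist

/-! ### (m8): permutation modules -/

section Perm

variable {N : Type*} [AddCommGroup N] [Module k N] {S T : Type*} [MulAction C S] [MulAction C T]

variable (k C S) in
/-- the permutation representation of a `C`-set `S` on `S →₀ k` -/
noncomputable def permRep : Representation k C (S →₀ k) where
  toFun c := Finsupp.lmapDomain k k (c • ·)
  map_one' := by
    ext s t
    simp
  map_mul' a b := by
    ext s t
    simp [mul_smul]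

@[simp] theorem permRep_single (c : C) (s : S) (r : k) :
    permRep k C S c (Finsupp.single s r) = Finsupp.single (c • s) r := by
  simp [permRep]

/-- **(m8)**: isomorphic `C`-sets have permutation modules with the same multiplicities. -/
theorem mult_permRep_congr (ρN : Representation k C N) (e : S ≃ T)
    (he : ∀ (c : C) (s : S), e (c • s) = c • e s) :
    mult ρN (permRep k C S) = mult ρN (permRep k C T) := by
  refine mult_congr_right ρN _ _ (Finsupp.domLCongr e) (fun c v => ?_)
  induction v using Finsupp.induction_linear with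
  | zero => simp
  | add a b ha hb => simp only [map_add, ha, hb]
  | single s r => simp [he]

/-- Mathlib's `Representation.ofMulAction` has the multiplicities of `permRep` -/
theorem mult_ofMulAction (ρN : Representation k C N) :
    mult ρN (Representation.ofMulAction k C S) = mult ρN (permRep k C S) := by
  refine mult_congr_right ρN _ _ (MonoidAlgebra.coeffLinearEquiv k) (fun c v => ?_)
  rw [Representation.ofMulAction_def]
  simp [permRep]

end Perm

/-! ### trivial coefficients, characters, products -/

section Triv

variable {N X Y : Type*} [AddCommGroup N] [Module k N] [AddCommGroup X] [Module k X]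
  [AddCommGroup Y] [Module k Y]

/-- `mult N k = dim N^C` (trivial action on `k`) -/
theorem mult_trivial_right (ρN : Representation k C N) :
    mult ρN (Representation.trivial k C k) = finrank k ρN.invariants := by
  refine finrank_invariants_eq_of_equiv _ _ (TensorProduct.rid k N) (fun c t => ?_)
  induction t using TensorProduct.induction_on with
  | zero => simp
  | add a b ha hb => simp only [map_add, ha, hb]
  | tmul n r => simp

/-- `mult k X = dim X^C` (trivial action on `k`) -/
theorem mult_trivial_left (ρX : Representation k C X) :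
    mult (Representation.trivial k C k) ρX = finrank k ρX.invariants := by
  rw [mult_comm, mult_trivial_right]

/-- the character `θ` as a one-dimensional representation -/
noncomputable def charRep (θ : C →* kˣ) : Representation k C k :=
  twist (Representation.trivial k C k) θ

@[simp] theorem charRep_apply (θ : C →* kˣ) (c : C) (r : k) :
    charRep θ c r = ((θ c : kˣ) : k) * r := by
  simp [charRep]

/-- `mult N θ = dim (N ⊗ θ)^C` -/
theorem mult_charRep (ρN : Representation k C N) (θ : C →* kˣ) :
    mult ρN (charRep θ) = finrank k (twist ρN θ).invariants := by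
  rw [charRep, mult_twist, mult_trivial_right]

/-- the product of two representations -/
def prodRep (ρX : Representation k C X) (ρY : Representation k C Y) :
    Representation k C (X × Y) where
  toFun c := (ρX c).prodMap (ρY c)
  map_one' := by ext <;> simp
  map_mul' a b := by ext <;> simp

@[simp] theorem prodRep_apply (ρX : Representation k C X) (ρY : Representation k C Y) (c : C)
    (v : X × Y) : prodRep ρX ρY c v = (ρX c v.1, ρY c v.2) := rfl

/-- `mult N (X × Y) = mult N X + mult N Y` -/
theorem mult_prod [Fintype C] [FiniteDimensional k N] [FiniteDimensional k X]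
    [FiniteDimensional k Y] (hC : (Fintype.card C : k) ≠ 0) (ρN : Representation k C N)
    (ρX : Representation k C X) (ρY : Representation k C Y) :
    mult ρN (prodRep ρX ρY) = mult ρN ρX + mult ρN ρY :=
  mult_add_of_exact hC ρN ρX (prodRep ρX ρY) ρY (LinearMap.inl k X Y) (LinearMap.snd k X Y)
    (fun c v => by simp) (fun c v => by simp) LinearMap.inl_injective LinearMap.snd_surjective
    (fun v => by
      constructor
      · intro h
        exact ⟨v.1, by ext <;> simp_all⟩
      · rintro ⟨x, rfl⟩
        simp)

/-- `mult N 0 = 0` -/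
theorem mult_of_subsingleton [Subsingleton X] (ρN : Representation k C N)
    (ρX : Representation k C X) : mult ρN ρX = 0 := by
  unfold mult
  have : Subsingleton (N ⊗[k] X) := by
    refine ⟨fun a b => ?_⟩
    have h0 : ∀ t : N ⊗[k] X, t = 0 := by
      intro t
      induction t using TensorProduct.induction_on with
      | zero => rfl
      | tmul n x => rw [Subsingleton.elim x 0, TensorProduct.tmul_zero]
      | add a b ha hb => rw [ha, hb, add_zero]
    rw [h0 a, h0 b]
  exact finrank_zero_of_subsingleton

end Triv

/-! ### (m3): duality -/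

section Dual

variable {V : Type*} [AddCommGroup V] [Module k V]

theorem dual_apply_apply (ρ : Representation k C V) (c : C) (φ : Module.Dual k V) (v : V) :
    ρ.dual c φ v = φ (ρ c⁻¹ v) := rfl

variable [Fintype C]

/-- the invariant functionals are the functionals killing the kernel of the averaging operator -/
theorem invariants_dual_eq (hC : (Fintype.card C : k) ≠ 0) (ρ : Representation k C V) :
    ρ.dual.invariants = (LinearMap.ker (avg ρ)).dualAnnihilator := by
  ext φ
  rw [Submodule.mem_dualAnnihilator]
  constructor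
  · intro hφ v hv
    have h1 : ∀ c : C, φ (ρ c v) = φ v := by
      intro c
      have := congrArg (fun ψ : Module.Dual k V => ψ v) (hφ c⁻¹)
      have h3 : ρ.dual c⁻¹ φ v = φ (ρ c v) := by rw [dual_apply_apply, inv_inv]
      rw [← h3]
      exact this
    have h2 : φ (avg ρ v) = φ v := by
      rw [avg_apply, map_smul, map_sum]
      simp only [h1, Finset.sum_const, Finset.card_univ, smul_eq_mul]
      rw [← Nat.cast_smul_eq_nsmul k, smul_eq_mul, ← mul_assoc, inv_mul_cancel₀ hC, one_mul]
    rw [← h2, LinearMap.mem_ker.1 hv, map_zero]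
  · intro hφ c
    ext v
    rw [dual_apply_apply]
    have h1 : ρ c⁻¹ v - v ∈ LinearMap.ker (avg ρ) := by
      rw [LinearMap.mem_ker, map_sub, avg_smul, sub_self]
    have := hφ _ h1
    rw [map_sub, sub_eq_zero] at this
    exact this

/-- **(m3')**: `dim (V^*)^C = dim V^C`. -/
theorem finrank_invariants_dual [FiniteDimensional k V] (hC : (Fintype.card C : k) ≠ 0)
    (ρ : Representation k C V) :
    finrank k ρ.dual.invariants = finrank k ρ.invariants := by
  rw [invariants_dual_eq hC ρ]
  have h1 := Subspace.finrank_add_finrank_dualAnnihilator_eq (LinearMap.ker (avg ρ))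
  have h2 := LinearMap.finrank_range_add_finrank_ker (avg ρ)
  rw [range_avg hC ρ] at h2
  omega

variable {N X Y : Type*} [AddCommGroup N] [Module k N] [AddCommGroup X] [Module k X]
  [AddCommGroup Y] [Module k Y]

/-- `mult N^* X^* = mult N X` -/
theorem mult_dual_dual [FiniteDimensional k N] [FiniteDimensional k X]
    (hC : (Fintype.card C : k) ≠ 0) (ρN : Representation k C N) (ρX : Representation k C X) :
    mult ρN.dual ρX.dual = mult ρN ρX := by
  unfold mult
  rw [← finrank_invariants_dual hC (ρN.tprod ρX)]
  refine finrank_invariants_eq_of_equiv _ _ (TensorProduct.dualDistribEquiv k N X) (fun c t => ?_)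
  induction t using TensorProduct.induction_on with
  | zero => simp
  | add a b ha hb => simp only [map_add, ha, hb]
  | tmul φ ψ =>
    apply TensorProduct.ext'
    intro n x
    simp only [Representation.tprod_apply, TensorProduct.map_tmul]
    show (TensorProduct.dualDistrib k N X) ((ρN.dual c φ) ⊗ₜ[k] (ρX.dual c ψ)) (n ⊗ₜ[k] x) =
      ((ρN.tprod ρX).dual c) ((TensorProduct.dualDistrib k N X) (φ ⊗ₜ[k] ψ)) (n ⊗ₜ[k] x)
    rw [TensorProduct.dualDistrib_apply, dual_apply_apply, dual_apply_apply, dual_apply_apply,
      Representation.tprod_apply, TensorProduct.map_tmul, TensorProduct.dualDistrib_apply]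

omit [Fintype C] in
/-- `N ≅ N^**` equivariantly: `mult N^** X = mult N X` -/
theorem mult_dual_dual_left [FiniteDimensional k N] (ρN : Representation k C N)
    (ρX : Representation k C X) : mult ρN.dual.dual ρX = mult ρN ρX := by
  symm
  refine mult_congr_left ρX ρN ρN.dual.dual (Module.evalEquiv k N) (fun c n => ?_)
  ext φ
  simp only [Module.evalEquiv_apply, Module.Dual.eval_apply, dual_apply_apply]
  congr 1
  simp

/-- **(m3)**: for a perfect `C`-invariant pairing `X × Y → k`: `mult N Y = mult N^* X`. -/
theorem mult_of_perfect_pairing [FiniteDimensional k N] [FiniteDimensional k X]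
    [FiniteDimensional k Y] (hC : (Fintype.card C : k) ≠ 0) (ρN : Representation k C N)
    (ρX : Representation k C X) (ρY : Representation k C Y) (B : X →ₗ[k] Y →ₗ[k] k)
    (hB : ∀ c x y, B (ρX c x) (ρY c y) = B x y)
    (hperf : Function.Bijective (B.flip : Y →ₗ[k] X →ₗ[k] k)) :
    mult ρN ρY = mult ρN.dual ρX := by
  -- `Y ≅ X^*` equivariantly
  have h1 : mult ρN ρY = mult ρN ρX.dual := by
    refine mult_congr_right ρN ρY ρX.dual (LinearEquiv.ofBijective B.flip hperf) (fun c y => ?_)
    ext x
    simp only [LinearEquiv.ofBijective_apply, LinearMap.flip_apply, dual_apply_apply]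
    have := hB c (ρX c⁻¹ x) y
    rw [← this]
    congr 2
    simp
  rw [h1, ← mult_dual_dual_left ρN ρX.dual, mult_dual_dual hC ρN.dual ρX]

end Dual

end Fermat.Agent.S56.GEC.Equivariant.Mult
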