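/-
S56 / GEC (D4 (m7), LEC-4) (helper13): the **`p`-Herbrand lemma with torsion** for an arbitrary additive
invariant `F : AddInv R p` (helper1's `Induction/AddInv`) over an arbitrary ring `R`.

* `herbrand` : `u : A →ₗ[R] B` injective with finite cokernel, `A/pA`, `B/pB`, `B[p]` finite ⇒
  `f(A/pA) + f(B[p]) = f(B/pB) + f(A[p])`.
  (6-term snake sequence of multiplication by `p` on `0 → A → B → Q → 0` + `f(Q[p]) = f(Q/pQ)`;
  helper1's `AddInv.lattice` is the case `B[p] = 0`.)
-/
import Mathlib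
import Fermat.Agent.S56.GEC.Induction.AddInv

set_option autoImplicit false
set_option linter.unusedSectionVars false
set_option linter.style.haveILetI false

namespace Fermat.Agent.S56.GEC.Equivariant.Herbrand

open Fermat.Agent.S56.GEC.Induction

section Main

variable {R : Type} [Ring R] {p : ℕ} (F : AddInv R p)
variable {A B : Type} [AddCommGroup A] [Module R A] [AddCommGroup B] [Module R B]

/-- **p-Herbrand lemma** for an additive invariant: `u : A → B` injective with finite cokernel
⇒ `f(A/pA) + f(B[p]) = f(B/pB) + f(A[p])`. -/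
theorem herbrand (u : A →ₗ[R] B) (hu : Function.Injective u)
    [Finite (B ⧸ LinearMap.range u)] [Finite (A ⧸ LinearMap.range (pMul R p A))]
    [Finite (B ⧸ LinearMap.range (pMul R p B))] [Finite (LinearMap.ker (pMul R p B))] :
    F.f (A ⧸ LinearMap.range (pMul R p A)) + F.f (LinearMap.ker (pMul R p B)) =
      F.f (B ⧸ LinearMap.range (pMul R p B)) + F.f (LinearMap.ker (pMul R p A)) := by
  set pA := LinearMap.range (pMul R p A) with hpA
  set pB := LinearMap.range (pMul R p B) with hpB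
  set Q := B ⧸ LinearMap.range u with hQ
  have hle : pA ≤ pB.comap u := by
    rintro _ ⟨a, rfl⟩
    exact ⟨u a, by simp⟩
  set ubar : (A ⧸ pA) →ₗ[R] (B ⧸ pB) := Submodule.mapQ pA pB u hle with hubar
  -- `f(A/pA) = f(ker ū) + f(range ū)`
  have h1 : F.f (A ⧸ pA) = F.f (LinearMap.ker ubar) + F.f (LinearMap.range ubar) :=
    F.add_of_exact (LinearMap.ker ubar).subtype ubar.rangeRestrict (Submodule.subtype_injective _)
      ubar.surjective_rangeRestrict (fun x => by
        constructor
        · intro h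
          exact ⟨⟨x, congrArg Subtype.val h⟩, rfl⟩
        · rintro ⟨y, rfl⟩
          exact Subtype.ext y.2)
  -- `f(B/pB) = f(range ū) + f(Q/pQ)`
  have hle2 : pB ≤ (LinearMap.range (pMul R p Q)).comap (LinearMap.range u).mkQ := by
    rintro _ ⟨b, rfl⟩
    exact ⟨(LinearMap.range u).mkQ b, by simp⟩
  set q₂ : (B ⧸ pB) →ₗ[R] (Q ⧸ LinearMap.range (pMul R p Q)) :=
    Submodule.mapQ pB _ (LinearMap.range u).mkQ hle2 with hq₂
  have hq₂s : Function.Surjective q₂ := by
    intro z
    obtain ⟨y, rfl⟩ := Submodule.mkQ_surjective _ z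
    obtain ⟨b, rfl⟩ := Submodule.mkQ_surjective _ y
    exact ⟨pB.mkQ b, rfl⟩
  have hex₂ : Function.Exact (LinearMap.range ubar).subtype q₂ := by
    intro z
    obtain ⟨b, rfl⟩ := Submodule.mkQ_surjective _ z
    constructor
    · intro h
      have h' : (LinearMap.range u).mkQ b ∈ LinearMap.range (pMul R p Q) :=
        (Submodule.Quotient.mk_eq_zero _).1 h
      obtain ⟨y, hy⟩ := h'
      obtain ⟨b', rfl⟩ := Submodule.mkQ_surjective _ y
      have h3 : b - p • b' ∈ LinearMap.range u := by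
        rw [← Submodule.Quotient.mk_eq_zero, Submodule.Quotient.mk_sub, sub_eq_zero]
        rw [Submodule.Quotient.mk_smul]
        exact hy.symm
      obtain ⟨a, ha⟩ := h3
      refine ⟨⟨_, ⟨pA.mkQ a, rfl⟩⟩, ?_⟩
      show pB.mkQ (u a) = pB.mkQ b
      rw [ha, map_sub, sub_eq_self]
      exact (Submodule.Quotient.mk_eq_zero _).2 ⟨b', rfl⟩
    · rintro ⟨⟨_, ⟨y, rfl⟩⟩, hy⟩
      rw [← hy]
      obtain ⟨a, rfl⟩ := Submodule.mkQ_surjective _ y
      show q₂ (pB.mkQ (u a)) = 0
      apply (Submodule.Quotient.mk_eq_zero _).2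
      have : (LinearMap.range u).mkQ (u a) = 0 := (Submodule.Quotient.mk_eq_zero _).2 ⟨a, rfl⟩
      rw [this]
      exact Submodule.zero_mem _
  have h2 := F.add_of_exact (LinearMap.range ubar).subtype q₂ (Submodule.subtype_injective _)
    hq₂s hex₂
  -- `γ : B[p] → Q[p]`
  let γ : LinearMap.ker (pMul R p B) →ₗ[R] LinearMap.ker (pMul R p Q) :=
    LinearMap.codRestrict _ ((LinearMap.range u).mkQ ∘ₗ (LinearMap.ker (pMul R p B)).subtype)
      (fun x => by
        have hx : p • (x : B) = 0 := x.2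
        show p • (LinearMap.range u).mkQ (x : B) = 0
        rw [← map_nsmul, hx, map_zero])
  -- `f(B[p]) = f(A[p]) + f(range γ)`
  let i₃ : LinearMap.ker (pMul R p A) →ₗ[R] LinearMap.ker (pMul R p B) :=
    LinearMap.codRestrict _ (u ∘ₗ (LinearMap.ker (pMul R p A)).subtype) (fun x => by
      have hx : p • (x : A) = 0 := x.2
      show p • u (x : A) = 0
      rw [← map_nsmul, hx, map_zero])
  have hi₃ : Function.Injective i₃ := fun x y h => by
    apply Subtype.ext
    apply hu
    exact congrArg (fun z : LinearMap.ker (pMul R p B) => (z : B)) h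
  have hex₃ : Function.Exact i₃ γ.rangeRestrict := by
    intro x
    constructor
    · intro h
      have h' : (LinearMap.range u).mkQ (x : B) = 0 :=
        congrArg (fun z : LinearMap.range γ => ((z : LinearMap.ker (pMul R p Q)) : Q)) h
      obtain ⟨a, ha⟩ := (Submodule.Quotient.mk_eq_zero _).1 h'
      have hpa : p • a = 0 := by
        apply hu
        rw [map_nsmul, ha, map_zero]
        exact x.2
      exact ⟨⟨a, hpa⟩, Subtype.ext ha⟩
    · rintro ⟨y, rfl⟩
      apply Subtype.ext
      apply Subtype.ext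
      exact (Submodule.Quotient.mk_eq_zero _).2 ⟨(y : A), rfl⟩
  have h3 : F.f (LinearMap.ker (pMul R p B)) =
      F.f (LinearMap.ker (pMul R p A)) + F.f (LinearMap.range γ) :=
    F.add_of_exact (T'' := LinearMap.range γ) i₃ γ.rangeRestrict hi₃ γ.surjective_rangeRestrict hex₃
  -- `f(Q[p]) = f(range γ) + f(Q[p] / range γ)`
  have h4 := F.add (LinearMap.range γ)
  -- `ker ū ≅ Q[p] / range γ` through the pull-back `P = {(a, b) | u a = p b}`
  set P : Submodule R (A × B) :=
    LinearMap.ker (u ∘ₗ LinearMap.fst R A B - pMul R p B ∘ₗ LinearMap.snd R A B) with hP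
  have hPmem : ∀ x : A × B, x ∈ P ↔ u x.1 = p • x.2 := fun x => by
    rw [hP, LinearMap.mem_ker]
    simp [sub_eq_zero]
  let α : P →ₗ[R] (A ⧸ pA) := pA.mkQ ∘ₗ LinearMap.fst R A B ∘ₗ P.subtype
  let β₀ : P →ₗ[R] LinearMap.ker (pMul R p Q) :=
    LinearMap.codRestrict _ ((LinearMap.range u).mkQ ∘ₗ LinearMap.snd R A B ∘ₗ P.subtype)
      (fun x => by
        show p • (LinearMap.range u).mkQ (x : A × B).2 = 0
        rw [← map_nsmul, ← (hPmem _).1 x.2]
        exact (Submodule.Quotient.mk_eq_zero _).2 ⟨_, rfl⟩)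
  let β : P →ₗ[R] (LinearMap.ker (pMul R p Q) ⧸ LinearMap.range γ) :=
    (LinearMap.range γ).mkQ ∘ₗ β₀
  have hαr : LinearMap.range α = LinearMap.ker ubar := by
    ext z
    obtain ⟨a, rfl⟩ := Submodule.mkQ_surjective _ z
    constructor
    · rintro ⟨x, hx⟩
      rw [← hx, LinearMap.mem_ker]
      show pB.mkQ (u (x : A × B).1) = 0
      rw [(hPmem _).1 x.2]
      exact (Submodule.Quotient.mk_eq_zero _).2 ⟨_, rfl⟩
    · intro h
      have h' : u a ∈ pB := (Submodule.Quotient.mk_eq_zero _).1 (LinearMap.mem_ker.1 h)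
      obtain ⟨b, hb⟩ := h'
      exact ⟨⟨(a, b), (hPmem _).2 hb.symm⟩, rfl⟩
  have hβs : Function.Surjective β := by
    intro z
    obtain ⟨⟨y, hy⟩, rfl⟩ := Submodule.mkQ_surjective _ z
    obtain ⟨b, rfl⟩ := Submodule.mkQ_surjective _ y
    have h' : p • b ∈ LinearMap.range u := by
      rw [← Submodule.Quotient.mk_eq_zero, Submodule.Quotient.mk_smul]
      exact hy
    obtain ⟨a, ha⟩ := h'
    exact ⟨⟨(a, b), (hPmem _).2 ha⟩, rfl⟩
  have hker : LinearMap.ker α = LinearMap.ker β := by
    ext x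
    rw [LinearMap.mem_ker, LinearMap.mem_ker]
    have hx := (hPmem _).1 x.2
    constructor
    · intro h
      have h' : (x : A × B).1 ∈ pA := (Submodule.Quotient.mk_eq_zero _).1 h
      obtain ⟨a₀, ha₀⟩ := h'
      apply (Submodule.Quotient.mk_eq_zero _).2
      have hk : p • ((x : A × B).2 - u a₀) = 0 := by
        rw [smul_sub, ← hx, ← ha₀]; simp
      refine ⟨⟨(x : A × B).2 - u a₀, hk⟩, ?_⟩
      apply Subtype.ext
      show (LinearMap.range u).mkQ ((x : A × B).2 - u a₀) = (LinearMap.range u).mkQ (x : A × B).2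
      rw [map_sub, sub_eq_self]
      exact (Submodule.Quotient.mk_eq_zero _).2 ⟨a₀, rfl⟩
    · intro h
      have h' : β₀ x ∈ LinearMap.range γ := (Submodule.Quotient.mk_eq_zero _).1 h
      obtain ⟨b', hb'⟩ := h'
      have hb'' : (LinearMap.range u).mkQ (b' : B) = (LinearMap.range u).mkQ (x : A × B).2 :=
        congrArg (fun z : LinearMap.ker (pMul R p Q) => (z : Q)) hb'
      have h3 : (x : A × B).2 - (b' : B) ∈ LinearMap.range u := by
        rw [← Submodule.Quotient.mk_eq_zero, Submodule.Quotient.mk_sub, sub_eq_zero]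
        exact hb''.symm
      obtain ⟨a₀, ha₀⟩ := h3
      apply (Submodule.Quotient.mk_eq_zero _).2
      refine ⟨a₀, ?_⟩
      apply hu
      show u (p • a₀) = u (x : A × B).1
      have hb0 : p • (b' : B) = 0 := b'.2
      rw [hx, map_nsmul, ha₀, smul_sub, hb0, sub_zero]
  have e : LinearMap.ker ubar ≃ₗ[R] (LinearMap.ker (pMul R p Q) ⧸ LinearMap.range γ) :=
    (LinearEquiv.ofEq _ _ hαr.symm).trans
      ((α.quotKerEquivRange.symm.trans (Submodule.quotEquivOfEq _ _ hker)).trans
        (β.quotKerEquivOfSurjective hβs))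
  have h5 := F.ker_pMul_eq_quot_range_pMul Q
  rw [h1, h2, h3, F.iso e]
  linarith

end Main

end Fermat.Agent.S56.GEC.Equivariant.Herbrand
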