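/-
S56 / GEC-D4 / G0, part 2 (helper13): multiplicities for `ℤ[C]`-modules — (m5), (m6), (m7) of the D4 spec.

(The general `p`-Herbrand lemma `herbrand` for an `AddInv` is in `Equivariant/Herbrand.lean`.)
* `torsRep C p T` (m5) : the `𝔽_p`-representation of `C` on a `ℤ[C]`-module `T` which is an `𝔽_p`-space.
* `multInv hC ρN : AddInv (MonoidAlgebra ℤ C) p` : `T ↦ mult ρN (torsRep C p T)` is an additive invariant
  (`p ∤ |C|`), `multInv_f`.
* flexible ("bring your own model") forms, for a `ℤ`-representation `ρQ : Representation ℤ C Q`: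
  `IsTorsOf ρQ ρT i` (`i : T →+ Q` injective equivariant with image `Q[p]`),
  `IsCotorsOf ρQ ρK π` (`π : Q →+ K` surjective equivariant with kernel `pQ`);
  (m6) `mult_tors_eq_mult_cotors`, (m7) `mult_herbrand`.
-/
import Mathlib
import Fermat.Agent.S56.GEC.Equivariant.Mult
import Fermat.Agent.S56.GEC.Induction.AddInv
import Fermat.Agent.S56.GEC.Equivariant.Herbrand

set_option autoImplicit false
set_option linter.unusedSectionVars false
set_option linter.style.haveILetI false

namespace Fermat.Agent.S56.GEC.Equivariant.MultTorsion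

open Module Fermat.Agent.S56.GEC.Induction Fermat.Agent.S56.GEC.Equivariant.Mult
  Fermat.Agent.S56.GEC.Equivariant.Herbrand

section Tors

variable {C : Type} [Group C] {p : ℕ} [Fact p.Prime]

variable (C) in
/-- The action of `c : C` on a `ℤ[C]`-module, as an additive endomorphism. -/
noncomputable def actOf (T : Type) [AddCommGroup T] [Module (MonoidAlgebra ℤ C) T] (c : C) : T →+ T where
  toFun t := MonoidAlgebra.of ℤ C c • t
  map_zero' := smul_zero _
  map_add' := smul_add _

@[simp] theorem actOf_apply (T : Type) [AddCommGroup T] [Module (MonoidAlgebra ℤ C) T] (c : C)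
    (t : T) : actOf C T c t = MonoidAlgebra.of ℤ C c • t := rfl

variable (C p) in
/-- (m5) The `𝔽_p`-representation of `C` on a `ℤ[C]`-module which is an `𝔽_p`-vector space. -/
noncomputable def torsRep (T : Type) [AddCommGroup T] [Module (MonoidAlgebra ℤ C) T]
    [Module (ZMod p) T] : Representation (ZMod p) C T where
  toFun c := (actOf C T c).toZModLinearMap p
  map_one' := by
    ext t
    show MonoidAlgebra.of ℤ C 1 • t = t
    rw [map_one, one_smul]
  map_mul' c d := by
    ext t
    show MonoidAlgebra.of ℤ C (c * d) • t = MonoidAlgebra.of ℤ C c • MonoidAlgebra.of ℤ C d • t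
    rw [map_mul, mul_smul]

@[simp] theorem torsRep_apply (T : Type) [AddCommGroup T] [Module (MonoidAlgebra ℤ C) T]
    [Module (ZMod p) T] (c : C) (t : T) : torsRep C p T c t = MonoidAlgebra.of ℤ C c • t := rfl

theorem nsmul_eq_zero_of_zmod {T : Type*} [AddCommGroup T] [Module (ZMod p) T] (t : T) :
    p • t = 0 := by
  have h := Nat.cast_smul_eq_nsmul (ZMod p) p t
  rw [← h, ZMod.natCast_self, zero_smul]

variable {N : Type*} [AddCommGroup N] [Module (ZMod p) N]

open Classical in
/-- The value of the additive invariant `T ↦ mult N T` on a `ℤ[C]`-module (zero unless `pT = 0`). -/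
noncomputable def multF (ρN : Representation (ZMod p) C N) (T : Type) [AddCommGroup T]
    [Module (MonoidAlgebra ℤ C) T] : ℤ :=
  if h : ∀ t : T, p • t = 0 then
    letI := AddCommGroup.zmodModule h
    (mult ρN (torsRep C p T) : ℤ)
  else 0

theorem multF_eq (ρN : Representation (ZMod p) C N) (T : Type) [AddCommGroup T]
    [Module (MonoidAlgebra ℤ C) T] [inst : Module (ZMod p) T] :
    multF ρN T = (mult ρN (torsRep C p T) : ℤ) := by
  have h : ∀ t : T, p • t = 0 := fun t => nsmul_eq_zero_of_zmod t
  unfold multF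
  rw [dif_pos h]
  have : inst = AddCommGroup.zmodModule h := Subsingleton.elim _ _
  subst this
  rfl

theorem card_ne_zero_of_not_dvd [Fintype C] (hC : ¬ p ∣ Fintype.card C) :
    (Fintype.card C : ZMod p) ≠ 0 := fun h => hC ((ZMod.natCast_eq_zero_iff _ _).1 h)

/-- `mult N (torsRep T)` only depends on the `ℤ[C]`-isomorphism class of `T`. -/
theorem mult_torsRep_congr (ρN : Representation (ZMod p) C N) {T T' : Type} [AddCommGroup T]
    [Module (MonoidAlgebra ℤ C) T] [AddCommGroup T'] [Module (MonoidAlgebra ℤ C) T']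
    [iT : Module (ZMod p) T] [iT' : Module (ZMod p) T'] (e : T ≃ₗ[MonoidAlgebra ℤ C] T') :
    mult ρN (torsRep C p T) = mult ρN (torsRep C p T') :=
  mult_congr_right ρN _ _
    (LinearEquiv.ofBijective (e.toLinearMap.toAddMonoidHom.toZModLinearMap p) e.bijective)
    (fun c v => by
      show e (MonoidAlgebra.of ℤ C c • v) = MonoidAlgebra.of ℤ C c • e v
      exact map_smul e _ _)

/-- `mult N (torsRep ·)` is additive on `S ≤ T`. -/
theorem mult_torsRep_add [Fintype C] (hC : ¬ p ∣ Fintype.card C) [FiniteDimensional (ZMod p) N]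
    (ρN : Representation (ZMod p) C N) {T : Type} [AddCommGroup T] [Module (MonoidAlgebra ℤ C) T]
    [Finite T] (S : Submodule (MonoidAlgebra ℤ C) T) [iT : Module (ZMod p) T]
    [iS : Module (ZMod p) S] [iQ : Module (ZMod p) (T ⧸ S)] :
    mult ρN (torsRep C p T) = mult ρN (torsRep C p S) + mult ρN (torsRep C p (T ⧸ S)) := by
  haveI : FiniteDimensional (ZMod p) T := (Module.Finite.of_finite : Module.Finite (ZMod p) T)
  exact mult_add_of_exact (k := ZMod p) (X₁ := S) (X₂ := T) (X₃ := T ⧸ S)
    (card_ne_zero_of_not_dvd hC) ρN (torsRep C p S) (torsRep C p T)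
    (torsRep C p (T ⧸ S)) (S.subtype.toAddMonoidHom.toZModLinearMap p)
    (S.mkQ.toAddMonoidHom.toZModLinearMap p) (fun c v => rfl) (fun c v => rfl)
    S.subtype_injective S.mkQ_surjective (fun x => by
      show S.mkQ x = 0 ↔ x ∈ Set.range S.subtype
      rw [Submodule.mkQ_apply, Submodule.Quotient.mk_eq_zero]
      constructor
      · intro hx; exact ⟨⟨x, hx⟩, rfl⟩
      · rintro ⟨y, rfl⟩; exact y.2)

/-- `T ↦ mult N T` as an additive invariant of finite `p`-torsion `ℤ[C]`-modules. -/
noncomputable def multInv [Fintype C] (hC : ¬ p ∣ Fintype.card C) [FiniteDimensional (ZMod p) N]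
    (ρN : Representation (ZMod p) C N) : AddInv (MonoidAlgebra ℤ C) p where
  f T _ _ := multF ρN T
  iso := by
    intro T T' _ _ _ _ _ _ e
    have h : ∀ t : T, p • t = 0 := PTors.nsmul_eq_zero
    have h' : ∀ t : T', p • t = 0 := fun t' => by
      obtain ⟨t, rfl⟩ := e.surjective t'
      rw [← map_nsmul, h, map_zero]
    rw [multF_eq (inst := AddCommGroup.zmodModule h), multF_eq (inst := AddCommGroup.zmodModule h')]
    congr 1
    exact mult_torsRep_congr (iT := AddCommGroup.zmodModule h) (iT' := AddCommGroup.zmodModule h')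
      ρN e
  add := by
    intro T _ _ _ _ S
    have h : ∀ t : T, p • t = 0 := PTors.nsmul_eq_zero
    have hS : ∀ t : S, p • t = 0 := PTors.nsmul_eq_zero
    have hQ : ∀ t : T ⧸ S, p • t = 0 := PTors.nsmul_eq_zero
    rw [multF_eq (inst := AddCommGroup.zmodModule h), multF_eq (inst := AddCommGroup.zmodModule hS),
      multF_eq (inst := AddCommGroup.zmodModule hQ),
      mult_torsRep_add hC ρN S (iT := AddCommGroup.zmodModule h)
        (iS := AddCommGroup.zmodModule hS) (iQ := AddCommGroup.zmodModule hQ)]
    push_cast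
    rfl

theorem multInv_f [Fintype C] (hC : ¬ p ∣ Fintype.card C) [FiniteDimensional (ZMod p) N]
    (ρN : Representation (ZMod p) C N) (T : Type) [AddCommGroup T] [Module (MonoidAlgebra ℤ C) T]
    [Module (ZMod p) T] : (multInv hC ρN).f T = (mult ρN (torsRep C p T) : ℤ) :=
  multF_eq ρN T

end Tors

section Lin

variable {C : Type} [Group C]
variable {A B : Type} [AddCommGroup A] [iA : Module ℤ A] [AddCommGroup B] [iB : Module ℤ B]

/-- An equivariant additive map between `ℤ`-representations, as a `ℤ[C]`-linear map. -/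
noncomputable def lin (ρA : Representation ℤ C A) (ρB : Representation ℤ C B) (u : A →+ B)
    (hue : ∀ c a, u (ρA c a) = ρB c (u a)) : ρA.asModule →ₗ[MonoidAlgebra ℤ C] ρB.asModule where
  toFun x := ρB.asModuleEquiv.symm (u (ρA.asModuleEquiv x))
  map_add' x y := by simp
  map_smul' m x := by
    induction m using MonoidAlgebra.induction_linear with
    | zero => simp
    | add a b ha hb =>
      simp only [RingHom.id_apply] at ha hb ⊢
      rw [add_smul, map_add, map_add, map_add, ha, hb, add_smul]
    | single g n =>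
      obtain rfl : iA = AddCommGroup.toIntModule A := Subsingleton.elim _ _
      obtain rfl : iB = AddCommGroup.toIntModule B := Subsingleton.elim _ _
      simp only [RingHom.id_apply]
      apply ρB.asModuleEquiv.injective
      rw [LinearEquiv.apply_symm_apply, Representation.asModuleEquiv_map_smul,
        Representation.asModuleEquiv_map_smul, Representation.asAlgebraHom_single,
        Representation.asAlgebraHom_single, LinearMap.smul_apply, LinearMap.smul_apply,
        LinearEquiv.apply_symm_apply, ← hue, map_zsmul]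

@[simp] theorem lin_apply (ρA : Representation ℤ C A) (ρB : Representation ℤ C B) (u : A →+ B)
    (hue : ∀ c a, u (ρA c a) = ρB c (u a)) (x : ρA.asModule) :
    lin ρA ρB u hue x = ρB.asModuleEquiv.symm (u (ρA.asModuleEquiv x)) := rfl

theorem lin_injective (ρA : Representation ℤ C A) (ρB : Representation ℤ C B) (u : A →+ B)
    (hue : ∀ c a, u (ρA c a) = ρB c (u a)) (hu : Function.Injective u) :
    Function.Injective (lin ρA ρB u hue) := fun x y h => by
  apply ρA.asModuleEquiv.injective
  apply hu
  exact ρB.asModuleEquiv.symm.injective h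

theorem lin_surjective (ρA : Representation ℤ C A) (ρB : Representation ℤ C B) (u : A →+ B)
    (hue : ∀ c a, u (ρA c a) = ρB c (u a)) (hu : Function.Surjective u) :
    Function.Surjective (lin ρA ρB u hue) := fun y => by
  obtain ⟨a, ha⟩ := hu (ρB.asModuleEquiv y)
  refine ⟨ρA.asModuleEquiv.symm a, ?_⟩
  rw [lin_apply, LinearEquiv.apply_symm_apply, ha, LinearEquiv.symm_apply_apply]

theorem nsmul_asModuleEquiv_symm (ρA : Representation ℤ C A) (n : ℕ) (a : A) :
    n • ρA.asModuleEquiv.symm a = ρA.asModuleEquiv.symm (n • a) := (map_nsmul _ _ _).symm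

theorem nsmul_asModuleEquiv (ρA : Representation ℤ C A) (n : ℕ) (x : ρA.asModule) :
    n • ρA.asModuleEquiv x = ρA.asModuleEquiv (n • x) := (map_nsmul _ _ _).symm

end Lin

section Flexible

variable {C : Type} [Group C] {p : ℕ} [Fact p.Prime]

/-- A `𝔽_p`-representation, viewed as a `ℤ`-representation. -/
noncomputable def intRep {X : Type*} [AddCommGroup X] [Module (ZMod p) X]
    (ρX : Representation (ZMod p) C X) : Representation ℤ C X where
  toFun c := (ρX c).toAddMonoidHom.toIntLinearMap
  map_one' := by ext x; simp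
  map_mul' c d := by ext x; simp

@[simp] theorem intRep_apply {X : Type*} [AddCommGroup X] [Module (ZMod p) X]
    (ρX : Representation (ZMod p) C X) (c : C) (x : X) : intRep ρX c x = ρX c x := rfl

variable {Q : Type} [AddCommGroup Q] [iQ : Module ℤ Q]

/-- The `𝔽_p`-representation `ρT` "is the `p`-torsion `Q[p]`" of the `ℤ`-representation `ρQ`,
via the additive map `i : T → Q`. -/
structure IsTorsOf (ρQ : Representation ℤ C Q) {T : Type*} [AddCommGroup T] [Module (ZMod p) T]
    (ρT : Representation (ZMod p) C T) (i : T →+ Q) : Prop where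
  inj : Function.Injective i
  surj : ∀ q : Q, p • q = 0 → ∃ t, i t = q
  comm : ∀ c t, i (ρT c t) = ρQ c (i t)

/-- The `𝔽_p`-representation `ρK` "is the quotient `Q/pQ`" of the `ℤ`-representation `ρQ`,
via the additive map `π : Q → K`. -/
structure IsCotorsOf (ρQ : Representation ℤ C Q) {K : Type*} [AddCommGroup K] [Module (ZMod p) K]
    (ρK : Representation (ZMod p) C K) (π : Q →+ K) : Prop where
  surj : Function.Surjective π
  ker : ∀ q : Q, π q = 0 → ∃ q', p • q' = q
  comm : ∀ c q, π (ρQ c q) = ρK c (π q)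

section AsModule

variable {X : Type} [AddCommGroup X] [Module (ZMod p) X] (ρX : Representation (ZMod p) C X)

noncomputable instance asModuleZMod : Module (ZMod p) (intRep ρX).asModule :=
  inferInstanceAs (Module (ZMod p) X)

instance asModuleFinite [Finite X] : Finite (intRep ρX).asModule := inferInstanceAs (Finite X)

instance asModulePTors : PTors p (intRep ρX).asModule :=
  ⟨fun t => (nsmul_eq_zero_of_zmod (p := p) (T := X) t : p • (t : X) = 0)⟩

/-- `mult` does not see the passage `ρX ↦ (intRep ρX).asModule ↦ torsRep`. -/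
theorem mult_torsRep_asModule {N : Type*} [AddCommGroup N] [Module (ZMod p) N]
    (ρN : Representation (ZMod p) C N) :
    mult ρN (torsRep C p (intRep ρX).asModule) = mult ρN ρX := by
  refine mult_congr_right ρN _ _
    (LinearEquiv.ofBijective
      ((intRep ρX).asModuleEquiv.toLinearMap.toAddMonoidHom.toZModLinearMap p)
      (intRep ρX).asModuleEquiv.bijective) (fun c v => ?_)
  show (intRep ρX).asModuleEquiv (MonoidAlgebra.of ℤ C c • v) = ρX c ((intRep ρX).asModuleEquiv v)
  rw [Representation.asModuleEquiv_map_smul, Representation.asAlgebraHom_of, intRep_apply]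

end AsModule

section Equivs

variable {ρQ : Representation ℤ C Q}

theorem IsTorsOf.comm' {T : Type*} [AddCommGroup T] [Module (ZMod p) T]
    {ρT : Representation (ZMod p) C T} {i : T →+ Q} (hT : IsTorsOf ρQ ρT i) (c : C) (a : T) :
    i (intRep ρT c a) = ρQ c (i a) := by
  rw [intRep_apply]; exact hT.comm c a

theorem IsCotorsOf.comm' {K : Type*} [AddCommGroup K] [Module (ZMod p) K]
    {ρK : Representation (ZMod p) C K} {π : Q →+ K} (hK : IsCotorsOf ρQ ρK π) (c : C) (a : Q) :
    π (ρQ c a) = intRep ρK c (π a) := by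
  rw [intRep_apply]; exact hK.comm c a

/-- `T ≅ Q[p]` as `ℤ[C]`-modules. -/
noncomputable def IsTorsOf.equiv {T : Type} [AddCommGroup T] [Module (ZMod p) T]
    {ρT : Representation (ZMod p) C T} {i : T →+ Q} (hT : IsTorsOf ρQ ρT i) :
    (intRep ρT).asModule ≃ₗ[MonoidAlgebra ℤ C]
      LinearMap.ker (pMul (MonoidAlgebra ℤ C) p ρQ.asModule) :=
  (LinearEquiv.ofInjective (lin (intRep ρT) ρQ i hT.comm')
    (lin_injective _ _ _ _ hT.inj)).trans (LinearEquiv.ofEq _ _ (by
      ext y
      constructor
      · rintro ⟨x, rfl⟩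
        show p • lin (intRep ρT) ρQ i hT.comm' x = 0
        rw [← map_nsmul, PTors.nsmul_eq_zero x, map_zero]
      · intro hy
        have hy' : p • y = 0 := hy
        obtain ⟨t, ht⟩ := hT.surj (ρQ.asModuleEquiv y) (by
          rw [nsmul_asModuleEquiv, hy', map_zero])
        refine ⟨(intRep ρT).asModuleEquiv.symm t, ?_⟩
        rw [lin_apply, LinearEquiv.apply_symm_apply, ht, LinearEquiv.symm_apply_apply]))

/-- `Q/pQ ≅ K` as `ℤ[C]`-modules. -/
noncomputable def IsCotorsOf.equiv {K : Type} [AddCommGroup K] [Module (ZMod p) K]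
    {ρK : Representation (ZMod p) C K} {π : Q →+ K} (hK : IsCotorsOf ρQ ρK π) :
    (ρQ.asModule ⧸ LinearMap.range (pMul (MonoidAlgebra ℤ C) p ρQ.asModule))
      ≃ₗ[MonoidAlgebra ℤ C] (intRep ρK).asModule :=
  (Submodule.quotEquivOfEq _ _ (by
      ext y
      rw [LinearMap.mem_ker, lin_apply]
      constructor
      · rintro ⟨z, rfl⟩
        rw [pMul_apply, ← nsmul_asModuleEquiv, map_nsmul,
          nsmul_eq_zero_of_zmod (p := p) (T := K), map_zero]
      · intro h
        have h0 : π (ρQ.asModuleEquiv y) = 0 := by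
          have := congrArg (intRep ρK).asModuleEquiv h
          rwa [LinearEquiv.apply_symm_apply, map_zero] at this
        obtain ⟨q', hq'⟩ := hK.ker _ h0
        refine ⟨ρQ.asModuleEquiv.symm q', ?_⟩
        rw [pMul_apply, nsmul_asModuleEquiv_symm, hq', LinearEquiv.symm_apply_apply])).trans
    ((lin ρQ (intRep ρK) π hK.comm').quotKerEquivOfSurjective (lin_surjective _ _ _ _ hK.surj))

end Equivs

section Main

variable {ρQ : Representation ℤ C Q}

/-- (m6), any additive invariant: `f(Q[p]) = f(Q/pQ)` for a finite `ℤ`-representation `Q`, in terms of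
arbitrary models `T` of `Q[p]` and `K` of `Q/pQ`. -/
theorem AddInv_tors_eq_cotors (F : AddInv (MonoidAlgebra ℤ C) p) [Finite Q]
    {T K : Type} [AddCommGroup T] [Module (ZMod p) T] [AddCommGroup K] [Module (ZMod p) K]
    {ρT : Representation (ZMod p) C T} {ρK : Representation (ZMod p) C K} {i : T →+ Q} {π : Q →+ K}
    (hT : IsTorsOf ρQ ρT i) (hK : IsCotorsOf ρQ ρK π) :
    F.f (intRep ρT).asModule = F.f (intRep ρK).asModule := by
  haveI : Finite T := Finite.of_injective i hT.inj
  haveI : Finite K := Finite.of_surjective π hK.surj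
  haveI : Finite ρQ.asModule := inferInstanceAs (Finite Q)
  rw [F.iso hT.equiv, F.ker_pMul_eq_quot_range_pMul ρQ.asModule, ← F.iso hK.equiv.symm]

/-- (m7), any additive invariant: the `p`-Herbrand lemma for an injective equivariant map `u : A → B` of
`ℤ`-representations with finite cokernel, in terms of arbitrary models of `A[p]`, `A/pA`, `B[p]`,
`B/pB`. -/
theorem AddInv_herbrand (F : AddInv (MonoidAlgebra ℤ C) p)
    {A B : Type} [AddCommGroup A] [iA : Module ℤ A] [AddCommGroup B] [iB : Module ℤ B]
    {ρA : Representation ℤ C A} {ρB : Representation ℤ C B} (u : A →+ B)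
    (hu : Function.Injective u) (hue : ∀ c a, u (ρA c a) = ρB c (u a)) [hfin : Finite (B ⧸ u.range)]
    {TA KA TB KB : Type} [AddCommGroup TA] [Module (ZMod p) TA] [AddCommGroup KA]
    [Module (ZMod p) KA] [AddCommGroup TB] [Module (ZMod p) TB] [AddCommGroup KB]
    [Module (ZMod p) KB] [Finite TA] [Finite KA] [Finite TB] [Finite KB]
    {ρTA : Representation (ZMod p) C TA} {ρKA : Representation (ZMod p) C KA}
    {ρTB : Representation (ZMod p) C TB} {ρKB : Representation (ZMod p) C KB}
    {iA' : TA →+ A} {πA : A →+ KA} {iB' : TB →+ B} {πB : B →+ KB}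
    (hTA : IsTorsOf ρA ρTA iA') (hKA : IsCotorsOf ρA ρKA πA)
    (hTB : IsTorsOf ρB ρTB iB') (hKB : IsCotorsOf ρB ρKB πB) :
    F.f (intRep ρKA).asModule + F.f (intRep ρTB).asModule =
      F.f (intRep ρKB).asModule + F.f (intRep ρTA).asModule := by
  haveI : Finite (ρB.asModule ⧸ LinearMap.range (lin ρA ρB u hue)) := by
    refine Finite.of_surjective (fun x : B ⧸ u.range => Quotient.liftOn' x
      (fun b => (LinearMap.range (lin ρA ρB u hue)).mkQ (ρB.asModuleEquiv.symm b)) ?_) ?_
    · intro a b hab
      have hab' : -a + b ∈ u.range := QuotientAddGroup.leftRel_apply.1 hab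
      obtain ⟨x, hx⟩ := hab'
      show (LinearMap.range (lin ρA ρB u hue)).mkQ _ = (LinearMap.range (lin ρA ρB u hue)).mkQ _
      rw [eq_comm, ← sub_eq_zero, ← map_sub, Submodule.mkQ_apply, Submodule.Quotient.mk_eq_zero]
      refine ⟨ρA.asModuleEquiv.symm x, ?_⟩
      rw [lin_apply, LinearEquiv.apply_symm_apply, hx, ← map_sub]
      congr 1
      abel
    · intro y
      obtain ⟨b, rfl⟩ := Submodule.mkQ_surjective _ y
      exact ⟨QuotientAddGroup.mk (ρB.asModuleEquiv b), by
        show (LinearMap.range (lin ρA ρB u hue)).mkQ _ = _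
        rw [LinearEquiv.symm_apply_apply]⟩
  haveI : Finite (ρA.asModule ⧸ LinearMap.range (pMul (MonoidAlgebra ℤ C) p ρA.asModule)) :=
    Finite.of_equiv _ hKA.equiv.symm.toEquiv
  haveI : Finite (ρB.asModule ⧸ LinearMap.range (pMul (MonoidAlgebra ℤ C) p ρB.asModule)) :=
    Finite.of_equiv _ hKB.equiv.symm.toEquiv
  haveI : Finite (LinearMap.ker (pMul (MonoidAlgebra ℤ C) p ρB.asModule)) :=
    Finite.of_equiv _ hTB.equiv.toEquiv
  have key := herbrand F (lin ρA ρB u hue) (lin_injective _ _ _ _ hu)
  rw [F.iso hTA.equiv, F.iso hTB.equiv, F.iso hKA.equiv.symm, F.iso hKB.equiv.symm]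
  exact key

variable {N : Type*} [AddCommGroup N] [Module (ZMod p) N]

theorem multInv_f_asModule [Fintype C] (hC : ¬ p ∣ Fintype.card C) [FiniteDimensional (ZMod p) N]
    (ρN : Representation (ZMod p) C N) {X : Type} [AddCommGroup X] [Module (ZMod p) X]
    (ρX : Representation (ZMod p) C X) :
    (multInv hC ρN).f (intRep ρX).asModule = (mult ρN ρX : ℤ) := by
  rw [multInv_f, mult_torsRep_asModule]

/-- **(m6)** `mult N (Q[p]) = mult N (Q/pQ)` for a finite `ℤ`-representation `Q` of `C` (`p ∤ |C|`), in
terms of arbitrary models `T` of `Q[p]` and `K` of `Q/pQ`. -/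
theorem mult_tors_eq_mult_cotors [Fintype C] (hC : ¬ p ∣ Fintype.card C)
    [FiniteDimensional (ZMod p) N] (ρN : Representation (ZMod p) C N) [Finite Q]
    {T K : Type} [AddCommGroup T] [Module (ZMod p) T] [AddCommGroup K] [Module (ZMod p) K]
    {ρT : Representation (ZMod p) C T} {ρK : Representation (ZMod p) C K} {i : T →+ Q} {π : Q →+ K}
    (hT : IsTorsOf ρQ ρT i) (hK : IsCotorsOf ρQ ρK π) : mult ρN ρT = mult ρN ρK := by
  have h := AddInv_tors_eq_cotors (multInv hC ρN) hT hK
  rw [multInv_f_asModule, multInv_f_asModule] at h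
  exact_mod_cast h

/-- **(m7)** the `p`-Herbrand lemma for `mult N`: `u : A → B` injective equivariant with finite cokernel
⇒ `mult N (A/pA) + mult N (B[p]) = mult N (B/pB) + mult N (A[p])`. -/
theorem mult_herbrand [Fintype C] (hC : ¬ p ∣ Fintype.card C)
    [FiniteDimensional (ZMod p) N] (ρN : Representation (ZMod p) C N)
    {A B : Type} [AddCommGroup A] [iA : Module ℤ A] [AddCommGroup B] [iB : Module ℤ B]
    {ρA : Representation ℤ C A} {ρB : Representation ℤ C B} (u : A →+ B)
    (hu : Function.Injective u) (hue : ∀ c a, u (ρA c a) = ρB c (u a)) [hfin : Finite (B ⧸ u.range)]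
    {TA KA TB KB : Type} [AddCommGroup TA] [Module (ZMod p) TA] [AddCommGroup KA]
    [Module (ZMod p) KA] [AddCommGroup TB] [Module (ZMod p) TB] [AddCommGroup KB]
    [Module (ZMod p) KB] [Finite TA] [Finite KA] [Finite TB] [Finite KB]
    {ρTA : Representation (ZMod p) C TA} {ρKA : Representation (ZMod p) C KA}
    {ρTB : Representation (ZMod p) C TB} {ρKB : Representation (ZMod p) C KB}
    {iA' : TA →+ A} {πA : A →+ KA} {iB' : TB →+ B} {πB : B →+ KB}
    (hTA : IsTorsOf ρA ρTA iA') (hKA : IsCotorsOf ρA ρKA πA)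
    (hTB : IsTorsOf ρB ρTB iB') (hKB : IsCotorsOf ρB ρKB πB) :
    mult ρN ρKA + mult ρN ρTB = mult ρN ρKB + mult ρN ρTA := by
  have h := AddInv_herbrand (multInv hC ρN) u hu hue hTA hKA hTB hKB
  rw [multInv_f_asModule, multInv_f_asModule, multInv_f_asModule, multInv_f_asModule] at h
  exact_mod_cast h

end Main

section Models

variable {N : Type*} [AddCommGroup N] [Module (ZMod p) N]

/-- an `𝔽_p`-representation is its own `p`-torsion -/
theorem isTorsOf_intRep {X : Type} [AddCommGroup X] [Module (ZMod p) X]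
    (ρX : Representation (ZMod p) C X) : IsTorsOf (intRep ρX) ρX (AddMonoidHom.id X) where
  inj := fun _ _ h => h
  surj := fun q _ => ⟨q, rfl⟩
  comm := fun _ _ => rfl

/-- an `𝔽_p`-representation is its own reduction mod `p` -/
theorem isCotorsOf_intRep {X : Type} [AddCommGroup X] [Module (ZMod p) X]
    (ρX : Representation (ZMod p) C X) : IsCotorsOf (intRep ρX) ρX (AddMonoidHom.id X) where
  surj := fun q => ⟨q, rfl⟩
  ker := fun q h => ⟨0, by rw [smul_zero]; exact h.symm⟩
  comm := fun _ _ => rfl

/-- a `ℤ`-representation without `p`-torsion has trivial `p`-torsion -/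
theorem isTorsOf_of_torsionFree (ρQ : Representation ℤ C Q) (hQ : ∀ q : Q, p • q = 0 → q = 0)
    {T : Type*} [AddCommGroup T] [Module (ZMod p) T] [Subsingleton T]
    (ρT : Representation (ZMod p) C T) : IsTorsOf ρQ ρT 0 where
  inj := fun _ _ _ => Subsingleton.elim _ _
  surj := fun q h => ⟨0, by rw [hQ q h]; rfl⟩
  comm := fun c t => by simp

variable {ρQ : Representation ℤ C Q}

/-- two models of `Q[p]` have the same multiplicities -/
theorem IsTorsOf.mult_eq (ρN : Representation (ZMod p) C N) {T T' : Type} [AddCommGroup T]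
    [Module (ZMod p) T] [AddCommGroup T'] [Module (ZMod p) T']
    {ρT : Representation (ZMod p) C T} {ρT' : Representation (ZMod p) C T'} {i : T →+ Q}
    {i' : T' →+ Q} (hT : IsTorsOf ρQ ρT i) (hT' : IsTorsOf ρQ ρT' i') :
    mult ρN ρT = mult ρN ρT' := by
  rw [← mult_torsRep_asModule ρT ρN, ← mult_torsRep_asModule ρT' ρN]
  exact mult_torsRep_congr ρN (hT.equiv.trans hT'.equiv.symm)

/-- two models of `Q/pQ` have the same multiplicities -/
theorem IsCotorsOf.mult_eq (ρN : Representation (ZMod p) C N) {K K' : Type} [AddCommGroup K]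
    [Module (ZMod p) K] [AddCommGroup K'] [Module (ZMod p) K']
    {ρK : Representation (ZMod p) C K} {ρK' : Representation (ZMod p) C K'} {π : Q →+ K}
    {π' : Q →+ K'} (hK : IsCotorsOf ρQ ρK π) (hK' : IsCotorsOf ρQ ρK' π') :
    mult ρN ρK = mult ρN ρK' := by
  rw [← mult_torsRep_asModule ρK ρN, ← mult_torsRep_asModule ρK' ρN]
  exact mult_torsRep_congr ρN (hK.equiv.symm.trans hK'.equiv)

end Models

section Perm

variable {N : Type*} [AddCommGroup N] [Module (ZMod p) N]

variable (C) in
/-- the integral permutation representation of a `C`-set `S` on `S →₀ ℤ` -/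
noncomputable def permRepInt (S : Type) [MulAction C S] : Representation ℤ C (S →₀ ℤ) where
  toFun c := Finsupp.lmapDomain ℤ ℤ (c • ·)
  map_one' := by
    ext s t
    simp
  map_mul' a b := by
    ext s t
    simp [mul_smul]

@[simp] theorem permRepInt_single (S : Type) [MulAction C S] (c : C) (s : S) (r : ℤ) :
    permRepInt C S c (Finsupp.single s r) = Finsupp.single (c • s) r := by
  simp [permRepInt]

/-- reduction mod `p` of integral functions on `S` -/
noncomputable def redP (p : ℕ) (S : Type) : (S →₀ ℤ) →+ (S →₀ ZMod p) :=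
  Finsupp.mapRange.addMonoidHom (Int.castAddHom (ZMod p))

@[simp] theorem redP_apply (S : Type) (q : S →₀ ℤ) (s : S) : redP p S q s = ((q s : ℤ) : ZMod p) := by
  simp [redP]

theorem redP_single (S : Type) (s : S) (r : ℤ) :
    redP p S (Finsupp.single s r) = Finsupp.single s ((r : ℤ) : ZMod p) := by
  simp [redP]

/-- `𝔽_p[S] = ℤ[S]/p` -/
theorem isCotorsOf_permRepInt (S : Type) [MulAction C S] :
    IsCotorsOf (permRepInt C S) (permRep (ZMod p) C S) (redP p S) where
  surj := by
    intro f
    refine ⟨f.mapRange (fun x => (x.val : ℤ)) (by simp), ?_⟩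
    ext s
    simp
  ker := by
    intro q hq
    have hdvd : ∀ s, (p : ℤ) ∣ q s := fun s => by
      have h := DFunLike.congr_fun hq s
      rw [redP_apply, Finsupp.zero_apply] at h
      exact (ZMod.intCast_zmod_eq_zero_iff_dvd _ _).1 h
    refine ⟨q.mapRange (fun x => x / (p : ℤ)) (Int.zero_ediv _), ?_⟩
    ext s
    rw [Finsupp.smul_apply, Finsupp.mapRange_apply, nsmul_eq_mul]
    exact Int.mul_ediv_cancel' (hdvd s)
  comm := by
    intro c q
    induction q using Finsupp.induction_linear with
    | zero => simp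
    | add a b ha hb => simp only [map_add, ha, hb]
    | single s r => rw [permRepInt_single, redP_single, redP_single, permRep_single]

/-- `ℤ[S]` has no `p`-torsion -/
theorem isTorsOf_permRepInt (S : Type) [MulAction C S] {T : Type*} [AddCommGroup T]
    [Module (ZMod p) T] [Subsingleton T] (ρT : Representation (ZMod p) C T) :
    IsTorsOf (permRepInt C S) ρT 0 :=
  isTorsOf_of_torsionFree _ (fun q hq => by
    ext s
    have h := DFunLike.congr_fun hq s
    rw [Finsupp.smul_apply, Finsupp.zero_apply, nsmul_eq_mul] at h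
    rcases mul_eq_zero.1 h with h0 | h0
    · exact absurd (by exact_mod_cast h0) (Fact.out : p.Prime).ne_zero
    · exact h0) ρT

/-- (m7) for a permutation lattice: `u : ℤ[S] → B` injective equivariant with finite cokernel ⇒
`mult N 𝔽_p[S] + mult N (B[p]) = mult N (B/pB)`. -/
theorem mult_herbrand_perm [Fintype C] (hC : ¬ p ∣ Fintype.card C)
    [FiniteDimensional (ZMod p) N] (ρN : Representation (ZMod p) C N)
    (S : Type) [MulAction C S] [Finite S]
    {B : Type} [AddCommGroup B] [iB : Module ℤ B] {ρB : Representation ℤ C B}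
    (u : (S →₀ ℤ) →+ B) (hu : Function.Injective u)
    (hue : ∀ c a, u (permRepInt C S c a) = ρB c (u a)) [hfin : Finite (B ⧸ u.range)]
    {TB KB : Type} [AddCommGroup TB] [Module (ZMod p) TB] [AddCommGroup KB] [Module (ZMod p) KB]
    [Finite TB] [Finite KB]
    {ρTB : Representation (ZMod p) C TB} {ρKB : Representation (ZMod p) C KB}
    {iB' : TB →+ B} {πB : B →+ KB} (hTB : IsTorsOf ρB ρTB iB') (hKB : IsCotorsOf ρB ρKB πB) :
    mult ρN (permRep (ZMod p) C S) + mult ρN ρTB = mult ρN ρKB := by
  haveI : Finite (S →₀ ZMod p) := Finite.of_injective _ DFunLike.coe_injective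
  have h := mult_herbrand hC ρN u hu hue
    (isTorsOf_permRepInt (p := p) S (1 : Representation (ZMod p) C PUnit))
    (isCotorsOf_permRepInt S) hTB hKB
  rw [mult_of_subsingleton ρN (1 : Representation (ZMod p) C PUnit), add_zero] at h
  exact h

end Perm

end Flexible

end Fermat.Agent.S56.GEC.Equivariant.MultTorsion
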