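/-
S56 / GEC-D4 (helper25): the canonical model `Q ⧸ pQ` of the cotorsion of a `ℤ`-representation, for
helper13's `MultTorsion.IsCotorsOf`, and transport of `IsTorsOf` / `IsCotorsOf` along an equivariant
additive equivalence.

* `pRange p Q`, `cotorsModel p Q := Q ⧸ pQ`, `cotorsModelRep ρQ`, `isCotorsOf_cotorsModel`;
* `IsCotorsOf.of_addEquiv`, `IsTorsOf.of_addEquiv`.
-/
import Mathlib
import Fermat.Agent.S56.GEC.Equivariant.Mult
import Fermat.Agent.S56.GEC.Equivariant.MultTorsion

set_option autoImplicit false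
set_option linter.unusedSectionVars false
set_option linter.unusedVariables false

namespace Fermat.Agent.S56.GEC.Equivariant.CotorsModel

open Fermat.Agent.S56.GEC.Equivariant.Mult Fermat.Agent.S56.GEC.Equivariant.MultTorsion

section Model

variable {C : Type} [Group C] (p : ℕ) [hpF : Fact p.Prime] (Q : Type) [AddCommGroup Q]

/-- `pQ ⊂ Q`. -/
def pRange : AddSubgroup Q := (nsmulAddMonoidHom p : Q →+ Q).range

lemma mem_pRange (q : Q) : q ∈ pRange p Q ↔ ∃ q', p • q' = q := Iff.rfl

lemma nsmul_mem_pRange (q : Q) : p • q ∈ pRange p Q := ⟨q, rfl⟩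

/-- `Q ⧸ pQ`. -/
abbrev cotorsModel : Type := Q ⧸ pRange p Q

lemma cotorsModel_nsmul_eq_zero (x : cotorsModel p Q) : p • x = 0 := by
  induction x using QuotientAddGroup.induction_on with | H q =>
  show ((p • q : Q) : Q ⧸ pRange p Q) = 0
  exact (QuotientAddGroup.eq_zero_iff _).2 (nsmul_mem_pRange p Q q)

noncomputable instance cotorsModelModule : Module (ZMod p) (cotorsModel p Q) :=
  AddCommGroup.zmodModule (cotorsModel_nsmul_eq_zero p Q)

variable {p Q} [Module ℤ Q]

lemma map_mem_pRange (f : Q →+ Q) {q : Q} (hq : q ∈ pRange p Q) : f q ∈ pRange p Q := by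
  obtain ⟨q', rfl⟩ := hq
  exact ⟨f q', (map_nsmul f p q').symm⟩

/-- The action of `C` on `Q ⧸ pQ`, as an `𝔽_p`-representation. -/
noncomputable def cotorsModelRep (ρQ : Representation ℤ C Q) :
    Representation (ZMod p) C (cotorsModel p Q) where
  toFun c := AddMonoidHom.toZModLinearMap p
    (QuotientAddGroup.map (pRange p Q) (pRange p Q) (ρQ c).toAddMonoidHom
      (fun q hq => map_mem_pRange (ρQ c).toAddMonoidHom hq))
  map_one' := by
    ext x
    induction x using QuotientAddGroup.induction_on with | H q =>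
    show ((ρQ 1 q : Q) : Q ⧸ pRange p Q) = (q : Q ⧸ pRange p Q)
    rw [map_one]; rfl
  map_mul' a b := by
    ext x
    induction x using QuotientAddGroup.induction_on with | H q =>
    show ((ρQ (a * b) q : Q) : Q ⧸ pRange p Q) = ((ρQ a (ρQ b q) : Q) : Q ⧸ pRange p Q)
    rw [map_mul]; rfl

lemma cotorsModelRep_mk (ρQ : Representation ℤ C Q) (c : C) (q : Q) :
    cotorsModelRep (p := p) ρQ c (q : Q ⧸ pRange p Q) = ((ρQ c q : Q) : Q ⧸ pRange p Q) := rfl

/-- `Q ⧸ pQ` is a model of `Q ⧸ pQ`. -/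
theorem isCotorsOf_cotorsModel (ρQ : Representation ℤ C Q) :
    IsCotorsOf ρQ (cotorsModelRep (p := p) ρQ) (QuotientAddGroup.mk' (pRange p Q)) where
  surj := QuotientAddGroup.mk'_surjective _
  ker := fun q hq => (QuotientAddGroup.eq_zero_iff q).1 hq
  comm := fun _ _ => rfl

end Model

section Transport

variable {C : Type} [Group C] {p : ℕ} [hpF : Fact p.Prime]
  {Q Q' : Type} [AddCommGroup Q] [Module ℤ Q] [AddCommGroup Q'] [Module ℤ Q']
  {ρQ : Representation ℤ C Q} {ρQ' : Representation ℤ C Q'}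

/-- Transport of a model of `Q'/pQ'` along an equivariant additive equivalence `Q ≃+ Q'`. -/
theorem IsCotorsOf.of_addEquiv {K : Type*} [AddCommGroup K] [Module (ZMod p) K]
    {ρK : Representation (ZMod p) C K} {π : Q' →+ K} (hK : IsCotorsOf ρQ' ρK π)
    (e : Q ≃+ Q') (he : ∀ c q, e (ρQ c q) = ρQ' c (e q)) :
    IsCotorsOf ρQ ρK (π.comp e.toAddMonoidHom) where
  surj := hK.surj.comp e.surjective
  ker := fun q hq => by
    obtain ⟨q'', hq''⟩ := hK.ker (e q) hq
    refine ⟨e.symm q'', ?_⟩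
    rw [← map_nsmul, hq'', AddEquiv.symm_apply_apply]
  comm := fun c q => by
    show π (e (ρQ c q)) = ρK c (π (e q))
    rw [he, hK.comm]

/-- Transport of a model of `Q'[p]` along an equivariant additive equivalence `Q ≃+ Q'`. -/
theorem IsTorsOf.of_addEquiv {T : Type*} [AddCommGroup T] [Module (ZMod p) T]
    {ρT : Representation (ZMod p) C T} {i : T →+ Q'} (hT : IsTorsOf ρQ' ρT i)
    (e : Q ≃+ Q') (he : ∀ c q, e (ρQ c q) = ρQ' c (e q)) :
    IsTorsOf ρQ ρT (e.symm.toAddMonoidHom.comp i) where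
  inj := e.symm.injective.comp hT.inj
  surj := fun q hq => by
    obtain ⟨t, ht⟩ := hT.surj (e q) (by rw [← map_nsmul, hq, map_zero])
    exact ⟨t, by show e.symm (i t) = q; rw [ht, AddEquiv.symm_apply_apply]⟩
  comm := fun c t => by
    show e.symm (i (ρT c t)) = ρQ c (e.symm (i t))
    apply e.injective
    rw [AddEquiv.apply_symm_apply, he, AddEquiv.apply_symm_apply, hT.comm]

end Transport

end Fermat.Agent.S56.GEC.Equivariant.CotorsModel
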