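/-
S56 / GEC-D4 (m7) (helper11): the `p`-Herbrand lemma for additive invariants.

For an injective `R`-linear map `u : A → B` with finite cokernel `Q = B / uA` and an additive invariant
`f` of finite `p`-torsion `R`-modules (`AddInv R p`, helper1):

  `f(A/pA) + f(B[p]) = f(B/pB) + f(A[p])`

(the six-term snake sequence for multiplication by `p` together with `f(Q[p]) = f(Q/pQ)`).  No
hypothesis on torsion in `B`; this generalises `AddInv.lattice`.  Mathlib + `Induction/AddInv` only.
-/
import Mathlib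
import Fermat.Agent.S56.GEC.Induction.AddInv

set_option autoImplicit false
set_option linter.unusedSectionVars false
set_option linter.style.haveILetI false

namespace Fermat.Agent.S56.GEC.Induction

namespace AddInv

variable {R : Type} [Ring R] {p : ℕ} (F : AddInv R p)

section KerRange

variable {T T' : Type} [AddCommGroup T] [Module R T] [AddCommGroup T'] [Module R T']

/-- `f(T) = f(ker δ) + f(range δ)`. -/
theorem ker_add_range [Finite T] [PTors p T] (δ : T →ₗ[R] T') :
    F.f T = F.f (LinearMap.ker δ) + F.f (LinearMap.range δ) :=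
  F.add_of_exact (LinearMap.ker δ).subtype δ.rangeRestrict (Submodule.subtype_injective _)
    δ.surjective_rangeRestrict (fun x => by
      constructor
      · intro h
        exact ⟨⟨x, congrArg Subtype.val h⟩, rfl⟩
      · rintro ⟨y, rfl⟩
        exact Subtype.ext y.2)

end KerRange

section Herbrand

variable {A B : Type} [AddCommGroup A] [Module R A] [AddCommGroup B] [Module R B]

/-- If `A/pA` and `B/uA` are finite then so is `B/pB`. -/
theorem finite_quot_pMul_of_finite_coker (u : A →ₗ[R] B)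
    [Finite (B ⧸ LinearMap.range u)] [Finite (A ⧸ LinearMap.range (pMul R p A))] :
    Finite (B ⧸ LinearMap.range (pMul R p B)) := by
  set pA := LinearMap.range (pMul R p A) with hpA
  set pB := LinearMap.range (pMul R p B) with hpB
  set Q := B ⧸ LinearMap.range u with hQ
  have hle : pA ≤ pB.comap u := by
    rintro _ ⟨a, rfl⟩
    exact ⟨u a, by simp⟩
  set ubar : (A ⧸ pA) →ₗ[R] (B ⧸ pB) := Submodule.mapQ pA pB u hle with hubar
  have hle2 : pB ≤ (LinearMap.range (pMul R p Q)).comap (LinearMap.range u).mkQ := by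
    rintro _ ⟨b, rfl⟩
    exact ⟨(LinearMap.range u).mkQ b, by simp⟩
  set q₂ : (B ⧸ pB) →ₗ[R] (Q ⧸ LinearMap.range (pMul R p Q)) :=
    Submodule.mapQ pB _ (LinearMap.range u).mkQ hle2 with hq₂
  -- `B/pB` is covered by `A/pA × Q/pQ`-many fibres
  have hker : ∀ z : B ⧸ pB, q₂ z = 0 → z ∈ LinearMap.range ubar := by
    intro z h
    obtain ⟨b, rfl⟩ := Submodule.mkQ_surjective _ z
    have h' : (LinearMap.range u).mkQ b ∈ LinearMap.range (pMul R p Q) :=
      (Submodule.Quotient.mk_eq_zero _).1 h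
    obtain ⟨y, hy⟩ := h'
    obtain ⟨b', rfl⟩ := Submodule.mkQ_surjective _ y
    have h3 : b - p • b' ∈ LinearMap.range u := by
      rw [← Submodule.Quotient.mk_eq_zero, Submodule.Quotient.mk_sub, sub_eq_zero]
      rw [Submodule.Quotient.mk_smul]
      exact hy.symm
    obtain ⟨a, ha⟩ := h3
    refine ⟨pA.mkQ a, ?_⟩
    show pB.mkQ (u a) = pB.mkQ b
    rw [ha, map_sub, sub_eq_self]
    exact (Submodule.Quotient.mk_eq_zero _).2 ⟨b', rfl⟩
  haveI : Finite (LinearMap.range ubar) := Finite.of_surjective _ ubar.surjective_rangeRestrict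
  haveI : Finite (LinearMap.ker q₂) :=
    Finite.of_injective (fun z : LinearMap.ker q₂ => (⟨z.1, hker z.1 z.2⟩ : LinearMap.range ubar))
      (fun a b h => Subtype.ext (congrArg (fun w : LinearMap.range ubar => (w : B ⧸ pB)) h))
  haveI : Finite ((B ⧸ pB) ⧸ LinearMap.ker q₂) :=
    Finite.of_injective _ (LinearMap.quotKerEquivRange q₂).injective
  haveI : Finite (LinearMap.ker q₂).toAddSubgroup := ‹Finite (LinearMap.ker q₂)›
  haveI : Finite ((B ⧸ pB) ⧸ (LinearMap.ker q₂).toAddSubgroup) :=
    ‹Finite ((B ⧸ pB) ⧸ LinearMap.ker q₂)›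
  exact Finite.of_addSubgroup_quotient (LinearMap.ker q₂).toAddSubgroup

/-- **The `p`-Herbrand lemma**: for an injective `R`-linear map `u : A → B` with finite cokernel,
`f(A/pA) + f(B[p]) = f(B/pB) + f(A[p])`. -/
theorem herbrand (u : A →ₗ[R] B) (hu : Function.Injective u)
    [Finite (B ⧸ LinearMap.range u)] [Finite (A ⧸ LinearMap.range (pMul R p A))]
    [Finite (LinearMap.ker (pMul R p B))] :
    F.f (A ⧸ LinearMap.range (pMul R p A)) + F.f (LinearMap.ker (pMul R p B)) =
      F.f (B ⧸ LinearMap.range (pMul R p B)) + F.f (LinearMap.ker (pMul R p A)) := by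
  haveI : Finite (B ⧸ LinearMap.range (pMul R p B)) := finite_quot_pMul_of_finite_coker u
  set pA := LinearMap.range (pMul R p A) with hpA
  set pB := LinearMap.range (pMul R p B) with hpB
  set Q := B ⧸ LinearMap.range u with hQ
  have hle : pA ≤ pB.comap u := by
    rintro _ ⟨a, rfl⟩
    exact ⟨u a, by simp⟩
  set ubar : (A ⧸ pA) →ₗ[R] (B ⧸ pB) := Submodule.mapQ pA pB u hle with hubar
  -- `f(A/pA) = f(ker ū) + f(range ū)`
  have h1 : F.f (A ⧸ pA) = F.f (LinearMap.ker ubar) + F.f (LinearMap.range ubar) :=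
    F.ker_add_range ubar
  -- `f(B/pB) = f(range ū) + f(Q/pQ)`
  have hle2 : pB ≤ (LinearMap.range (pMul R p Q)).comap (LinearMap.range u).mkQ := by
    rintro _ ⟨b, rfl⟩
    exact ⟨(LinearMap.range u).mkQ b, by simp⟩
  set q₂ : (B ⧸ pB) →ₗ[R] (Q ⧸ LinearMap.range (pMul R p Q)) :=
    Submodule.mapQ pB _ (LinearMap.range u).mkQ hle2 with hq₂
  have hq₂s : Function.Surjective q₂ := by
    intro z
    obtain ⟨y, rfl⟩ := Submodule.mkQ_surjective _ z
    obtain ⟨b, rfl⟩ := Submodule.mkQ_surjective _ y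
    exact ⟨pB.mkQ b, rfl⟩
  have hex₂ : Function.Exact (LinearMap.range ubar).subtype q₂ := by
    intro z
    obtain ⟨b, rfl⟩ := Submodule.mkQ_surjective _ z
    constructor
    · intro h
      have h' : (LinearMap.range u).mkQ b ∈ LinearMap.range (pMul R p Q) :=
        (Submodule.Quotient.mk_eq_zero _).1 h
      obtain ⟨y, hy⟩ := h'
      obtain ⟨b', rfl⟩ := Submodule.mkQ_surjective _ y
      have h3 : b - p • b' ∈ LinearMap.range u := by
        rw [← Submodule.Quotient.mk_eq_zero, Submodule.Quotient.mk_sub, sub_eq_zero]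
        rw [Submodule.Quotient.mk_smul]
        exact hy.symm
      obtain ⟨a, ha⟩ := h3
      refine ⟨⟨_, ⟨pA.mkQ a, rfl⟩⟩, ?_⟩
      show pB.mkQ (u a) = pB.mkQ b
      rw [ha, map_sub, sub_eq_self]
      exact (Submodule.Quotient.mk_eq_zero _).2 ⟨b', rfl⟩
    · rintro ⟨⟨_, ⟨y, rfl⟩⟩, hy⟩
      rw [← hy]
      obtain ⟨a, rfl⟩ := Submodule.mkQ_surjective _ y
      show q₂ (pB.mkQ (u a)) = 0
      apply (Submodule.Quotient.mk_eq_zero _).2
      have : (LinearMap.range u).mkQ (u a) = 0 := (Submodule.Quotient.mk_eq_zero _).2 ⟨a, rfl⟩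
      rw [this]
      exact Submodule.zero_mem _
  have h2 := F.add_of_exact (LinearMap.range ubar).subtype q₂ (Submodule.subtype_injective _)
    hq₂s hex₂
  -- `γ : B[p] → Q[p]` and its image `I`
  let γ : LinearMap.ker (pMul R p B) →ₗ[R] LinearMap.ker (pMul R p Q) :=
    LinearMap.codRestrict _ ((LinearMap.range u).mkQ ∘ₗ (LinearMap.ker (pMul R p B)).subtype)
      (fun t => by
        have ht : p • (t : B) = 0 := t.2
        show p • (LinearMap.range u).mkQ (t : B) = 0
        rw [← map_nsmul, ht, map_zero])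
  set I : Submodule R (LinearMap.ker (pMul R p Q)) := LinearMap.range γ with hI
  -- `υ : A[p] → B[p]`
  let υ : LinearMap.ker (pMul R p A) →ₗ[R] LinearMap.ker (pMul R p B) :=
    LinearMap.codRestrict _ (u ∘ₗ (LinearMap.ker (pMul R p A)).subtype)
      (fun a => by
        have ha : p • (a : A) = 0 := a.2
        show p • u (a : A) = 0
        rw [← map_nsmul, ha, map_zero])
  have hυ : Function.Injective υ := fun a a' h => by
    apply Subtype.ext
    apply hu
    exact congrArg (fun z : LinearMap.ker (pMul R p B) => (z : B)) h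
  have hex₃ : Function.Exact υ γ.rangeRestrict := by
    intro t
    constructor
    · intro h
      have h' : (LinearMap.range u).mkQ (t : B) = 0 :=
        congrArg (fun z : LinearMap.ker (pMul R p Q) => (z : Q)) (congrArg Subtype.val h)
      obtain ⟨a, ha⟩ := (Submodule.Quotient.mk_eq_zero _).1 h'
      have hpa : p • a = 0 := by
        apply hu
        rw [map_nsmul, ha, map_zero]
        exact t.2
      exact ⟨⟨a, hpa⟩, Subtype.ext ha⟩
    · rintro ⟨a, rfl⟩
      apply Subtype.ext
      apply Subtype.ext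
      show (LinearMap.range u).mkQ (u (a : A)) = 0
      exact (Submodule.Quotient.mk_eq_zero _).2 ⟨_, rfl⟩
  have h3 : F.f (LinearMap.ker (pMul R p B)) = F.f (LinearMap.ker (pMul R p A)) + F.f I :=
    F.add_of_exact υ γ.rangeRestrict hυ γ.surjective_rangeRestrict hex₃
  have h4 : F.f (LinearMap.ker (pMul R p Q)) = F.f I + F.f (LinearMap.ker (pMul R p Q) ⧸ I) :=
    F.add I
  -- `ker ū ≅ Q[p] / I` through the pull-back `P = {(a, b) | u a = p b}`
  set P : Submodule R (A × B) :=
    LinearMap.ker (u ∘ₗ LinearMap.fst R A B - pMul R p B ∘ₗ LinearMap.snd R A B) with hP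
  have hPmem : ∀ x : A × B, x ∈ P ↔ u x.1 = p • x.2 := fun x => by
    rw [hP, LinearMap.mem_ker]
    simp [sub_eq_zero]
  let α : P →ₗ[R] (A ⧸ pA) := pA.mkQ ∘ₗ LinearMap.fst R A B ∘ₗ P.subtype
  let β' : P →ₗ[R] LinearMap.ker (pMul R p Q) :=
    LinearMap.codRestrict _ ((LinearMap.range u).mkQ ∘ₗ LinearMap.snd R A B ∘ₗ P.subtype)
      (fun x => by
        show p • (LinearMap.range u).mkQ (x : A × B).2 = 0
        rw [← map_nsmul, ← (hPmem _).1 x.2]
        exact (Submodule.Quotient.mk_eq_zero _).2 ⟨_, rfl⟩)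
  let β : P →ₗ[R] (LinearMap.ker (pMul R p Q) ⧸ I) := I.mkQ ∘ₗ β'
  have hαr : LinearMap.range α = LinearMap.ker ubar := by
    ext z
    obtain ⟨a, rfl⟩ := Submodule.mkQ_surjective _ z
    constructor
    · rintro ⟨x, hx⟩
      rw [← hx, LinearMap.mem_ker]
      show pB.mkQ (u (x : A × B).1) = 0
      rw [(hPmem _).1 x.2]
      exact (Submodule.Quotient.mk_eq_zero _).2 ⟨_, rfl⟩
    · intro h
      have h' : u a ∈ pB := (Submodule.Quotient.mk_eq_zero _).1 (LinearMap.mem_ker.1 h)
      obtain ⟨b, hb⟩ := h'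
      exact ⟨⟨(a, b), (hPmem _).2 hb.symm⟩, rfl⟩
  have hβs : Function.Surjective β := by
    intro z
    obtain ⟨z', rfl⟩ := Submodule.mkQ_surjective _ z
    obtain ⟨b, hb⟩ := Submodule.mkQ_surjective _ (z' : Q)
    have h' : p • b ∈ LinearMap.range u := by
      rw [← Submodule.Quotient.mk_eq_zero, Submodule.Quotient.mk_smul]
      have := z'.2
      rw [mem_ker_pMul] at this
      rw [← this]
      exact congrArg (fun q : Q => p • q) hb
    obtain ⟨a, ha⟩ := h'
    refine ⟨⟨(a, b), (hPmem _).2 ha⟩, ?_⟩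
    show I.mkQ (β' _) = I.mkQ z'
    congr 1
    exact Subtype.ext hb
  have hker : LinearMap.ker α = LinearMap.ker β := by
    ext x
    rw [LinearMap.mem_ker, LinearMap.mem_ker]
    have hx := (hPmem _).1 x.2
    constructor
    · intro h
      have h' : (x : A × B).1 ∈ pA := (Submodule.Quotient.mk_eq_zero _).1 h
      obtain ⟨a₀, ha₀⟩ := h'
      have ha₀' : p • a₀ = (x : A × B).1 := ha₀
      apply (Submodule.Quotient.mk_eq_zero _).2
      have ht : p • ((x : A × B).2 - u a₀) = 0 := by
        rw [smul_sub, ← hx, ← ha₀', map_nsmul, sub_self]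
      refine ⟨⟨(x : A × B).2 - u a₀, ht⟩, ?_⟩
      apply Subtype.ext
      show (LinearMap.range u).mkQ ((x : A × B).2 - u a₀) = (LinearMap.range u).mkQ (x : A × B).2
      rw [map_sub, sub_eq_self]
      exact (Submodule.Quotient.mk_eq_zero _).2 ⟨_, rfl⟩
    · intro h
      have h' : β' x ∈ I := (Submodule.Quotient.mk_eq_zero _).1 h
      obtain ⟨t, ht⟩ := h'
      have ht' : (LinearMap.range u).mkQ (t : B) = (LinearMap.range u).mkQ (x : A × B).2 :=
        congrArg (fun z : LinearMap.ker (pMul R p Q) => (z : Q)) ht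
      have h3' : (x : A × B).2 - (t : B) ∈ LinearMap.range u := by
        rw [← Submodule.Quotient.mk_eq_zero, Submodule.Quotient.mk_sub, sub_eq_zero]
        exact ht'.symm
      obtain ⟨a₀, ha₀⟩ := h3'
      apply (Submodule.Quotient.mk_eq_zero _).2
      refine ⟨a₀, ?_⟩
      apply hu
      show u (p • a₀) = u (x : A × B).1
      have htp : p • (t : B) = 0 := t.2
      rw [hx, map_nsmul, ha₀, smul_sub, htp, sub_zero]
  have e : LinearMap.ker ubar ≃ₗ[R] (LinearMap.ker (pMul R p Q) ⧸ I) :=
    (LinearEquiv.ofEq _ _ hαr.symm).trans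
      ((α.quotKerEquivRange.symm.trans (Submodule.quotEquivOfEq _ _ hker)).trans
        (β.quotKerEquivOfSurjective hβs))
  have h5 := F.iso e
  have h6 := F.ker_pMul_eq_quot_range_pMul Q
  linarith

end Herbrand

end AddInv

end Fermat.Agent.S56.GEC.Induction
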