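/-
S56 / GEC-D4 (B) (helper11): **Dirichlet's unit theorem modulo `p`, equivariantly.**

`L/K` a Galois extension of number fields, `T` a finite Galois-stable set of finite places of `L`,
`E = E_{L,T}` the `T`-units, `C` any group acting through `φ : C →* Gal(L/K)`.  For every additive
invariant `f` of finite `p`-torsion `ℤ[C]`-modules (`AddInv (MonoidAlgebra ℤ C) p`, helper1):

  `f(E/pE) + f(𝔽_p) = f(E[p]) + f(𝔽_p[InfinitePlace L ⊔ T])`.

Proof: `B = E × ℤ` with the equivariant, proper, spanning map `Φ : B → ℝ^X` of `S55/SUnitGalois`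
(`X = InfinitePlace L ⊔ T`); Lang's averaging trick (`PermLatticeGen.exists_perm_family`) gives an
equivariant injection `ℤ[X] → B` with finite cokernel; then the `p`-Herbrand lemma
(`AddInv.herbrand`).
-/
import Mathlib
import Fermat.Agent.S55.SUnitGalois
import Fermat.Agent.S55.PermLatticeGen
import Fermat.Agent.S56.GEC.Induction.Perm
import Fermat.Agent.S56.GEC.Equivariant.HerbrandP

set_option autoImplicit false
set_option linter.unusedSectionVars false
set_option linter.style.haveILetI false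

noncomputable section

namespace Fermat.Agent.S56.GEC.Equivariant.Dirichlet

open Fermat.Agent.S56.GEC.Induction

/-! ### Products: `(M × N)[p]` and `(M × N)/p` for `N` without `p`-torsion -/

section Prod

variable {R : Type} [Ring R] {p : ℕ} (F : AddInv R p)
variable {M N : Type} [AddCommGroup M] [Module R M] [AddCommGroup N] [Module R N]

/-- `M[p] ≃ (M × N)[p]` when `N` has no `p`-torsion. -/
def kerProdEquiv (hN : ∀ n : N, p • n = 0 → n = 0) :
    LinearMap.ker (pMul R p M) ≃ₗ[R] LinearMap.ker (pMul R p (M × N)) :=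
  LinearEquiv.ofBijective
    (LinearMap.codRestrict _ (LinearMap.inl R M N ∘ₗ (LinearMap.ker (pMul R p M)).subtype)
      (fun m => by
        have hm : p • (m : M) = 0 := m.2
        show p • ((m : M), (0 : N)) = 0
        rw [Prod.smul_mk, hm, smul_zero]; rfl))
    ⟨fun a b h => Subtype.ext (by
        have := congrArg (fun z : LinearMap.ker (pMul R p (M × N)) => (z : M × N).1) h
        exact this),
      fun z => by
        have hz : p • (z : M × N) = 0 := z.2
        have h1 : p • (z : M × N).1 = 0 := congrArg Prod.fst hz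
        have h2 : (z : M × N).2 = 0 := hN _ (congrArg Prod.snd hz)
        exact ⟨⟨(z : M × N).1, h1⟩, Subtype.ext (Prod.ext rfl h2.symm)⟩⟩

theorem f_quot_pMul_prod
    [Finite ((M × N) ⧸ LinearMap.range (pMul R p (M × N)))] :
    F.f ((M × N) ⧸ LinearMap.range (pMul R p (M × N))) =
      F.f (M ⧸ LinearMap.range (pMul R p M)) + F.f (N ⧸ LinearMap.range (pMul R p N)) := by
  have hle1 : LinearMap.range (pMul R p M) ≤
      (LinearMap.range (pMul R p (M × N))).comap (LinearMap.inl R M N) := by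
    rintro _ ⟨m, rfl⟩
    exact ⟨(m, 0), by simp⟩
  have hle2 : LinearMap.range (pMul R p (M × N)) ≤
      (LinearMap.range (pMul R p N)).comap (LinearMap.snd R M N) := by
    rintro _ ⟨x, rfl⟩
    exact ⟨x.2, by simp⟩
  refine F.add_of_exact (Submodule.mapQ _ _ (LinearMap.inl R M N) hle1)
    (Submodule.mapQ _ _ (LinearMap.snd R M N) hle2) ?_ ?_ ?_
  · rw [injective_iff_map_eq_zero]
    intro z hz
    obtain ⟨m, rfl⟩ := Submodule.mkQ_surjective _ z
    have h' : ((m, 0) : M × N) ∈ LinearMap.range (pMul R p (M × N)) :=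
      (Submodule.Quotient.mk_eq_zero _).1 hz
    obtain ⟨x, hx⟩ := h'
    apply (Submodule.Quotient.mk_eq_zero _).2
    exact ⟨x.1, congrArg Prod.fst hx⟩
  · intro z
    obtain ⟨n, rfl⟩ := Submodule.mkQ_surjective _ z
    exact ⟨Submodule.Quotient.mk ((0, n) : M × N), rfl⟩
  · intro z
    obtain ⟨x, rfl⟩ := Submodule.mkQ_surjective _ z
    constructor
    · intro h
      have h' : x.2 ∈ LinearMap.range (pMul R p N) := (Submodule.Quotient.mk_eq_zero _).1 h
      obtain ⟨n, hn⟩ := h'
      refine ⟨Submodule.Quotient.mk x.1, ?_⟩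
      show Submodule.Quotient.mk ((x.1, 0) : M × N) = Submodule.Quotient.mk x
      rw [Submodule.Quotient.eq]
      refine ⟨((0 : M), -n), ?_⟩
      have hn' : p • n = x.2 := hn
      show p • ((0 : M), -n) = (x.1, 0) - x
      rw [Prod.smul_mk, smul_zero, smul_neg, hn']
      ext <;> simp
    · rintro ⟨y, hy⟩
      rw [← hy]
      obtain ⟨m, rfl⟩ := Submodule.mkQ_surjective _ y
      show Submodule.Quotient.mk ((m, (0 : N)) : M × N).2 = 0
      exact (Submodule.Quotient.mk_eq_zero _).2 (Submodule.zero_mem _)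

end Prod

/-! ### Permutation modules of a disjoint union of two `C`-sets -/

section SumPerm

variable {G : Type} [Group G] (M : Type) [AddCommGroup M] (X₁ X₂ : Type) [MulAction G X₁]
  [MulAction G X₂]

/-- `M[X₁ ⊔ X₂] ≃ M[X₁] × M[X₂]`, `ℤ[G]`-linearly. -/
def sumEquiv :
    (permRep G M (X₁ ⊕ X₂)).asModule ≃ₗ[MonoidAlgebra ℤ G]
      ((permRep G M X₁).asModule × (permRep G M X₂).asModule) where
  toFun v := ((Finsupp.sumFinsuppAddEquivProdFinsupp (coeffFn v)).1,
    (Finsupp.sumFinsuppAddEquivProdFinsupp (coeffFn v)).2)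
  invFun w := (Finsupp.sumFinsuppAddEquivProdFinsupp.symm (coeffFn w.1, coeffFn w.2) :
    X₁ ⊕ X₂ →₀ M)
  left_inv v := Finsupp.sumFinsuppAddEquivProdFinsupp.symm_apply_apply _
  right_inv w := Finsupp.sumFinsuppAddEquivProdFinsupp.apply_symm_apply _
  map_add' v w := Finsupp.sumFinsuppAddEquivProdFinsupp.map_add _ _
  map_smul' r v := by
    let f : (permRep G M (X₁ ⊕ X₂)).asModule →+
        ((permRep G M X₁).asModule × (permRep G M X₂).asModule) :=
      { toFun := fun v => ((Finsupp.sumFinsuppAddEquivProdFinsupp (coeffFn v)).1,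
          (Finsupp.sumFinsuppAddEquivProdFinsupp (coeffFn v)).2)
        map_zero' := Finsupp.sumFinsuppAddEquivProdFinsupp.map_zero
        map_add' := fun v w => Finsupp.sumFinsuppAddEquivProdFinsupp.map_add _ _ }
    refine map_smul_of_single f (fun g t => ?_) r v
    show ((Finsupp.sumFinsuppAddEquivProdFinsupp
        (coeffFn (MonoidAlgebra.single g (1 : ℤ) • t))).1,
      (Finsupp.sumFinsuppAddEquivProdFinsupp
        (coeffFn (MonoidAlgebra.single g (1 : ℤ) • t))).2) = _
    rw [coeffFn_single_smul, Prod.smul_mk]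
    refine Prod.ext ?_ ?_
    · apply coeffFn_injective (G := G) (M := M) (X := X₁)
      rw [coeffFn_single_smul]
      apply Finsupp.ext
      intro x
      have h2 : x = g • (g⁻¹ • x) := (smul_inv_smul g x).symm
      show (permRep G M (X₁ ⊕ X₂) g (coeffFn t)) (Sum.inl x) = _
      have h1 : (Sum.inl x : X₁ ⊕ X₂) = g • (Sum.inl (g⁻¹ • x) : X₁ ⊕ X₂) := by
        rw [Sum.smul_inl, smul_inv_smul]
      rw [h1, permRep_apply_apply, h2, permRep_apply_apply, ← h2]
      rfl
    · apply coeffFn_injective (G := G) (M := M) (X := X₂)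
      rw [coeffFn_single_smul]
      apply Finsupp.ext
      intro x
      have h2 : x = g • (g⁻¹ • x) := (smul_inv_smul g x).symm
      show (permRep G M (X₁ ⊕ X₂) g (coeffFn t)) (Sum.inr x) = _
      have h1 : (Sum.inr x : X₁ ⊕ X₂) = g • (Sum.inr (g⁻¹ • x) : X₁ ⊕ X₂) := by
        rw [Sum.smul_inr, smul_inv_smul]
      rw [h1, permRep_apply_apply, h2, permRep_apply_apply, ← h2]
      rfl

theorem f_permP_sum {p : ℕ} [NeZero p] (F : AddInv (MonoidAlgebra ℤ G) p) [Finite X₁] [Finite X₂] :
    F.f (PermP G (X₁ ⊕ X₂) p) = F.f (PermP G X₁ p) + F.f (PermP G X₂ p) := by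
  rw [F.iso (sumEquiv (ZMod p) X₁ X₂), F.prod]

end SumPerm

/-! ### The unit lattice as a `ℤ[C]`-module -/

section Units

open NumberField IsDedekindDomain HeightOneSpectrum NumberField.InfinitePlace
open Fermat.Agent.S14 Fermat.Agent.S55.SUnit Fermat.Agent.S55.SUnitGalois
open Fermat.Agent.S55.PermLatticeGen

variable (K : Type*) {L : Type} [Field K] [Field L] [NumberField K] [NumberField L] [Algebra K L]
variable (T : Finset (HeightOneSpectrum (𝓞 L))) [hT : IsGalStable K T] [IsGalois K L]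
variable {C : Type} [Group C] (φ : C →* (L ≃ₐ[K] L))

/-- The `T`-units of `L` as a representation over `ℤ` of a group `C` acting through `Gal(L/K)`. -/
def unitRep : Representation ℤ C (Additive (TUnit L T)) where
  toFun c := (tunitsEnd K T (φ c)).toIntLinearMap
  map_one' := by
    rw [map_one, map_one]; rfl
  map_mul' a b := by
    rw [map_mul, map_mul]; rfl

theorem unitRep_apply (c : C) (x : Additive (TUnit L T)) :
    unitRep K T φ c x = tunitsEnd K T (φ c) x := rfl

/-- `E_{L,T}` as a `ℤ[C]`-module. -/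
abbrev UnitMod : Type := (unitRep K T φ).asModule

variable (C) in
/-- `ℤ` with trivial action, as a `ℤ[C]`-module. -/
abbrev TrivZ : Type := (Representation.trivial ℤ C ℤ).asModule

variable (C) in
/-- `𝔽_p` with trivial action, as a `ℤ[C]`-module. -/
abbrev TrivP (p : ℕ) : Type := (Representation.trivial ℤ C (ZMod p)).asModule

/-- The lattice `B = E_{L,T} × ℤ` as a `ℤ[C]`-module. -/
abbrev LatMod : Type := UnitMod K T φ × TrivZ C

/-- The underlying additive group of `LatMod`. -/
def latEquiv : LatMod K T φ ≃+ Additive (TUnit L T) × ℤ :=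
  AddEquiv.prodCongr (unitRep K T φ).asModuleEquiv.toAddEquiv
    (Representation.trivial ℤ C ℤ).asModuleEquiv.toAddEquiv

theorem latEquiv_single_smul (c : C) (b : LatMod K T φ) :
    latEquiv K T φ (MonoidAlgebra.single c (1 : ℤ) • b) = rho K T (φ c) (latEquiv K T φ b) := by
  obtain ⟨b1, b2⟩ := b
  rw [Prod.smul_mk, rho_apply]
  refine Prod.ext ?_ ?_
  · show (unitRep K T φ).asModuleEquiv (MonoidAlgebra.single c (1 : ℤ) • b1) = _
    rw [single_smul_asModule]; rfl
  · show (Representation.trivial ℤ C ℤ).asModuleEquiv (MonoidAlgebra.single c (1 : ℤ) • b2) = _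
    rw [single_smul_asModule]; rfl

/-- `Φ` on `LatMod`. -/
def PhiM : LatMod K T φ →+ (InfinitePlace L ⊕ T → ℝ) :=
  (Phi T).comp (latEquiv K T φ).toAddMonoidHom

theorem PhiM_apply (b : LatMod K T φ) : PhiM K T φ b = Phi T (latEquiv K T φ b) := rfl

theorem PhiM_single_smul (c : C) (b : LatMod K T φ) :
    PhiM K T φ (MonoidAlgebra.single c (1 : ℤ) • b) = PermLattice.act (φ c) (PhiM K T φ b) := by
  rw [PhiM_apply, latEquiv_single_smul, Phi_rho]; rfl

theorem finite_PhiM_le (r : ℝ) : {b : LatMod K T φ | ∀ i, |PhiM K T φ b i| ≤ r}.Finite := by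
  have h := finite_Phi_le T r
  have : {b : LatMod K T φ | ∀ i, |PhiM K T φ b i| ≤ r} =
      (latEquiv K T φ) ⁻¹' {b | ∀ i, |Phi T b i| ≤ r} := rfl
  rw [this]
  exact h.preimage (latEquiv K T φ).injective.injOn

/-- `Φ` kills exactly... at least the torsion: `p • b = 0 → Φ b = 0`. -/
theorem PhiM_eq_zero_of_nsmul {n : ℕ} (hn : n ≠ 0) (b : LatMod K T φ) (h : n • b = 0) :
    PhiM K T φ b = 0 := by
  have h1 : n • PhiM K T φ b = 0 := by rw [← map_nsmul, h, map_zero]
  rcases smul_eq_zero.1 h1 with h2 | h2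
  · exact absurd h2 hn
  · exact h2

/-! ### The permutation sublattice -/

section Lattice

variable {X : Type} [MulAction C X] (e : X ≃ InfinitePlace L ⊕ T)
  (he : ∀ (c : C) (x : X), e (c • x) = φ c • e x)
  (y : InfinitePlace L ⊕ T → Additive (TUnit L T) × ℤ)
  (hy : ∀ (g : L ≃ₐ[K] L) (w : InfinitePlace L ⊕ T), rho K T g (y w) = y (g • w))

/-- The permuted family in `LatMod`. -/
def yM (x : X) : LatMod K T φ := (latEquiv K T φ).symm (y (e x))

include he hy in
theorem single_smul_yM (c : C) (x : X) :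
    MonoidAlgebra.single c (1 : ℤ) • yM K T φ e y x = yM K T φ e y (c • x) := by
  apply (latEquiv K T φ).injective
  rw [latEquiv_single_smul]
  unfold yM
  rw [AddEquiv.apply_symm_apply, AddEquiv.apply_symm_apply, hy, he]

/-- `ℤ[X] → B`, `ℤ`-linear version. -/
def iotaZ : (X →₀ ℤ) →ₗ[ℤ] LatMod K T φ := Finsupp.linearCombination ℤ (yM K T φ e y)

theorem iotaZ_single (x : X) (n : ℤ) :
    iotaZ K T φ e y (Finsupp.single x n) = n • yM K T φ e y x := by
  unfold iotaZ
  rw [Finsupp.linearCombination_single]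

include he hy in
theorem iotaZ_permRep (c : C) (w : X →₀ ℤ) :
    iotaZ K T φ e y (permRep C ℤ X c w) =
      MonoidAlgebra.single c (1 : ℤ) • iotaZ K T φ e y w := by
  induction w using Finsupp.induction_linear with
  | zero => rw [map_zero, map_zero, smul_zero]
  | add a b ha hb => rw [map_add, map_add, map_add, smul_add, ha, hb]
  | single x n =>
    rw [permRep_single, iotaZ_single, iotaZ_single, smul_comm, single_smul_yM K T φ e he y hy]

/-- **The equivariant map `ℤ[X] → B = E_{L,T} × ℤ`.** -/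
def iota : PermZ C X →ₗ[MonoidAlgebra ℤ C] LatMod K T φ where
  toFun v := iotaZ K T φ e y (coeffFn v)
  map_add' v w := by rw [coeffFn_add, map_add]
  map_smul' r v := by
    let g : PermZ C X →+ LatMod K T φ :=
      AddMonoidHom.mk' (fun v => iotaZ K T φ e y (coeffFn v))
        (fun a b => by rw [coeffFn_add, map_add])
    have hg : ∀ (c : C) (t : PermZ C X), g (MonoidAlgebra.single c (1 : ℤ) • t) =
        MonoidAlgebra.single c (1 : ℤ) • g t := by
      intro c t
      show iotaZ K T φ e y (coeffFn (MonoidAlgebra.single c (1 : ℤ) • t)) = _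
      rw [coeffFn_single_smul, iotaZ_permRep K T φ e he y hy]
      rfl
    exact map_smul_of_single g hg r v

theorem iota_apply (v : PermZ C X) : iota K T φ e he y hy v = iotaZ K T φ e y (coeffFn v) := rfl

/-- `Φ ∘ ι` in coordinates. -/
theorem PhiM_iotaZ (w : X →₀ ℤ) :
    PhiM K T φ (iotaZ K T φ e y w) =
      Finsupp.linearCombination ℝ (fun x => Phi T (y (e x)))
        (Finsupp.mapRange (Int.cast : ℤ → ℝ) Int.cast_zero w) := by
  induction w using Finsupp.induction_linear with
  | zero => simp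
  | add a b ha hb =>
    rw [map_add, map_add, ha, hb, Finsupp.mapRange_add (by intro a b; push_cast; ring), map_add]
  | single x n =>
    rw [iotaZ_single, map_zsmul, Finsupp.mapRange_single, Finsupp.linearCombination_single,
      PhiM_apply]
    unfold yM
    rw [AddEquiv.apply_symm_apply, Int.cast_smul_eq_zsmul]

variable (hli : LinearIndependent ℝ (fun w => Phi T (y w)))

include hli in
theorem iota_injective : Function.Injective (iota K T φ e he y hy) := by
  rw [injective_iff_map_eq_zero]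
  intro v hv
  have hli' : LinearIndependent ℝ (fun x : X => Phi T (y (e x))) := hli.comp e e.injective
  have h0 : PhiM K T φ (iotaZ K T φ e y (coeffFn v)) = 0 := by
    rw [← iota_apply K T φ e he y hy, hv, map_zero]
  rw [PhiM_iotaZ] at h0
  have h1 := (linearIndependent_iff.1 hli') _ h0
  apply coeffFn_injective
  apply Finsupp.ext
  intro x
  have h2 := DFunLike.congr_fun h1 x
  rw [Finsupp.mapRange_apply] at h2
  have h3 : (coeffFn v x : ℝ) = 0 := h2
  exact_mod_cast h3

/-- `Φ ∘ ι` as a sum over the places. -/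
theorem PhiM_iotaZ_sum (w : X →₀ ℤ) :
    PhiM K T φ (iotaZ K T φ e y w) =
      ∑ s : InfinitePlace L ⊕ T, ((w (e.symm s) : ℤ) : ℝ) • Phi T (y s) := by
  classical
  induction w using Finsupp.induction_linear with
  | zero => simp
  | add a b ha hb =>
    rw [map_add, map_add, ha, hb, ← Finset.sum_add_distrib]
    refine Finset.sum_congr rfl fun s _ => ?_
    rw [Finsupp.add_apply, Int.cast_add, add_smul]
  | single x n =>
    rw [iotaZ_single, map_zsmul, PhiM_apply]
    unfold yM
    rw [AddEquiv.apply_symm_apply, Finset.sum_eq_single (e x)]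
    · rw [Equiv.symm_apply_apply, Finsupp.single_eq_same, Int.cast_smul_eq_zsmul]
    · intro s _ hs
      have : x ≠ e.symm s := fun h => hs (by rw [h, Equiv.apply_symm_apply])
      rw [Finsupp.single_apply, if_neg this, Int.cast_zero, zero_smul]
    · intro h; exact absurd (Finset.mem_univ _) h

include hli in
/-- **The cokernel of `ℤ[X] → E_{L,T} × ℤ` is finite.** -/
theorem finite_coker_iota :
    Finite (LatMod K T φ ⧸ LinearMap.range (iota K T φ e he y hy)) := by
  classical
  haveI : Finite X := Finite.of_equiv _ e.symm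
  set x₀ : InfinitePlace L ⊕ T → (InfinitePlace L ⊕ T → ℝ) := fun w => Phi T (y w) with hx₀
  have hxspan : Submodule.span ℝ (Set.range x₀) = ⊤ :=
    hli.span_eq_top_of_card_eq_finrank' (by simp)
  set R : ℝ := ∑ w, ∑ w', |x₀ w w'| with hR
  have hfinR := finite_PhiM_le K T φ R
  have hcover : ∀ b : LatMod K T φ, ∃ a ∈ {b : LatMod K T φ | ∀ i, |PhiM K T φ b i| ≤ R},
      b - a ∈ LinearMap.range (iota K T φ e he y hy) := by
    intro b
    have hb : PhiM K T φ b ∈ Submodule.span ℝ (Set.range x₀) := by rw [hxspan]; trivial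
    obtain ⟨c, hc⟩ := (Submodule.mem_span_range_iff_exists_fun ℝ).mp hb
    set v : X →₀ ℤ := Finsupp.equivFunOnFinite.symm (fun x => ⌊c (e x)⌋) with hv
    have hvs : ∀ s, v (e.symm s) = ⌊c s⌋ := fun s => by
      rw [hv]
      show ⌊c (e (e.symm s))⌋ = _
      rw [Equiv.apply_symm_apply]
    refine ⟨b - iotaZ K T φ e y v, ?_, ⟨(v : X →₀ ℤ), by
      show iotaZ K T φ e y v = _; abel⟩⟩
    intro w'
    rw [map_sub, PhiM_iotaZ_sum, ← hc, ← Finset.sum_sub_distrib]
    have e1 : ∀ w, c w • x₀ w - ((v (e.symm w) : ℤ) : ℝ) • Phi T (y w) =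
        Int.fract (c w) • x₀ w := by
      intro w
      rw [hvs, ← sub_smul, Int.self_sub_floor]
    rw [Finset.sum_congr rfl fun w _ => e1 w, Finset.sum_apply]
    calc |∑ w, (Int.fract (c w) • x₀ w) w'| ≤ ∑ w, |(Int.fract (c w) • x₀ w) w'| :=
          Finset.abs_sum_le_sum_abs _ _
      _ ≤ ∑ w, ∑ w', |x₀ w w'| := by
          refine Finset.sum_le_sum fun w _ => ?_
          rw [Pi.smul_apply, smul_eq_mul, abs_mul, abs_of_nonneg (Int.fract_nonneg _)]
          calc Int.fract (c w) * |x₀ w w'| ≤ 1 * |x₀ w w'| :=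
                mul_le_mul_of_nonneg_right (Int.fract_lt_one _).le (abs_nonneg _)
            _ = |x₀ w w'| := one_mul _
            _ ≤ ∑ w', |x₀ w w'| :=
                Finset.single_le_sum (f := fun w' => |x₀ w w'|) (fun _ _ => abs_nonneg _)
                  (Finset.mem_univ w')
  haveI : Finite {b : LatMod K T φ | ∀ i, |PhiM K T φ b i| ≤ R} := hfinR.to_subtype
  have hsurj : Function.Surjective
      (fun a : {b : LatMod K T φ | ∀ i, |PhiM K T φ b i| ≤ R} =>
        (LinearMap.range (iota K T φ e he y hy)).mkQ (a : LatMod K T φ)) := by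
    intro q
    obtain ⟨b, rfl⟩ := Submodule.mkQ_surjective _ q
    obtain ⟨a, ha, hba⟩ := hcover b
    refine ⟨⟨a, ha⟩, ?_⟩
    show (LinearMap.range (iota K T φ e he y hy)).mkQ a = _
    rw [← sub_eq_zero, ← map_sub]
    apply (Submodule.Quotient.mk_eq_zero _).2
    have : a - b = -(b - a) := by abel
    rw [this]
    exact Submodule.neg_mem _ hba
  exact Finite.of_surjective _ hsurj

end Lattice

/-! ### The trivial module -/

section Triv

variable (C) (p : ℕ)

/-- Reduction `ℤ → 𝔽_p` of trivial modules. -/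
def redTriv : TrivZ C →ₗ[MonoidAlgebra ℤ C] TrivP C p :=
  asModuleMap (Int.castAddHom (ZMod p)).toIntLinearMap (fun _ _ => rfl)

theorem redTriv_apply (n : TrivZ C) :
    (Representation.trivial ℤ C (ZMod p)).asModuleEquiv (redTriv C p n) =
      (((Representation.trivial ℤ C ℤ).asModuleEquiv n : ℤ) : ZMod p) := rfl

theorem redTriv_surjective : Function.Surjective (redTriv C p) := by
  intro w
  refine ⟨(Representation.trivial ℤ C ℤ).asModuleEquiv.symm
    (((Representation.trivial ℤ C (ZMod p)).asModuleEquiv w).cast : ℤ), ?_⟩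
  apply (Representation.trivial ℤ C (ZMod p)).asModuleEquiv.injective
  rw [redTriv_apply, LinearEquiv.apply_symm_apply]
  exact ZMod.intCast_zmod_cast _

theorem ker_redTriv :
    LinearMap.ker (redTriv C p) = LinearMap.range (pMul (MonoidAlgebra ℤ C) p (TrivZ C)) := by
  ext n
  rw [LinearMap.mem_ker, mem_range_pMul]
  constructor
  · intro h
    have h1 : (((Representation.trivial ℤ C ℤ).asModuleEquiv n : ℤ) : ZMod p) = 0 := by
      rw [← redTriv_apply, h, map_zero]
    obtain ⟨m, hm⟩ := (ZMod.intCast_zmod_eq_zero_iff_dvd _ _).1 h1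
    refine ⟨(Representation.trivial ℤ C ℤ).asModuleEquiv.symm m, ?_⟩
    apply (Representation.trivial ℤ C ℤ).asModuleEquiv.injective
    rw [map_nsmul, LinearEquiv.apply_symm_apply, hm, nsmul_eq_mul]
  · rintro ⟨m, rfl⟩
    rw [map_nsmul]
    apply (Representation.trivial ℤ C (ZMod p)).asModuleEquiv.injective
    rw [map_nsmul, map_zero, nsmul_eq_mul, CharP.cast_eq_zero, zero_mul]

/-- `ℤ / pℤ ≃ 𝔽_p` as trivial `ℤ[C]`-modules. -/
def trivQuotEquiv :
    (TrivZ C ⧸ LinearMap.range (pMul (MonoidAlgebra ℤ C) p (TrivZ C))) ≃ₗ[MonoidAlgebra ℤ C]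
      TrivP C p :=
  (Submodule.quotEquivOfEq _ _ (ker_redTriv C p).symm).trans
    ((redTriv C p).quotKerEquivOfSurjective (redTriv_surjective C p))

instance trivP_finite [NeZero p] : Finite (TrivP C p) :=
  inferInstanceAs (Finite (ZMod p))

instance trivP_pTors : PTors p (TrivP C p) :=
  ⟨fun v => by
    apply (Representation.trivial ℤ C (ZMod p)).asModuleEquiv.injective
    rw [map_nsmul, map_zero, nsmul_eq_mul, CharP.cast_eq_zero, zero_mul]⟩

theorem trivZ_torsionFree (hp : p ≠ 0) (n : TrivZ C) (h : p • n = 0) : n = 0 := by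
  apply (Representation.trivial ℤ C ℤ).asModuleEquiv.injective
  have h1 := congrArg (Representation.trivial ℤ C ℤ).asModuleEquiv h
  rw [map_nsmul, map_zero, nsmul_eq_mul] at h1
  rw [map_zero]
  rcases mul_eq_zero.1 h1 with h2 | h2
  · exact absurd (by exact_mod_cast h2) hp
  · exact h2

end Triv

/-! ### The theorem -/

section Main

variable {X : Type} [MulAction C X] (e : X ≃ InfinitePlace L ⊕ T)
  (he : ∀ (c : C) (x : X), e (c • x) = φ c • e x) (p : ℕ) [Fact p.Prime]

/-- `E_{L,T}[p]` is finite. -/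
theorem finite_ker_pMul_unitMod :
    Finite (LinearMap.ker (pMul (MonoidAlgebra ℤ C) p (UnitMod K T φ))) := by
  have hp0 : p ≠ 0 := (Fact.out : p.Prime).ne_zero
  have hfin := finite_PhiM_le K T φ 0
  haveI : Finite {b : LatMod K T φ | ∀ i, |PhiM K T φ b i| ≤ 0} := hfin.to_subtype
  refine Finite.of_injective
    (fun m : LinearMap.ker (pMul (MonoidAlgebra ℤ C) p (UnitMod K T φ)) =>
      (⟨((m : UnitMod K T φ), (0 : TrivZ C)), fun i => by
        have hm : p • (m : UnitMod K T φ) = 0 := m.2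
        have h0 : p • (((m : UnitMod K T φ), (0 : TrivZ C)) : LatMod K T φ) = 0 := by
          rw [Prod.smul_mk, hm, smul_zero]; rfl
        rw [PhiM_eq_zero_of_nsmul K T φ hp0 _ h0]
        simp⟩ : {b : LatMod K T φ | ∀ i, |PhiM K T φ b i| ≤ 0})) ?_
  intro a b h
  apply Subtype.ext
  exact congrArg (fun z : {b : LatMod K T φ | ∀ i, |PhiM K T φ b i| ≤ 0} =>
    (z : LatMod K T φ).1) h

include he in
/-- `E_{L,T}/p` is finite. -/
theorem finite_quot_pMul_unitMod :
    Finite (UnitMod K T φ ⧸ LinearMap.range (pMul (MonoidAlgebra ℤ C) p (UnitMod K T φ))) := by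
  haveI : NeZero p := ⟨(Fact.out : p.Prime).ne_zero⟩
  obtain ⟨y, hy, hli⟩ := exists_perm_family (rho K T) (Phi T) (Phi_rho K T) (span_range_Phi T)
  haveI : Finite X := Finite.of_equiv _ e.symm
  haveI := finite_coker_iota K T φ e he y hy hli
  haveI : Finite (LatMod K T φ ⧸ LinearMap.range (pMul (MonoidAlgebra ℤ C) p (LatMod K T φ))) :=
    AddInv.finite_quot_pMul_of_finite_coker (iota K T φ e he y hy)
  have hle1 : LinearMap.range (pMul (MonoidAlgebra ℤ C) p (UnitMod K T φ)) ≤
      (LinearMap.range (pMul (MonoidAlgebra ℤ C) p (LatMod K T φ))).comap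
        (LinearMap.inl _ (UnitMod K T φ) (TrivZ C)) := by
    rintro _ ⟨m, rfl⟩
    exact ⟨(m, 0), by simp⟩
  refine Finite.of_injective (Submodule.mapQ _ _ (LinearMap.inl _ (UnitMod K T φ) (TrivZ C)) hle1) ?_
  rw [injective_iff_map_eq_zero]
  intro z hz
  obtain ⟨m, rfl⟩ := Submodule.mkQ_surjective _ z
  have h' : ((m, 0) : LatMod K T φ) ∈
      LinearMap.range (pMul (MonoidAlgebra ℤ C) p (LatMod K T φ)) :=
    (Submodule.Quotient.mk_eq_zero _).1 hz
  obtain ⟨x, hx⟩ := h'
  apply (Submodule.Quotient.mk_eq_zero _).2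
  exact ⟨x.1, congrArg Prod.fst hx⟩

include he in
/-- **Dirichlet's unit theorem modulo `p`, equivariantly**: for every additive invariant `f` of
finite `p`-torsion `ℤ[C]`-modules,
`f(E_{L,T}/p) + f(𝔽_p) = f(E_{L,T}[p]) + f(𝔽_p[X])`, `X ≃ InfinitePlace L ⊔ T` as `C`-sets. -/
theorem dirichlet_mod_p (F : AddInv (MonoidAlgebra ℤ C) p) :
    F.f (UnitMod K T φ ⧸ LinearMap.range (pMul (MonoidAlgebra ℤ C) p (UnitMod K T φ))) +
        F.f (TrivP C p) =
      F.f (LinearMap.ker (pMul (MonoidAlgebra ℤ C) p (UnitMod K T φ))) + F.f (PermP C X p) := by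
  have hp0 : p ≠ 0 := (Fact.out : p.Prime).ne_zero
  haveI : NeZero p := ⟨hp0⟩
  obtain ⟨y, hy, hli⟩ := exists_perm_family (rho K T) (Phi T) (Phi_rho K T) (span_range_Phi T)
  haveI : Finite X := Finite.of_equiv _ e.symm
  haveI := finite_coker_iota K T φ e he y hy hli
  haveI : Finite (LatMod K T φ ⧸ LinearMap.range (pMul (MonoidAlgebra ℤ C) p (LatMod K T φ))) :=
    AddInv.finite_quot_pMul_of_finite_coker (iota K T φ e he y hy)
  haveI := finite_ker_pMul_unitMod K T φ p
  have eK := kerProdEquiv (R := MonoidAlgebra ℤ C) (p := p) (M := UnitMod K T φ) (N := TrivZ C)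
    (trivZ_torsionFree C p hp0)
  haveI : Finite (LinearMap.ker (pMul (MonoidAlgebra ℤ C) p (LatMod K T φ))) :=
    Finite.of_equiv _ eK.toEquiv
  have H := F.herbrand (iota K T φ e he y hy) (iota_injective K T φ e he y hy hli)
  haveI : Subsingleton (LinearMap.ker (pMul (MonoidAlgebra ℤ C) p (PermZ C X))) :=
    ⟨fun a b => Subtype.ext (by
      rw [permZ_torsionFree C X p hp0 a a.2, permZ_torsionFree C X p hp0 b b.2])⟩
  rw [F.eq_zero_of_subsingleton (T := LinearMap.ker (pMul (MonoidAlgebra ℤ C) p (PermZ C X))),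
    add_zero, F.iso (redEquiv C X p), ← F.iso eK, f_quot_pMul_prod F] at H
  haveI : Finite (TrivZ C ⧸ LinearMap.range (pMul (MonoidAlgebra ℤ C) p (TrivZ C))) :=
    Finite.of_equiv _ (trivQuotEquiv C p).symm.toEquiv
  rw [F.iso (trivQuotEquiv C p)] at H
  linarith

/-- **Dirichlet mod `p`, with the archimedean and the finite places separated**:
`f(E/p) + f(𝔽_p) = f(E[p]) + f(𝔽_p[X_∞]) + f(𝔽_p[X_f])`. -/
theorem dirichlet_mod_p_split {X₁ X₂ : Type} [MulAction C X₁] [MulAction C X₂]
    (e₁ : X₁ ≃ InfinitePlace L) (he₁ : ∀ (c : C) (x : X₁), e₁ (c • x) = φ c • e₁ x)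
    (e₂ : X₂ ≃ T) (he₂ : ∀ (c : C) (x : X₂), e₂ (c • x) = φ c • e₂ x)
    (p : ℕ) [Fact p.Prime] (F : AddInv (MonoidAlgebra ℤ C) p) :
    F.f (UnitMod K T φ ⧸ LinearMap.range (pMul (MonoidAlgebra ℤ C) p (UnitMod K T φ))) +
        F.f (TrivP C p) =
      F.f (LinearMap.ker (pMul (MonoidAlgebra ℤ C) p (UnitMod K T φ))) + F.f (PermP C X₁ p) +
        F.f (PermP C X₂ p) := by
  haveI : NeZero p := ⟨(Fact.out : p.Prime).ne_zero⟩
  haveI : Finite X₁ := Finite.of_equiv _ e₁.symm
  haveI : Finite X₂ := Finite.of_equiv _ e₂.symm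
  have h := dirichlet_mod_p K T φ (Equiv.sumCongr e₁ e₂) (fun c x => by
    rcases x with x | x
    · show Sum.inl (e₁ (c • x)) = φ c • Sum.inl (e₁ x)
      rw [he₁, Sum.smul_inl]
    · show Sum.inr (e₂ (c • x)) = φ c • Sum.inr (e₂ x)
      rw [he₂, Sum.smul_inr]) p F
  rw [f_permP_sum] at h
  linarith

end Main

end Units

end Fermat.Agent.S56.GEC.Equivariant.Dirichlet
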