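/-
S56 / GEC-D4 (B), consumer form (helper11): Dirichlet's unit theorem modulo `p` in the `mult`
vocabulary of `Equivariant/Mult.lean`, `Equivariant/MultTorsion.lean` (helper13).

For `C` finite with `p ∤ |C|`, acting on `L` through `φ : C →* Gal(L/K)`, `ρN` any finite-dimensional
`𝔽_p`-representation of `C`, `ρTE` any model of `E_{L,T}[p]` and `ρKE` any model of `E_{L,T}/p`:

  `mult N (E/p) + mult N 𝟙 = mult N (E[p]) + mult N 𝔽_p[X_∞] + mult N 𝔽_p[X_f]`,

and `E[p] ≅ ω̄` (the character through which `C` acts on `μ_p(L)`).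
-/
import Mathlib
import Fermat.Agent.S56.GEC.Equivariant.Dirichlet
import Fermat.Agent.S56.GEC.Equivariant.MultTorsion

set_option autoImplicit false
set_option linter.unusedSectionVars false
set_option linter.style.haveILetI false

noncomputable section

namespace Fermat.Agent.S56.GEC.Equivariant.DirichletMult

open Fermat.Agent.S56.GEC.Induction Fermat.Agent.S56.GEC.Equivariant.Mult
open Fermat.Agent.S56.GEC.Equivariant.MultTorsion Fermat.Agent.S56.GEC.Equivariant.Dirichlet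
open NumberField IsDedekindDomain HeightOneSpectrum NumberField.InfinitePlace
open Fermat.Agent.S55.SUnit Fermat.Agent.S55.SUnitGalois

section Bridges

variable {C : Type} [Group C] {p : ℕ} [Fact p.Prime]

/-- The trivial module `𝔽_p`: helper1's carrier vs helper13's. -/
def trivPEquiv :
    TrivP C p ≃ₗ[MonoidAlgebra ℤ C]
      (intRep (Representation.trivial (ZMod p) C (ZMod p))).asModule :=
  asModuleEquiv' (LinearEquiv.refl ℤ (ZMod p)) (fun _ _ => rfl)

/-- The permutation module `𝔽_p[X]`: helper1's carrier vs helper13's. -/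
def permPEquiv (X : Type) [MulAction C X] :
    PermP C X p ≃ₗ[MonoidAlgebra ℤ C] (intRep (Mult.permRep (ZMod p) C X)).asModule :=
  asModuleEquiv' (LinearEquiv.refl ℤ (X →₀ ZMod p)) (fun g v => by
    induction v using Finsupp.induction_linear with
    | zero => simp
    | add a b ha hb => rw [map_add, map_add, map_add, ha, hb, map_add]
    | single x n =>
      rw [LinearEquiv.refl_apply, LinearEquiv.refl_apply, Induction.permRep_single, intRep_apply,
        Mult.permRep_single])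

end Bridges

/-! ### `μ_p(L) = E_{L,T}[p] ≅ ω̄` -/

section Mu

variable (K : Type*) {L : Type} [Field K] [Field L] [NumberField K] [NumberField L] [Algebra K L]
variable (T : Finset (HeightOneSpectrum (𝓞 L))) [hT : IsGalStable K T] [IsGalois K L]
variable {C : Type} [Group C] (φ : C →* (L ≃ₐ[K] L))
variable {p : ℕ} [Fact p.Prime] {ζ : L} (hζ : IsPrimitiveRoot ζ p)

include hζ in
theorem valuation_zeta_eq_one (v : HeightOneSpectrum (𝓞 L)) : v.valuation L ζ = 1 := by
  have hp0 : p ≠ 0 := (Fact.out : p.Prime).ne_zero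
  have h1 : (v.valuation L ζ) ^ p = 1 := by rw [← map_pow, hζ.pow_eq_one, map_one]
  exact (pow_eq_one_iff_of_nonneg zero_le hp0).mp h1

/-- `ζ` as a `T`-unit. -/
def zetaT : TUnit L T :=
  ⟨(hζ.isUnit (Fact.out : p.Prime).ne_zero).unit, by
    rw [mem_TUnit_iff]
    intro v _
    exact valuation_zeta_eq_one hζ v⟩

theorem zetaT_coe : (((zetaT T hζ : TUnit L T) : Lˣ) : L) = ζ := rfl

theorem zetaT_pow : zetaT T hζ ^ p = 1 := by
  apply Subtype.ext
  apply Units.ext
  show (((zetaT T hζ : TUnit L T) : Lˣ) : L) ^ p = 1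
  rw [zetaT_coe, hζ.pow_eq_one]

/-- `a ↦ ζ ^ a`, `𝔽_p → E_{L,T}`. -/
def zetaHom : ZMod p →+ Additive (TUnit L T) :=
  ZMod.lift p ⟨zmultiplesHom (Additive (TUnit L T)) (Additive.ofMul (zetaT T hζ)), by
    rw [zmultiplesHom_apply, natCast_zsmul, ← ofMul_pow, zetaT_pow]; rfl⟩

theorem zetaHom_apply (a : ZMod p) :
    zetaHom T hζ a = Additive.ofMul (zetaT T hζ ^ a.val) := by
  haveI : NeZero p := ⟨(Fact.out : p.Prime).ne_zero⟩
  have ha : a = ((a.val : ℤ) : ZMod p) := by
    rw [Int.cast_natCast, ZMod.natCast_zmod_val]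
  conv_lhs => rw [ha]
  unfold zetaHom
  rw [ZMod.lift_coe]
  show zmultiplesHom (Additive (TUnit L T)) (Additive.ofMul (zetaT T hζ)) (a.val : ℤ) = _
  rw [zmultiplesHom_apply, natCast_zsmul, ← ofMul_pow]

theorem zetaHom_coe (a : ZMod p) :
    (((Additive.toMul (zetaHom T hζ a) : TUnit L T) : Lˣ) : L) = ζ ^ a.val := by
  rw [zetaHom_apply]
  rfl

/-- **`μ_p(L) ≅ ω̄`**: the character `χ` through which `C` acts on `ζ` is a model of the `p`-torsion
of the `T`-units. -/
theorem isTorsOf_unitRep_charRep (χ : C →* (ZMod p)ˣ)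
    (hχ : ∀ c : C, φ c ζ = ζ ^ ((χ c : (ZMod p)ˣ) : ZMod p).val) :
    IsTorsOf (unitRep K T φ) (Mult.charRep χ) (zetaHom T hζ) := by
  haveI : NeZero p := ⟨(Fact.out : p.Prime).ne_zero⟩
  have hcoe : ∀ x y : Additive (TUnit L T),
      (((Additive.toMul x : TUnit L T) : Lˣ) : L) = (((Additive.toMul y : TUnit L T) : Lˣ) : L) →
        x = y := fun x y h => congrArg Additive.ofMul (Subtype.ext (Units.ext h))
  refine ⟨?_, ?_, ?_⟩
  · rw [injective_iff_map_eq_zero]
    intro a ha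
    have h1 : ζ ^ a.val = 1 := by
      rw [← zetaHom_coe T hζ a, ha]; rfl
    have h2 := (hζ.pow_eq_one_iff_dvd _).1 h1
    have h3 : a.val = 0 := Nat.eq_zero_of_dvd_of_lt h2 (ZMod.val_lt a)
    exact (ZMod.val_eq_zero a).1 h3
  · intro q hq
    have h1 : (((Additive.toMul q : TUnit L T) : Lˣ) : L) ^ p = 1 := by
      have h2 : Additive.toMul (p • q) = (1 : TUnit L T) := by rw [hq]; rfl
      rw [toMul_nsmul] at h2
      have h3 := congrArg (fun u : TUnit L T => ((u : Lˣ) : L)) h2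
      exact h3
    obtain ⟨j, _, hj⟩ := hζ.eq_pow_of_pow_eq_one h1
    refine ⟨(j : ZMod p), ?_⟩
    apply hcoe
    rw [zetaHom_coe, ← hj, ZMod.val_natCast]
    exact (pow_eq_pow_mod j hζ.pow_eq_one).symm
  · intro c a
    apply hcoe
    rw [zetaHom_coe, Mult.charRep_apply, unitRep_apply]
    show _ = φ c (((Additive.toMul (zetaHom T hζ a) : TUnit L T) : Lˣ) : L)
    rw [zetaHom_coe, map_pow, hχ, ← pow_mul, ZMod.val_mul]
    exact (pow_eq_pow_mod _ hζ.pow_eq_one).symm

end Mu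

section Main

variable (K : Type*) {L : Type} [Field K] [Field L] [NumberField K] [NumberField L] [Algebra K L]
variable (T : Finset (HeightOneSpectrum (𝓞 L))) [hT : IsGalStable K T] [IsGalois K L]
variable {C : Type} [Group C] [Fintype C] (φ : C →* (L ≃ₐ[K] L))
variable {p : ℕ} [Fact p.Prime]
variable {N : Type*} [AddCommGroup N] [Module (ZMod p) N] [FiniteDimensional (ZMod p) N]
  (ρN : Representation (ZMod p) C N)

/-- **Dirichlet's unit theorem modulo `p`, in terms of multiplicities**: for arbitrary models `ρTE`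
of `E_{L,T}[p]` and `ρKE` of `E_{L,T}/p`,
`mult N (E/p) + mult N 𝟙 = mult N (E[p]) + mult N 𝔽_p[X_∞] + mult N 𝔽_p[X_f]`. -/
theorem mult_dirichlet (hC : ¬ p ∣ Fintype.card C)
    {TE KE : Type} [AddCommGroup TE] [Module (ZMod p) TE] [AddCommGroup KE] [Module (ZMod p) KE]
    {ρTE : Representation (ZMod p) C TE} {ρKE : Representation (ZMod p) C KE}
    {i : TE →+ Additive (TUnit L T)} {π : Additive (TUnit L T) →+ KE}
    (hTE : IsTorsOf (unitRep K T φ) ρTE i) (hKE : IsCotorsOf (unitRep K T φ) ρKE π)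
    {X₁ X₂ : Type} [MulAction C X₁] [MulAction C X₂]
    (e₁ : X₁ ≃ InfinitePlace L) (he₁ : ∀ (c : C) (x : X₁), e₁ (c • x) = φ c • e₁ x)
    (e₂ : X₂ ≃ T) (he₂ : ∀ (c : C) (x : X₂), e₂ (c • x) = φ c • e₂ x) :
    mult ρN ρKE + mult ρN (Representation.trivial (ZMod p) C (ZMod p)) =
      mult ρN ρTE + mult ρN (Mult.permRep (ZMod p) C X₁) + mult ρN (Mult.permRep (ZMod p) C X₂) := by
  haveI : NeZero p := ⟨(Fact.out : p.Prime).ne_zero⟩
  haveI : Finite X₁ := Finite.of_equiv _ e₁.symm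
  haveI : Finite X₂ := Finite.of_equiv _ e₂.symm
  have h := dirichlet_mod_p_split K T φ e₁ he₁ e₂ he₂ p (multInv hC ρN)
  haveI := finite_ker_pMul_unitMod K T φ p
  haveI : Finite (UnitMod K T φ ⧸
      LinearMap.range (pMul (MonoidAlgebra ℤ C) p (UnitMod K T φ))) :=
    finite_quot_pMul_unitMod K T φ (Equiv.sumCongr e₁ e₂) (fun c x => by
      rcases x with x | x
      · show Sum.inl (e₁ (c • x)) = φ c • Sum.inl (e₁ x)
        rw [he₁, Sum.smul_inl]
      · show Sum.inr (e₂ (c • x)) = φ c • Sum.inr (e₂ x)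
        rw [he₂, Sum.smul_inr]) p
  rw [(multInv hC ρN).iso hKE.equiv, (multInv hC ρN).iso hTE.equiv.symm,
    (multInv hC ρN).iso (trivPEquiv (C := C) (p := p)),
    (multInv hC ρN).iso (permPEquiv (p := p) X₁), (multInv hC ρN).iso (permPEquiv (p := p) X₂),
    multInv_f_asModule, multInv_f_asModule, multInv_f_asModule, multInv_f_asModule,
    multInv_f_asModule] at h
  exact_mod_cast h

/-- **(B) of the D4 blueprint, final form**: if `L ∋ ζ_p` and `C` acts on `ζ_p` through the character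
`χ` (`= ω̄`), then for every model `ρKE` of `E_{L,T}/p`:
`mult N (E/p) + mult N 𝟙 = mult N ω̄ + mult N 𝔽_p[X_∞] + mult N 𝔽_p[X_f]`. -/
theorem mult_dirichlet_zeta (hC : ¬ p ∣ Fintype.card C)
    {KE : Type} [AddCommGroup KE] [Module (ZMod p) KE]
    {ρKE : Representation (ZMod p) C KE} {π : Additive (TUnit L T) →+ KE}
    (hKE : IsCotorsOf (unitRep K T φ) ρKE π)
    {ζ : L} (hζ : IsPrimitiveRoot ζ p) (χ : C →* (ZMod p)ˣ)
    (hχ : ∀ c : C, φ c ζ = ζ ^ ((χ c : (ZMod p)ˣ) : ZMod p).val)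
    {X₁ X₂ : Type} [MulAction C X₁] [MulAction C X₂]
    (e₁ : X₁ ≃ InfinitePlace L) (he₁ : ∀ (c : C) (x : X₁), e₁ (c • x) = φ c • e₁ x)
    (e₂ : X₂ ≃ T) (he₂ : ∀ (c : C) (x : X₂), e₂ (c • x) = φ c • e₂ x) :
    mult ρN ρKE + mult ρN (Representation.trivial (ZMod p) C (ZMod p)) =
      mult ρN (Mult.charRep χ) + mult ρN (Mult.permRep (ZMod p) C X₁) +
        mult ρN (Mult.permRep (ZMod p) C X₂) :=
  mult_dirichlet K T φ ρN hC (isTorsOf_unitRep_charRep K T φ hζ χ hχ) hKE e₁ he₁ e₂ he₂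

end Main

end Fermat.Agent.S56.GEC.Equivariant.DirichletMult
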