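/-
S56 / [GEC-D4] leaf D4-A1, part 1 (helper29): the unit-side place dictionary, `Γ`-equivariantly.

For a number field `L ⊆ ℚ̄`, normal over `ℚ` and unramified outside `S`, with `U = G_L =
L.fixingSubgroup`:

* the `U`-invariants of `E_S = ESUnits S` are the `S`-units of `L`, i.e. Mathlib's / S55's
  `TUnit L (primesAbove L S)` (through `L ⊆ ℚ̄`), and the action of `τ ∈ Γ` on the invariants
  corresponds to `SUnitGalois.tunitMap ℚ _ (τ|_L)`;
* every element of `μ_p = muP S p` is `U`-invariant when `μ_p ⊆ L`, and `μ_p` is the `p`-torsion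
  of the `S`-units of `L`.

No cohomology in this file: the passage `H⁰(Γ, coindRes U A) ≃ A^U` is in `UnitsH0.lean`.
-/
import Mathlib
import Fermat.Agent.S55.GL.QSUnits
import Fermat.Agent.S55.GL.DivPackInst
import Fermat.Agent.S55.GL.KummerDim
import Fermat.Agent.S55.SUnitGalois

set_option autoImplicit false
set_option linter.style.haveILetI false
set_option linter.unusedSectionVars false

open IntermediateField NumberField IsDedekindDomain
open Fermat.Agent.S55.GL.QSMod Fermat.Agent.S55.GL.Kummer Fermat.Agent.S55.SUnit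
open Fermat.Agent.S55.SUnitGalois Fermat.Agent.S55.GL.KummerUnram

namespace Fermat.Agent.S56.GEC.Equivariant.UnitsInv

local notation "Qbar" => AlgebraicClosure ℚ
local notation "Γ" => (AlgebraicClosure ℚ ≃ₐ[ℚ] AlgebraicClosure ℚ)

/-! ### Invariants of a `Γ`-module under a subgroup -/

section Fixed

variable (A : Rep.{0} ℤ Γ) (U : Subgroup Γ)

/-- The additive subgroup of `U`-invariant elements of a `Γ`-module. -/
def fixedAddSubgroup : AddSubgroup A where
  carrier := {a | ∀ u ∈ U, A.ρ u a = a}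
  add_mem' {a b} ha hb u hu := by rw [map_add, ha u hu, hb u hu]
  zero_mem' u _ := map_zero _
  neg_mem' {a} ha u hu := by rw [map_neg, ha u hu]

variable {A U}

lemma mem_fixedAddSubgroup {a : A} : a ∈ fixedAddSubgroup A U ↔ ∀ u ∈ U, A.ρ u a = a := Iff.rfl

/-- For `U` normal, `Γ` preserves the `U`-invariants. -/
lemma ρ_mem_fixedAddSubgroup [hU : U.Normal] (τ : Γ) {a : A} (ha : a ∈ fixedAddSubgroup A U) :
    A.ρ τ a ∈ fixedAddSubgroup A U := by
  intro u hu
  have h1 : τ⁻¹ * u * τ ∈ U := by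
    have := hU.conj_mem u hu τ⁻¹
    rwa [inv_inv] at this
  have h2 : u * τ = τ * (τ⁻¹ * u * τ) := by group
  have h3 : A.ρ u (A.ρ τ a) = A.ρ (u * τ) a := by rw [map_mul]; rfl
  have h4 : A.ρ (τ * (τ⁻¹ * u * τ)) a = A.ρ τ (A.ρ (τ⁻¹ * u * τ) a) := by rw [map_mul]; rfl
  rw [h3, h2, h4, ha _ h1]

variable (A U)

/-- The action of `Γ` on the `U`-invariants (`U` normal). -/
noncomputable def fixedρ [U.Normal] (τ : Γ) : fixedAddSubgroup A U →+ fixedAddSubgroup A U where
  toFun a := ⟨A.ρ τ a.1, ρ_mem_fixedAddSubgroup τ a.2⟩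
  map_zero' := Subtype.ext (map_zero _)
  map_add' _ _ := Subtype.ext (map_add _ _ _)

@[simp] lemma coe_fixedρ [U.Normal] (τ : Γ) (a : fixedAddSubgroup A U) :
    ((fixedρ A U τ a : fixedAddSubgroup A U) : A) = A.ρ τ (a : A) := rfl

end Fixed

/-! ### `S`-units: `(E_S)^{G_L} = TUnit L (primesAbove L S)` -/

section Units

local instance isAlgClosureQbar_UnitsInv : IsAlgClosure ℚ (AlgebraicClosure ℚ) :=
  ⟨inferInstance, inferInstance⟩
local instance isGaloisQbar_UnitsInv : IsGalois ℚ (AlgebraicClosure ℚ) := inferInstance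

variable (S : Finset Nat.Primes) (L : IntermediateField ℚ Qbar) [NumberField L]

/-- The primes of `L` above `S` are stable under `Gal(L/ℚ)`. -/
instance isGalStable_primesAbove : IsGalStable ℚ (primesAbove L S) := by
  rw [primesAbove_eq_primesOver]
  infer_instance

/-- A `G_L`-invariant element of `E_S` has its value in `L`. -/
lemma val_mem_of_fixed {a : ESUnits S}
    (ha : a ∈ fixedAddSubgroup (ESUnits S) L.fixingSubgroup) : ESUnits.val S a ∈ L := by
  rw [← InfiniteGalois.fixedField_fixingSubgroup L, IntermediateField.mem_fixedField_iff]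
  intro u hu
  rw [← ESUnits.val_ρ, ha u hu]

/-- The unit of `L` underlying a `G_L`-invariant element of `E_S`. -/
noncomputable def unitOfFixed (a : fixedAddSubgroup (ESUnits S) L.fixingSubgroup) : (↥L)ˣ :=
  Units.mk0 ⟨ESUnits.val S a.1, val_mem_of_fixed S L a.2⟩ (by
    intro h
    exact QSUnits.val_ne_zero S _ (congrArg Subtype.val h))

lemma coe_unitOfFixed (a : fixedAddSubgroup (ESUnits S) L.fixingSubgroup) :
    (((unitOfFixed S L a : (↥L)ˣ) : L) : Qbar) = ESUnits.val S a.1 := rfl

lemma unitOfFixed_mem (a : fixedAddSubgroup (ESUnits S) L.fixingSubgroup) :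
    unitOfFixed S L a ∈ TUnit L (primesAbove L S) := by
  rw [Fermat.Agent.S55.GL.DivPackInst.mem_TUnit_primesAbove_iff]
  exact ESUnits.isSUnit_val S a.1

/-- `(E_S)^{G_L} ⟶ O_{L,S}ˣ`, `a ↦ val a`. -/
noncomputable def toTUnit :
    fixedAddSubgroup (ESUnits S) L.fixingSubgroup →+ Additive (TUnit L (primesAbove L S)) where
  toFun a := Additive.ofMul ⟨unitOfFixed S L a, unitOfFixed_mem S L a⟩
  map_zero' := by
    refine congrArg Additive.ofMul (Subtype.ext (Units.ext (Subtype.ext ?_)))
    exact ESUnits.val_zero S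
  map_add' a b := by
    refine congrArg Additive.ofMul (Subtype.ext (Units.ext (Subtype.ext ?_)))
    exact ESUnits.val_add S a.1 b.1

/-- The algebraic number underlying a `T`-unit of `L`. -/
def tval (x : Additive (TUnit L (primesAbove L S))) : Qbar :=
  ((((Additive.toMul x : TUnit L (primesAbove L S)) : (↥L)ˣ) : L) : Qbar)

lemma tval_injective : Function.Injective (tval S L) := by
  intro x y h
  exact congrArg Additive.ofMul (Subtype.ext (Units.ext (Subtype.ext h)))

lemma tval_toTUnit (a : fixedAddSubgroup (ESUnits S) L.fixingSubgroup) :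
    tval S L (toTUnit S L a) = ESUnits.val S a.1 := rfl

lemma toTUnit_injective : Function.Injective (toTUnit S L) := by
  intro a b h
  have := congrArg (tval S L) h
  rw [tval_toTUnit, tval_toTUnit] at this
  exact Subtype.ext (ESUnits.val_injective S this)

/-! #### The inverse -/

section Inverse

variable {S L} (hL : L.IsUnramifiedOutside S)

lemma tval_ne_zero (x : Additive (TUnit L (primesAbove L S))) : tval S L x ≠ 0 := by
  intro h
  have h1 : (((Additive.toMul x : TUnit L (primesAbove L S)) : (↥L)ˣ) : L) = 0 := Subtype.ext h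
  exact Units.ne_zero _ h1

lemma tval_mem (x : Additive (TUnit L (primesAbove L S))) : tval S L x ∈ L :=
  SetLike.coe_mem _

lemma isSUnit_tval (x : Additive (TUnit L (primesAbove L S))) : IsSUnit S (tval S L x) :=
  (Fermat.Agent.S55.GL.DivPackInst.mem_TUnit_primesAbove_iff L _).1 (Additive.toMul x).2

/-- The element of `E_S` attached to an `S`-unit of `L`. -/
noncomputable def ofTUnitAux (x : Additive (TUnit L (primesAbove L S))) : ESUnits S :=
  ESUnits.mk S (tval S L x) (tval_ne_zero x) hL (tval_mem x) (isSUnit_tval x)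

lemma val_ofTUnitAux (x : Additive (TUnit L (primesAbove L S))) :
    ESUnits.val S (ofTUnitAux hL x) = tval S L x := rfl

lemma ofTUnitAux_mem (x : Additive (TUnit L (primesAbove L S))) :
    ofTUnitAux hL x ∈ fixedAddSubgroup (ESUnits S) L.fixingSubgroup := by
  intro u hu
  apply ESUnits.val_injective
  rw [ESUnits.val_ρ, val_ofTUnitAux]
  exact (IntermediateField.mem_fixingSubgroup_iff L u).1 hu _ (tval_mem x)

include hL in
lemma toTUnit_surjective : Function.Surjective (toTUnit S L) := by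
  intro x
  refine ⟨⟨ofTUnitAux hL x, ofTUnitAux_mem hL x⟩, ?_⟩
  apply tval_injective
  rw [tval_toTUnit]
  rfl

/-- **(A.1), unit side.** `(E_S)^{G_L} ≃ O_{L,S}ˣ = TUnit L (primesAbove L S)`. -/
noncomputable def fixedEquivTUnit :
    fixedAddSubgroup (ESUnits S) L.fixingSubgroup ≃+ Additive (TUnit L (primesAbove L S)) :=
  AddEquiv.ofBijective (toTUnit S L) ⟨toTUnit_injective S L, toTUnit_surjective hL⟩

@[simp] lemma fixedEquivTUnit_apply (a : fixedAddSubgroup (ESUnits S) L.fixingSubgroup) :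
    fixedEquivTUnit hL a = toTUnit S L a := rfl

lemma tval_fixedEquivTUnit (a : fixedAddSubgroup (ESUnits S) L.fixingSubgroup) :
    tval S L (fixedEquivTUnit hL a) = ESUnits.val S a.1 := rfl

lemma val_fixedEquivTUnit_symm (x : Additive (TUnit L (primesAbove L S))) :
    ESUnits.val S ((fixedEquivTUnit hL).symm x).1 = tval S L x := by
  rw [← tval_fixedEquivTUnit hL, AddEquiv.apply_symm_apply]

end Inverse

/-! #### Equivariance -/

section Equivariance

variable [hn : Normal ℚ L]

local instance isGalois_L_UnitsInv : IsGalois ℚ L := ⟨⟩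

local instance normal_fixingSubgroup_UnitsInv : L.fixingSubgroup.Normal :=
  Fermat.Agent.S55.LevelGlobal.normal_fixingSubgroup hn

lemma tval_tunitsEnd (σ : L ≃ₐ[ℚ] L) (x : Additive (TUnit L (primesAbove L S))) (τ : Γ)
    (hτ : AlgEquiv.restrictNormalHom L τ = σ) :
    tval S L (tunitsEnd ℚ (primesAbove L S) σ x) = τ (tval S L x) := by
  subst hτ
  exact AlgEquiv.restrictNormal_commutes τ L _

/-- **Equivariance of (A.1)**: `τ ∈ Γ` on `(E_S)^{G_L}` is `tunitMap (τ|_L)` on the `S`-units. -/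
theorem toTUnit_fixedρ (τ : Γ) (a : fixedAddSubgroup (ESUnits S) L.fixingSubgroup) :
    toTUnit S L (fixedρ (ESUnits S) L.fixingSubgroup τ a) =
      tunitsEnd ℚ (primesAbove L S) (AlgEquiv.restrictNormalHom L τ) (toTUnit S L a) := by
  apply tval_injective
  rw [tval_tunitsEnd S L _ _ τ rfl, tval_toTUnit, tval_toTUnit, coe_fixedρ, ESUnits.val_ρ]

end Equivariance

/-! ### Roots of unity: `μ_p = (μ_p)^{G_L} = O_{L,S}ˣ[p]` when `μ_p ⊆ L` -/

section Mu

variable (p : ℕ)

lemma muP_val_nsmul (n : ℕ) (z : muP S p) : muP.val S p (n • z) = muP.val S p z ^ n := by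
  unfold muP.val
  rw [map_nsmul, ESUnits.val_nsmul]

lemma muP_val_zero : muP.val S p (0 : muP S p) = 1 := by
  unfold muP.val
  rw [map_zero, ESUnits.val_zero]

variable {L p} (hμ : ∀ ω : Qbar, ω ^ p = 1 → ω ∈ L)

include hμ in
/-- If `μ_p ⊆ L`, every element of `μ_p` is `G_L`-invariant. -/
lemma muP_mem_fixed (z : muP S p) : z ∈ fixedAddSubgroup (muP S p) L.fixingSubgroup := by
  intro u hu
  apply muP.val_injective
  rw [muP.val_ρ]
  exact (IntermediateField.mem_fixingSubgroup_iff L u).1 hu _ (hμ _ (muP.val_pow S p z))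

include hμ in
lemma muPι_mem_fixed (z : muP S p) :
    (muPι S p).hom z ∈ fixedAddSubgroup (ESUnits S) L.fixingSubgroup := by
  intro u hu
  rw [← Rep.hom_comm_apply, muP_mem_fixed S hμ z u hu]

/-- `μ_p ⟶ (E_S)^{G_L}` (for `μ_p ⊆ L`). -/
noncomputable def muToFixed : muP S p →+ fixedAddSubgroup (ESUnits S) L.fixingSubgroup where
  toFun z := ⟨(muPι S p).hom z, muPι_mem_fixed S hμ z⟩
  map_zero' := Subtype.ext (map_zero _)
  map_add' _ _ := Subtype.ext (map_add _ _ _)

/-- `μ_p ⟶ O_{L,S}ˣ` (for `μ_p ⊆ L`). -/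
noncomputable def muToTUnit : muP S p →+ Additive (TUnit L (primesAbove L S)) :=
  (toTUnit S L).comp (muToFixed S hμ)

lemma tval_muToTUnit (z : muP S p) : tval S L (muToTUnit S hμ z) = muP.val S p z := rfl

lemma muToTUnit_injective : Function.Injective (muToTUnit S hμ) := by
  intro z w h
  have := congrArg (tval S L) h
  rw [tval_muToTUnit, tval_muToTUnit] at this
  exact muP.val_injective S p this

lemma tval_nsmul (n : ℕ) (x : Additive (TUnit L (primesAbove L S))) :
    tval S L (n • x) = tval S L x ^ n := by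
  induction n with
  | zero => rw [zero_smul, pow_zero]; rfl
  | succ n ih => rw [succ_nsmul, pow_succ, ← ih]; rfl

lemma tval_zero : tval S L (0 : Additive (TUnit L (primesAbove L S))) = 1 := rfl

lemma nsmul_muToTUnit (z : muP S p) : p • muToTUnit S hμ z = 0 := by
  apply tval_injective
  rw [tval_nsmul, tval_muToTUnit, muP.val_pow, tval_zero]

/-- **`μ_p` is the `p`-torsion of the `S`-units of `L`** (`p ∈ S`, `μ_p ⊆ L`). -/
theorem exists_muToTUnit_eq_iff {hp : p.Prime} (hpS : (⟨p, hp⟩ : Nat.Primes) ∈ S)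
    (x : Additive (TUnit L (primesAbove L S))) :
    (∃ z : muP S p, muToTUnit S hμ z = x) ↔ p • x = 0 := by
  constructor
  · rintro ⟨z, rfl⟩
    exact nsmul_muToTUnit S hμ z
  · intro hx
    have h1 : tval S L x ^ p = 1 := by rw [← tval_nsmul, hx, tval_zero]
    obtain ⟨z, hz⟩ := muP.exists_val_eq S hp hpS h1
    refine ⟨z, ?_⟩
    apply tval_injective
    rw [tval_muToTUnit, hz]

/-- The `p`-torsion subgroup of the `S`-units of `L`. -/
noncomputable def torsionP (S : Finset Nat.Primes) (L : IntermediateField ℚ Qbar) [NumberField L] (p : ℕ) :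
    AddSubgroup (Additive (TUnit L (primesAbove L S))) :=
  (nsmulAddMonoidHom p : Additive (TUnit L (primesAbove L S)) →+ _).ker

lemma mem_torsionP {x : Additive (TUnit L (primesAbove L S))} :
    x ∈ torsionP S L p ↔ p • x = 0 := Iff.rfl

/-- **`μ_p ≃ O_{L,S}ˣ[p]`** (`p ∈ S`, `μ_p ⊆ L`). -/
noncomputable def muEquivTorsion {hp : p.Prime} (hpS : (⟨p, hp⟩ : Nat.Primes) ∈ S) :
    muP S p ≃+ torsionP S L p :=
  AddEquiv.ofBijective
    ((muToTUnit S hμ).codRestrict (torsionP S L p) (nsmul_muToTUnit S hμ))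
    ⟨fun z w h => muToTUnit_injective S hμ (congrArg Subtype.val h), fun x => by
      obtain ⟨z, hz⟩ := (exists_muToTUnit_eq_iff S hμ hpS x.1).2 x.2
      exact ⟨z, Subtype.ext hz⟩⟩

lemma coe_muEquivTorsion {hp : p.Prime} (hpS : (⟨p, hp⟩ : Nat.Primes) ∈ S) (z : muP S p) :
    ((muEquivTorsion S hμ hpS z : torsionP S L p) : Additive (TUnit L (primesAbove L S))) =
      muToTUnit S hμ z := rfl

end Mu

section MuEquivariance

variable {L} {p : ℕ} (hμ : ∀ ω : Qbar, ω ^ p = 1 → ω ∈ L) [hn : Normal ℚ L]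

local instance isGalois_L_UnitsInv' : IsGalois ℚ L := ⟨⟩

local instance normal_fixingSubgroup_UnitsInv' : L.fixingSubgroup.Normal :=
  Fermat.Agent.S55.LevelGlobal.normal_fixingSubgroup hn

/-- `μ_p ⟶ O_{L,S}ˣ` is `Γ`-equivariant. -/
theorem muToTUnit_ρ (τ : Γ) (z : muP S p) :
    muToTUnit S hμ ((muP S p).ρ τ z) =
      tunitsEnd ℚ (primesAbove L S) (AlgEquiv.restrictNormalHom L τ) (muToTUnit S hμ z) := by
  apply tval_injective
  rw [tval_tunitsEnd S L _ _ τ rfl, tval_muToTUnit, tval_muToTUnit, muP.val_ρ]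

/-- `Γ` acts on `μ_p` through the mod `p` cyclotomic character. -/
theorem muP_ρ_eq_nsmul [Fact p.Prime] (τ : Γ) (z : muP S p) :
    (muP S p).ρ τ z = ((ExtCitation.cycloChar p τ : (ZMod p)ˣ) : ZMod p).val • z := by
  apply muP.val_injective
  rw [muP.val_ρ, muP_val_nsmul]
  exact Fermat.Agent.S55.DualTwist.cycloChar_spec p τ (muP.val_pow S p z)

/-- `Gal(L/ℚ)` acts on `O_{L,S}ˣ[p]` through the mod `p` cyclotomic character. -/
theorem tunitsEnd_eq_nsmul_of_torsion [Fact p.Prime] (τ : Γ)
    {x : Additive (TUnit L (primesAbove L S))} (hx : p • x = 0) :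
    tunitsEnd ℚ (primesAbove L S) (AlgEquiv.restrictNormalHom L τ) x =
      ((ExtCitation.cycloChar p τ : (ZMod p)ˣ) : ZMod p).val • x := by
  apply tval_injective
  rw [tval_tunitsEnd S L _ _ τ rfl, tval_nsmul]
  have h1 : tval S L x ^ p = 1 := by rw [← tval_nsmul, hx, tval_zero]
  exact Fermat.Agent.S55.DualTwist.cycloChar_spec p τ h1

end MuEquivariance

end Units

end Fermat.Agent.S56.GEC.Equivariant.UnitsInv
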