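/-
S56 / GEC-D4 (B), instance (helper11): Dirichlet mod `p` for a good field `L ⊂ ℚ̄` and the finite group
`C = V / G_L` (`G_L ≤ V ≤ Γ`), in the setting of `Equivariant/Twist.lean`, `RegularRep.lean`.

* `phiV L V : C →* Gal(L/ℚ)` (restriction), `omegaV hζ hζL V : C →* 𝔽_pˣ` (the descent of `cycloChar p`);
* `C` acts on `InfinitePlace L` and on `primesAbove L S` through `phiV`;
* `mult_dirichlet_good`: for every model `ρKE` of `E_L/p` (`E_L = TUnit L (primesAbove L S)`):
  `mult N (E_L/p) + mult N 𝟙 = mult N ω̄ + mult N 𝔽_p[InfinitePlace L] + mult N 𝔽_p[primesAbove L S]`.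
-/
import Mathlib
import Fermat.Agent.S56.GEC.Equivariant.DirichletMult
import Fermat.Agent.S56.GEC.Equivariant.Arch
import Fermat.Agent.S56.GEC.Equivariant.UnitsInv
import Fermat.Agent.S55.DualTwist

set_option autoImplicit false
set_option linter.unusedSectionVars false
set_option linter.style.haveILetI false

noncomputable section

namespace Fermat.Agent.S56.GEC.Equivariant.DirichletInst

open IntermediateField NumberField IsDedekindDomain NumberField.InfinitePlace
open Fermat.Agent.S55.GL.Kummer Fermat.Agent.S55.SUnit Fermat.Agent.S55.SUnitGalois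
open Fermat.Agent.S56.GEC.Equivariant.Mult Fermat.Agent.S56.GEC.Equivariant.MultTorsion
open Fermat.Agent.S56.GEC.Equivariant.Dirichlet Fermat.Agent.S56.GEC.Equivariant.DirichletMult
open Fermat.Agent.S56.GEC.Equivariant.Arch Fermat.Agent.S56.GEC.Equivariant.UnitsInv

local notation "Qbar" => AlgebraicClosure ℚ
local notation "Γ" => (AlgebraicClosure ℚ ≃ₐ[ℚ] AlgebraicClosure ℚ)

variable (L : IntermediateField ℚ Qbar) [Normal ℚ L] (V : Subgroup Γ)

/-- `G_L` is normal in `Γ`. -/
instance fixingSubgroup_normal : (L.fixingSubgroup).Normal := by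
  rw [← ker_resL L]; infer_instance

/-- The restriction `C = V / G_L → Gal(L/ℚ)`. -/
def phiV : ↥V ⧸ (L.fixingSubgroup).subgroupOf V →* (L ≃ₐ[ℚ] L) :=
  QuotientGroup.lift _ ((resL L).comp V.subtype) (fun v hv =>
    (resL_eq_one_iff L (v : Γ)).2 (Subgroup.mem_subgroupOf.1 hv))

theorem phiV_mk (v : V) : phiV L V (QuotientGroup.mk v) = resL L (v : Γ) := rfl

variable {p : ℕ} [hpF : Fact p.Prime] {ζ : Qbar} (hζ : IsPrimitiveRoot ζ p) (hζL : ζ ∈ L)

include hζ hζL in
theorem cycloChar_eq_one_of_mem {u : Γ} (hu : u ∈ L.fixingSubgroup) :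
    ExtCitation.cycloChar p u = 1 := by
  rw [Fermat.Agent.S55.DualTwist.cycloChar_eq_one_iff p u hζ]
  exact (IntermediateField.mem_fixingSubgroup_iff L u).1 hu ζ hζL

/-- `ω̄ : C → 𝔽_pˣ`, the descent of the mod `p` cyclotomic character. -/
def omegaV : ↥V ⧸ (L.fixingSubgroup).subgroupOf V →* (ZMod p)ˣ :=
  QuotientGroup.lift _ ((ExtCitation.cycloChar p).comp V.subtype) (fun _ hv =>
    cycloChar_eq_one_of_mem L hζ hζL (Subgroup.mem_subgroupOf.1 hv))

theorem omegaV_mk (v : V) :
    omegaV L V hζ hζL (QuotientGroup.mk v) = ExtCitation.cycloChar p (v : Γ) := rfl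

/-! ### The instance of Dirichlet mod `p` -/

variable (S : Finset Nat.Primes) [NumberField L]

/-- `C = V / G_L` acts on the archimedean places of `L` through `Gal(L/ℚ)`. -/
@[reducible] def actInf : MulAction (↥V ⧸ (L.fixingSubgroup).subgroupOf V) (InfinitePlace L) :=
  MulAction.compHom _ (phiV L V)

/-- `C = V / G_L` acts on the primes of `L` above `S` through `Gal(L/ℚ)`. -/
@[reducible] def actFin :
    MulAction (↥V ⧸ (L.fixingSubgroup).subgroupOf V) ↥(primesAbove L S) :=
  MulAction.compHom _ (phiV L V)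

variable (p) in
/-- `𝔽_p[InfinitePlace L]` as a representation of `C`. -/
def permInf :
    Representation (ZMod p) (↥V ⧸ (L.fixingSubgroup).subgroupOf V) (InfinitePlace L →₀ ZMod p) :=
  letI := actInf L V
  Mult.permRep (ZMod p) _ (InfinitePlace L)

variable (p) in
/-- `𝔽_p[primesAbove L S]` as a representation of `C`. -/
def permFin :
    Representation (ZMod p) (↥V ⧸ (L.fixingSubgroup).subgroupOf V)
      (↥(primesAbove L S) →₀ ZMod p) :=
  letI := actFin L V S
  Mult.permRep (ZMod p) _ ↥(primesAbove L S)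

theorem permInf_single (c : ↥V ⧸ (L.fixingSubgroup).subgroupOf V) (w : InfinitePlace L)
    (r : ZMod p) :
    permInf L V p c (Finsupp.single w r) = Finsupp.single (phiV L V c • w) r := by
  letI := actInf L V
  exact Mult.permRep_single (k := ZMod p) c w r

theorem permFin_single (c : ↥V ⧸ (L.fixingSubgroup).subgroupOf V) (w : ↥(primesAbove L S))
    (r : ZMod p) :
    permFin L V p S c (Finsupp.single w r) = Finsupp.single (phiV L V c • w) r := by
  letI := actFin L V S
  exact Mult.permRep_single (k := ZMod p) c w r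

/-- The action of `C` on `E_L` is the one of `SUnitGalois.tunitsEnd` through restriction to `L`. -/
theorem unitRep_phiV_mk (v : V) (x : Additive (TUnit L (primesAbove L S))) :
    unitRep ℚ (primesAbove L S) (phiV L V) (QuotientGroup.mk v) x =
      tunitsEnd ℚ (primesAbove L S) (AlgEquiv.restrictNormalHom L (v : Γ)) x := rfl

/-- `ζ` as an element of `L`. -/
def zetaL : L := ⟨ζ, hζL⟩

include hζ in
theorem isPrimitiveRoot_zetaL : IsPrimitiveRoot (zetaL L hζL) p :=
  IsPrimitiveRoot.of_map_of_injective (f := algebraMap L Qbar) hζ (algebraMap L Qbar).injective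

include hζ in
theorem phiV_zetaL (c : ↥V ⧸ (L.fixingSubgroup).subgroupOf V) :
    phiV L V c (zetaL L hζL) =
      zetaL L hζL ^ ((omegaV L V hζ hζL c : (ZMod p)ˣ) : ZMod p).val := by
  induction c using QuotientGroup.induction_on with | H v =>
  rw [phiV_mk, omegaV_mk]
  apply Subtype.ext
  rw [coe_resL_apply]
  show (v : Γ) ζ = ((zetaL L hζL ^ _ : L) : Qbar)
  rw [SubmonoidClass.coe_pow]
  exact Fermat.Agent.S55.DualTwist.cycloChar_spec p (v : Γ) hζ.pow_eq_one

variable [Fintype (↥V ⧸ (L.fixingSubgroup).subgroupOf V)]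
variable {N : Type*} [AddCommGroup N] [Module (ZMod p) N] [FiniteDimensional (ZMod p) N]
  (ρN : Representation (ZMod p) (↥V ⧸ (L.fixingSubgroup).subgroupOf V) N)

include hζ in
/-- **(B) for a good field `L` and `C = V / G_L`**: for every model `ρKE` of `E_L/p`,
`mult N (E_L/p) + mult N 𝟙 = mult N ω̄ + mult N 𝔽_p[InfinitePlace L] + mult N 𝔽_p[primesAbove L S]`. -/
theorem mult_dirichlet_good
    (hC : ¬ p ∣ Fintype.card (↥V ⧸ (L.fixingSubgroup).subgroupOf V))
    {KE : Type} [AddCommGroup KE] [Module (ZMod p) KE]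
    {ρKE : Representation (ZMod p) (↥V ⧸ (L.fixingSubgroup).subgroupOf V) KE}
    {π : Additive (TUnit L (primesAbove L S)) →+ KE}
    (hKE : IsCotorsOf (unitRep ℚ (primesAbove L S) (phiV L V)) ρKE π) :
    Mult.mult ρN ρKE + Mult.mult ρN (Representation.trivial (ZMod p)
        (↥V ⧸ (L.fixingSubgroup).subgroupOf V) (ZMod p)) =
      Mult.mult ρN (Mult.charRep (omegaV L V hζ hζL)) + Mult.mult ρN (permInf L V p) +
        Mult.mult ρN (permFin L V p S) := by
  letI := actInf L V
  letI := actFin L V S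
  exact mult_dirichlet_zeta ℚ (primesAbove L S) (phiV L V) ρN hC hKE
    (isPrimitiveRoot_zetaL L hζ hζL) (omegaV L V hζ hζL) (phiV_zetaL L V hζ hζL)
    (Equiv.refl _) (fun _ _ => rfl) (Equiv.refl _) (fun _ _ => rfl)

end Fermat.Agent.S56.GEC.Equivariant.DirichletInst
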