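/-
S56 / GEC-D4 (helper21): complements to helper11's `GEC/Regular.lean` on the commuting action
`L_τ = leftTr U A τ` of `G` on `I(A) = coind_U^G res_U A` (`U` normal):

* naturality of `L_τ` in `A` for the canonical coinduced morphisms `I(φ)`, compatibility with the
  unit `A ⟶ I(A)` and with multiples of the identity;
* the induced action `cohRep` on level cohomology commutes with the maps `Hⁿ(I φ)`, with the
  connecting homomorphisms of coinduced short exact sequences, and with the localisation maps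
  `locH`; the kernel and the range of `locH` are stable, with induced representations;
* `H⁰(G, I(A)) ≃ A^U` by evaluation at `1`, intertwining `L_τ` with `A.ρ τ`.

Everything is generic in `(G, 𝒰, U)`.
-/
import Fermat.Agent.S56.GEC.Regular
import Fermat.Agent.S56.GEC.RegularTensor
import Fermat.Agent.S55.ConeFunct
import Fermat.Agent.S55.LevelDelta
import Fermat.Agent.S55.LevelShapiro
import Fermat.Agent.S55.CF.LowDegree

set_option autoImplicit false
set_option linter.unusedSectionVars false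
set_option linter.unusedVariables false

open CategoryTheory

namespace Fermat.Agent.S56.GEC.Equivariant.CoindAct

open Fermat.Agent.S55.Level Fermat.Agent.S55.CF Fermat.Agent.S55.Devissage
  Fermat.Agent.S55.Cone Fermat.Agent.S56.GEC.Regular

universe u

variable {k G : Type u} [CommRing k] [Group G]

/-! ### Naturality of `L_τ` in the coefficients -/

section Natural

variable (U : Subgroup G) [hU : U.Normal] {A B : Rep.{u} k G}

/-- The canonical coinduced morphism `I(φ) : I(A) ⟶ I(B)`, `f ↦ φ ∘ f`. -/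
noncomputable abbrev coindResHom (φ : A ⟶ B) : coindRes U A ⟶ coindRes U B :=
  Rep.coindMap U.subtype ((Rep.resFunctor U.subtype).map φ)

lemma coindResHom_apply (φ : A ⟶ B) (f : coindRes U A) (x : G) :
    ((coindResHom U φ).hom f).1 x = φ.hom (f.1 x) := rfl

lemma coindResHom_id : coindResHom U (𝟙 A) = 𝟙 (coindRes U A) := by
  refine Rep.hom_ext (Representation.IntertwiningMap.ext (LinearMap.ext fun f =>
    Subtype.ext (funext fun x => ?_)))
  rfl

lemma coindResHom_comp {C : Rep.{u} k G} (φ : A ⟶ B) (ψ : B ⟶ C) :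
    coindResHom U (φ ≫ ψ) = coindResHom U φ ≫ coindResHom U ψ := by
  refine Rep.hom_ext (Representation.IntertwiningMap.ext (LinearMap.ext fun f =>
    Subtype.ext (funext fun x => ?_)))
  rfl

/-- **`L_τ` is natural in the coefficients.** -/
theorem coindResHom_leftTr (φ : A ⟶ B) (τ : G) :
    coindResHom U φ ≫ leftTr U B τ = leftTr U A τ ≫ coindResHom U φ := by
  refine Rep.hom_ext (Representation.IntertwiningMap.ext (LinearMap.ext fun f =>
    Subtype.ext (funext fun x => ?_)))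
  show B.ρ τ (φ.hom (f.1 (τ⁻¹ * x))) = φ.hom (A.ρ τ (f.1 (τ⁻¹ * x)))
  exact (Rep.hom_comm_apply φ τ _).symm

/-- `L_τ` commutes with the unit `A ⟶ I(A)`, `a ↦ (x ↦ x • a)`. -/
theorem unitCoind_leftTr (A : Rep.{u} k G) (τ : G) :
    unitCoind U A ≫ leftTr U A τ = unitCoind U A := by
  refine Rep.hom_ext (Representation.IntertwiningMap.ext (LinearMap.ext fun a =>
    Subtype.ext (funext fun x => ?_)))
  show A.ρ τ (A.ρ (τ⁻¹ * x) a) = A.ρ x a
  rw [← Module.End.mul_apply, ← map_mul, mul_inv_cancel_left]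

/-- `L_τ` commutes with multiplication by a natural number. -/
theorem nsmul_id_leftTr (A : Rep.{u} k G) (m : ℕ) (τ : G) :
    (m • 𝟙 (coindRes U A)) ≫ leftTr U A τ = leftTr U A τ ≫ (m • 𝟙 (coindRes U A)) := by
  rw [Preadditive.nsmul_comp, Preadditive.comp_nsmul, Category.id_comp, Category.comp_id]

/-- `L_τ` commutes with multiplication by a scalar. -/
theorem smul_id_leftTr (A : Rep.{u} k G) (c : k) (τ : G) :
    (c • 𝟙 (coindRes U A)) ≫ leftTr U A τ = leftTr U A τ ≫ (c • 𝟙 (coindRes U A)) := by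
  rw [Linear.smul_comp, Linear.comp_smul, Category.id_comp, Category.comp_id]

/-- `L_τ` is invertible, with inverse `L_{τ⁻¹}`. -/
theorem leftTr_inv_comp (A : Rep.{u} k G) (τ : G) :
    leftTr U A τ⁻¹ ≫ leftTr U A τ = 𝟙 _ := by
  rw [← leftTr_mul, mul_inv_cancel, leftTr_one]

theorem leftTr_comp_inv (A : Rep.{u} k G) (τ : G) :
    leftTr U A τ ≫ leftTr U A τ⁻¹ = 𝟙 _ := by
  rw [← leftTr_mul, inv_mul_cancel, leftTr_one]

/-- `L_τ` as an automorphism of `I(A)`. -/
noncomputable def leftTrIso (A : Rep.{u} k G) (τ : G) : coindRes U A ≅ coindRes U A where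
  hom := leftTr U A τ
  inv := leftTr U A τ⁻¹
  hom_inv_id := leftTr_comp_inv U A τ
  inv_hom_id := leftTr_inv_comp U A τ

end Natural

/-! ### The action on level cohomology -/

section Coh

variable (𝒰 : LevelStructure G) (U : Subgroup G) [hU : U.Normal] [IsOpenSub 𝒰 U]
  {A B : Rep.{u} k G} [IsDiscrete 𝒰 A] [IsDiscrete 𝒰 B]

/-- The maps `Hⁿ(I φ)` are equivariant for the actions `cohRep`. -/
theorem Hmap_coindResHom_cohRep (φ : A ⟶ B) (n : ℕ) (τ : G)
    (x : levelCohomology 𝒰 (coindRes U A) n) :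
    (Hmap 𝒰 (coindResHom U φ) n).hom (cohRep U A 𝒰 n τ x) =
      cohRep U B 𝒰 n τ ((Hmap 𝒰 (coindResHom U φ) n).hom x) := by
  rw [cohRep_apply, cohRep_apply, ← Hmap_comp_apply, ← Hmap_comp_apply, coindResHom_leftTr]

/-- Any morphism `ψ : I(A) ⟶ I(B)` commuting with `L_τ` induces an equivariant map. -/
theorem Hmap_cohRep_of_comm (ψ : coindRes U A ⟶ coindRes U B) (τ : G)
    (h : ψ ≫ leftTr U B τ = leftTr U A τ ≫ ψ) (n : ℕ)
    (x : levelCohomology 𝒰 (coindRes U A) n) :
    (Hmap 𝒰 ψ n).hom (cohRep U A 𝒰 n τ x) = cohRep U B 𝒰 n τ ((Hmap 𝒰 ψ n).hom x) := by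
  rw [cohRep_apply, cohRep_apply, ← Hmap_comp_apply, ← Hmap_comp_apply, h]

end Coh

/-! ### Connecting homomorphisms -/

section Delta

variable (𝒰 : LevelStructure G)

/-- **Connecting homomorphisms commute with endomorphisms of the short exact sequence.** -/
theorem levelδ_endo {X : ShortComplex (Rep.{u} k G)} [IsDiscrete 𝒰 X.X₁] [IsDiscrete 𝒰 X.X₂]
    [IsDiscrete 𝒰 X.X₃] (hX : X.ShortExact) (φ₁ : X.X₁ ⟶ X.X₁) (φ₂ : X.X₂ ⟶ X.X₂)
    (φ₃ : X.X₃ ⟶ X.X₃) (h₁₂ : X.f ≫ φ₂ = φ₁ ≫ X.f) (h₂₃ : X.g ≫ φ₃ = φ₂ ≫ X.g)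
    (i j : ℕ) (hij : i + 1 = j) :
    levelδ 𝒰 hX i j hij ≫ Hmap 𝒰 φ₁ j = Hmap 𝒰 φ₃ i ≫ levelδ 𝒰 hX i j hij :=
  levelδ_naturality (𝒰 := 𝒰) (𝒱 := 𝒰) (X := X) (X' := X) (MonoidHom.id G) 𝒰.refines_id hX hX
    φ₁ φ₂ φ₃
    (fun a => (congrArg (fun ψ : X.X₁ ⟶ X.X₂ => ψ.hom a) h₁₂))
    (fun a => (congrArg (fun ψ : X.X₂ ⟶ X.X₃ => ψ.hom a) h₂₃)) i j hij

theorem levelδ_endo_apply {X : ShortComplex (Rep.{u} k G)} [IsDiscrete 𝒰 X.X₁]
    [IsDiscrete 𝒰 X.X₂] [IsDiscrete 𝒰 X.X₃] (hX : X.ShortExact) (φ₁ : X.X₁ ⟶ X.X₁)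
    (φ₂ : X.X₂ ⟶ X.X₂) (φ₃ : X.X₃ ⟶ X.X₃) (h₁₂ : X.f ≫ φ₂ = φ₁ ≫ X.f)
    (h₂₃ : X.g ≫ φ₃ = φ₂ ≫ X.g) (i j : ℕ) (hij : i + 1 = j) (x : levelCohomology 𝒰 X.X₃ i) :
    (Hmap 𝒰 φ₁ j).hom ((levelδ 𝒰 hX i j hij).hom x) =
      (levelδ 𝒰 hX i j hij).hom ((Hmap 𝒰 φ₃ i).hom x) :=
  congrArg (fun ψ : levelCohomology 𝒰 X.X₃ i ⟶ levelCohomology 𝒰 X.X₁ j => ψ.hom x)
    (levelδ_endo 𝒰 hX φ₁ φ₂ φ₃ h₁₂ h₂₃ i j hij)

end Delta

/-! ### Coinduced short exact sequences -/

section CoindSeq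

variable (U : Subgroup G) (X : ShortComplex (Rep.{u} k G))

/-- The coinduced short complex `I(X) : I(X₁) ⟶ I(X₂) ⟶ I(X₃)`. -/
noncomputable abbrev coindResSeq : ShortComplex (Rep.{u} k G) :=
  (X.map (Rep.resFunctor U.subtype)).map (Rep.coindFunctor.{u} k U.subtype)

lemma coindResSeq_f : (coindResSeq U X).f = coindResHom U X.f := rfl

lemma coindResSeq_g : (coindResSeq U X).g = coindResHom U X.g := rfl

variable {X}

/-- `I(-)` is exact. -/
theorem coindResSeq_shortExact (hX : X.ShortExact) : (coindResSeq U X).ShortExact :=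
  Fermat.Agent.S55.GC.Shapiro.coind_shortExact U ((Rep.shortExact_res U.subtype).2 hX)

variable (X) (𝒰 : LevelStructure G)

instance isDiscrete_coindResSeq_X₁ [h : IsDiscrete 𝒰 (coindRes U X.X₁)] :
    IsDiscrete 𝒰 (coindResSeq U X).X₁ := h

instance isDiscrete_coindResSeq_X₂ [h : IsDiscrete 𝒰 (coindRes U X.X₂)] :
    IsDiscrete 𝒰 (coindResSeq U X).X₂ := h

instance isDiscrete_coindResSeq_X₃ [h : IsDiscrete 𝒰 (coindRes U X.X₃)] :
    IsDiscrete 𝒰 (coindResSeq U X).X₃ := h

variable {X} [hU : U.Normal] [IsOpenSub 𝒰 U] [IsDiscrete 𝒰 X.X₁] [IsDiscrete 𝒰 X.X₂]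
  [IsDiscrete 𝒰 X.X₃]

/-- **The connecting homomorphisms of a coinduced short exact sequence are equivariant** for the
actions `cohRep` of `G`. -/
theorem levelδ_cohRep (hI : (coindResSeq U X).ShortExact) (i j : ℕ) (hij : i + 1 = j) (τ : G)
    (x : levelCohomology 𝒰 (coindRes U X.X₃) i) :
    (levelδ 𝒰 hI i j hij).hom (cohRep U X.X₃ 𝒰 i τ x) =
      cohRep U X.X₁ 𝒰 j τ ((levelδ 𝒰 hI i j hij).hom x) :=
  (levelδ_endo_apply 𝒰 hI (leftTr U X.X₁ τ) (leftTr U X.X₂ τ) (leftTr U X.X₃ τ)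
    (coindResHom_leftTr U X.f τ) (coindResHom_leftTr U X.g τ) i j hij x).symm

/-- The maps of the long exact sequence of a coinduced short complex are equivariant. -/
theorem Hmap_coindResSeq_f_cohRep (n : ℕ) (τ : G) (x : levelCohomology 𝒰 (coindRes U X.X₁) n) :
    (Hmap 𝒰 (coindResSeq U X).f n).hom (cohRep U X.X₁ 𝒰 n τ x) =
      cohRep U X.X₂ 𝒰 n τ ((Hmap 𝒰 (coindResSeq U X).f n).hom x) :=
  Hmap_coindResHom_cohRep 𝒰 U X.f n τ x

theorem Hmap_coindResSeq_g_cohRep (n : ℕ) (τ : G) (x : levelCohomology 𝒰 (coindRes U X.X₂) n) :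
    (Hmap 𝒰 (coindResSeq U X).g n).hom (cohRep U X.X₂ 𝒰 n τ x) =
      cohRep U X.X₃ 𝒰 n τ ((Hmap 𝒰 (coindResSeq U X).g n).hom x) :=
  Hmap_coindResHom_cohRep 𝒰 U X.g n τ x

end CoindSeq

/-! ### Localisation -/

section LocFunct

variable {𝒰 : LevelStructure G} (D : LocalData.{u} 𝒰) {A B C : Rep.{u} k G} [IsDiscrete 𝒰 A]
  [IsDiscrete 𝒰 B] [IsDiscrete 𝒰 C]

theorem locHMap_id (n : ℕ) : locHMap D (𝟙 A) n = LinearMap.id := by
  refine LinearMap.ext fun y => funext fun v => ?_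
  rw [locHMap_apply, CategoryTheory.Functor.map_id, Hmap_id]
  rfl

theorem locHMap_comp (φ : A ⟶ B) (ψ : B ⟶ C) (n : ℕ) :
    locHMap D (φ ≫ ψ) n = locHMap D ψ n ∘ₗ locHMap D φ n := by
  refine LinearMap.ext fun y => funext fun v => ?_
  rw [LinearMap.comp_apply, locHMap_apply, locHMap_apply, locHMap_apply,
    CategoryTheory.Functor.map_comp, Hmap_comp_apply]

theorem locHMap_comp_apply (φ : A ⟶ B) (ψ : B ⟶ C) (n : ℕ)
    (y : ∀ v, levelCohomology (D.𝒱 v) (Rep.res (D.r v) A) n) :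
    locHMap D (φ ≫ ψ) n y = locHMap D ψ n (locHMap D φ n y) := by
  rw [locHMap_comp]; rfl

end LocFunct

section Loc

variable {𝒰 : LevelStructure G} (D : LocalData.{u} 𝒰) (U : Subgroup G) [hU : U.Normal]
  [IsOpenSub 𝒰 U] (A : Rep.{u} k G) [IsDiscrete 𝒰 A]

/-- The restriction of `I(A)` to a local group is discrete (instance in the explicit form, so
that it is found for `coindRes`). -/
instance isDiscrete_res_coindRes (v : D.ι) :
    IsDiscrete (D.𝒱 v) (Rep.res (D.r v) (coindRes U A)) :=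
  D.isDiscrete_res (coindRes U A) v

/-- **The action of `G` on the product of the local cohomology groups** of `I(A)`, by
functoriality in the coefficients. -/
noncomputable def locRep (n : ℕ) :
    Representation k G (∀ v, levelCohomology (D.𝒱 v) (Rep.res (D.r v) (coindRes U A)) n) where
  toFun τ := locHMap D (leftTr U A τ) n
  map_one' := by rw [leftTr_one, locHMap_id]; rfl
  map_mul' σ τ := by rw [leftTr_mul, locHMap_comp]; rfl

lemma locRep_apply (n : ℕ) (τ : G)
    (y : ∀ v, levelCohomology (D.𝒱 v) (Rep.res (D.r v) (coindRes U A)) n) :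
    locRep D U A n τ y = locHMap D (leftTr U A τ) n y := rfl

lemma locRep_of_mem (n : ℕ) {u : G} (hu : u ∈ U) : locRep D U A n u = 1 := by
  ext y
  rw [locRep_apply, leftTr_of_mem U A hu, locHMap_id]
  rfl

/-- **The localisation map is equivariant.** -/
theorem locH_cohRep (n : ℕ) (τ : G) (x : levelCohomology 𝒰 (coindRes U A) n) :
    locH D (coindRes U A) n (cohRep U A 𝒰 n τ x) =
      locRep D U A n τ (locH D (coindRes U A) n x) := by
  rw [cohRep_apply, locH_Hmap, locRep_apply]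

/-- The kernel of the localisation map is stable. -/
theorem cohRep_mem_ker_locH (n : ℕ) (τ : G) {x : levelCohomology 𝒰 (coindRes U A) n}
    (hx : x ∈ LinearMap.ker (locH D (coindRes U A) n)) :
    cohRep U A 𝒰 n τ x ∈ LinearMap.ker (locH D (coindRes U A) n) := by
  rw [LinearMap.mem_ker] at hx ⊢
  rw [locH_cohRep, hx, map_zero]

/-- The range of the localisation map is stable. -/
theorem locRep_mem_range_locH (n : ℕ) (τ : G)
    {y : ∀ v, levelCohomology (D.𝒱 v) (Rep.res (D.r v) (coindRes U A)) n}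
    (hy : y ∈ LinearMap.range (locH D (coindRes U A) n)) :
    locRep D U A n τ y ∈ LinearMap.range (locH D (coindRes U A) n) := by
  obtain ⟨x, rfl⟩ := hy
  exact ⟨cohRep U A 𝒰 n τ x, locH_cohRep D U A n τ x⟩

/-- **The action of `G` on `Шⁿ(I A) = ker (locH)`.** -/
noncomputable def shaRep (n : ℕ) :
    Representation k G (LinearMap.ker (locH D (coindRes U A) n)) where
  toFun τ := (cohRep U A 𝒰 n τ).restrict fun x hx => cohRep_mem_ker_locH D U A n τ hx
  map_one' := by
    ext x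
    show (cohRep U A 𝒰 n 1) x.1 = x.1
    rw [map_one]; rfl
  map_mul' σ τ := by
    ext x
    show (cohRep U A 𝒰 n (σ * τ)) x.1 = (cohRep U A 𝒰 n σ) ((cohRep U A 𝒰 n τ) x.1)
    rw [map_mul]; rfl

lemma shaRep_apply_coe (n : ℕ) (τ : G) (x : LinearMap.ker (locH D (coindRes U A) n)) :
    ((shaRep D U A n τ x : LinearMap.ker (locH D (coindRes U A) n)) :
      levelCohomology 𝒰 (coindRes U A) n) = cohRep U A 𝒰 n τ x.1 := rfl

/-- **The action of `G` on the image of the localisation map.** -/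
noncomputable def imLocRep (n : ℕ) :
    Representation k G (LinearMap.range (locH D (coindRes U A) n)) where
  toFun τ := (locRep D U A n τ).restrict fun y hy => locRep_mem_range_locH D U A n τ hy
  map_one' := by
    ext y : 2
    show (locRep D U A n 1) y.1 = y.1
    rw [map_one]; rfl
  map_mul' σ τ := by
    ext y : 2
    show (locRep D U A n (σ * τ)) y.1 = (locRep D U A n σ) ((locRep D U A n τ) y.1)
    rw [map_mul]; rfl

lemma imLocRep_apply_coe (n : ℕ) (τ : G) (y : LinearMap.range (locH D (coindRes U A) n)) :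
    ((imLocRep D U A n τ y : LinearMap.range (locH D (coindRes U A) n)) :
      ∀ v, levelCohomology (D.𝒱 v) (Rep.res (D.r v) (coindRes U A)) n) =
      locRep D U A n τ y.1 := rfl

/-- The corestriction `Hⁿ(I A) → range (locH)` of the localisation map is equivariant. -/
theorem rangeRestrict_locH_cohRep (n : ℕ) (τ : G) (x : levelCohomology 𝒰 (coindRes U A) n) :
    (locH D (coindRes U A) n).rangeRestrict (cohRep U A 𝒰 n τ x) =
      imLocRep D U A n τ ((locH D (coindRes U A) n).rangeRestrict x) :=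
  Subtype.ext (locH_cohRep D U A n τ x)

variable {A} {B : Rep.{u} k G} [IsDiscrete 𝒰 B]

/-- The maps induced by `I(φ)` on the products of the local cohomology groups are equivariant. -/
theorem locHMap_coindResHom_locRep (φ : A ⟶ B) (n : ℕ) (τ : G)
    (y : ∀ v, levelCohomology (D.𝒱 v) (Rep.res (D.r v) (coindRes U A)) n) :
    locHMap D (coindResHom U φ) n (locRep D U A n τ y) =
      locRep D U B n τ (locHMap D (coindResHom U φ) n y) := by
  rw [locRep_apply, locRep_apply, ← locHMap_comp_apply, ← locHMap_comp_apply,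
    coindResHom_leftTr]

/-- Any morphism `ψ : I(A) ⟶ I(B)` commuting with `L_τ` induces an equivariant map on the products
of the local cohomology groups. -/
theorem locHMap_locRep_of_comm (ψ : coindRes U A ⟶ coindRes U B) (τ : G)
    (h : ψ ≫ leftTr U B τ = leftTr U A τ ≫ ψ) (n : ℕ)
    (y : ∀ v, levelCohomology (D.𝒱 v) (Rep.res (D.r v) (coindRes U A)) n) :
    locHMap D ψ n (locRep D U A n τ y) = locRep D U B n τ (locHMap D ψ n y) := by
  rw [locRep_apply, locRep_apply, ← locHMap_comp_apply, ← locHMap_comp_apply, h]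

end Loc

/-! ### Degree `0`: `H⁰(G, I(A)) = A^U` -/

section H0

variable (U : Subgroup G) [hU : U.Normal] (A : Rep.{u} k G)

/-- The submodule `A^U` of `U`-invariant vectors. -/
def invU : Submodule k A where
  carrier := {a | ∀ u ∈ U, A.ρ u a = a}
  add_mem' ha hb u hu := by rw [map_add, ha u hu, hb u hu]
  zero_mem' u _ := map_zero _
  smul_mem' c a ha u hu := by rw [map_smul, ha u hu]

lemma mem_invU_iff (a : A) : a ∈ invU U A ↔ ∀ u ∈ U, A.ρ u a = a := Iff.rfl

/-- `A^U` is stable under `G` (`U` is normal). -/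
lemma ρ_mem_invU (τ : G) {a : A} (ha : a ∈ invU U A) : A.ρ τ a ∈ invU U A := by
  intro u hu
  have hconj : τ⁻¹ * u * τ ∈ U := by
    have := hU.conj_mem u hu τ⁻¹
    simpa using this
  have h1 : u * τ = τ * (τ⁻¹ * u * τ) := by group
  rw [← Module.End.mul_apply, ← map_mul, h1, map_mul, Module.End.mul_apply, ha _ hconj]

/-- **The representation of `G` (through `G ⧸ U`) on `A^U`.** -/
noncomputable def invURep : Representation k G (invU U A) where
  toFun τ := (A.ρ τ).restrict fun a ha => ρ_mem_invU U A τ ha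
  map_one' := by
    ext a
    show A.ρ 1 a.1 = a.1
    rw [map_one]; rfl
  map_mul' σ τ := by
    ext a
    show A.ρ (σ * τ) a.1 = A.ρ σ (A.ρ τ a.1)
    rw [map_mul]; rfl

lemma invURep_apply_coe (τ : G) (a : invU U A) :
    ((invURep U A τ a : invU U A) : A) = A.ρ τ a.1 := rfl

lemma invURep_of_mem {u : G} (hu : u ∈ U) : invURep U A u = 1 := by
  ext a
  exact a.2 u hu

/-- The value at `1` of a `G`-invariant element of `I(A)` is `U`-invariant. -/
lemma eval_one_mem_invU (f : (coindRes U A).ρ.invariants) : f.1.1 1 ∈ invU U A := by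
  intro u hu
  have h1 := coindRes_apply_mul A f.1 u hu 1
  have h2 : ((coindRes U A).ρ u f.1).1 1 = f.1.1 1 := by rw [f.2 u]
  rw [coindRes_ρ_apply, one_mul] at h2
  rw [mul_one] at h1
  rw [← h1, h2]

/-- A `G`-invariant element of `I(A)` is a constant function. -/
lemma invariants_apply (f : (coindRes U A).ρ.invariants) (x : G) : f.1.1 x = f.1.1 1 := by
  have h2 : ((coindRes U A).ρ x f.1).1 1 = f.1.1 1 := by rw [f.2 x]
  rw [coindRes_ρ_apply, one_mul] at h2
  exact h2

/-- The constant function with value `a ∈ A^U`, as a `G`-invariant element of `I(A)`. -/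
noncomputable def constInv (a : invU U A) : (coindRes U A).ρ.invariants :=
  ⟨⟨fun _ => a.1, fun u _ => (a.2 u.1 u.2).symm⟩, fun _ => rfl⟩

lemma constInv_apply (a : invU U A) (x : G) : (constInv U A a).1.1 x = a.1 := rfl

/-- **`I(A)^G ≃ A^U`**, `f ↦ f 1`. -/
noncomputable def invEquiv : (coindRes U A).ρ.invariants ≃ₗ[k] invU U A where
  toFun f := ⟨f.1.1 1, eval_one_mem_invU U A f⟩
  map_add' _ _ := rfl
  map_smul' _ _ := rfl
  invFun := constInv U A
  left_inv f := Subtype.ext (Subtype.ext (funext fun x => (invariants_apply U A f x).symm))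
  right_inv _ := rfl

lemma invEquiv_apply_coe (f : (coindRes U A).ρ.invariants) :
    ((invEquiv U A f : invU U A) : A) = f.1.1 1 := rfl

lemma invEquiv_symm_apply (a : invU U A) : (invEquiv U A).symm a = constInv U A a := rfl

variable (𝒰 : LevelStructure G) [IsOpenSub 𝒰 U] [IsDiscrete 𝒰 A]

/-- **`H⁰(G, I(A)) ≃ A^U`**, the class of the invariant function `f` going to `f 1`. -/
noncomputable def H0Equiv : levelCohomology 𝒰 (coindRes U A) 0 ≃ₗ[k] invU U A :=
  (levelH0Equiv 𝒰 (coindRes U A)).symm ≪≫ₗ invEquiv U A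

lemma H0Equiv_levelH0π (f : (coindRes U A).ρ.invariants) :
    H0Equiv U A 𝒰 (levelH0π 𝒰 (coindRes U A) f) = invEquiv U A f := by
  show invEquiv U A ((levelH0Equiv 𝒰 (coindRes U A)).symm (levelH0π 𝒰 (coindRes U A) f)) = _
  rw [← levelH0Equiv_apply, LinearEquiv.symm_apply_apply]

lemma H0Equiv_symm_apply (a : invU U A) :
    (H0Equiv U A 𝒰).symm a = levelH0π 𝒰 (coindRes U A) (constInv U A a) := rfl

/-- **`H⁰(G, I(A)) ≃ A^U` intertwines `L_τ` with `A.ρ τ`.** -/
theorem H0Equiv_cohRep (τ : G) (x : levelCohomology 𝒰 (coindRes U A) 0) :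
    H0Equiv U A 𝒰 (cohRep U A 𝒰 0 τ x) = invURep U A τ (H0Equiv U A 𝒰 x) := by
  obtain ⟨f, rfl⟩ := (levelH0Equiv 𝒰 (coindRes U A)).surjective x
  rw [levelH0Equiv_apply, H0Equiv_levelH0π, cohRep_apply]
  have hf : (leftTr U A τ).hom f.1 =
      (constInv U A (invURep U A τ (invEquiv U A f))).1 := by
    refine Subtype.ext (funext fun x => ?_)
    show A.ρ τ (f.1.1 (τ⁻¹ * x)) = A.ρ τ (f.1.1 1)
    rw [invariants_apply U A f]
  rw [Hmap_levelH0π 𝒰 (leftTr U A τ) f _ hf, H0Equiv_levelH0π]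
  rfl

variable {A} {B : Rep.{u} k G} [IsDiscrete 𝒰 B]

/-- `H⁰(G, I(A)) ≃ A^U` is natural in `A`. -/
theorem H0Equiv_Hmap_coe (φ : A ⟶ B) (x : levelCohomology 𝒰 (coindRes U A) 0) :
    ((H0Equiv U B 𝒰 ((Hmap 𝒰 (coindResHom U φ) 0).hom x) : invU U B) : B) =
      φ.hom ((H0Equiv U A 𝒰 x : invU U A) : A) := by
  obtain ⟨f, rfl⟩ := (levelH0Equiv 𝒰 (coindRes U A)).surjective x
  rw [levelH0Equiv_apply, H0Equiv_levelH0π]
  have hmem : (coindResHom U φ).hom f.1 ∈ (coindRes U B).ρ.invariants := by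
    intro g
    rw [← Rep.hom_comm_apply, f.2 g]
  rw [Hmap_levelH0π 𝒰 (coindResHom U φ) f ⟨_, hmem⟩ rfl, H0Equiv_levelH0π]
  rfl

end H0

end Fermat.Agent.S56.GEC.Equivariant.CoindAct
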