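/-
S56 / GEC-D4 / G0, part 3 (helper13): glue lemmas in the `mult` vocabulary.

* `mult_dual_right` : `mult N W^* = mult N^* W`.
* `mult_annihilator` ((C)-shape): for a perfect `C`-invariant pairing `B : X × Y → k`, an equivariant
  injection `j : W → X` and an equivariant injection `i : Z → Y` whose image is the annihilator of `j W`:
  `mult N Z + mult N^* W = mult N^* X`.
* `mult_of_kummer_exact` ((A)-shape): `ℤ`-representations `D⁰`, `D¹`, an `𝔽_p`-representation `B¹`, equivariant
  additive maps `κ : D⁰ → B¹`, `j : B¹ → D¹` with `ker κ = pD⁰`, `range κ = ker j`, `range j = D¹[p]`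
  (the Kummer sequence `D⁰ →p D⁰ →κ B¹ →j D¹ →p D¹`): `mult N B¹ = mult N (D⁰/p) + mult N (D¹[p])`
  for arbitrary models of `D⁰/p` and `D¹[p]`.
* `isCotorsOf_of_range` : for `π : Q → K'` equivariant with `ker π = pQ` and an equivariant injection
  `i : Z → K'` with `range i = range π`, `Z` is a model of `Q/pQ`.
-/
import Mathlib
import Fermat.Agent.S56.GEC.Equivariant.Mult
import Fermat.Agent.S56.GEC.Equivariant.MultTorsion

set_option autoImplicit false
set_option linter.unusedSectionVars false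
set_option linter.style.haveILetI false

namespace Fermat.Agent.S56.GEC.Equivariant.MultGlue

open Module Fermat.Agent.S56.GEC.Equivariant.Mult Fermat.Agent.S56.GEC.Equivariant.MultTorsion

section Annihilator

variable {k : Type*} [Field k] {C : Type*} [Group C] [Fintype C]
variable {N X Y W Z : Type*} [AddCommGroup N] [Module k N] [AddCommGroup X] [Module k X]
  [AddCommGroup Y] [Module k Y] [AddCommGroup W] [Module k W] [AddCommGroup Z] [Module k Z]

/-- `mult N W^* = mult N^* W` -/
theorem mult_dual_right [FiniteDimensional k N] [FiniteDimensional k W]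
    (hC : (Fintype.card C : k) ≠ 0) (ρN : Representation k C N) (ρW : Representation k C W) :
    mult ρN ρW.dual = mult ρN.dual ρW := by
  rw [← mult_dual_dual_left ρN ρW.dual, mult_dual_dual hC ρN.dual ρW]

/-- **(C)-shape**: the annihilator of an equivariant subspace under a perfect invariant pairing. -/
theorem mult_annihilator [FiniteDimensional k N] [FiniteDimensional k X] [FiniteDimensional k Y]
    [FiniteDimensional k W] (hC : (Fintype.card C : k) ≠ 0) (ρN : Representation k C N)
    (ρX : Representation k C X) (ρY : Representation k C Y) (ρW : Representation k C W)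
    (ρZ : Representation k C Z) (B : X →ₗ[k] Y →ₗ[k] k)
    (hB : ∀ c x y, B (ρX c x) (ρY c y) = B x y)
    (hperf : Function.Bijective (B.flip : Y →ₗ[k] X →ₗ[k] k))
    (j : W →ₗ[k] X) (hj : Function.Injective j) (hje : ∀ c w, j (ρW c w) = ρX c (j w))
    (i : Z →ₗ[k] Y) (hi : Function.Injective i) (hie : ∀ c z, i (ρZ c z) = ρY c (i z))
    (hZ : ∀ y, (∃ z, i z = y) ↔ ∀ w, B (j w) y = 0) :
    mult ρN ρZ + mult ρN.dual ρW = mult ρN.dual ρX := by
  -- `r : Y → W^*`, `y ↦ B (j ·) y`
  let r : Y →ₗ[k] Module.Dual k W := (Module.Dual.transpose (R := k) j) ∘ₗ B.flip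
  have hr : ∀ y w, r y w = B (j w) y := fun y w => rfl
  have hre : ∀ c y, r (ρY c y) = ρW.dual c (r y) := by
    intro c y
    ext w
    rw [hr, dual_apply_apply, hr, hje]
    have := hB c (ρX c⁻¹ (j w)) y
    rw [← this]
    congr 2
    simp
  have hrs : Function.Surjective r := by
    intro φ
    obtain ⟨g, hg⟩ := LinearMap.exists_leftInverse_of_injective j (LinearMap.ker_eq_bot.2 hj)
    obtain ⟨y, hy⟩ := hperf.2 (φ ∘ₗ g)
    refine ⟨y, ?_⟩
    ext w
    rw [hr]
    have h1 := congrArg (fun ψ : X →ₗ[k] k => ψ (j w)) hy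
    simp only [LinearMap.flip_apply, LinearMap.comp_apply] at h1
    rw [h1]
    have h2 := congrArg (fun ψ : W →ₗ[k] W => ψ w) hg
    simp only [LinearMap.comp_apply, LinearMap.id_apply] at h2
    rw [h2]
  have hex : Function.Exact i r := by
    intro y
    constructor
    · intro h
      exact (hZ y).2 (fun w => by rw [← hr, h]; rfl)
    · intro h
      ext w
      rw [hr]
      exact (hZ y).1 h w
  have h1 := mult_add_of_exact hC ρN ρZ ρY ρW.dual i r hie hre hi hrs hex
  rw [mult_of_perfect_pairing hC ρN ρX ρY B hB hperf, mult_dual_right hC ρN ρW] at h1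
  exact h1.symm

end Annihilator

section Kummer

variable {C : Type} [Group C] {p : ℕ} [Fact p.Prime]
variable {N : Type*} [AddCommGroup N] [Module (ZMod p) N]

/-- a model of `Q/pQ` from the range of an equivariant map `π : Q → K'` with kernel `pQ` -/
theorem isCotorsOf_of_range {Q : Type} [AddCommGroup Q] [Module ℤ Q] (ρQ : Representation ℤ C Q)
    {K' : Type*} [AddCommGroup K'] [Module (ZMod p) K'] (ρK' : Representation (ZMod p) C K')
    (π : Q →+ K') (hπe : ∀ c q, π (ρQ c q) = ρK' c (π q)) (hπk : ∀ q, π q = 0 → ∃ q', p • q' = q)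
    {Z : Type*} [AddCommGroup Z] [Module (ZMod p) Z] (ρZ : Representation (ZMod p) C Z)
    (i : Z →+ K') (hi : Function.Injective i) (hie : ∀ c z, i (ρZ c z) = ρK' c (i z))
    (hr : ∀ x, (∃ z, i z = x) ↔ ∃ q, π q = x) :
    ∃ π' : Q →+ Z, (∀ q, i (π' q) = π q) ∧ IsCotorsOf ρQ ρZ π' := by
  have hex : ∀ q, ∃ z, i z = π q := fun q => (hr _).2 ⟨q, rfl⟩
  choose f hf using hex
  let π' : Q →+ Z :=
    { toFun := f
      map_zero' := hi (by rw [hf, map_zero, map_zero])
      map_add' := fun a b => hi (by rw [hf, map_add, map_add, hf, hf]) }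
  refine ⟨π', hf, ⟨?_, ?_, ?_⟩⟩
  · intro z
    obtain ⟨q, hq⟩ := (hr (i z)).1 ⟨z, rfl⟩
    exact ⟨q, hi (by rw [← hq]; exact hf q)⟩
  · intro q hq
    apply hπk
    have : i (π' q) = π q := hf q
    rw [← this, hq, map_zero]
  · intro c q
    apply hi
    have h1 : i (π' (ρQ c q)) = π (ρQ c q) := hf _
    have h2 : i (π' q) = π q := hf q
    rw [h1, hie, h2, hπe]

/-- **(A)-shape**: from the Kummer sequence `D⁰ →p D⁰ →κ B¹ →j D¹ →p D¹`:
`mult N B¹ = mult N (D⁰/p) + mult N (D¹[p])`, for arbitrary models of `D⁰/p` and `D¹[p]`. -/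
theorem mult_of_kummer_exact [Fintype C] (hC : ¬ p ∣ Fintype.card C)
    [FiniteDimensional (ZMod p) N] (ρN : Representation (ZMod p) C N)
    {D0 D1 : Type} [AddCommGroup D0] [Module ℤ D0] [AddCommGroup D1] [Module ℤ D1]
    {ρD0 : Representation ℤ C D0} {ρD1 : Representation ℤ C D1}
    {B1 : Type*} [AddCommGroup B1] [Module (ZMod p) B1] [FiniteDimensional (ZMod p) B1]
    (ρB1 : Representation (ZMod p) C B1)
    (κ : D0 →+ B1) (j : B1 →+ D1) (hκe : ∀ c d, κ (ρD0 c d) = ρB1 c (κ d))
    (hje : ∀ c b, j (ρB1 c b) = ρD1 c (j b))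
    (hκ : ∀ d, κ d = 0 → ∃ d', p • d' = d) (hjκ : ∀ d, j (κ d) = 0)
    (hex : ∀ b, j b = 0 → ∃ d, κ d = b) (hj : ∀ d, p • d = 0 → ∃ b, j b = d)
    {K T : Type*} [AddCommGroup K] [Module (ZMod p) K] [AddCommGroup T] [Module (ZMod p) T]
    {ρK : Representation (ZMod p) C K} {ρT : Representation (ZMod p) C T}
    {π : D0 →+ K} {i : T →+ D1} (hK : IsCotorsOf ρD0 ρK π) (hT : IsTorsOf ρD1 ρT i) :
    mult ρN ρB1 = mult ρN ρK + mult ρN ρT := by
  -- `f : K → B¹`
  have hκp : ∀ d, κ (p • d) = 0 := fun d => by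
    rw [map_nsmul]; exact nsmul_eq_zero_of_zmod (p := p) _
  have hwd : ∀ d d', π d = π d' → κ d = κ d' := by
    intro d d' h
    have h0 : π (d - d') = 0 := by rw [map_sub, h, sub_self]
    obtain ⟨e, he⟩ := hK.ker _ h0
    have : κ (d - d') = 0 := by rw [← he]; exact hκp e
    rwa [map_sub, sub_eq_zero] at this
  choose σ hσ using hK.surj
  let f : K →+ B1 :=
    { toFun := fun x => κ (σ x)
      map_zero' := by
        have := hwd (σ 0) 0 (by rw [hσ, map_zero])
        rw [this, map_zero]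
      map_add' := fun a b => by
        have := hwd (σ (a + b)) (σ a + σ b) (by rw [hσ, map_add, hσ, hσ])
        rw [this, map_add] }
  have hfπ : ∀ d, f (π d) = κ d := fun d => hwd _ _ (hσ _)
  have hfi : Function.Injective f := by
    intro a b hab
    obtain ⟨da, rfl⟩ := hK.surj a
    obtain ⟨db, rfl⟩ := hK.surj b
    rw [hfπ, hfπ] at hab
    have h0 : κ (da - db) = 0 := by rw [map_sub, hab, sub_self]
    obtain ⟨e, he⟩ := hκ _ h0
    have : π (da - db) = 0 := by
      rw [← he, map_nsmul]; exact nsmul_eq_zero_of_zmod (p := p) _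
    rwa [map_sub, sub_eq_zero] at this
  have hfe : ∀ c x, f (ρK c x) = ρB1 c (f x) := by
    intro c x
    obtain ⟨d, rfl⟩ := hK.surj x
    rw [← hK.comm, hfπ, hfπ, hκe]
  -- `g : B¹ → T`
  have hjp : ∀ b, p • j b = 0 := fun b => by
    rw [← map_nsmul, nsmul_eq_zero_of_zmod (p := p) b, map_zero]
  choose τ hτ using fun b => hT.surj (j b) (hjp b)
  let g : B1 →+ T :=
    { toFun := τ
      map_zero' := hT.inj (by rw [hτ, map_zero, map_zero])
      map_add' := fun a b => hT.inj (by rw [hτ, map_add, map_add, hτ, hτ]) }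
  have hgi : ∀ b, i (g b) = j b := hτ
  have hgs : Function.Surjective g := by
    intro t
    obtain ⟨b, hb⟩ := hj (i t) (by
      rw [← map_nsmul, nsmul_eq_zero_of_zmod (p := p) t, map_zero])
    exact ⟨b, hT.inj (by rw [hgi, hb])⟩
  have hge : ∀ c b, g (ρB1 c b) = ρT c (g b) := by
    intro c b
    apply hT.inj
    rw [hgi, hT.comm, hgi, hje]
  have hfg : Function.Exact f g := by
    intro b
    constructor
    · intro h
      have h0 : j b = 0 := by rw [← hgi, h, map_zero]
      obtain ⟨d, hd⟩ := hex b h0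
      exact ⟨π d, by rw [hfπ, hd]⟩
    · rintro ⟨x, rfl⟩
      obtain ⟨d, rfl⟩ := hK.surj x
      apply hT.inj
      rw [hgi, hfπ, hjκ, map_zero]
  exact mult_add_of_exact (card_ne_zero_of_not_dvd hC) ρN ρK ρB1 ρT (f.toZModLinearMap p)
    (g.toZModLinearMap p) hfe hge hfi hgs hfg

end Kummer

end Fermat.Agent.S56.GEC.Equivariant.MultGlue
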