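/-
S56, [GEC-D4] (`moonshots` row 52), plumbing for D4-A / D4-Main (helper25).

* `pull U s ρ h : Representation R C X` — a representation `ρ` of `G`, trivial on the normal
  subgroup `U`, as a representation of a group `C` mapping to `G ⧸ U` (`s : C →* G ⧸ U`; e.g.
  `C = ↥V ⧸ U.subgroupOf V` for `U ≤ V`, or a subgroup of `G ⧸ U`); `pullChar U s χ h` for characters;
  `pull_apply_of_eq`, `exists_eq_mk`;
* transfer of equivariance: `pull_comm` (plain), `pull_comm_twist_right`, `pull_comm_twist_left`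
  (`χ`-twisted, in helper13's `Mult.twist` vocabulary), `pull_restrict` (invariant subobjects);
* `torsModel p Q`, `torsModelRep ρQ`, `isTorsOf_torsModel`: the canonical model of `Q[p]` for
  helper13's `MultTorsion.IsTorsOf`; `cotorsOfRange`-free.
-/
import Mathlib
import Fermat.Agent.S56.GEC.Equivariant.Mult
import Fermat.Agent.S56.GEC.Equivariant.MultTorsion

set_option autoImplicit false
set_option linter.unusedSectionVars false
set_option linter.unusedVariables false

namespace Fermat.Agent.S56.GEC.Equivariant.Pull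

open Fermat.Agent.S56.GEC.Equivariant.Mult Fermat.Agent.S56.GEC.Equivariant.MultTorsion

section Descend

variable {G : Type*} [Group G] (U : Subgroup G) [hU : U.Normal] {C : Type*} [Group C]
  (s : C →* G ⧸ U)

/-- Every element of `C` lies over some element of `G`. -/
lemma exists_eq_mk (c : C) : ∃ τ : G, s c = (τ : G ⧸ U) := by
  obtain ⟨τ, hτ⟩ := QuotientGroup.mk_surjective (s c)
  exact ⟨τ, hτ.symm⟩

/-- A homomorphism out of `G`, trivial on `U`, as a homomorphism out of `C`. -/
def pullHom {M : Type*} [Monoid M] (χ : G →* M) (h : ∀ u ∈ U, χ u = 1) : C →* M :=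
  (QuotientGroup.lift U χ h).comp s

lemma pullHom_apply_of_eq {M : Type*} [Monoid M] (χ : G →* M) (h : ∀ u ∈ U, χ u = 1) {c : C}
    {τ : G} (hc : s c = (τ : G ⧸ U)) : pullHom U s χ h c = χ τ := by
  show QuotientGroup.lift U χ h (s c) = χ τ
  rw [hc]
  rfl

variable {R : Type*} [CommSemiring R] {X : Type*} [AddCommMonoid X] [Module R X]

/-- A representation of `G`, trivial on `U`, as a representation of `C`. -/
def pull (ρ : Representation R G X) (h : ∀ u ∈ U, ρ u = 1) : Representation R C X :=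
  pullHom U s ρ h

lemma pull_apply_of_eq (ρ : Representation R G X) (h : ∀ u ∈ U, ρ u = 1) {c : C} {τ : G}
    (hc : s c = (τ : G ⧸ U)) : pull U s ρ h c = ρ τ :=
  pullHom_apply_of_eq U s ρ h hc

/-- Transfer of equivariance from `G` to `C`. -/
lemma pull_comm {R' : Type*} [CommSemiring R'] {Y : Type*} [AddCommMonoid Y] [Module R' Y]
    (ρX : Representation R G X) (hX : ∀ u ∈ U, ρX u = 1) (ρY : Representation R' G Y)
    (hY : ∀ u ∈ U, ρY u = 1) (f : X → Y) (hf : ∀ τ x, f (ρX τ x) = ρY τ (f x)) (c : C) (x : X) :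
    f (pull U s ρX hX c x) = pull U s ρY hY c (f x) := by
  obtain ⟨τ, hτ⟩ := exists_eq_mk U s c
  rw [pull_apply_of_eq U s ρX hX hτ, pull_apply_of_eq U s ρY hY hτ, hf]

/-- Invariants: an element fixed by `G` is fixed by `C`. -/
lemma pull_apply_of_fixed (ρ : Representation R G X) (h : ∀ u ∈ U, ρ u = 1) {x : X}
    (hx : ∀ τ, ρ τ x = x) (c : C) : pull U s ρ h c x = x := by
  obtain ⟨τ, hτ⟩ := exists_eq_mk U s c
  rw [pull_apply_of_eq U s ρ h hτ, hx]

end Descend

section Twisted

variable {G : Type*} [Group G] (U : Subgroup G) [hU : U.Normal] {C : Type*} [Group C]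
  (s : C →* G ⧸ U) {k : Type*} [Field k] (χ : G →* kˣ) (hχ : ∀ u ∈ U, χ u = 1)

/-- Transfer of a `χ`-twisted equivariance, twist on the target. -/
lemma pull_comm_twist_right {R : Type*} [CommSemiring R] {X : Type*} [AddCommMonoid X] [Module R X]
    {Y : Type*} [AddCommGroup Y] [Module k Y]
    (ρX : Representation R G X) (hX : ∀ u ∈ U, ρX u = 1) (ρY : Representation k G Y)
    (hY : ∀ u ∈ U, ρY u = 1) (f : X → Y)
    (hf : ∀ τ x, f (ρX τ x) = ((χ τ : kˣ) : k) • ρY τ (f x)) (c : C) (x : X) :
    f (pull U s ρX hX c x) = twist (pull U s ρY hY) (pullHom U s χ hχ) c (f x) := by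
  obtain ⟨τ, hτ⟩ := exists_eq_mk U s c
  rw [twist_apply, pull_apply_of_eq U s ρX hX hτ, pull_apply_of_eq U s ρY hY hτ,
    pullHom_apply_of_eq U s χ hχ hτ, hf]

/-- Transfer of a `χ`-twisted equivariance, twist on the source. -/
lemma pull_comm_twist_left {R : Type*} [CommSemiring R] {X : Type*} [AddCommMonoid X] [Module R X]
    {Y : Type*} [AddCommGroup Y] [Module k Y]
    (ρX : Representation R G X) (hX : ∀ u ∈ U, ρX u = 1) (ρY : Representation k G Y)
    (hY : ∀ u ∈ U, ρY u = 1) (f : Y → X)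
    (hf : ∀ τ y, f (((χ τ : kˣ) : k) • ρY τ y) = ρX τ (f y)) (c : C) (y : Y) :
    f (twist (pull U s ρY hY) (pullHom U s χ hχ) c y) = pull U s ρX hX c (f y) := by
  obtain ⟨τ, hτ⟩ := exists_eq_mk U s c
  rw [twist_apply, pull_apply_of_eq U s ρX hX hτ, pull_apply_of_eq U s ρY hY hτ,
    pullHom_apply_of_eq U s χ hχ hτ, hf]

/-- Twisting back: `(N ⊗ θ⁻¹) ⊗ θ = N`. -/
lemma twist_inv_twist {X : Type*} [AddCommGroup X] [Module k X] (ρ : Representation k C X)
    (θ : C →* kˣ) : twist (twist ρ θ⁻¹) θ = ρ := by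
  have h : θ⁻¹ * θ = 1 := inv_mul_cancel θ
  rw [twist_twist, h, twist_one]

/-- `mult (N ⊗ θ⁻¹) (X ⊗ θ) = mult N X`. -/
lemma mult_twist_inv_twist {N X : Type*} [AddCommGroup N] [Module k N] [AddCommGroup X]
    [Module k X] (ρN : Representation k C N) (ρX : Representation k C X) (θ : C →* kˣ) :
    mult (twist ρN θ⁻¹) (twist ρX θ) = mult ρN ρX := by
  rw [mult_twist, twist_inv_twist]

end Twisted

section TorsModel

variable {C : Type} [Group C] (p : ℕ) [Fact p.Prime] (Q : Type) [AddCommGroup Q]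

/-- The `p`-torsion subgroup `Q[p]`. -/
def torsModel : AddSubgroup Q where
  carrier := {q | p • q = 0}
  add_mem' {a b} ha hb := by
    show p • (a + b) = 0
    rw [smul_add, ha, hb, add_zero]
  zero_mem' := smul_zero p
  neg_mem' {a} ha := by
    show p • (-a) = 0
    rw [smul_neg, ha, neg_zero]

lemma mem_torsModel (q : Q) : q ∈ torsModel p Q ↔ p • q = 0 := Iff.rfl

noncomputable instance torsModelModule : Module (ZMod p) (torsModel p Q) :=
  AddCommGroup.zmodModule (fun x => Subtype.ext x.2)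

variable {p Q} [Module ℤ Q]

/-- The action of `C` on `Q[p]`, as an `𝔽_p`-representation. -/
noncomputable def torsModelRep (ρQ : Representation ℤ C Q) :
    Representation (ZMod p) C (torsModel p Q) where
  toFun c := AddMonoidHom.toZModLinearMap p
    ({ toFun := fun x => ⟨ρQ c x.1, by
          show p • ρQ c x.1 = 0
          rw [← map_nsmul, x.2, map_zero]⟩
       map_zero' := Subtype.ext (map_zero _)
       map_add' := fun a b => Subtype.ext (map_add _ _ _) } : torsModel p Q →+ torsModel p Q)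
  map_one' := by
    ext x
    show ρQ 1 x.1 = x.1
    rw [map_one]; rfl
  map_mul' a b := by
    ext x
    show ρQ (a * b) x.1 = ρQ a (ρQ b x.1)
    rw [map_mul]; rfl

lemma torsModelRep_apply_coe (ρQ : Representation ℤ C Q) (c : C) (x : torsModel p Q) :
    ((torsModelRep ρQ c x : torsModel p Q) : Q) = ρQ c x.1 := rfl

/-- `Q[p]` is a model of `Q[p]`. -/
theorem isTorsOf_torsModel (ρQ : Representation ℤ C Q) :
    IsTorsOf ρQ (torsModelRep ρQ) (torsModel p Q).subtype where
  inj := Subtype.val_injective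
  surj := fun q hq => ⟨⟨q, hq⟩, rfl⟩
  comm := fun _ _ => rfl

end TorsModel

end Fermat.Agent.S56.GEC.Equivariant.Pull
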