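/-
S56, [GEC-D4] (`moonshots` row 52), leaf D4-A4 = (A.4) (helper25): **the `ζ`-twist
`I(μ_p) ≅ I(𝟙)` and its twisted equivariance.**

Setting: `S ∋ p`, `ζ` a primitive `p`-th root of unity, `L ⊂ ℚ̄` with `ζ ∈ L`, `U := G_L =
L.fixingSubgroup` (normal), `I(A) := coindRes U A`, `𝒰 := globalLevel S`, `D := localData S`.

* `twistIso : toIntRep (I1 p L) ≅ Iμ S p L` in `Rep ℤ Γ`, `f ↦ ζ^f` (`twistIso_hom_apply`,
  `twistIso_inv_apply`);
* `twistIso_hom_leftTr τ : θ⁻¹ ≫ ℓ_τ(μ_p) = (χ(τ) • ℓ_τ(𝟙)) ≫ θ⁻¹` (`ℓ_τ = Regular.leftTr`,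
  `χ = cycloChar p`, as the natural number `chiVal p τ`);
* `Θ n : Hⁿ(G_S, I(μ_p)) ≃+ Hⁿ(G_S, I(𝟙))` (`= LocalDataMatch.globEquiv … twistIso`);
* **`Θ_leftTr` / `Θ_cohRep`**: `Θ (ℓ_τ(μ_p)_* y) = χ(τ) • ℓ_τ(𝟙)_* (Θ y)`, i.e. `Bⁿ ≅ Aⁿ⟨1⟩`;
* **`locH_Θ_eq_zero_iff`**: `Θ` matches the kernels of the localisation maps
  (`Ш²(I μ_p) ≅ Ш²(I 𝟙)⟨1⟩`), + `Θ_symm` forms.
-/
import Fermat.Agent.S56.GEC.Regular
import Fermat.Agent.S56.GEC.Equivariant.UnitsInv
import Fermat.Agent.S56.GEC.Equivariant.IntBridge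
import Fermat.Agent.S55.GL.MuTriv
import Fermat.Agent.S55.LocalDataMatch
import Fermat.Agent.S55.DualTwist
import Fermat.Agent.S55.Assembly

set_option autoImplicit false
set_option linter.unusedSectionVars false
set_option linter.unusedVariables false

open CategoryTheory IntermediateField

namespace Fermat.Agent.S56.GEC.Equivariant.Twist

open Fermat.Agent.S55.Level Fermat.Agent.S55.CF Fermat.Agent.S55.Devissage
  Fermat.Agent.S55.LevelScalars Fermat.Agent.S55.GL.QSMod Fermat.Agent.S55.GL.MuTriv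
  Fermat.Agent.S55.Cone Fermat.Agent.S55.LocalDataMatch Fermat.Agent.S56.GEC.Regular
  Fermat.Agent.S55.GaloisLevel Fermat.Agent.S55.Assembly

local notation "Qbar" => AlgebraicClosure ℚ
local notation "Γ" => (AlgebraicClosure ℚ ≃ₐ[ℚ] AlgebraicClosure ℚ)

/-- the trivial representation `𝔽_p` of `Γ` -/
noncomputable abbrev triv (p : ℕ) : Rep.{0} (ZMod p) Γ := Rep.trivial (ZMod p) Γ (ZMod p)

/-- `I(𝟙) = coind_{G_L}^Γ 𝔽_p` -/
noncomputable abbrev I1 (p : ℕ) (L : IntermediateField ℚ Qbar) : Rep.{0} (ZMod p) Γ :=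
  coindRes L.fixingSubgroup (triv p)

/-- `I(μ_p) = coind_{G_L}^Γ res μ_p` (the same constant as `ShaTransport.Iμ`). -/
noncomputable abbrev Iμ (S : Finset Nat.Primes) (p : ℕ) (L : IntermediateField ℚ Qbar) :
    Rep.{0} ℤ Γ := coindRes L.fixingSubgroup (muP S p)

variable (S : Finset Nat.Primes) {p : ℕ} [hpF : Fact p.Prime]
  (hpS : (⟨p, hpF.out⟩ : Nat.Primes) ∈ S)
  {ζ : Qbar} (hζ : IsPrimitiveRoot ζ p) (L : IntermediateField ℚ Qbar) (hζL : ζ ∈ L)

lemma I1_apply_mul (f : I1 p L) (u : Γ) (hu : u ∈ L.fixingSubgroup) (x : Γ) :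
    f.1 (u * x) = f.1 x := coindRes_apply_mul (triv p) f u hu x

/-- The underlying function of `θ⁻¹ : I(𝟙) → I(μ_p)`, `f ↦ ζ^f`. -/
noncomputable def expFun (f : I1 p L) : Iμ S p L :=
  ⟨fun x => muOf S hpF.out hpS hζ (f.1 x), fun u x => by
    show muOf S hpF.out hpS hζ (f.1 ((u : Γ) * x)) =
      (muP S p).ρ (u : Γ) (muOf S hpF.out hpS hζ (f.1 x))
    rw [muOf_ρ S hpF.out hpS hζ L hζL u u.2, I1_apply_mul L f u u.2]⟩

lemma expFun_apply (f : I1 p L) (x : Γ) :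
    (expFun S hpS hζ L hζL f).1 x = muOf S hpF.out hpS hζ (f.1 x) := rfl

/-- The underlying function of `θ : I(μ_p) → I(𝟙)`, `f ↦ log_ζ ∘ f`. -/
noncomputable def logFun (f : Iμ S p L) : I1 p L :=
  ⟨fun x => (muAddEquiv S hpF.out hpS hζ).symm (f.1 x), fun u x => by
    show (muAddEquiv S hpF.out hpS hζ).symm (f.1 ((u : Γ) * x)) =
      (muAddEquiv S hpF.out hpS hζ).symm (f.1 x)
    rw [coindRes_apply_mul (muP S p) f u u.2]
    congr 1
    obtain ⟨a, ha⟩ := (muAddEquiv S hpF.out hpS hζ).surjective (f.1 x)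
    rw [← ha, muAddEquiv_apply]
    exact muOf_ρ S hpF.out hpS hζ L hζL u u.2 a⟩

lemma logFun_apply (f : Iμ S p L) (x : Γ) :
    (logFun S hpS hζ L hζL f).1 x = (muAddEquiv S hpF.out hpS hζ).symm (f.1 x) := rfl

/-- `I(𝟙) ≃+ I(μ_p)`, `f ↦ ζ^f`. -/
noncomputable def expAddEquiv : I1 p L ≃+ Iμ S p L where
  toFun := expFun S hpS hζ L hζL
  invFun := logFun S hpS hζ L hζL
  left_inv f := Subtype.ext (funext fun x => by
    rw [logFun_apply, expFun_apply, ← muAddEquiv_apply, AddEquiv.symm_apply_apply])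
  right_inv f := Subtype.ext (funext fun x => by
    rw [expFun_apply, logFun_apply, ← muAddEquiv_apply, AddEquiv.apply_symm_apply])
  map_add' f g := Subtype.ext (funext fun x => by
    show muOf S hpF.out hpS hζ (f.1 x + g.1 x) =
      muOf S hpF.out hpS hζ (f.1 x) + muOf S hpF.out hpS hζ (g.1 x)
    exact muOf_add S hpF.out hpS hζ _ _)

/-- **(A.4)** The `Γ`-isomorphism `I(𝟙) ≅ I(μ_p)` over `ℤ`, `f ↦ ζ^f` (`ζ_p ∈ L`). -/
noncomputable def twistIso : toIntRep (I1 p L) ≅ Iμ S p L :=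
  Rep.mkIso (Representation.Equiv.mk (expAddEquiv S hpS hζ L hζL).toIntLinearEquiv fun g => by
    refine LinearMap.ext fun f => ?_
    rfl)

lemma twistIso_hom_apply (f : I1 p L) (x : Γ) :
    ((twistIso S hpS hζ L hζL).hom.hom f).1 x = muOf S hpF.out hpS hζ (f.1 x) := rfl

lemma twistIso_inv_apply (f : Iμ S p L) (x : Γ) :
    ((twistIso S hpS hζ L hζL).inv.hom f).1 x = (muAddEquiv S hpF.out hpS hζ).symm (f.1 x) := rfl

/-! ### The twisted equivariance -/

section Equivariance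

variable [hU : L.fixingSubgroup.Normal]

/-- the natural number `χ(τ) mod p` -/
noncomputable def chiVal (p : ℕ) [Fact p.Prime] (τ : Γ) : ℕ :=
  ((ExtCitation.cycloChar p τ : (ZMod p)ˣ) : ZMod p).val

lemma chiVal_cast (τ : Γ) :
    ((chiVal p τ : ℕ) : ZMod p) = ((ExtCitation.cycloChar p τ : (ZMod p)ˣ) : ZMod p) := by
  have : NeZero p := ⟨hpF.out.ne_zero⟩
  exact ZMod.natCast_zmod_val _

lemma muOf_nsmul (n : ℕ) (a : ZMod p) :
    muOf S hpF.out hpS hζ (n • a) = n • muOf S hpF.out hpS hζ a :=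
  map_nsmul (muAddEquiv S hpF.out hpS hζ) n a

/-- **`θ⁻¹ ∘ (χ(τ) · ℓ_τ(𝟙)) = ℓ_τ(μ) ∘ θ⁻¹`** as morphisms of `ℤ[Γ]`-modules. -/
theorem twistIso_hom_leftTr (τ : Γ) :
    (twistIso S hpS hζ L hζL).hom ≫ leftTr L.fixingSubgroup (muP S p) τ =
      (chiVal p τ • toIntRepMap (leftTr L.fixingSubgroup (triv p) τ)) ≫
        (twistIso S hpS hζ L hζL).hom := by
  refine Rep.hom_ext (Representation.IntertwiningMap.ext (LinearMap.ext fun f =>
    Subtype.ext (funext fun x => ?_)))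
  show (muP S p).ρ τ (muOf S hpF.out hpS hζ (f.1 (τ⁻¹ * x))) =
    muOf S hpF.out hpS hζ (((chiVal p τ • toIntRepMap (leftTr L.fixingSubgroup (triv p) τ)).hom f).1 x)
  rw [UnitsInv.muP_ρ_eq_nsmul, Rep.nsmul_hom]
  show chiVal p τ • muOf S hpF.out hpS hζ (f.1 (τ⁻¹ * x)) =
    muOf S hpF.out hpS hζ (chiVal p τ • (f.1 (τ⁻¹ * x)))
  rw [muOf_nsmul]

end Equivariance

/-! ### Cohomology -/

section Cohomology

local instance isDiscrete_triv_Tw (k : Type) [CommRing k] {G : Type} [Group G]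
    (𝒰 : LevelStructure G) : IsDiscrete 𝒰 (Rep.trivial k G k) := isDiscrete_trivial k 𝒰

variable [hU : L.fixingSubgroup.Normal] [IsOpenSub (globalLevel S) L.fixingSubgroup]

/-- `I(𝟙)` is discrete for `G_S` (explicit form of the instance; instance resolution does not see
through `Rep.res _ (Rep.trivial _ _ _)`). -/
theorem isDiscrete_I1 (p : ℕ) : IsDiscrete (globalLevel S) (I1 p L) :=
  haveI : IsDiscrete ((globalLevel S).restrict L.fixingSubgroup)
      (Rep.res L.fixingSubgroup.subtype (triv p)) :=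
    Fermat.Agent.S55.LevelCores.isDiscrete_res_restrict (globalLevel S) L.fixingSubgroup (triv p)
  isDiscrete_coind (globalLevel S) L.fixingSubgroup _

local instance isDiscrete_I1_Tw (p : ℕ) : IsDiscrete (globalLevel S) (I1 p L) :=
  isDiscrete_I1 S L p

/-- **(A.4)** `Θⁿ : Hⁿ(G_S, I(μ_p)) ≃+ Hⁿ(G_S, I(𝟙))`. -/
noncomputable def Θ (n : ℕ) :
    levelCohomology (globalLevel S) (Iμ S p L) n ≃+ levelCohomology (globalLevel S) (I1 p L) n :=
  globEquiv (I1 p L) (Iμ S p L) (twistIso S hpS hζ L hζL) n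

lemma Θ_apply (n : ℕ) (y : levelCohomology (globalLevel S) (Iμ S p L) n) :
    Θ S hpS hζ L hζL n y = levelCohomologyIntEquiv (I1 p L) (globalLevel S) n
      ((Hmap (globalLevel S) (twistIso S hpS hζ L hζL).inv n).hom y) := rfl

/-- **(A.4), twisted equivariance**: `Θ ∘ ℓ_τ(μ)_* = χ(τ) · ℓ_τ(𝟙)_* ∘ Θ`. -/
theorem Θ_leftTr (n : ℕ) (τ : Γ) (y : levelCohomology (globalLevel S) (Iμ S p L) n) :
    Θ S hpS hζ L hζL n ((Hmap (globalLevel S) (leftTr L.fixingSubgroup (muP S p) τ) n).hom y) =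
      ((ExtCitation.cycloChar p τ : (ZMod p)ˣ) : ZMod p) •
        (Hmap (globalLevel S) (leftTr L.fixingSubgroup (triv p) τ) n).hom
          (Θ S hpS hζ L hζL n y) := by
  have hmor : leftTr L.fixingSubgroup (muP S p) τ ≫ (twistIso S hpS hζ L hζL).inv =
      (twistIso S hpS hζ L hζL).inv ≫
        (chiVal p τ • toIntRepMap (leftTr L.fixingSubgroup (triv p) τ)) := by
    rw [← cancel_mono (twistIso S hpS hζ L hζL).hom, Category.assoc, Category.assoc,
      ← twistIso_hom_leftTr, Iso.inv_hom_id_assoc, Iso.inv_hom_id, Category.comp_id]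
  rw [Θ_apply, Θ_apply, ← Hmap_comp_apply, hmor, Hmap_comp_apply, Hmap_nsmul]
  set z := (Hmap (globalLevel S) (twistIso S hpS hζ L hζL).inv n).hom y with hz
  have h1 : (chiVal p τ • Hmap (globalLevel S)
      (toIntRepMap (leftTr L.fixingSubgroup (triv p) τ)) n).hom z =
      chiVal p τ • (Hmap (globalLevel S)
        (toIntRepMap (leftTr L.fixingSubgroup (triv p) τ)) n).hom z := rfl
  rw [h1, map_nsmul, IntBridge.intEquiv_Hmap, ← chiVal_cast, Nat.cast_smul_eq_nsmul]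

/-- **(A.4), localisation**: `Θ` matches the kernels of the localisation maps (at every degree);
in degree `2`: `Ш²(I μ_p) ≅ Ш²(I 𝟙)`. -/
theorem locH_Θ_eq_zero_iff (n : ℕ) (y : levelCohomology (globalLevel S) (Iμ S p L) n) :
    locH (localData S) (I1 p L) n (Θ S hpS hζ L hζL n y) = 0 ↔
      locH (localData S) (Iμ S p L) n y = 0 := by
  rw [Θ_apply, ← prodIntEquiv_locH, AddEquiv.map_eq_zero_iff, locH_Hmap]
  have h := (locHMapEquiv (localData S) (twistIso S hpS hζ L hζL).symm n).map_eq_zero_iff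
    (x := locH (localData S) (Iμ S p L) n y)
  exact h

/-- `Θ_leftTr` in terms of the representations `Regular.cohRep`. -/
theorem Θ_cohRep (n : ℕ) (τ : Γ) (y : levelCohomology (globalLevel S) (Iμ S p L) n) :
    Θ S hpS hζ L hζL n (cohRep L.fixingSubgroup (muP S p) (globalLevel S) n τ y) =
      ((ExtCitation.cycloChar p τ : (ZMod p)ˣ) : ZMod p) •
        cohRep L.fixingSubgroup (triv p) (globalLevel S) n τ (Θ S hpS hζ L hζL n y) :=
  Θ_leftTr S hpS hζ L hζL n τ y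

/-- The inverse direction of the twisted equivariance. -/
theorem Θ_symm_cohRep (n : ℕ) (τ : Γ) (x : levelCohomology (globalLevel S) (I1 p L) n) :
    (Θ S hpS hζ L hζL n).symm (((ExtCitation.cycloChar p τ : (ZMod p)ˣ) : ZMod p) •
        cohRep L.fixingSubgroup (triv p) (globalLevel S) n τ x) =
      cohRep L.fixingSubgroup (muP S p) (globalLevel S) n τ ((Θ S hpS hζ L hζL n).symm x) := by
  rw [AddEquiv.symm_apply_eq, Θ_cohRep, AddEquiv.apply_symm_apply]

/-- Localisation kernels, inverse direction. -/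
theorem locH_Θ_symm_eq_zero_iff (n : ℕ) (x : levelCohomology (globalLevel S) (I1 p L) n) :
    locH (localData S) (Iμ S p L) n ((Θ S hpS hζ L hζL n).symm x) = 0 ↔
      locH (localData S) (I1 p L) n x = 0 := by
  rw [← locH_Θ_eq_zero_iff S hpS hζ L hζL n, AddEquiv.apply_symm_apply]

end Cohomology

end Fermat.Agent.S56.GEC.Equivariant.Twist
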