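/-
S56, [GEC-D4] (`moonshots` row 52), leaf D4-A = **identity (A) "Kummer"** (helper25).

Setting: `p` odd, `S ∋ p`, `L ⊂ ℚ̄` good (number field, normal, unramified outside `S`, `μ_p ⊂ L`),
`U := G_L = L.fixingSubgroup`, `𝒰 := globalLevel S`, `D := localData S`, `I(A) := coindRes U A`,
`Aⁿ := Hⁿ(G_S, I 𝟙)`, `Dⁿ := Hⁿ(G_S, I E_S)`; a finite group `C` with `p ∤ |C|` and
`s : C →* Γ ⧸ U` (e.g. `C = ↥V ⧸ U.subgroupOf V`, `U ≤ V`), acting on everything through
`Regular.cohRep` (`Pull.pull`).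

* `Γ`-level: `Iι_leftTr`, `kummerδ_cohRep`, `Hmap_Iι_cohRep` (the Kummer LES of
  `0 → I(μ_p) → I(E_S) → I(E_S) → 0` is `Γ`-equivariant);
* the Kummer sequence transported to `𝔽_p`-coefficients by `Twist.Θ`: `κA n : Dⁿ →+ Aⁿ⁺¹`,
  `jA n : Aⁿ →+ Dⁿ` with `κA_cohRep`, `jA_cohRep` (`χ`-twisted equivariance), `κA_eq_zero_iff`,
  `jA_κA`, `exists_κA_of_jA_eq_zero`, `exists_jA_of_nsmul_eq_zero` (exactness) and
  **`locH_eq_zero_iff_exists_κA`**: `Ш²(I 𝟙) = im (κ : D¹ → A²)`  ((A.3) + (A.4));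
* the representations of `C`: `repA`, `repE`, `repSha`, `repIm`, `ωbar`;
  `finiteDimensional_A1`, `finiteDimensional_A2`;
* **`kummer_identity`**: `mult N A² + mult (N⟨−1⟩) K = mult N A¹ + mult N (im loc²)` for every
  f.d. `𝔽_p[C]`-module `N` and every model `K` of `D⁰/p` (`MultTorsion.IsCotorsOf (repE 0) ρK π`;
  `D⁰ ≅ E_L = O_{L,S}ˣ` by helper29's `UnitsH0.H0EquivTUnit`).
-/
import Fermat.Agent.S56.GEC.Equivariant.Twist
import Fermat.Agent.S56.GEC.Equivariant.ShaTransport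
import Fermat.Agent.S56.GEC.Equivariant.CoindAct
import Fermat.Agent.S56.GEC.Equivariant.MultGlue
import Fermat.Agent.S56.GEC.Equivariant.Pull
import Fermat.Agent.S56.PT.Instance
import Fermat.Agent.S56.PT.EulerAdd
import Fermat.Agent.S55.GL.KummerFields

set_option autoImplicit false
set_option linter.unusedSectionVars false
set_option linter.unusedVariables false
set_option linter.style.haveILetI false

open CategoryTheory IntermediateField

namespace Fermat.Agent.S56.GEC.Equivariant.Kummer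

open Fermat.Agent.S55.Level Fermat.Agent.S55.CF Fermat.Agent.S55.Devissage
  Fermat.Agent.S55.LevelScalars Fermat.Agent.S55.GL.QSMod Fermat.Agent.S55.GL.MuTriv
  Fermat.Agent.S55.Cone Fermat.Agent.S55.LocalDataMatch Fermat.Agent.S56.GEC.Regular
  Fermat.Agent.S55.GaloisLevel Fermat.Agent.S55.Assembly
  Fermat.Agent.S56.GEC.Equivariant.ShaTransport
  Fermat.Agent.S56.GEC.Equivariant.CoindAct Fermat.Agent.S56.GEC.Equivariant.Mult
  Fermat.Agent.S56.GEC.Equivariant.MultTorsion Fermat.Agent.S56.GEC.Equivariant.MultGlue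
  Fermat.Agent.S56.GEC.Equivariant.Pull Fermat.Agent.S55.GL.BrauerInst

local notation "Qbar" => AlgebraicClosure ℚ
local notation "Γ" => (AlgebraicClosure ℚ ≃ₐ[ℚ] AlgebraicClosure ℚ)

local instance isDiscrete_triv_Ku (k : Type) [CommRing k] {G : Type} [Group G]
    (𝒰 : LevelStructure G) : IsDiscrete 𝒰 (Rep.trivial k G k) := isDiscrete_trivial k 𝒰

section GammaLevel

variable (S : Finset Nat.Primes) {p : ℕ} [hpF : Fact p.Prime]
  (hpS : (⟨p, hpF.out⟩ : Nat.Primes) ∈ S) (L : IntermediateField ℚ Qbar)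
  [hU : L.fixingSubgroup.Normal] [IsOpenSub (globalLevel S) L.fixingSubgroup]

local instance isDiscrete_I1_Ku (p : ℕ) : IsDiscrete (globalLevel S) (Twist.I1 p L) :=
  Twist.isDiscrete_I1 S L p

/-- `I(ι) : I(μ_p) ⟶ I(E_S)` commutes with `ℓ_τ`. -/
theorem Iι_leftTr (τ : Γ) :
    Iι S p L ≫ leftTr L.fixingSubgroup (ESUnits S) τ =
      leftTr L.fixingSubgroup (muP S p) τ ≫ Iι S p L :=
  coindResHom_leftTr L.fixingSubgroup (muPι S p) τ

/-- The Kummer boundaries `Hⁿ(I E_S) ⟶ Hⁿ⁺¹(I μ_p)` are `Γ`-equivariant. -/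
theorem kummerδ_cohRep (n : ℕ) (τ : Γ) (x : levelCohomology (globalLevel S) (IE S L) n) :
    (kummerδ (globalLevel S) (IKummer_shortExact S p L hpF.out hpS) n).hom
        (cohRep L.fixingSubgroup (ESUnits S) (globalLevel S) n τ x) =
      cohRep L.fixingSubgroup (muP S p) (globalLevel S) (n + 1) τ
        ((kummerδ (globalLevel S) (IKummer_shortExact S p L hpF.out hpS) n).hom x) :=
  (levelδ_endo_apply (globalLevel S) (IKummer_shortExact S p L hpF.out hpS)
    (leftTr L.fixingSubgroup (muP S p) τ) (leftTr L.fixingSubgroup (ESUnits S) τ)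
    (leftTr L.fixingSubgroup (ESUnits S) τ) (Iι_leftTr S L τ)
    (nsmul_id_leftTr L.fixingSubgroup (ESUnits S) p τ) n (n + 1) rfl x).symm

/-- `Hⁿ(I μ_p) ⟶ Hⁿ(I E_S)` is `Γ`-equivariant. -/
theorem Hmap_Iι_cohRep (n : ℕ) (τ : Γ) (y : levelCohomology (globalLevel S) (Iμ S p L) n) :
    (Hmap (globalLevel S) (Iι S p L) n).hom
        (cohRep L.fixingSubgroup (muP S p) (globalLevel S) n τ y) =
      cohRep L.fixingSubgroup (ESUnits S) (globalLevel S) n τ
        ((Hmap (globalLevel S) (Iι S p L) n).hom y) :=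
  Hmap_cohRep_of_comm (globalLevel S) L.fixingSubgroup (Iι S p L) τ (Iι_leftTr S L τ) n y

/-! ### The Kummer sequence seen on `Hⁿ(I 𝟙)` -/

variable {ζ : Qbar} (hζ : IsPrimitiveRoot ζ p) (hζL : ζ ∈ L)

/-- `κ : Hⁿ(I E_S) → Hⁿ⁺¹(I 𝟙)`, the Kummer boundary followed by `Θ`. -/
noncomputable def κA (n : ℕ) :
    levelCohomology (globalLevel S) (IE S L) n →+
      levelCohomology (globalLevel S) (Twist.I1 p L) (n + 1) :=
  (Twist.Θ S hpS hζ L hζL (n + 1)).toAddMonoidHom.comp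
    (kummerδ (globalLevel S) (IKummer_shortExact S p L hpF.out hpS) n).hom.toAddMonoidHom

/-- `j : Hⁿ(I 𝟙) → Hⁿ(I E_S)`, `Θ⁻¹` followed by `I(ι)_*`. -/
noncomputable def jA (n : ℕ) :
    levelCohomology (globalLevel S) (Twist.I1 p L) n →+
      levelCohomology (globalLevel S) (IE S L) n :=
  (Hmap (globalLevel S) (Iι S p L) n).hom.toAddMonoidHom.comp
    (Twist.Θ S hpS hζ L hζL n).symm.toAddMonoidHom

lemma κA_apply (n : ℕ) (d : levelCohomology (globalLevel S) (IE S L) n) :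
    κA S hpS L hζ hζL n d = Twist.Θ S hpS hζ L hζL (n + 1)
      ((kummerδ (globalLevel S) (IKummer_shortExact S p L hpF.out hpS) n).hom d) := rfl

lemma jA_apply (n : ℕ) (b : levelCohomology (globalLevel S) (Twist.I1 p L) n) :
    jA S hpS L hζ hζL n b =
      (Hmap (globalLevel S) (Iι S p L) n).hom ((Twist.Θ S hpS hζ L hζL n).symm b) := rfl

/-- `κ` is `χ`-twisted equivariant. -/
theorem κA_cohRep (n : ℕ) (τ : Γ) (d : levelCohomology (globalLevel S) (IE S L) n) :
    κA S hpS L hζ hζL n (cohRep L.fixingSubgroup (ESUnits S) (globalLevel S) n τ d) =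
      ((ExtCitation.cycloChar p τ : (ZMod p)ˣ) : ZMod p) •
        cohRep L.fixingSubgroup (Twist.triv p) (globalLevel S) (n + 1) τ
          (κA S hpS L hζ hζL n d) := by
  rw [κA_apply, kummerδ_cohRep S hpS L, Twist.Θ_cohRep]
  rfl

/-- `j` is `χ`-twisted equivariant. -/
theorem jA_cohRep (n : ℕ) (τ : Γ) (b : levelCohomology (globalLevel S) (Twist.I1 p L) n) :
    jA S hpS L hζ hζL n (((ExtCitation.cycloChar p τ : (ZMod p)ˣ) : ZMod p) •
        cohRep L.fixingSubgroup (Twist.triv p) (globalLevel S) n τ b) =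
      cohRep L.fixingSubgroup (ESUnits S) (globalLevel S) n τ (jA S hpS L hζ hζL n b) := by
  rw [jA_apply, Twist.Θ_symm_cohRep, Hmap_Iι_cohRep S L]
  rfl

/-- `ker κ = p Hⁿ(I E_S)`. -/
theorem κA_eq_zero_iff (n : ℕ) (d : levelCohomology (globalLevel S) (IE S L) n) :
    κA S hpS L hζ hζL n d = 0 ↔ ∃ d', p • d' = d := by
  rw [κA_apply, AddEquiv.map_eq_zero_iff, kummerδ_eq_zero_iff]

/-- `j ∘ κ = 0`. -/
theorem jA_κA (n : ℕ) (d : levelCohomology (globalLevel S) (IE S L) n) :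
    jA S hpS L hζ hζL (n + 1) (κA S hpS L hζ hζL n d) = 0 := by
  rw [jA_apply, κA_apply, AddEquiv.symm_apply_apply,
    Hmap_ι_eq_zero_iff (globalLevel S) (IKummer_shortExact S p L hpF.out hpS)]
  exact ⟨d, rfl⟩

/-- `ker j = im κ`. -/
theorem exists_κA_of_jA_eq_zero (n : ℕ)
    (b : levelCohomology (globalLevel S) (Twist.I1 p L) (n + 1))
    (hb : jA S hpS L hζ hζL (n + 1) b = 0) : ∃ d, κA S hpS L hζ hζL n d = b := by
  rw [jA_apply, Hmap_ι_eq_zero_iff (globalLevel S) (IKummer_shortExact S p L hpF.out hpS)] at hb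
  obtain ⟨d, hd⟩ := hb
  exact ⟨d, by rw [κA_apply, hd, AddEquiv.apply_symm_apply]⟩

/-- `im j = Hⁿ(I E_S)[p]`. -/
theorem exists_jA_of_nsmul_eq_zero (n : ℕ) (d : levelCohomology (globalLevel S) (IE S L) n)
    (hd : p • d = 0) : ∃ b, jA S hpS L hζ hζL n b = d := by
  obtain ⟨z, hz⟩ := (kummer_nsmul_eq_zero_iff (globalLevel S)
    (IKummer_shortExact S p L hpF.out hpS) n d).1 hd
  exact ⟨Twist.Θ S hpS hζ L hζL n z, by rw [jA_apply, AddEquiv.symm_apply_apply, hz]⟩

end GammaLevel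

section Sha

variable (S : Finset Nat.Primes) {p : ℕ} [hpF : Fact p.Prime] (hp2 : p ≠ 2)
  (hpS : (⟨p, hpF.out⟩ : Nat.Primes) ∈ S) (L : IntermediateField ℚ Qbar) [NumberField L]
  (hL : L.IsUnramifiedOutside S) (hnorm : Normal ℚ L) (hμp : ∀ ω : Qbar, ω ^ p = 1 → ω ∈ L)
  [hU : L.fixingSubgroup.Normal] [IsOpenSub (globalLevel S) L.fixingSubgroup]
  {ζ : Qbar} (hζ : IsPrimitiveRoot ζ p) (hζL : ζ ∈ L)

local instance isDiscrete_I1_Ku' (p : ℕ) : IsDiscrete (globalLevel S) (Twist.I1 p L) :=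
  Twist.isDiscrete_I1 S L p

include hp2 hL hnorm hμp in
/-- **(A.3) + (A.4)**: `Ш²(I 𝟙) = im (κ : H¹(I E_S) → H²(I 𝟙))`. -/
theorem locH_eq_zero_iff_exists_κA (x : levelCohomology (globalLevel S) (Twist.I1 p L) 2) :
    locH (localData S) (Twist.I1 p L) 2 x = 0 ↔ ∃ d, κA S hpS L hζ hζL 1 d = x := by
  rw [← Twist.locH_Θ_symm_eq_zero_iff S hpS hζ L hζL 2 x,
    locH_Iμ_eq_zero_iff_exists_kummerδ S p L hp2 hpS hL hnorm hμp]
  constructor
  · rintro ⟨a, ha⟩
    exact ⟨a, by rw [κA_apply, ha, AddEquiv.apply_symm_apply]⟩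
  · rintro ⟨a, rfl⟩
    exact ⟨a, by rw [κA_apply, AddEquiv.symm_apply_apply]⟩

end Sha

/-! ### The representations of a finite group `C → Γ ⧸ G_L` -/

section Reps

variable (S : Finset Nat.Primes) {p : ℕ} [hpF : Fact p.Prime] (L : IntermediateField ℚ Qbar)
  [hU : L.fixingSubgroup.Normal] [IsOpenSub (globalLevel S) L.fixingSubgroup]
  {C : Type} [Group C] (s : C →* Γ ⧸ L.fixingSubgroup)

local instance isDiscrete_I1_Ku'' (p : ℕ) : IsDiscrete (globalLevel S) (Twist.I1 p L) :=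
  Twist.isDiscrete_I1 S L p

/-- `C` acting on `Aⁿ = Hⁿ(G_S, I 𝟙)`. -/
noncomputable def repA (p : ℕ) [Fact p.Prime] (n : ℕ) :
    Representation (ZMod p) C (levelCohomology (globalLevel S) (Twist.I1 p L) n) :=
  pull L.fixingSubgroup s (cohRep L.fixingSubgroup (Twist.triv p) (globalLevel S) n)
    (fun _ hu => cohRep_of_mem (Twist.triv p) (globalLevel S) n hu)

/-- `C` acting on `Dⁿ = Hⁿ(G_S, I E_S)`. -/
noncomputable def repE (n : ℕ) :
    Representation ℤ C (levelCohomology (globalLevel S) (IE S L) n) :=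
  pull L.fixingSubgroup s (cohRep L.fixingSubgroup (ESUnits S) (globalLevel S) n)
    (fun _ hu => cohRep_of_mem (ESUnits S) (globalLevel S) n hu)

lemma shaRep_of_mem (n : ℕ) {u : Γ} (hu : u ∈ L.fixingSubgroup) :
    shaRep (localData S) L.fixingSubgroup (Twist.triv p) n u = 1 := by
  ext x
  show cohRep L.fixingSubgroup (Twist.triv p) (globalLevel S) n u x.1 = x.1
  rw [cohRep_of_mem (Twist.triv p) (globalLevel S) n hu]
  rfl

lemma imLocRep_of_mem (n : ℕ) {u : Γ} (hu : u ∈ L.fixingSubgroup) :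
    imLocRep (localData S) L.fixingSubgroup (Twist.triv p) n u = 1 := by
  ext y : 2
  show locRep (localData S) L.fixingSubgroup (Twist.triv p) n u y.1 = y.1
  rw [locRep_of_mem (localData S) L.fixingSubgroup (Twist.triv p) n hu]
  rfl

/-- `C` acting on `Шⁿ(I 𝟙)`. -/
noncomputable def repSha (p : ℕ) [Fact p.Prime] (n : ℕ) :
    Representation (ZMod p) C (LinearMap.ker (locH (localData S) (Twist.I1 p L) n)) :=
  pull L.fixingSubgroup s (shaRep (localData S) L.fixingSubgroup (Twist.triv p) n)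
    (fun _ hu => shaRep_of_mem S L n hu)

/-- `C` acting on `im locⁿ ⊂ Pⁿ(I 𝟙)`. -/
noncomputable def repIm (p : ℕ) [Fact p.Prime] (n : ℕ) :
    Representation (ZMod p) C (LinearMap.range (locH (localData S) (Twist.I1 p L) n)) :=
  pull L.fixingSubgroup s (imLocRep (localData S) L.fixingSubgroup (Twist.triv p) n)
    (fun _ hu => imLocRep_of_mem S L n hu)

/-- The mod `p` cyclotomic character of `C` (`μ_p ⊂ L`). -/
noncomputable def ωbar (hμp : ∀ ω : Qbar, ω ^ p = 1 → ω ∈ L) : C →* (ZMod p)ˣ :=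
  pullHom L.fixingSubgroup s (ExtCitation.cycloChar p)
    (Fermat.Agent.S55.GL.Kummer.cycloChar_eq_one_of_mem_fixingSubgroup L hμp)

end Reps

/-! ### Identity (A) -/

section Main

variable (S : Finset Nat.Primes) {p : ℕ} [hpF : Fact p.Prime] (hp2 : p ≠ 2)
  (hpS : (⟨p, hpF.out⟩ : Nat.Primes) ∈ S) (L : IntermediateField ℚ Qbar) [NumberField L]
  (hL : L.IsUnramifiedOutside S) (hnorm : Normal ℚ L) (hμp : ∀ ω : Qbar, ω ^ p = 1 → ω ∈ L)
  [hU : L.fixingSubgroup.Normal] [IsOpenSub (globalLevel S) L.fixingSubgroup]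
  {C : Type} [Group C] [Fintype C] (hC : ¬ p ∣ Fintype.card C) (s : C →* Γ ⧸ L.fixingSubgroup)

local instance isDiscrete_I1_KuM (p : ℕ) : IsDiscrete (globalLevel S) (Twist.I1 p L) :=
  Twist.isDiscrete_I1 S L p

include hpS in
/-- `H¹(G_S, I 𝟙)` is finite dimensional. -/
theorem finiteDimensional_A1 :
    FiniteDimensional (ZMod p) (levelCohomology (globalLevel S) (Twist.I1 p L) 1) := by
  haveI : L.fixingSubgroup.FiniteIndex := IsOpenSub.finiteIndex (𝒰 := globalLevel S)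
  haveI : FiniteDimensional (ZMod p) (Twist.I1 p L) :=
    finite_coindRes (U := L.fixingSubgroup) (Twist.triv p)
  exact Fermat.Agent.S56.PT.Instance.finiteDimensional_global_one S hpS (Twist.I1 p L)

include hpS hp2 in
/-- `H²(G_S, I 𝟙)` is finite dimensional. -/
theorem finiteDimensional_A2 :
    FiniteDimensional (ZMod p) (levelCohomology (globalLevel S) (Twist.I1 p L) 2) := by
  haveI : L.fixingSubgroup.FiniteIndex := IsOpenSub.finiteIndex (𝒰 := globalLevel S)
  haveI : FiniteDimensional (ZMod p) (Twist.I1 p L) :=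
    finite_coindRes (U := L.fixingSubgroup) (Twist.triv p)
  exact Fermat.Agent.S56.PT.EulerAdd.finiteDimensional_two_global' S hp2 hpS (Twist.I1 p L)

include hp2 hpS hL hnorm hμp hC in
/-- **Identity (A) of [GEC-D4]** (Kummer): for every f.d. `𝔽_p[C]`-module `N` and every model `K`
of `D⁰/p = H⁰(G_S, I E_S)/p` (`≅ E_L/p`),
`mult N A² + mult (N⟨−1⟩) (E_L/p) = mult N A¹ + mult N (im loc²)`. -/
theorem kummer_identity {N : Type*} [AddCommGroup N] [Module (ZMod p) N]
    [FiniteDimensional (ZMod p) N] (ρN : Representation (ZMod p) C N)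
    {K : Type*} [AddCommGroup K] [Module (ZMod p) K] {ρK : Representation (ZMod p) C K}
    {π : levelCohomology (globalLevel S) (IE S L) 0 →+ K} (hK : IsCotorsOf (repE S L s 0) ρK π) :
    mult ρN (repA S L s p 2) + mult (twist ρN (ωbar L s hμp)⁻¹) ρK =
      mult ρN (repA S L s p 1) + mult ρN (repIm S L s p 2) := by
  obtain ⟨ζ, hζ⟩ := Fermat.Agent.S55.DualTwist.exists_primitiveRoot p
  have hζL : ζ ∈ L := hμp ζ hζ.pow_eq_one
  haveI hfd1 := finiteDimensional_A1 S hpS L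
  haveI hfd2 := finiteDimensional_A2 S hp2 hpS L
  haveI : Finite (levelCohomology (globalLevel S) (IE S L) 1) := finite_H1_IE S L hL
  have hχ := Fermat.Agent.S55.GL.Kummer.cycloChar_eq_one_of_mem_fixingSubgroup L hμp
  -- (a) `[A¹⟨1⟩] = [D⁰/p] + [D¹[p]]`
  have ha := mult_of_kummer_exact hC (twist ρN (ωbar L s hμp)⁻¹)
    (ρD0 := repE S L s 0) (ρD1 := repE S L s 1)
    (twist (repA S L s p 1) (ωbar L s hμp)) (κA S hpS L hζ hζL 0) (jA S hpS L hζ hζL 1)
    (pull_comm_twist_right L.fixingSubgroup s (ExtCitation.cycloChar p) hχ _ _ _ _ _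
      (κA_cohRep S hpS L hζ hζL 0))
    (pull_comm_twist_left L.fixingSubgroup s (ExtCitation.cycloChar p) hχ _ _ _ _ _
      (jA_cohRep S hpS L hζ hζL 1))
    (fun d hd => (κA_eq_zero_iff S hpS L hζ hζL 0 d).1 hd)
    (jA_κA S hpS L hζ hζL 0) (exists_κA_of_jA_eq_zero S hpS L hζ hζL 0)
    (exists_jA_of_nsmul_eq_zero S hpS L hζ hζL 1) hK (isTorsOf_torsModel (repE S L s 1))
  -- (b) `[D¹[p]] = [D¹/p] = [Ш²(I 𝟙)⟨1⟩]`
  obtain ⟨π', -, hK'⟩ := isCotorsOf_of_range (repE S L s 1)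
    (twist (repA S L s p 2) (ωbar L s hμp)) (κA S hpS L hζ hζL 1)
    (pull_comm_twist_right L.fixingSubgroup s (ExtCitation.cycloChar p) hχ _ _ _ _ _
      (κA_cohRep S hpS L hζ hζL 1))
    (fun d hd => (κA_eq_zero_iff S hpS L hζ hζL 1 d).1 hd)
    (twist (repSha S L s p 2) (ωbar L s hμp))
    (LinearMap.ker (locH (localData S) (Twist.I1 p L) 2)).subtype.toAddMonoidHom
    Subtype.val_injective
    (twist_equivariant (repSha S L s p 2) (repA S L s p 2) (ωbar L s hμp)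
      (LinearMap.ker (locH (localData S) (Twist.I1 p L) 2)).subtype
      (pull_comm L.fixingSubgroup s _ _ _ _ _ (fun τ x => rfl)))
    (fun x => by
      rw [← locH_eq_zero_iff_exists_κA S hp2 hpS L hL hnorm hμp hζ hζL x]
      constructor
      · rintro ⟨z, rfl⟩
        exact z.2
      · intro hx
        exact ⟨⟨x, hx⟩, rfl⟩)
  have hb := mult_tors_eq_mult_cotors hC (twist ρN (ωbar L s hμp)⁻¹)
    (isTorsOf_torsModel (repE S L s 1)) hK'
  -- (c) `[A²] = [Ш²(I 𝟙)] + [im loc²]`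
  have hc := mult_add_of_exact (card_ne_zero_of_not_dvd hC) ρN (repSha S L s p 2)
    (repA S L s p 2) (repIm S L s p 2)
    (LinearMap.ker (locH (localData S) (Twist.I1 p L) 2)).subtype
    (locH (localData S) (Twist.I1 p L) 2).rangeRestrict
    (pull_comm L.fixingSubgroup s _ _ _ _ _ (fun τ x => rfl))
    (pull_comm L.fixingSubgroup s _ _ _ _ _
      (rangeRestrict_locH_cohRep (localData S) L.fixingSubgroup (Twist.triv p) 2))
    Subtype.val_injective (LinearMap.surjective_rangeRestrict _)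
    (fun x => by
      constructor
      · intro hx
        have hx' : locH (localData S) (Twist.I1 p L) 2 x = 0 := congrArg Subtype.val hx
        exact ⟨⟨x, hx'⟩, rfl⟩
      · rintro ⟨z, rfl⟩
        exact Subtype.ext z.2)
  rw [mult_twist_inv_twist] at ha hb
  omega

end Main

end Fermat.Agent.S56.GEC.Equivariant.Kummer
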