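/-
S56 / [GEC-D4] leaf D4-PL part 1 (helper8; spec = moonshots row 52 §1, §4 (c4); dispatch #2507):
**the finite places of a good field as a `Γ`-set.**

`L ⊆ ℚ̄` a number field, normal over `ℚ`; `Γ = Gal(ℚ̄/ℚ)`, `U = G_L = L.fixingSubgroup`.

* `Γ` acts on `PlacesOver q L` (S55 `Places.mulActionPlaces`, `stabField L = ⊤`), trivially on `U`;
* `dc q L x := placeOf q L x⁻¹` is the double coset map `U \ Γ / r_q(G_q) ≃ PlacesOver q L`:
  `dc_mul` (equivariant for left multiplication), `dc_surjective`, `dc_eq_iff` (fibres = double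
  cosets), `dc_placeRep` (`LocalCount.placeRep` is a section);
* `(γ • w).prime = γ|_L • w.prime` (`prime_smul`): the dictionary with Mathlib's action of
  `Gal(L/ℚ)` on `HeightOneSpectrum (𝓞 L)` (the action used by S55 `SUnitGalois`);
* `Xf S L := Σ q : S, PlacesOver q L` with its `Γ`-action and the equivariant bijection
  `xfEquiv : Xf S L ≃ primesAbove L S`.
-/
import Mathlib
import Fermat.Agent.S55.GL.Places
import Fermat.Agent.S55.GL.PlacesPrime
import Fermat.Agent.S55.GL.KummerDim
import Fermat.Agent.S55.GL.LocalCount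
import Fermat.Agent.S55.SUnitGalois

set_option autoImplicit false
set_option linter.unusedSectionVars false
set_option linter.style.haveILetI false

namespace Fermat.Agent.S56.GEC.Equivariant.PlacesGSet

open IntermediateField NumberField IsDedekindDomain
open Fermat.Agent.S55.GL.Places Fermat.Agent.S55.GL.LocalCount

local notation "Qbar" => AlgebraicClosure ℚ
local notation "Γ" => (AlgebraicClosure ℚ ≃ₐ[ℚ] AlgebraicClosure ℚ)

/-! ### the action of `Γ` on the places over `q` of a normal field -/

section Action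

variable (L : IntermediateField ℚ Qbar) [Normal ℚ L]

/-- every element of `Γ` stabilises a normal field -/
noncomputable def toStab : Γ →* stabField L where
  toFun γ := ⟨γ, by rw [stabField_eq_top_of_normal]; trivial⟩
  map_one' := rfl
  map_mul' _ _ := rfl

@[simp] theorem coe_toStab (γ : Γ) : ((toStab L γ : stabField L) : Γ) = γ := rfl

variable (q : ℕ) [Fact q.Prime]

/-- **`Γ` acts on the places over `q` of a normal field.** -/
noncomputable instance mulActionΓ : MulAction Γ (PlacesOver q L) :=
  MulAction.compHom (PlacesOver q L) (toStab L)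

theorem smul_def (γ : Γ) (w : PlacesOver q L) : γ • w = toStab L γ • w := rfl

theorem smul_placeOf (γ σ : Γ) : γ • placeOf q L σ = placeOf q L (σ * γ⁻¹) := rfl

theorem smul_val_apply (γ : Γ) (w : PlacesOver q L) (x : L) :
    (γ • w).1 x = w.1 (resHom L (toStab L γ)⁻¹ x) := rfl

/-- the action is trivial on `G_L` -/
theorem smul_eq_self_of_mem {u : Γ} (hu : u ∈ L.fixingSubgroup) (w : PlacesOver q L) :
    u • w = w := by
  obtain ⟨σ, rfl⟩ := placeOf_surjective q L w
  rw [smul_placeOf, placeOf_eq_iff]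
  intro x hx
  rw [absAt_mul, (IntermediateField.mem_fixingSubgroup_iff L _).mp (inv_mem hu) x hx]

/-! ### the double coset map -/

/-- **The double coset map** `U x r_q(G_q) ↦ (x • v_q)|_L`. -/
noncomputable def dc (x : Γ) : PlacesOver q L := placeOf q L x⁻¹

theorem dc_def (x : Γ) : dc L q x = placeOf q L x⁻¹ := rfl

/-- the double coset map is equivariant for left multiplication -/
theorem dc_mul (γ x : Γ) : dc L q (γ * x) = γ • dc L q x := by
  rw [dc, dc, smul_placeOf, mul_inv_rev]

theorem dc_one_smul (γ : Γ) : γ • dc L q 1 = dc L q γ := by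
  rw [← dc_mul, mul_one]

theorem dc_surjective : Function.Surjective (dc L q) := fun w => by
  obtain ⟨σ, rfl⟩ := placeOf_surjective q L w
  exact ⟨σ⁻¹, by rw [dc, inv_inv]⟩

/-- `LocalCount.placeRep` is a section of the double coset map -/
theorem dc_placeRep (w : PlacesOver q L) : dc L q (placeRep q L w) = w := by
  rw [dc, placeRep, inv_inv, placeOf_rep]

/-- right multiplication by the local Galois group does not change the double coset -/
theorem dc_mul_local (x : Γ) (h : PadicAlgCl q ≃ₐ[ℚ_[q]] PadicAlgCl q) :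
    dc L q (x * localGaloisToGlobal q h) = dc L q x := by
  rw [dc, dc, placeOf_eq_iff]
  refine (samePlace_of_eq_mul q h⁻¹ (one_mem _) ?_).symm
  rw [mul_inv_rev, map_inv, mul_one]

/-- left multiplication by `G_L` does not change the double coset -/
theorem dc_mem_mul {u : Γ} (hu : u ∈ L.fixingSubgroup) (x : Γ) : dc L q (u * x) = dc L q x := by
  rw [dc_mul, smul_eq_self_of_mem L q hu]

/-- **the fibres of the double coset map are the double cosets** -/
theorem dc_eq_iff [FiniteDimensional ℚ L] {x y : Γ} :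
    dc L q x = dc L q y ↔ ∃ u ∈ L.fixingSubgroup, ∃ h : PadicAlgCl q ≃ₐ[ℚ_[q]] PadicAlgCl q,
      y = u * x * localGaloisToGlobal q h := by
  constructor
  · intro hxy
    rw [dc, dc, placeOf_eq_iff] at hxy
    obtain ⟨τ, g, hg, h⟩ := hxy.exists_eq_mul q
    refine ⟨g⁻¹, inv_mem hg, τ⁻¹, ?_⟩
    rw [← inv_inv y, h, map_inv]
    group
  · rintro ⟨u, hu, h, rfl⟩
    rw [dc_mul_local, dc_mem_mul L q hu]

end Action

/-! ### the dictionary with the primes of `𝓞 L` -/

section Primes

open Fermat.Agent.S14.GalDiv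

variable (L : IntermediateField ℚ Qbar) [NumberField L] [Normal ℚ L]

local instance isGalois_of_normal : IsGalois ℚ L := ⟨⟩

/-- the restriction `Γ → Gal(L/ℚ)` -/
noncomputable def resL : Γ →* (L ≃ₐ[ℚ] L) := AlgEquiv.restrictNormalHom L

theorem coe_resL (γ : Γ) (x : L) : ((resL L γ x : L) : Qbar) = γ (x : Qbar) :=
  AlgEquiv.restrictNormal_commutes γ L x

theorem resL_surjective : Function.Surjective (resL L) :=
  AlgEquiv.restrictNormalHom_surjective Qbar

theorem resL_eq_one_iff (γ : Γ) : resL L γ = 1 ↔ γ ∈ L.fixingSubgroup := by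
  rw [IntermediateField.mem_fixingSubgroup_iff]
  constructor
  · intro h x hx
    have := coe_resL L γ ⟨x, hx⟩
    rw [h] at this
    exact this.symm
  · intro h
    ext x
    rw [coe_resL, h x x.2]
    rfl

theorem resHom_toStab (γ : Γ) (x : L) : resHom L (toStab L γ) x = resL L γ x :=
  Subtype.ext ((coe_resHom L (toStab L γ) x).trans (coe_resL L γ x).symm)

variable (q : ℕ) [Fact q.Prime]

/-- **the prime of `γ • w` is `γ|_L • (the prime of w)`** (Mathlib's Galois action on the primes of
`𝓞 L`, the action of S55 `SUnitGalois`). -/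
theorem prime_smul (γ : Γ) (w : PlacesOver q L) :
    (γ • w).prime q = resL L γ • w.prime q := by
  refine HeightOneSpectrum.ext (Ideal.ext fun x => ?_)
  rw [PlacesOver.mem_prime_iff, mem_smul_asIdeal_iff, PlacesOver.mem_prime_iff, smul_val_apply,
    ← map_inv, resHom_toStab, map_inv]
  rfl

end Primes

/-! ### the `Γ`-set `X_f` of the places over `S` -/

section Xf

open Fermat.Agent.S14.GalDiv Fermat.Agent.S55.GL.Kummer Fermat.Agent.S55.GL.UnramBridge
  Fermat.Agent.S55.SUnitGalois

local instance factPrime_pg (q : Nat.Primes) : Fact (q : ℕ).Prime := ⟨q.2⟩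

variable (S : Finset Nat.Primes) (L : IntermediateField ℚ Qbar)

/-- **The finite places of `L` over `S`**, as pairs `(q, w)`. -/
def Xf : Type := Σ q : S, PlacesOver ((q : Nat.Primes) : ℕ) L

variable {S L} in
/-- the place `(q, w)` -/
def Xf.mk (q : S) (w : PlacesOver ((q : Nat.Primes) : ℕ) L) : Xf S L := ⟨q, w⟩

instance finite_Xf [FiniteDimensional ℚ L] : Finite (Xf S L) :=
  inferInstanceAs (Finite (Σ q : S, PlacesOver ((q : Nat.Primes) : ℕ) L))

variable [Normal ℚ L]

/-- `Γ` acts on `X_f` place by place -/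
noncomputable instance mulActionXf : MulAction Γ (Xf S L) where
  smul γ x := ⟨x.1, γ • x.2⟩
  one_smul x := by
    obtain ⟨q, w⟩ := x
    exact congrArg (Sigma.mk q) (one_smul Γ w)
  mul_smul γ γ' x := by
    obtain ⟨q, w⟩ := x
    exact congrArg (Sigma.mk q) (mul_smul γ γ' w)

theorem smul_mk (γ : Γ) (q : S) (w : PlacesOver ((q : Nat.Primes) : ℕ) L) :
    γ • (Xf.mk q w : Xf S L) = Xf.mk q (γ • w) := rfl

theorem smul_fst (γ : Γ) (x : Xf S L) : (γ • x).1 = x.1 := rfl

theorem Xf.smul_eq_self_of_mem {u : Γ} (hu : u ∈ L.fixingSubgroup) (x : Xf S L) : u • x = x := by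
  obtain ⟨q, w⟩ := x
  exact congrArg (Sigma.mk q) (PlacesGSet.smul_eq_self_of_mem L _ hu w)

variable [NumberField L]

/-- the prime of `𝓞 L` of a place over `S` -/
noncomputable def Xf.prime (x : Xf S L) : HeightOneSpectrum (𝓞 L) :=
  x.2.prime ((x.1 : Nat.Primes) : ℕ)

theorem Xf.prime_mem (x : Xf S L) : x.prime S L ∈ primesAbove L S := by
  rw [mem_primesAbove]
  intro h
  exact h x.1.1 x.1.2 (x.2.natCast_mem_prime _)

/-- **`X_f ≃ primesAbove L S`** -/
noncomputable def xfEquiv : Xf S L ≃ primesAbove L S :=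
  Equiv.ofBijective (fun x => ⟨x.prime S L, x.prime_mem S L⟩) (by
    constructor
    · rintro ⟨q, w⟩ ⟨q', w'⟩ h
      have hP : w.prime _ = w'.prime _ := congrArg Subtype.val h
      have hqq' : q = q' := Subtype.ext (Subtype.ext
        (Fermat.Agent.S55.GL.PlacesUnits.eq_of_natCast_mem (w.prime _) q.1.2 q'.1.2
          (w.natCast_mem_prime _) (hP ▸ w'.natCast_mem_prime _)))
      subst hqq'
      exact congrArg (Sigma.mk q) (PlacesOver.prime_injective _ hP)
    · rintro ⟨v, hv⟩
      have h1 := (mem_primesAbove L).1 hv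
      rw [IsOff] at h1
      push Not at h1
      obtain ⟨q, hqS, hq⟩ := h1
      obtain ⟨w, hw⟩ := exists_prime_eq ((q : Nat.Primes) : ℕ) v hq
      exact ⟨⟨⟨q, hqS⟩, w⟩, Subtype.ext hw⟩)

@[simp] theorem coe_xfEquiv (x : Xf S L) :
    ((xfEquiv S L x : primesAbove L S) : HeightOneSpectrum (𝓞 L)) = x.prime S L := rfl

/-- **`xfEquiv` is equivariant**: `Γ` acts on the primes through `Gal(L/ℚ)`. -/
theorem coe_xfEquiv_smul (γ : Γ) (x : Xf S L) :
    ((xfEquiv S L (γ • x) : primesAbove L S) : HeightOneSpectrum (𝓞 L)) =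
      resL L γ • ((xfEquiv S L x : primesAbove L S) : HeightOneSpectrum (𝓞 L)) := by
  obtain ⟨q, w⟩ := x
  exact prime_smul L _ γ w

/-- `primesAbove L S` is Galois stable (the hypothesis of S55 `SUnitGalois`) -/
theorem isGalStable_primesAbove : IsGalStable ℚ (primesAbove L S) := by
  rw [primesAbove_eq_primesOver]
  infer_instance

/-- `xfEquiv` is equivariant, for the action of S55 `SUnitGalois` on `primesAbove L S` -/
theorem xfEquiv_smul (γ : Γ) (x : Xf S L) :
    haveI := isGalStable_primesAbove S L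
    xfEquiv S L (γ • x) = resL L γ • xfEquiv S L x :=
  Subtype.ext (coe_xfEquiv_smul S L γ x)

end Xf

end Fermat.Agent.S56.GEC.Equivariant.PlacesGSet
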