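/-
S56 / GEC / D3 (r4),(r5) — linear-algebra core (helper4).  Mathlib only.

Abstract situation behind `H^n(Γ, (J ⊗ N)^C) = (H^n(Γ, J) ⊗ N)^C`:
`HX` "is" `N ⊗ HJ` through a family of maps `inn v : HJ → HX` (`v ∈ N`) and
`pr φ : HX → HJ` (`φ ∈ N^*`), a finite group `C` of order invertible in `k` acts on `N`, `HJ`, `HX`
compatibly, and `HY` is the retract of `HX` cut out by the averaging idempotent.  Then
`finrank HY = finrank (N ⊗ HJ)^C`.
-/
import Mathlib

set_option autoImplicit false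

noncomputable section

namespace Fermat.Agent.S56.GEC.Equivariant.RegularLin

open Module Representation TensorProduct

variable {k : Type*} [Field k] {C : Type*} [Group C]
variable {N HJ HX HY : Type*} [AddCommGroup N] [Module k N] [AddCommGroup HJ] [Module k HJ]
  [AddCommGroup HX] [Module k HX] [AddCommGroup HY] [Module k HY]

/-- the comparison map `N ⊗ HJ → HX`, `v ⊗ x ↦ inn v x` -/
def theta (inn : N →ₗ[k] HJ →ₗ[k] HX) : N ⊗[k] HJ →ₗ[k] HX := TensorProduct.lift inn

@[simp] theorem theta_tmul (inn : N →ₗ[k] HJ →ₗ[k] HX) (v : N) (x : HJ) :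
    theta inn (v ⊗ₜ[k] x) = inn v x := TensorProduct.lift.tmul _ _

/-- the inverse of the comparison map, built from a finite basis of `N` -/
def thetaInv {ι : Type*} [Fintype ι] (b : Basis ι k N) (pr : Dual k N →ₗ[k] HX →ₗ[k] HJ) :
    HX →ₗ[k] N ⊗[k] HJ :=
  ∑ i, (TensorProduct.mk k N HJ (b i)).comp (pr (b.coord i))

theorem thetaInv_apply {ι : Type*} [Fintype ι] (b : Basis ι k N)
    (pr : Dual k N →ₗ[k] HX →ₗ[k] HJ) (x : HX) :
    thetaInv b pr x = ∑ i, b i ⊗ₜ[k] pr (b.coord i) x := by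
  unfold thetaInv
  rw [LinearMap.sum_apply]
  rfl

/-- `HX ≃ N ⊗ HJ` -/
def thetaEquiv {ι : Type*} [Fintype ι] (b : Basis ι k N) (inn : N →ₗ[k] HJ →ₗ[k] HX)
    (pr : Dual k N →ₗ[k] HX →ₗ[k] HJ)
    (h_pr_in : ∀ φ v x, pr φ (inn v x) = φ v • x)
    (h_sum : ∀ x, ∑ i, inn (b i) (pr (b.coord i) x) = x) : (N ⊗[k] HJ) ≃ₗ[k] HX :=
  LinearEquiv.ofLinearMap (theta inn) (thetaInv b pr)
    (by
      ext x
      rw [LinearMap.comp_apply, thetaInv_apply, map_sum, LinearMap.id_apply]
      simp only [theta_tmul]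
      exact h_sum x)
    (by
      ext v x
      simp only [AlgebraTensorModule.curry_apply, curry_apply, LinearMap.coe_restrictScalars,
        LinearMap.comp_apply, theta_tmul, LinearMap.id_apply]
      rw [thetaInv_apply]
      simp only [h_pr_in, Basis.coord_apply]
      simp only [← TensorProduct.smul_tmul, ← TensorProduct.sum_tmul]
      rw [b.sum_repr])

theorem thetaEquiv_apply {ι : Type*} [Fintype ι] (b : Basis ι k N) (inn : N →ₗ[k] HJ →ₗ[k] HX)
    (pr : Dual k N →ₗ[k] HX →ₗ[k] HJ)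
    (h_pr_in : ∀ φ v x, pr φ (inn v x) = φ v • x)
    (h_sum : ∀ x, ∑ i, inn (b i) (pr (b.coord i) x) = x) (t : N ⊗[k] HJ) :
    thetaEquiv b inn pr h_pr_in h_sum t = theta inn t := rfl

/-- the comparison map is equivariant -/
theorem theta_tprod (ρN : Representation k C N) (A : Representation k C HJ)
    (Ξ : Representation k C HX) (inn : N →ₗ[k] HJ →ₗ[k] HX)
    (h_eq : ∀ c v x, Ξ c (inn v x) = inn (ρN c v) (A c x)) (c : C) (t : N ⊗[k] HJ) :
    theta inn ((ρN.tprod A) c t) = Ξ c (theta inn t) := by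
  induction t using TensorProduct.induction_on with
  | zero => simp
  | tmul v x => rw [Representation.tprod_apply, TensorProduct.map_tmul, theta_tmul, theta_tmul, h_eq]
  | add t u ht hu => rw [map_add, map_add, map_add, map_add, ht, hu]

/-- the comparison isomorphism matches the invariants -/
theorem map_invariants {ι : Type*} [Fintype ι] (b : Basis ι k N)
    (ρN : Representation k C N) (A : Representation k C HJ)
    (Ξ : Representation k C HX) (inn : N →ₗ[k] HJ →ₗ[k] HX)
    (pr : Dual k N →ₗ[k] HX →ₗ[k] HJ)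
    (h_pr_in : ∀ φ v x, pr φ (inn v x) = φ v • x)
    (h_sum : ∀ x, ∑ i, inn (b i) (pr (b.coord i) x) = x)
    (h_eq : ∀ c v x, Ξ c (inn v x) = inn (ρN c v) (A c x)) :
    (ρN.tprod A).invariants.map (thetaEquiv b inn pr h_pr_in h_sum : (N ⊗[k] HJ) →ₗ[k] HX) =
      Ξ.invariants := by
  ext x
  constructor
  · rintro ⟨t, ht, rfl⟩
    rw [mem_invariants]
    intro c
    rw [SetLike.mem_coe, mem_invariants] at ht
    rw [LinearEquiv.coe_coe, thetaEquiv_apply, ← theta_tprod ρN A Ξ inn h_eq, ht c]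
  · intro hx
    rw [mem_invariants] at hx
    refine ⟨(thetaEquiv b inn pr h_pr_in h_sum).symm x, ?_, LinearEquiv.apply_symm_apply _ x⟩
    rw [SetLike.mem_coe, mem_invariants]
    intro c
    apply (thetaEquiv b inn pr h_pr_in h_sum).injective
    rw [thetaEquiv_apply, theta_tprod ρN A Ξ inn h_eq, ← thetaEquiv_apply b inn pr h_pr_in h_sum,
      LinearEquiv.apply_symm_apply, hx c]

theorem finrank_invariants_eq {ι : Type*} [Fintype ι] (b : Basis ι k N)
    (ρN : Representation k C N) (A : Representation k C HJ)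
    (Ξ : Representation k C HX) (inn : N →ₗ[k] HJ →ₗ[k] HX)
    (pr : Dual k N →ₗ[k] HX →ₗ[k] HJ)
    (h_pr_in : ∀ φ v x, pr φ (inn v x) = φ v • x)
    (h_sum : ∀ x, ∑ i, inn (b i) (pr (b.coord i) x) = x)
    (h_eq : ∀ c v x, Ξ c (inn v x) = inn (ρN c v) (A c x)) :
    finrank k Ξ.invariants = finrank k (ρN.tprod A).invariants := by
  rw [← map_invariants b ρN A Ξ inn pr h_pr_in h_sum h_eq, LinearEquiv.finrank_map_eq]

/-- a retract of `HX` cut out by the averaging operator is the space of invariants -/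
theorem range_eq_invariants [Fintype C] (hC : (Fintype.card C : k) ≠ 0)
    (Ξ : Representation k C HX) (i : HY →ₗ[k] HX) (π : HX →ₗ[k] HY)
    (hιπ : ∀ x, Fintype.card C • i (π x) = ∑ c, Ξ c x)
    (hfix : ∀ c y, Ξ c (i y) = i y) : LinearMap.range i = Ξ.invariants := by
  ext x
  rw [mem_invariants]
  constructor
  · rintro ⟨y, rfl⟩ c
    exact hfix c y
  · intro hx
    refine ⟨π x, ?_⟩
    have h1 := hιπ x
    simp only [hx, Finset.sum_const, Finset.card_univ] at h1
    rw [← Nat.cast_smul_eq_nsmul k, ← Nat.cast_smul_eq_nsmul k] at h1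
    exact smul_right_injective _ hC h1

/-- **Main statement.**  `finrank HY = finrank (N ⊗ HJ)^C`. -/
theorem finrank_eq_finrank_invariants [Fintype C] (hC : (Fintype.card C : k) ≠ 0)
    {ι : Type*} [Fintype ι] (b : Basis ι k N)
    (ρN : Representation k C N) (A : Representation k C HJ)
    (Ξ : Representation k C HX) (inn : N →ₗ[k] HJ →ₗ[k] HX)
    (pr : Dual k N →ₗ[k] HX →ₗ[k] HJ)
    (h_pr_in : ∀ φ v x, pr φ (inn v x) = φ v • x)
    (h_sum : ∀ x, ∑ i, inn (b i) (pr (b.coord i) x) = x)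
    (h_eq : ∀ c v x, Ξ c (inn v x) = inn (ρN c v) (A c x))
    (i : HY →ₗ[k] HX) (π : HX →ₗ[k] HY) (hπι : ∀ y, π (i y) = y)
    (hιπ : ∀ x, Fintype.card C • i (π x) = ∑ c, Ξ c x)
    (hfix : ∀ c y, Ξ c (i y) = i y) :
    finrank k HY = finrank k (ρN.tprod A).invariants := by
  have hinj : Function.Injective i := Function.LeftInverse.injective hπι
  rw [← finrank_invariants_eq b ρN A Ξ inn pr h_pr_in h_sum h_eq,
    ← range_eq_invariants hC Ξ i π hιπ hfix, LinearMap.finrank_range_of_inj hinj]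

end Fermat.Agent.S56.GEC.Equivariant.RegularLin
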