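/-
S56 / GEC / D3 (r4),(r5) — Rep-level form (helper4).

Generic in the group `G` and the level structure `𝒰` (global `Γ`, `globalLevel S` and local
`G_p`, `localLevel` are both instances).

Situation: `J X Y : Rep k G`; `X` "is" `J ⊗ N` (`N` a finite dimensional `k`-space with trivial
`G`-action) through morphisms `inn v : J ⟶ X` (`v ∈ N`) and `pr φ : X ⟶ J` (`φ ∈ N^*`); a finite
group `C` of order invertible in `k` acts on `N` (by `ρN`), on `J` and on `X` by `Rep`-endomorphisms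
`α c`, `ξ c`, compatibly; `Y` is the retract of `X` cut out by the averaging idempotent of `ξ`
(i.e. `Y = (J ⊗ N)^C = indRep N`).  Then

* `finrank_levelCohomology_eq` : `finrank H^n(𝒰, Y) = finrank (N ⊗ H^n(𝒰, J))^C`
  (`= Mult.mult ρN (actH 𝒰 α n)`), and
* `finrank_minusPart_eq` : the same for the functor `A ↦ A^{c = -1}` (`c : G` any element).
-/
import Mathlib
import Fermat.Agent.S55.MainAdd
import Fermat.Agent.S56.GEC.Equivariant.RegularLin
import Fermat.Agent.S56.GEC.Additive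
import Fermat.Agent.S56.GEC.RegularTensor
import Fermat.Agent.S56.GEC.Equivariant.Mult

set_option autoImplicit false
set_option linter.unusedSectionVars false
set_option linter.unusedVariables false

open CategoryTheory

noncomputable section

namespace Fermat.Agent.S56.GEC.Equivariant.RegularRep

open Module Fermat.Agent.S55.Level Fermat.Agent.S55.LevelDuality Fermat.Agent.S55

universe u

section Smul

variable {k G : Type u} [CommRing k] [Group G] (𝒰 : LevelStructure G)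
variable {A B : Rep.{u} k G} [IsDiscrete 𝒰 A] [IsDiscrete 𝒰 B]

theorem levelMap_smul (r : k) (φ : A ⟶ B) : levelMap 𝒰 (r • φ) = r • levelMap 𝒰 φ := by
  ext n : 1
  refine ModuleCat.hom_ext (LinearMap.ext fun (x : levelCochains 𝒰 A n) => Subtype.ext ?_)
  funext g
  rfl

set_option backward.isDefEq.respectTransparency false in
/-- `lmap` is `k`-linear in the morphism. -/
theorem lmap_smul (r : k) (φ : A ⟶ B) (n : ℕ) : lmap 𝒰 (r • φ) n = r • lmap 𝒰 φ n := by
  rw [Main.lmap_eq_Hmap, Main.lmap_eq_Hmap]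
  unfold CF.Hmap
  rw [levelMap_smul]
  have h : HomologicalComplex.homologyMap (r • levelMap 𝒰 φ) n =
      r • HomologicalComplex.homologyMap (levelMap 𝒰 φ) n := by
    dsimp [HomologicalComplex.homologyMap]
    rw [← ShortComplex.homologyMap_smul]
    rfl
  rw [h]
  rfl

theorem lmap_nsmul (m : ℕ) (φ : A ⟶ B) (n : ℕ) : lmap 𝒰 (m • φ) n = m • lmap 𝒰 φ n := by
  rw [Main.lmap_eq_Hmap, CF.Hmap_nsmul]
  rfl

end Smul

section ActH

variable {k G : Type u} [CommRing k] [Group G] (𝒰 : LevelStructure G)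
variable {J : Rep.{u} k G} [IsDiscrete 𝒰 J] {C : Type*} [Group C]

/-- The representation of `C` on `H^n(𝒰, J)` induced by an action of `C` on `J` by
endomorphisms. -/
def actH (α : C → (J ⟶ J)) (hα1 : α 1 = 𝟙 J) (hαmul : ∀ c d, α (c * d) = α d ≫ α c) (n : ℕ) :
    Representation k C (levelCohomology 𝒰 J n) where
  toFun c := lmap 𝒰 (α c) n
  map_one' := by rw [hα1, Main.lmap_id]; rfl
  map_mul' c d := by rw [hαmul, Main.lmap_comp]; rfl

@[simp] theorem actH_apply (α : C → (J ⟶ J)) (hα1 : α 1 = 𝟙 J)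
    (hαmul : ∀ c d, α (c * d) = α d ≫ α c) (n : ℕ) (c : C) :
    actH 𝒰 α hα1 hαmul n c = lmap 𝒰 (α c) n := rfl

end ActH

section Main

variable {k G : Type u} [Field k] [Group G] (𝒰 : LevelStructure G)
variable {J X Y : Rep.{u} k G} [IsDiscrete 𝒰 J] [IsDiscrete 𝒰 X] [IsDiscrete 𝒰 Y]
variable {C : Type*} [Group C] [Fintype C]
variable {N : Type*} [AddCommGroup N] [Module k N] {ι : Type*} [Fintype ι]

/-- **(r4), abstract form.**  `finrank H^n(𝒰, (J ⊗ N)^C) = finrank (N ⊗ H^n(𝒰, J))^C`. -/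
theorem finrank_levelCohomology_eq (hC : (Fintype.card C : k) ≠ 0) (b : Basis ι k N)
    (ρN : Representation k C N)
    (α : C → (J ⟶ J)) (hα1 : α 1 = 𝟙 J) (hαmul : ∀ c d, α (c * d) = α d ≫ α c)
    (ξ : C → (X ⟶ X)) (hξ1 : ξ 1 = 𝟙 X) (hξmul : ∀ c d, ξ (c * d) = ξ d ≫ ξ c)
    (inn : N → (J ⟶ X)) (inn_add : ∀ v w, inn (v + w) = inn v + inn w)
    (inn_smul : ∀ (r : k) v, inn (r • v) = r • inn v)
    (pr : Dual k N → (X ⟶ J)) (pr_add : ∀ φ ψ, pr (φ + ψ) = pr φ + pr ψ)
    (pr_smul : ∀ (r : k) φ, pr (r • φ) = r • pr φ)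
    (h_pr_in : ∀ φ v, inn v ≫ pr φ = φ v • 𝟙 J)
    (h_sum : ∑ i, pr (b.coord i) ≫ inn (b i) = 𝟙 X)
    (h_eq : ∀ c v, inn v ≫ ξ c = α c ≫ inn (ρN c v))
    (i : Y ⟶ X) (π : X ⟶ Y) (hπι : i ≫ π = 𝟙 Y)
    (hιπ : Fintype.card C • (π ≫ i) = ∑ c, ξ c)
    (hfix : ∀ c, i ≫ ξ c = i) (n : ℕ) :
    finrank k (levelCohomology 𝒰 Y n) =
      finrank k (ρN.tprod (actH 𝒰 α hα1 hαmul n)).invariants := by
  let innL : N →ₗ[k] levelCohomology 𝒰 J n →ₗ[k] levelCohomology 𝒰 X n :=
    { toFun := fun v => lmap 𝒰 (inn v) n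
      map_add' := fun v w => by rw [inn_add, Main.lmap_add]
      map_smul' := fun r v => by rw [inn_smul, lmap_smul]; rfl }
  let prL : Dual k N →ₗ[k] levelCohomology 𝒰 X n →ₗ[k] levelCohomology 𝒰 J n :=
    { toFun := fun φ => lmap 𝒰 (pr φ) n
      map_add' := fun φ ψ => by rw [pr_add, Main.lmap_add]
      map_smul' := fun r φ => by rw [pr_smul, lmap_smul]; rfl }
  refine RegularLin.finrank_eq_finrank_invariants hC b ρN (actH 𝒰 α hα1 hαmul n)
    (actH 𝒰 ξ hξ1 hξmul n) innL prL ?_ ?_ ?_ (lmap 𝒰 i n) (lmap 𝒰 π n) ?_ ?_ ?_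
  · intro φ v x
    show lmap 𝒰 (pr φ) n (lmap 𝒰 (inn v) n x) = φ v • x
    rw [← Main.lmap_comp_apply, h_pr_in, lmap_smul, Main.lmap_id]
    rfl
  · intro x
    show ∑ j, lmap 𝒰 (inn (b j)) n (lmap 𝒰 (pr (b.coord j)) n x) = x
    simp only [← Main.lmap_comp_apply]
    rw [← Main.lmap_sum_apply, h_sum, Main.lmap_id_apply]
  · intro c v x
    show lmap 𝒰 (ξ c) n (lmap 𝒰 (inn v) n x) = lmap 𝒰 (inn (ρN c v)) n (lmap 𝒰 (α c) n x)
    rw [← Main.lmap_comp_apply, ← Main.lmap_comp_apply, h_eq]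
  · intro y
    rw [← Main.lmap_comp_apply, hπι, Main.lmap_id_apply]
  · intro x
    show Fintype.card C • lmap 𝒰 i n (lmap 𝒰 π n x) = ∑ c, lmap 𝒰 (ξ c) n x
    rw [← Main.lmap_comp_apply, ← Main.lmap_sum_apply, ← hιπ, lmap_nsmul]
    rfl
  · intro c y
    show lmap 𝒰 (ξ c) n (lmap 𝒰 i n y) = lmap 𝒰 i n y
    rw [← Main.lmap_comp_apply, hfix]

end Main

/-! ### The `(-1)`-eigenspace functor of an element `c : G` (helper25's `Additive.minusPart`) -/

section NegEig

open Fermat.Agent.S56.GEC.Additive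

variable {k G : Type u} [Field k] [Group G] (c : G)
variable {A B D : Rep.{u} k G}

theorem minusMap_id (a : minusPart c A) : minusMap c (𝟙 A) a = a := Subtype.ext rfl

theorem minusMap_comp (f : A ⟶ B) (g : B ⟶ D) (a : minusPart c A) :
    minusMap c (f ≫ g) a = minusMap c g (minusMap c f a) := Subtype.ext rfl

theorem minusMap_add (f g : A ⟶ B) (a : minusPart c A) :
    minusMap c (f + g) a = minusMap c f a + minusMap c g a := Subtype.ext rfl

theorem minusMap_smul (r : k) (f : A ⟶ B) (a : minusPart c A) :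
    minusMap c (r • f) a = r • minusMap c f a := Subtype.ext rfl

theorem minusMap_sum {ι : Type*} (s : Finset ι) (f : ι → (A ⟶ B)) (a : minusPart c A) :
    minusMap c (∑ j ∈ s, f j) a = ∑ j ∈ s, minusMap c (f j) a := by
  classical
  induction s using Finset.induction_on with
  | empty =>
    rw [Finset.sum_empty, Finset.sum_empty]
    exact Subtype.ext rfl
  | insert x s hx ih => rw [Finset.sum_insert hx, Finset.sum_insert hx, minusMap_add, ih]

theorem minusMap_nsmul (m : ℕ) (f : A ⟶ B) (a : minusPart c A) :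
    minusMap c (m • f) a = m • minusMap c f a := by
  induction m with
  | zero =>
    rw [zero_smul, zero_smul]
    exact Subtype.ext rfl
  | succ m ih => rw [succ_nsmul, succ_nsmul, minusMap_add, ih]

variable {C : Type*} [Group C]

/-- The representation of `C` on `J^{c=-1}` induced by an action of `C` on `J` by
endomorphisms. -/
def actE {J : Rep.{u} k G} (α : C → (J ⟶ J)) (hα1 : α 1 = 𝟙 J)
    (hαmul : ∀ x y, α (x * y) = α y ≫ α x) : Representation k C (minusPart c J) where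
  toFun x := minusMap c (α x)
  map_one' := by
    rw [hα1]
    exact LinearMap.ext fun a => minusMap_id c a
  map_mul' x y := by
    rw [hαmul]
    exact LinearMap.ext fun a => minusMap_comp c _ _ a

@[simp] theorem actE_apply {J : Rep.{u} k G} (α : C → (J ⟶ J)) (hα1 : α 1 = 𝟙 J)
    (hαmul : ∀ x y, α (x * y) = α y ≫ α x) (x : C) :
    actE c α hα1 hαmul x = minusMap c (α x) := rfl

end NegEig

section MainE

open Fermat.Agent.S56.GEC.Additive

variable {k G : Type u} [Field k] [Group G] (c₀ : G)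
variable {J X Y : Rep.{u} k G}
variable {C : Type*} [Group C] [Fintype C]
variable {N : Type*} [AddCommGroup N] [Module k N] {ι : Type*} [Fintype ι]

/-- **(r5), abstract form.**  `finrank ((J ⊗ N)^C)^{c₀=-1} = finrank (N ⊗ J^{c₀=-1})^C`. -/
theorem finrank_minusPart_eq_mult (hC : (Fintype.card C : k) ≠ 0) (b : Basis ι k N)
    (ρN : Representation k C N)
    (α : C → (J ⟶ J)) (hα1 : α 1 = 𝟙 J) (hαmul : ∀ c d, α (c * d) = α d ≫ α c)
    (ξ : C → (X ⟶ X)) (hξ1 : ξ 1 = 𝟙 X) (hξmul : ∀ c d, ξ (c * d) = ξ d ≫ ξ c)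
    (inn : N → (J ⟶ X)) (inn_add : ∀ v w, inn (v + w) = inn v + inn w)
    (inn_smul : ∀ (r : k) v, inn (r • v) = r • inn v)
    (pr : Dual k N → (X ⟶ J)) (pr_add : ∀ φ ψ, pr (φ + ψ) = pr φ + pr ψ)
    (pr_smul : ∀ (r : k) φ, pr (r • φ) = r • pr φ)
    (h_pr_in : ∀ φ v, inn v ≫ pr φ = φ v • 𝟙 J)
    (h_sum : ∑ i, pr (b.coord i) ≫ inn (b i) = 𝟙 X)
    (h_eq : ∀ c v, inn v ≫ ξ c = α c ≫ inn (ρN c v))
    (i : Y ⟶ X) (π : X ⟶ Y) (hπι : i ≫ π = 𝟙 Y)
    (hιπ : Fintype.card C • (π ≫ i) = ∑ c, ξ c)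
    (hfix : ∀ c, i ≫ ξ c = i) :
    finrank k (minusPart c₀ Y) = finrank k (ρN.tprod (actE c₀ α hα1 hαmul)).invariants := by
  let innL : N →ₗ[k] minusPart c₀ J →ₗ[k] minusPart c₀ X :=
    { toFun := fun v => minusMap c₀ (inn v)
      map_add' := fun v w => by
        rw [inn_add]; exact LinearMap.ext fun a => minusMap_add c₀ _ _ a
      map_smul' := fun r v => by
        rw [inn_smul]; exact LinearMap.ext fun a => minusMap_smul c₀ _ _ a }
  let prL : Dual k N →ₗ[k] minusPart c₀ X →ₗ[k] minusPart c₀ J :=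
    { toFun := fun φ => minusMap c₀ (pr φ)
      map_add' := fun φ ψ => by
        rw [pr_add]; exact LinearMap.ext fun a => minusMap_add c₀ _ _ a
      map_smul' := fun r φ => by
        rw [pr_smul]; exact LinearMap.ext fun a => minusMap_smul c₀ _ _ a }
  refine RegularLin.finrank_eq_finrank_invariants hC b ρN (actE c₀ α hα1 hαmul)
    (actE c₀ ξ hξ1 hξmul) innL prL ?_ ?_ ?_ (minusMap c₀ i) (minusMap c₀ π) ?_ ?_ ?_
  · intro φ v x
    show minusMap c₀ (pr φ) (minusMap c₀ (inn v) x) = φ v • x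
    rw [← minusMap_comp, h_pr_in, minusMap_smul, minusMap_id]
  · intro x
    show ∑ j, minusMap c₀ (inn (b j)) (minusMap c₀ (pr (b.coord j)) x) = x
    simp only [← minusMap_comp]
    rw [← minusMap_sum, h_sum, minusMap_id]
  · intro c v x
    show minusMap c₀ (ξ c) (minusMap c₀ (inn v) x) =
      minusMap c₀ (inn (ρN c v)) (minusMap c₀ (α c) x)
    rw [← minusMap_comp, ← minusMap_comp, h_eq]
  · intro y
    rw [← minusMap_comp, hπι, minusMap_id]
  · intro x
    show Fintype.card C • minusMap c₀ i (minusMap c₀ π x) = ∑ c, minusMap c₀ (ξ c) x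
    rw [← minusMap_comp, ← minusMap_sum, ← hιπ, minusMap_nsmul]
  · intro c y
    show minusMap c₀ (ξ c) (minusMap c₀ i y) = minusMap c₀ i y
    rw [← minusMap_comp, hfix]

end MainE

/-! ### The instance: `Y = coind_V^G res_V Z` inside `X = coind_U^G res_U Z`, `U ⊴ G`, `U ≤ V` -/

section Instance

open Fermat.Agent.S56.GEC.Regular Fermat.Agent.S55.Devissage Fermat.Agent.S56.GEC.Additive
  Fermat.Agent.S56.GEC.Equivariant.Mult

variable {k G : Type u} [Field k] [Group G]
variable (U V : Subgroup G) [hU : U.Normal]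

/-- The representation of the finite quotient `V ⧸ U` on a representation `Z` of `G` on which `U`
acts trivially. -/
def quotRep (Z : Rep.{u} k G) (hZ : ∀ u ∈ U, ∀ z : Z, Z.ρ u z = z) :
    Representation k (↥V ⧸ U.subgroupOf V) Z :=
  QuotientGroup.lift (U.subgroupOf V) ((Z.ρ : G →* (Z →ₗ[k] Z)).comp V.subtype)
    (fun v hv => LinearMap.ext fun z => hZ v (Subgroup.mem_subgroupOf.1 hv) z)

@[simp] theorem quotRep_mk (Z : Rep.{u} k G) (hZ : ∀ u ∈ U, ∀ z : Z, Z.ρ u z = z) (v : V) :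
    quotRep U V Z hZ (QuotientGroup.mk v) = Z.ρ (v : G) := rfl

theorem leftTrQ_one' (A : Rep.{u} k G) :
    leftTrQ (U := U) (V := V) A 1 = 𝟙 (coindRes U A) := map_one _

theorem leftTrQ_mul' (A : Rep.{u} k G) (c d : ↥V ⧸ U.subgroupOf V) :
    leftTrQ (U := U) (V := V) A (c * d) =
      leftTrQ (U := U) (V := V) A d ≫ leftTrQ (U := U) (V := V) A c := by
  rw [map_mul]
  rfl

variable (𝒰 : LevelStructure G)

/-- The representation of `V ⧸ U` on `Hⁿ(𝒰, coind_U^G res_U A)` (helper11's `cohRep`, descended to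
the finite quotient).  The discreteness of `coind_U^G res_U A` is an instance argument of its own
(instance resolution does not see through `Rep.res _ (Rep.trivial _ _ _)`). -/
def cohRepQ (A : Rep.{u} k G) [IsDiscrete 𝒰 (coindRes U A)] (n : ℕ) :
    Representation k (↥V ⧸ U.subgroupOf V) (levelCohomology 𝒰 (coindRes U A) n) :=
  actH 𝒰 (fun q => leftTrQ (U := U) (V := V) A q) (leftTrQ_one' U V A) (leftTrQ_mul' U V A) n

theorem cohRepQ_mk (A : Rep.{u} k G) [IsDiscrete 𝒰 (coindRes U A)] (n : ℕ) (v : V)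
    (x : levelCohomology 𝒰 (coindRes U A) n) :
    cohRepQ U V 𝒰 A n (QuotientGroup.mk v) x = (CF.Hmap 𝒰 (leftTr U A (v : G)) n).hom x := rfl

/-- comparison with helper11's `cohRep` -/
theorem cohRepQ_mk_eq_cohRep (A : Rep.{u} k G) [IsOpenSub 𝒰 U] [IsDiscrete 𝒰 A] (n : ℕ) (v : V) :
    cohRepQ U V 𝒰 A n (QuotientGroup.mk v) = cohRep U A 𝒰 n (v : G) := rfl

/-- The representation of `V ⧸ U` on `(coind_U^G k)^{c = -1}`. -/
def minusRepQ (c : G) :
    Representation k (↥V ⧸ U.subgroupOf V) (minusPart c (coindRes U (Rep.trivial k G k))) :=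
  actE c (fun q => leftTrQ (U := U) (V := V) (Rep.trivial k G k) q)
    (leftTrQ_one' U V (Rep.trivial k G k)) (leftTrQ_mul' U V (Rep.trivial k G k))

theorem minusRepQ_mk (c : G) (v : V) :
    minusRepQ (k := k) U V c (QuotientGroup.mk v) =
      minusMap c (leftTr U (Rep.trivial k G k) (v : G)) := rfl

variable {U V}
variable [Fintype (↥V ⧸ U.subgroupOf V)]
  (Z : Rep.{u} k G) [FiniteDimensional k Z] (hZ : ∀ u ∈ U, ∀ z : Z, Z.ρ u z = z)

theorem insZ_leftTrQ (q : ↥V ⧸ U.subgroupOf V) (z : Z) :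
    insZ U Z hZ z ≫ leftTrQ (U := U) (V := V) Z q =
      leftTrQ (U := U) (V := V) (Rep.trivial k G k) q ≫ insZ U Z hZ (quotRep U V Z hZ q z) := by
  induction q using QuotientGroup.induction_on with | H v =>
  rw [leftTrQ_mk, leftTrQ_mk, quotRep_mk]
  exact coefMap_leftTr U (v : G) _ _ _ _ (fun a => by
    show Z.ρ (v : G) (a • z) = a • Z.ρ (v : G) z
    rw [map_smul])

theorem prZ_add (ξ ξ' : Z →ₗ[k] k) :
    prZ U Z hZ (ξ + ξ') = prZ U Z hZ ξ + prZ U Z hZ ξ' := by
  refine Rep.hom_ext (Representation.IntertwiningMap.ext (LinearMap.ext fun f =>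
    Subtype.ext (funext fun x => ?_)))
  rfl

theorem prZ_smul (r : k) (ξ : Z →ₗ[k] k) : prZ U Z hZ (r • ξ) = r • prZ U Z hZ ξ := by
  refine Rep.hom_ext (Representation.IntertwiningMap.ext (LinearMap.ext fun f =>
    Subtype.ext (funext fun x => ?_)))
  rfl

/-- the averaging retraction `coind_U ⟶ coind_V` -/
def avgToV (hm : (Fintype.card (↥V ⧸ U.subgroupOf V) : k) ≠ 0) : coindRes U Z ⟶ coindRes V Z :=
  ((Fintype.card (↥V ⧸ U.subgroupOf V) : k)⁻¹) • trToV (U := U) (V := V) Z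

theorem inclVU_avgToV (hUV : U ≤ V) (hm : (Fintype.card (↥V ⧸ U.subgroupOf V) : k) ≠ 0) :
    inclVU U Z V hUV ≫ avgToV Z hm = 𝟙 (coindRes V Z) := by
  unfold avgToV
  rw [Linear.comp_smul, inclVU_trToV, ← Nat.cast_smul_eq_nsmul k, smul_smul, inv_mul_cancel₀ hm,
    one_smul]

theorem card_nsmul_avgToV_inclVU (hUV : U ≤ V) (hm : (Fintype.card (↥V ⧸ U.subgroupOf V) : k) ≠ 0) :
    Fintype.card (↥V ⧸ U.subgroupOf V) • (avgToV Z hm ≫ inclVU U Z V hUV) =
      ∑ q : ↥V ⧸ U.subgroupOf V, leftTrQ (U := U) (V := V) Z q := by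
  unfold avgToV
  rw [Linear.smul_comp, trToV_inclVU, ← Nat.cast_smul_eq_nsmul k, smul_smul, mul_inv_cancel₀ hm,
    one_smul]
  rfl

theorem inclVU_leftTrQ (hUV : U ≤ V) (q : ↥V ⧸ U.subgroupOf V) :
    inclVU U Z V hUV ≫ leftTrQ (U := U) (V := V) Z q = inclVU U Z V hUV := by
  obtain ⟨v, hv, hq⟩ := exists_leftTrQ_eq (U := U) (V := V) Z q
  rw [hq]
  exact inclVU_leftTr Z hUV hv

variable [IsDiscrete 𝒰 (coindRes U (Rep.trivial k G k))] [IsDiscrete 𝒰 (coindRes U Z)]
  [IsDiscrete 𝒰 (coindRes V Z)]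

/-- **(r4)**: `dim Hⁿ(G, coind_V^G res_V Z) = mult Z Aⁿ`, `Aⁿ = Hⁿ(G, coind_U^G k)` with its action
of `V ⧸ U`, for `U ⊴ G`, `U ≤ V`, `[V : U]` invertible in `k`, `Z` trivial on `U`. -/
theorem finrank_coindRes_eq_mult (hUV : U ≤ V) (hm : (Fintype.card (↥V ⧸ U.subgroupOf V) : k) ≠ 0) (n : ℕ) :
    finrank k (levelCohomology 𝒰 (coindRes V Z) n) =
      mult (quotRep U V Z hZ) (cohRepQ U V 𝒰 (Rep.trivial k G k) n) :=
  finrank_levelCohomology_eq 𝒰 hm (Module.finBasis k Z) (quotRep U V Z hZ)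
    (fun q => leftTrQ (U := U) (V := V) (Rep.trivial k G k) q)
    (leftTrQ_one' U V (Rep.trivial k G k)) (leftTrQ_mul' U V (Rep.trivial k G k))
    (fun q => leftTrQ (U := U) (V := V) Z q) (leftTrQ_one' U V Z) (leftTrQ_mul' U V Z)
    (insZ U Z hZ) (insZ_add U Z hZ) (insZ_smul U Z hZ)
    (prZ U Z hZ) (prZ_add Z hZ) (prZ_smul Z hZ)
    (fun φ v => insZ_prZ U Z hZ v φ) (sum_prZ_insZ U Z hZ (Module.finBasis k Z))
    (fun q v => insZ_leftTrQ Z hZ q v)
    (inclVU U Z V hUV) (avgToV Z hm) (inclVU_avgToV Z hUV hm)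
    (card_nsmul_avgToV_inclVU Z hUV hm) (inclVU_leftTrQ Z hUV) n

/-- **(r5)**: `dim (coind_V^G res_V Z)^{c=-1} = mult Z (coind_U^G k)^{c=-1}`. -/
theorem finrank_minusPart_coindRes_eq_mult (hUV : U ≤ V) (c : G)
    (hm : (Fintype.card (↥V ⧸ U.subgroupOf V) : k) ≠ 0) :
    finrank k (minusPart c (coindRes V Z)) =
      mult (quotRep U V Z hZ) (minusRepQ (k := k) U V c) :=
  finrank_minusPart_eq_mult c hm (Module.finBasis k Z) (quotRep U V Z hZ)
    (fun q => leftTrQ (U := U) (V := V) (Rep.trivial k G k) q)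
    (leftTrQ_one' U V (Rep.trivial k G k)) (leftTrQ_mul' U V (Rep.trivial k G k))
    (fun q => leftTrQ (U := U) (V := V) Z q) (leftTrQ_one' U V Z) (leftTrQ_mul' U V Z)
    (insZ U Z hZ) (insZ_add U Z hZ) (insZ_smul U Z hZ)
    (prZ U Z hZ) (prZ_add Z hZ) (prZ_smul Z hZ)
    (fun φ v => insZ_prZ U Z hZ v φ) (sum_prZ_insZ U Z hZ (Module.finBasis k Z))
    (fun q v => insZ_leftTrQ Z hZ q v)
    (inclVU U Z V hUV) (avgToV Z hm) (inclVU_avgToV Z hUV hm)
    (card_nsmul_avgToV_inclVU Z hUV hm) (inclVU_leftTrQ Z hUV)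

/-! ### `mult` over the finite quotient `V ⧸ U` versus `mult` over `V` -/

section Bridge

variable {k' : Type*} [Field k'] {C C' : Type*} [Group C] [Group C']
  {N X : Type*} [AddCommGroup N] [Module k' N] [AddCommGroup X] [Module k' X]

/-- invariants do not change under pull back along a surjective homomorphism -/
theorem invariants_comp_of_surjective (ρ : Representation k' C' X) (f : C →* C')
    (hf : Function.Surjective f) :
    Representation.invariants (ρ.comp f) = Representation.invariants ρ := by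
  ext x
  rw [Representation.mem_invariants, Representation.mem_invariants]
  constructor
  · intro h c'
    obtain ⟨c, rfl⟩ := hf c'
    exact h c
  · intro h c
    exact h (f c)

/-- `mult` does not change under pull back along a surjective homomorphism -/
theorem mult_comp_of_surjective (ρN : Representation k' C' N) (ρX : Representation k' C' X)
    (f : C →* C') (hf : Function.Surjective f) :
    mult (ρN.comp f) (ρX.comp f) = mult ρN ρX := by
  unfold mult
  have h : Representation.tprod (ρN.comp f : Representation k' C N)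
      (ρX.comp f : Representation k' C X) = (ρN.tprod ρX).comp f := rfl
  rw [h, invariants_comp_of_surjective _ f hf]

end Bridge

include hZ in
/-- (r4) with `mult` over the group `V` itself (acting through `V ⧸ U`). -/
theorem finrank_coindRes_eq_mult' (hUV : U ≤ V) [IsOpenSub 𝒰 U]
    [IsDiscrete 𝒰 (Rep.trivial k G k)]
    (hm : (Fintype.card (↥V ⧸ U.subgroupOf V) : k) ≠ 0) (n : ℕ) :
    finrank k (levelCohomology 𝒰 (coindRes V Z) n) =
      mult ((Z.ρ : Representation k G Z).comp V.subtype)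
        ((cohRep U (Rep.trivial k G k) 𝒰 n).comp V.subtype) := by
  rw [finrank_coindRes_eq_mult 𝒰 Z hZ hUV hm n,
    ← mult_comp_of_surjective (quotRep U V Z hZ) (cohRepQ U V 𝒰 (Rep.trivial k G k) n)
      (QuotientGroup.mk' (U.subgroupOf V)) (QuotientGroup.mk'_surjective _)]
  rfl

end Instance

end Fermat.Agent.S56.GEC.Equivariant.RegularRep
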