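/-
S56 / [GEC-D4] leaf D4-A1, part 2 (helper29): `H⁰(Γ, coind_U^Γ res_U A) ≃ A^U` by evaluation at `1`,
intertwining helper11's commuting action `Regular.cohRep U A 𝒰 0 τ = Hmap (leftTr U A τ) 0` with
`A.ρ τ` ((r3) of `moonshots` row 52); and the two instances

* `H⁰(Γ, I(E_S)) ≃+ O_{L,S}ˣ = TUnit L (primesAbove L S)`, `cohRep … τ ↔ tunitsEnd … (τ|_L)`;
* `H⁰(Γ, I(μ_p)) ≃+ O_{L,S}ˣ[p]`,

for `L ⊆ ℚ̄` a number field, normal over `ℚ`, unramified outside `S`, `U = G_L = L.fixingSubgroup`,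
`I(A) = coindRes U A` (part 1 = `UnitsInv.lean`).
-/
import Mathlib
import Fermat.Agent.S55.CF.LowDegree
import Fermat.Agent.S56.GEC.Regular
import Fermat.Agent.S56.GEC.Equivariant.UnitsInv

set_option autoImplicit false
set_option linter.style.haveILetI false
set_option linter.unusedSectionVars false

open CategoryTheory

namespace Fermat.Agent.S56.GEC.Equivariant.UnitsH0

open Fermat.Agent.S55.Level Fermat.Agent.S55.CF Fermat.Agent.S55.Devissage
open Fermat.Agent.S56.GEC.Regular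

universe u

/-! ### (r3), generic: `H⁰(G, coind_U^G res_U A) ≃ A^U` -/

section Generic

variable {k G : Type u} [CommRing k] [Group G] (U : Subgroup G) (A : Rep.{u} k G)

/-- The `k`-submodule of `U`-invariant elements of a `G`-module. -/
def fixedSub : Submodule k A where
  carrier := {a | ∀ u ∈ U, A.ρ u a = a}
  add_mem' {a b} ha hb u hu := by rw [map_add, ha u hu, hb u hu]
  zero_mem' u _ := map_zero _
  smul_mem' c a ha u hu := by rw [map_smul, ha u hu]

variable {U A}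

lemma mem_fixedSub {a : A} : a ∈ fixedSub U A ↔ ∀ u ∈ U, A.ρ u a = a := Iff.rfl

/-- A `G`-invariant element of `coind_U^G res_U A` is a constant function. -/
lemma invariant_apply {f : coindRes U A} (hf : f ∈ (coindRes U A).ρ.invariants) (x : G) :
    f.1 x = f.1 1 := by
  have h := congrFun (congrArg Subtype.val (hf x)) 1
  rw [coindRes_ρ_apply, one_mul] at h
  exact h

lemma invariant_apply_one_mem {f : coindRes U A} (hf : f ∈ (coindRes U A).ρ.invariants) :
    f.1 1 ∈ fixedSub U A := by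
  intro u hu
  have h := coindRes_apply_mul A f u hu 1
  rw [mul_one, invariant_apply hf u] at h
  exact h.symm

variable (U A)

/-- Evaluation at `1` on the invariants of `coind_U^G res_U A`. -/
def evOne : (coindRes U A).ρ.invariants →ₗ[k] fixedSub U A where
  toFun f := ⟨f.1.1 1, invariant_apply_one_mem f.2⟩
  map_add' _ _ := rfl
  map_smul' _ _ := rfl

@[simp] lemma coe_evOne (f : (coindRes U A).ρ.invariants) : ((evOne U A f : fixedSub U A) : A) = f.1.1 1 :=
  rfl

/-- The constant function with a `U`-invariant value. -/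
def constFun (a : fixedSub U A) : coindRes U A :=
  ⟨fun _ => a.1, fun u _ => (a.2 u.1 u.2).symm⟩

lemma constFun_apply (a : fixedSub U A) (x : G) : (constFun U A a).1 x = a.1 := rfl

lemma constFun_mem (a : fixedSub U A) : constFun U A a ∈ (coindRes U A).ρ.invariants :=
  fun _ => Subtype.ext (funext fun _ => rfl)

/-- `(coind_U^G res_U A)^G ≃ A^U`, `f ↦ f 1`. -/
def evOneEquiv : (coindRes U A).ρ.invariants ≃ₗ[k] fixedSub U A where
  __ := evOne U A
  invFun a := ⟨constFun U A a, constFun_mem U A a⟩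
  left_inv f := Subtype.ext (Subtype.ext (funext fun x => (invariant_apply f.2 x).symm))
  right_inv _ := rfl

@[simp] lemma coe_evOneEquiv (f : (coindRes U A).ρ.invariants) :
    ((evOneEquiv U A f : fixedSub U A) : A) = f.1.1 1 := rfl

lemma evOneEquiv_symm_apply (a : fixedSub U A) (x : G) :
    ((evOneEquiv U A).symm a).1.1 x = a.1 := rfl

variable (𝒰 : LevelStructure G) [IsDiscrete 𝒰 (coindRes U A)]

/-- **(r3)** `H⁰(G, coind_U^G res_U A) ≃ A^U`. -/
noncomputable def H0Equiv : levelCohomology 𝒰 (coindRes U A) 0 ≃ₗ[k] fixedSub U A :=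
  (levelH0Equiv 𝒰 (coindRes U A)).symm ≪≫ₗ evOneEquiv U A

lemma H0Equiv_levelH0π (f : (coindRes U A).ρ.invariants) :
    H0Equiv U A 𝒰 (levelH0π 𝒰 (coindRes U A) f) = evOneEquiv U A f := by
  unfold H0Equiv
  rw [LinearEquiv.trans_apply, ← levelH0Equiv_apply, LinearEquiv.symm_apply_apply]

lemma H0Equiv_symm_apply (a : fixedSub U A) :
    (H0Equiv U A 𝒰).symm a = levelH0π 𝒰 (coindRes U A) ((evOneEquiv U A).symm a) := rfl

end Generic

/-! ### (r3), equivariance: `cohRep U A 𝒰 0 τ ↔ A.ρ τ` -/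

section Intertwine

variable {k G : Type u} [CommRing k] [Group G] (U : Subgroup G) [hU : U.Normal] (A : Rep.{u} k G)
  (𝒰 : LevelStructure G) [IsOpenSub 𝒰 U] [IsDiscrete 𝒰 A]

/-- `L_τ` preserves the `G`-invariants of `coind_U^G res_U A`. -/
lemma leftTr_mem_invariants (τ : G) {f : coindRes U A} (hf : f ∈ (coindRes U A).ρ.invariants) :
    (leftTr U A τ).hom f ∈ (coindRes U A).ρ.invariants := by
  intro g
  rw [← Rep.hom_comm_apply, hf g]

/-- **(r3), equivariance.** Under `H⁰(G, coind_U^G res_U A) ≃ A^U` the commuting action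
`cohRep U A 𝒰 0 τ = Hmap (L_τ) 0` is `A.ρ τ`. -/
theorem H0Equiv_cohRep (τ : G) (x : levelCohomology 𝒰 (coindRes U A) 0) :
    ((H0Equiv U A 𝒰 (cohRep U A 𝒰 0 τ x) : fixedSub U A) : A) =
      A.ρ τ ((H0Equiv U A 𝒰 x : fixedSub U A) : A) := by
  obtain ⟨f, rfl⟩ := levelH0π_surjective 𝒰 (coindRes U A) x
  rw [cohRep_apply, Hmap_levelH0π 𝒰 (leftTr U A τ) f
    ⟨(leftTr U A τ).hom f.1, leftTr_mem_invariants U A τ f.2⟩ rfl,
    H0Equiv_levelH0π, H0Equiv_levelH0π, coe_evOneEquiv, coe_evOneEquiv]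
  show ((leftTr U A τ).hom f.1).1 1 = A.ρ τ (f.1.1 1)
  rw [leftTr_apply, mul_one, invariant_apply f.2]

/-- For `U` normal, `G` preserves the `U`-invariants. -/
lemma ρ_mem_fixedSub (τ : G) {a : A} (ha : a ∈ fixedSub U A) : A.ρ τ a ∈ fixedSub U A := by
  intro u hu
  have h1 : τ⁻¹ * u * τ ∈ U := by
    have := hU.conj_mem u hu τ⁻¹
    rwa [inv_inv] at this
  have h2 : u * τ = τ * (τ⁻¹ * u * τ) := by group
  have h3 : A.ρ u (A.ρ τ a) = A.ρ (u * τ) a := by rw [map_mul]; rfl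
  have h4 : A.ρ (τ * (τ⁻¹ * u * τ)) a = A.ρ τ (A.ρ (τ⁻¹ * u * τ) a) := by rw [map_mul]; rfl
  rw [h3, h2, h4, ha _ h1]

/-- The representation of `G` on `A^U` (`U` normal). -/
noncomputable def fixedRep : Representation k G (fixedSub U A) where
  toFun τ := (A.ρ τ).restrict fun _ ha => ρ_mem_fixedSub U A τ ha
  map_one' := by
    ext a
    show A.ρ 1 a.1 = a.1
    rw [map_one]; rfl
  map_mul' σ τ := by
    ext a
    show A.ρ (σ * τ) a.1 = A.ρ σ (A.ρ τ a.1)
    rw [map_mul]; rfl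

@[simp] lemma coe_fixedRep (τ : G) (a : fixedSub U A) :
    ((fixedRep U A τ a : fixedSub U A) : A) = A.ρ τ a.1 := rfl

/-- **(r3)** as an isomorphism of representations of `G`:
`(H⁰(G, coind_U^G res_U A), cohRep) ≃ (A^U, ρ)`. -/
theorem H0Equiv_cohRep' (τ : G) (x : levelCohomology 𝒰 (coindRes U A) 0) :
    H0Equiv U A 𝒰 (cohRep U A 𝒰 0 τ x) = fixedRep U A τ (H0Equiv U A 𝒰 x) :=
  Subtype.ext (H0Equiv_cohRep U A 𝒰 τ x)

end Intertwine

/-! #### (A0): `H⁰(G, coind_U^G 𝟙) = k` with trivial commuting action -/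

section Trivial

variable {k G : Type u} [CommRing k] [Group G] (U : Subgroup G) [hU : U.Normal]
  (𝒰 : LevelStructure G) [IsOpenSub 𝒰 U] [IsDiscrete 𝒰 (Rep.trivial k G k)]
  [IsDiscrete 𝒰 (coindRes U (Rep.trivial k G k))]

/-- **(A0)** the commuting action on `A⁰ = H⁰(G, coind_U^G 𝟙)` is trivial. -/
theorem cohRep_trivial_zero (τ : G)
    (x : levelCohomology 𝒰 (coindRes U (Rep.trivial k G k)) 0) :
    cohRep U (Rep.trivial k G k) 𝒰 0 τ x = x := by
  apply (H0Equiv U (Rep.trivial k G k) 𝒰).injective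
  apply Subtype.ext
  rw [H0Equiv_cohRep]
  rfl

/-- **(A0)** `A⁰ = H⁰(G, coind_U^G 𝟙) ≃ k`. -/
noncomputable def H0EquivTrivial :
    levelCohomology 𝒰 (coindRes U (Rep.trivial k G k)) 0 ≃ₗ[k] k :=
  H0Equiv U (Rep.trivial k G k) 𝒰 ≪≫ₗ
    { toFun := fun a => a.1
      invFun := fun c => ⟨c, fun _ _ => rfl⟩
      left_inv := fun _ => rfl
      right_inv := fun _ => rfl
      map_add' := fun _ _ => rfl
      map_smul' := fun _ _ => rfl }

end Trivial

/-! #### Naturality in the coefficients (degree `0`) -/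

section Natural

variable {k G : Type u} [CommRing k] [Group G] (U : Subgroup G) {A B : Rep.{u} k G}
  (𝒰 : LevelStructure G) [IsDiscrete 𝒰 (coindRes U A)] [IsDiscrete 𝒰 (coindRes U B)]

/-- `H0Equiv` is natural for morphisms `coind_U^G res_U A ⟶ coind_U^G res_U B` given pointwise
by a map `ℓ : A → B`. -/
theorem H0Equiv_Hmap (φ : coindRes U A ⟶ coindRes U B) (ℓ : A → B)
    (hφ : ∀ (f : coindRes U A) (x : G), (φ.hom f).1 x = ℓ (f.1 x))
    (x : levelCohomology 𝒰 (coindRes U A) 0) :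
    ((H0Equiv U B 𝒰 ((Hmap 𝒰 φ 0).hom x) : fixedSub U B) : B) =
      ℓ ((H0Equiv U A 𝒰 x : fixedSub U A) : A) := by
  obtain ⟨f, rfl⟩ := levelH0π_surjective 𝒰 (coindRes U A) x
  have hmem : φ.hom f.1 ∈ (coindRes U B).ρ.invariants := by
    intro g
    rw [← Rep.hom_comm_apply, f.2 g]
  rw [Hmap_levelH0π 𝒰 φ f ⟨φ.hom f.1, hmem⟩ rfl, H0Equiv_levelH0π, H0Equiv_levelH0π,
    coe_evOneEquiv, coe_evOneEquiv]
  exact hφ f.1 1

end Natural

/-! ### The instances `A = E_S`, `A = μ_p` over `Γ = Gal(ℚ̄/ℚ)`, `U = G_L` -/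

section Concrete

local notation "Qbar" => AlgebraicClosure ℚ
local notation "Γ" => (AlgebraicClosure ℚ ≃ₐ[ℚ] AlgebraicClosure ℚ)

open NumberField IsDedekindDomain
open Fermat.Agent.S55.GL.QSMod Fermat.Agent.S55.GL.Kummer Fermat.Agent.S55.SUnit
open Fermat.Agent.S55.SUnitGalois Fermat.Agent.S55.LevelGlobal
open Fermat.Agent.S56.GEC.Equivariant.UnitsInv

/-- `fixedSub` (a `ℤ`-submodule) and `UnitsInv.fixedAddSubgroup` have the same elements. -/
def fixedSubEquiv (A : Rep.{0} ℤ Γ) (U : Subgroup Γ) : fixedSub U A ≃+ fixedAddSubgroup A U where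
  toFun a := ⟨a.1, a.2⟩
  invFun a := ⟨a.1, a.2⟩
  left_inv _ := rfl
  right_inv _ := rfl
  map_add' _ _ := rfl

@[simp] lemma coe_fixedSubEquiv (A : Rep.{0} ℤ Γ) (U : Subgroup Γ) (a : fixedSub U A) :
    ((fixedSubEquiv A U a : fixedAddSubgroup A U) : A) = a.1 := rfl

variable (S : Finset Nat.Primes) (L : IntermediateField ℚ Qbar) [NumberField L]
  [IsOpenSub (globalLevel S) L.fixingSubgroup]

/-- **(A.1)** `D⁰ = H⁰(Γ, I(E_S)) ≃+ O_{L,S}ˣ = TUnit L (primesAbove L S)`. -/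
noncomputable def H0EquivTUnit (hL : L.IsUnramifiedOutside S) :
    levelCohomology (globalLevel S) (coindRes L.fixingSubgroup (ESUnits S)) 0 ≃+
      Additive (TUnit L (primesAbove L S)) :=
  ((H0Equiv L.fixingSubgroup (ESUnits S) (globalLevel S)).toAddEquiv.trans
    (fixedSubEquiv (ESUnits S) L.fixingSubgroup)).trans (fixedEquivTUnit hL)

/-- The algebraic number underlying `H0EquivTUnit x` is the value at `1` of the (constant)
invariant function representing `x`. -/
lemma tval_H0EquivTUnit (hL : L.IsUnramifiedOutside S)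
    (x : levelCohomology (globalLevel S) (coindRes L.fixingSubgroup (ESUnits S)) 0) :
    tval S L (H0EquivTUnit S L hL x) =
      ESUnits.val S ((H0Equiv L.fixingSubgroup (ESUnits S) (globalLevel S) x : fixedSub _ _) :
        ESUnits S) := rfl

lemma tval_H0EquivTUnit_levelH0π (hL : L.IsUnramifiedOutside S)
    (f : (coindRes L.fixingSubgroup (ESUnits S)).ρ.invariants) :
    tval S L (H0EquivTUnit S L hL (levelH0π (globalLevel S) _ f)) = ESUnits.val S (f.1.1 1) := by
  rw [tval_H0EquivTUnit, H0Equiv_levelH0π, coe_evOneEquiv]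

section Equivariance

variable [hn : Normal ℚ L]

local instance isGalois_L_UnitsH0 : IsGalois ℚ L := ⟨⟩

local instance normal_fixingSubgroup_UnitsH0 : L.fixingSubgroup.Normal :=
  normal_fixingSubgroup hn

/-- **(A.1), equivariance.** The commuting action `cohRep … 0 τ = Hmap (L_τ) 0` on
`D⁰ = H⁰(Γ, I(E_S))` is `tunitMap (τ|_L)` on the `S`-units of `L`. -/
theorem H0EquivTUnit_cohRep (hL : L.IsUnramifiedOutside S) (τ : Γ)
    (x : levelCohomology (globalLevel S) (coindRes L.fixingSubgroup (ESUnits S)) 0) :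
    H0EquivTUnit S L hL (cohRep L.fixingSubgroup (ESUnits S) (globalLevel S) 0 τ x) =
      tunitsEnd ℚ (primesAbove L S) (AlgEquiv.restrictNormalHom L τ) (H0EquivTUnit S L hL x) := by
  apply tval_injective
  rw [tval_tunitsEnd S L _ _ τ rfl, tval_H0EquivTUnit, tval_H0EquivTUnit, H0Equiv_cohRep,
    ESUnits.val_ρ]

end Equivariance

/-! #### `μ_p` -/

section Mu

variable {L} {p : ℕ} (hμ : ∀ ω : Qbar, ω ^ p = 1 → ω ∈ L)

/-- For `μ_p ⊆ L` all of `μ_p` is `G_L`-invariant: `(μ_p)^{G_L} = μ_p`. -/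
noncomputable def fixedSubMuEquiv : fixedSub L.fixingSubgroup (muP S p) ≃+ muP S p where
  toFun a := a.1
  invFun z := ⟨z, muP_mem_fixed S hμ z⟩
  left_inv _ := rfl
  right_inv _ := rfl
  map_add' _ _ := rfl

/-- **`B⁰ = H⁰(Γ, I(μ_p)) ≃+ O_{L,S}ˣ[p] = μ_p(L)`** (`p ∈ S`, `μ_p ⊆ L`). -/
noncomputable def H0EquivMu {hp : p.Prime} (hpS : (⟨p, hp⟩ : Nat.Primes) ∈ S) :
    levelCohomology (globalLevel S) (coindRes L.fixingSubgroup (muP S p)) 0 ≃+ torsionP S L p :=
  ((H0Equiv L.fixingSubgroup (muP S p) (globalLevel S)).toAddEquiv.trans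
    (fixedSubMuEquiv S hμ)).trans (muEquivTorsion S hμ hpS)

lemma tval_H0EquivMu {hp : p.Prime} (hpS : (⟨p, hp⟩ : Nat.Primes) ∈ S)
    (x : levelCohomology (globalLevel S) (coindRes L.fixingSubgroup (muP S p)) 0) :
    tval S L ((H0EquivMu S hμ hpS x : torsionP S L p) : Additive (TUnit L (primesAbove L S))) =
      muP.val S p ((H0Equiv L.fixingSubgroup (muP S p) (globalLevel S) x : fixedSub _ _) :
        muP S p) := rfl

/-- `H⁰(I μ_p) ⟶ H⁰(I E_S)` is the inclusion `O_{L,S}ˣ[p] ⊆ O_{L,S}ˣ`. -/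
theorem H0EquivTUnit_Hmap_mu {hp : p.Prime} (hpS : (⟨p, hp⟩ : Nat.Primes) ∈ S)
    (hL : L.IsUnramifiedOutside S)
    (φ : coindRes L.fixingSubgroup (muP S p) ⟶ coindRes L.fixingSubgroup (ESUnits S))
    (hφ : ∀ (f : coindRes L.fixingSubgroup (muP S p)) (x : Γ),
      (φ.hom f).1 x = (muPι S p).hom (f.1 x))
    (x : levelCohomology (globalLevel S) (coindRes L.fixingSubgroup (muP S p)) 0) :
    H0EquivTUnit S L hL ((Hmap (globalLevel S) φ 0).hom x) =
      ((H0EquivMu S hμ hpS x : torsionP S L p) : Additive (TUnit L (primesAbove L S))) := by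
  apply tval_injective
  rw [tval_H0EquivTUnit, tval_H0EquivMu,
    H0Equiv_Hmap L.fixingSubgroup (globalLevel S) φ (fun z => (muPι S p).hom z) hφ x]
  rfl

section Equivariance

variable [hn : Normal ℚ L]

local instance isGalois_L_UnitsH0' : IsGalois ℚ L := ⟨⟩

local instance normal_fixingSubgroup_UnitsH0' : L.fixingSubgroup.Normal :=
  normal_fixingSubgroup hn

/-- The commuting action on `B⁰ = H⁰(Γ, I(μ_p))` is `tunitMap (τ|_L)` on `O_{L,S}ˣ[p]`. -/
theorem H0EquivMu_cohRep {hp : p.Prime} (hpS : (⟨p, hp⟩ : Nat.Primes) ∈ S) (τ : Γ)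
    (x : levelCohomology (globalLevel S) (coindRes L.fixingSubgroup (muP S p)) 0) :
    ((H0EquivMu S hμ hpS (cohRep L.fixingSubgroup (muP S p) (globalLevel S) 0 τ x) :
        torsionP S L p) : Additive (TUnit L (primesAbove L S))) =
      tunitsEnd ℚ (primesAbove L S) (AlgEquiv.restrictNormalHom L τ)
        ((H0EquivMu S hμ hpS x : torsionP S L p) : Additive (TUnit L (primesAbove L S))) := by
  apply tval_injective
  rw [tval_tunitsEnd S L _ _ τ rfl, tval_H0EquivMu, tval_H0EquivMu, H0Equiv_cohRep, muP.val_ρ]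

/-- The commuting action on `B⁰ = H⁰(Γ, I(μ_p))` is multiplication by the cyclotomic character:
`B⁰ ≅ ω̄`. -/
theorem cohRep_mu_zero [Fact p.Prime] (τ : Γ)
    (x : levelCohomology (globalLevel S) (coindRes L.fixingSubgroup (muP S p)) 0) :
    cohRep L.fixingSubgroup (muP S p) (globalLevel S) 0 τ x =
      ((ExtCitation.cycloChar p τ : (ZMod p)ˣ) : ZMod p).val • x := by
  apply (H0Equiv L.fixingSubgroup (muP S p) (globalLevel S)).injective
  apply Subtype.ext
  rw [H0Equiv_cohRep, muP_ρ_eq_nsmul, map_nsmul]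
  rfl

end Equivariance

end Mu

end Concrete

end Fermat.Agent.S56.GEC.Equivariant.UnitsH0
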