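/-
S56, [GEC-D4] (`moonshots` row 52), **THEOREM D4 = the equivariant count, modulo identity (C)**
(helper25).  The final statements (`equivariant_count`, `equivariant_count_quot`) are in
`Equivariant/Main.lean`, which imports this file and helper8's `Equivariant/ImLocFinal.lean`; both
files use the namespace `Fermat.Agent.S56.GEC.Equivariant.Main`.

Setting: `p` odd, `S ∋ p`, `L ⊂ ℚ̄` good (number field, normal, unramified outside `S`, `μ_p ⊂ L`),
`U := G_L = L.fixingSubgroup`, `𝒰 := globalLevel S`, `Aⁿ := Hⁿ(G_S, coind_U^Γ 𝔽_p)`; a finite group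
`C` with `p ∤ |C|` and `s : C →* Γ ⧸ U`, acting on `Aⁿ` through `Regular.cohRep` (`Kummer.repA`).

* `galHom L s : C →* Gal(L/ℚ)`, `galHom_apply_of_eq`, `galHom_zetaL`;
* `mult_repA_zero` (A0), `isCotorsOf_unitModel` (`D⁰/p ≅ E_L/p`);
* `equivariant_count_of_imLoc`: the count from the three identities (A) `Kummer.kummer_identity`,
  (B) `DirichletMult.mult_dirichlet_zeta`, (C) = a hypothesis on `mult ρN`;
* `sV`, `ωbarV`, `repA_sV` (`= RegularRep.cohRepQ`), bridges to `EulerCoind.quotCharInv`,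
  `DirichletInst.omegaV/phiV`, and `equivariant_count_quot_of_imLoc` (`C = V ⧸ G_L`).
-/
import Mathlib
import Fermat.Agent.S56.GEC.Equivariant.Kummer
import Fermat.Agent.S56.GEC.Equivariant.CotorsModel
import Fermat.Agent.S56.GEC.Equivariant.DirichletMult
import Fermat.Agent.S56.GEC.Equivariant.DirichletInst
import Fermat.Agent.S56.GEC.Equivariant.UnitsH0
import Fermat.Agent.S56.GEC.Equivariant.PlacesGSet
import Fermat.Agent.S56.GEC.Equivariant.RegularRep
import Fermat.Agent.S56.GEC.EulerCoind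

set_option autoImplicit false
set_option linter.unusedSectionVars false
set_option linter.unusedVariables false
set_option linter.style.haveILetI false

open CategoryTheory IntermediateField

namespace Fermat.Agent.S56.GEC.Equivariant.Main

open NumberField IsDedekindDomain
open Fermat.Agent.S55.Level Fermat.Agent.S55.CF Fermat.Agent.S55.Devissage
  Fermat.Agent.S55.GL.QSMod Fermat.Agent.S55.GL.MuTriv Fermat.Agent.S55.GL.Kummer
  Fermat.Agent.S55.SUnit Fermat.Agent.S55.SUnitGalois Fermat.Agent.S55.LevelGlobal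
  Fermat.Agent.S55.GaloisLevel Fermat.Agent.S55.Assembly
  Fermat.Agent.S56.GEC.Regular
  Fermat.Agent.S56.GEC.Equivariant.ShaTransport
  Fermat.Agent.S56.GEC.Equivariant.Mult Fermat.Agent.S56.GEC.Equivariant.MultTorsion
  Fermat.Agent.S56.GEC.Equivariant.Pull Fermat.Agent.S56.GEC.Equivariant.Kummer
  Fermat.Agent.S56.GEC.Equivariant.CotorsModel Fermat.Agent.S56.GEC.Equivariant.Dirichlet
  Fermat.Agent.S56.GEC.Equivariant.DirichletMult Fermat.Agent.S56.GEC.Equivariant.UnitsInv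

local notation "Qbar" => AlgebraicClosure ℚ
local notation "Γ" => (AlgebraicClosure ℚ ≃ₐ[ℚ] AlgebraicClosure ℚ)

local instance isDiscrete_triv_Main (k : Type) [CommRing k] {G : Type} [Group G]
    (𝒰 : LevelStructure G) : IsDiscrete 𝒰 (Rep.trivial k G k) := isDiscrete_trivial k 𝒰

/-! ### `C → Gal(L/ℚ)` -/

section GalHom

variable (L : IntermediateField ℚ Qbar) [NumberField L] [hn : Normal ℚ L]
  [hU : L.fixingSubgroup.Normal] {C : Type} [Group C] (s : C →* Γ ⧸ L.fixingSubgroup)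

/-- `C → Γ ⧸ G_L → Gal(L/ℚ)`. -/
noncomputable def galHom : C →* (L ≃ₐ[ℚ] L) :=
  pullHom L.fixingSubgroup s (AlgEquiv.restrictNormalHom L)
    (fun u hu => (PlacesGSet.resL_eq_one_iff L u).2 hu)

lemma galHom_apply_of_eq {c : C} {τ : Γ} (hc : s c = (τ : Γ ⧸ L.fixingSubgroup)) :
    galHom L s c = AlgEquiv.restrictNormalHom L τ :=
  pullHom_apply_of_eq L.fixingSubgroup s _ _ hc

variable {p : ℕ} [hpF : Fact p.Prime] (hμp : ∀ ω : Qbar, ω ^ p = 1 → ω ∈ L)

/-- `C` acts on `ζ_p ∈ L` through `ω̄`. -/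
theorem galHom_zetaL {ζ : Qbar} (hζ : IsPrimitiveRoot ζ p) (hζL : ζ ∈ L) (c : C) :
    galHom L s c (DirichletInst.zetaL L hζL) =
      DirichletInst.zetaL L hζL ^ ((ωbar L s hμp c : (ZMod p)ˣ) : ZMod p).val := by
  obtain ⟨τ, hτ⟩ := exists_eq_mk L.fixingSubgroup s c
  rw [galHom_apply_of_eq L s hτ, ωbar, pullHom_apply_of_eq L.fixingSubgroup s _ _ hτ]
  apply Subtype.ext
  rw [SubmonoidClass.coe_pow]
  have h := PlacesGSet.coe_resL L τ (DirichletInst.zetaL L hζL)
  rw [PlacesGSet.resL] at h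
  rw [h]
  exact Fermat.Agent.S55.DualTwist.cycloChar_spec p τ hζ.pow_eq_one

end GalHom

/-! ### The count -/

section Count

variable (S : Finset Nat.Primes) {p : ℕ} [hpF : Fact p.Prime] (hp2 : p ≠ 2)
  (hpS : (⟨p, hpF.out⟩ : Nat.Primes) ∈ S) (L : IntermediateField ℚ Qbar) [NumberField L]
  (hL : L.IsUnramifiedOutside S) [hn : Normal ℚ L] (hμp : ∀ ω : Qbar, ω ^ p = 1 → ω ∈ L)
  [hU : L.fixingSubgroup.Normal] [IsOpenSub (globalLevel S) L.fixingSubgroup]
  {C : Type} [Group C] [Fintype C] (hC : ¬ p ∣ Fintype.card C) (s : C →* Γ ⧸ L.fixingSubgroup)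
  {N : Type*} [AddCommGroup N] [Module (ZMod p) N] [FiniteDimensional (ZMod p) N]
  (ρN : Representation (ZMod p) C N)

local instance isDiscrete_I1_Main (p : ℕ) : IsDiscrete (globalLevel S) (Twist.I1 p L) :=
  Twist.isDiscrete_I1 S L p

local instance isGalois_L_Main : IsGalois ℚ L := ⟨⟩

/-- **(A0)** `A⁰ = H⁰(G_S, I 𝟙) = 𝔽_p` with trivial action. -/
theorem mult_repA_zero :
    mult ρN (repA S L s p 0) = mult ρN (Representation.trivial (ZMod p) C (ZMod p)) := by
  refine mult_congr_right ρN _ _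
    (UnitsH0.H0EquivTrivial (k := ZMod p) L.fixingSubgroup (globalLevel S)) (fun c v => ?_)
  obtain ⟨τ, hτ⟩ := exists_eq_mk L.fixingSubgroup s c
  rw [repA, pull_apply_of_eq L.fixingSubgroup s _ _ hτ, UnitsH0.cohRep_trivial_zero]
  rfl

/-- `E_L ⧸ p` (the canonical model, with `C` acting through `Gal(L/ℚ)`) is a model of `D⁰ ⧸ p`,
`D⁰ = H⁰(G_S, I E_S)`, by helper29's `UnitsH0.H0EquivTUnit`. -/
theorem isCotorsOf_unitModel :
    IsCotorsOf (repE S L s 0)
      (cotorsModelRep (p := p) (unitRep ℚ (primesAbove L S) (galHom L s)))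
      ((QuotientAddGroup.mk' (pRange p (Additive (TUnit L (primesAbove L S))))).comp
        (UnitsH0.H0EquivTUnit S L hL).toAddMonoidHom) :=
  IsCotorsOf.of_addEquiv (isCotorsOf_cotorsModel _) (UnitsH0.H0EquivTUnit S L hL) (fun c q => by
    obtain ⟨τ, hτ⟩ := exists_eq_mk L.fixingSubgroup s c
    rw [repE, pull_apply_of_eq L.fixingSubgroup s _ _ hτ, UnitsH0.H0EquivTUnit_cohRep,
      unitRep_apply, galHom_apply_of_eq L s hτ])

include hp2 hpS hL hμp hC in
/-- **THEOREM D4 modulo identity (C)**: if `im loc² + ω̄⁻¹ = 𝔽_p[X_f]⟨−1⟩` in the Grothendieck group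
(identity (C), as a hypothesis on `mult ρN`), then
`mult N A⁰ + mult N A² + mult N 𝔽_p[X_∞]⟨−1⟩ = mult N A¹`. -/
theorem equivariant_count_of_imLoc {Xi Xf' : Type} [MulAction C Xi] [MulAction C Xf']
    (einf : Xi ≃ InfinitePlace L) (heinf : ∀ (c : C) (x : Xi), einf (c • x) = galHom L s c • einf x)
    (ef : Xf' ≃ primesAbove L S) (hef : ∀ (c : C) (x : Xf'), ef (c • x) = galHom L s c • ef x)
    (hCid : mult ρN (repIm S L s p 2) + mult ρN (charRep (ωbar L s hμp)⁻¹) =
      mult ρN (twist (permRep (ZMod p) C Xf') (ωbar L s hμp)⁻¹)) :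
    mult ρN (repA S L s p 0) + mult ρN (repA S L s p 2) +
        mult ρN (twist (permRep (ZMod p) C Xi) (ωbar L s hμp)⁻¹) =
      mult ρN (repA S L s p 1) := by
  obtain ⟨ζ, hζ⟩ := Fermat.Agent.S55.DualTwist.exists_primitiveRoot p
  have hζL : ζ ∈ L := hμp ζ hζ.pow_eq_one
  have hA0 := mult_repA_zero S L s ρN
  have hA := kummer_identity S hp2 hpS L hL hn hμp hC s ρN (isCotorsOf_unitModel S L hL s)
  have hB := mult_dirichlet_zeta ℚ (primesAbove L S) (galHom L s)
    (twist ρN (ωbar L s hμp)⁻¹) hC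
    (isCotorsOf_cotorsModel (p := p) (unitRep ℚ (primesAbove L S) (galHom L s)))
    (DirichletInst.isPrimitiveRoot_zetaL L hζ hζL) (ωbar L s hμp)
    (galHom_zetaL L s hμp hζ hζL) einf heinf ef hef
  have h1 : mult (twist ρN (ωbar L s hμp)⁻¹) (charRep (ωbar L s hμp)) =
      mult ρN (Representation.trivial (ZMod p) C (ZMod p)) := by
    rw [charRep, mult_twist, twist_inv_twist]
  have h2 : mult (twist ρN (ωbar L s hμp)⁻¹) (Representation.trivial (ZMod p) C (ZMod p)) =
      mult ρN (charRep (ωbar L s hμp)⁻¹) := (mult_twist ρN _ _).symm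
  have h3 : mult (twist ρN (ωbar L s hμp)⁻¹) (permRep (ZMod p) C Xi) =
      mult ρN (twist (permRep (ZMod p) C Xi) (ωbar L s hμp)⁻¹) := (mult_twist ρN _ _).symm
  have h4 : mult (twist ρN (ωbar L s hμp)⁻¹) (permRep (ZMod p) C Xf') =
      mult ρN (twist (permRep (ZMod p) C Xf') (ωbar L s hμp)⁻¹) := (mult_twist ρN _ _).symm
  rw [h1, h2, h3, h4] at hB
  omega

end Count

/-! ### The case `C = V ⧸ G_L` -/

section Quot

variable (L : IntermediateField ℚ Qbar) [hU : L.fixingSubgroup.Normal] (V : Subgroup Γ)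

/-- `V ⧸ G_L → Γ ⧸ G_L`. -/
noncomputable def sV : ↥V ⧸ L.fixingSubgroup.subgroupOf V →* Γ ⧸ L.fixingSubgroup :=
  QuotientGroup.map (L.fixingSubgroup.subgroupOf V) L.fixingSubgroup V.subtype (le_refl _)

lemma sV_mk (v : V) :
    sV L V (QuotientGroup.mk v) = ((v : Γ) : Γ ⧸ L.fixingSubgroup) := rfl

variable {p : ℕ} [hpF : Fact p.Prime] (hμp : ∀ ω : Qbar, ω ^ p = 1 → ω ∈ L)

/-- The mod `p` cyclotomic character of `V ⧸ G_L`. -/
noncomputable def ωbarV : ↥V ⧸ L.fixingSubgroup.subgroupOf V →* (ZMod p)ˣ :=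
  ωbar L (sV L V) hμp

lemma ωbarV_mk (v : V) :
    ωbarV L V hμp (QuotientGroup.mk v) = ExtCitation.cycloChar p (v : Γ) :=
  pullHom_apply_of_eq L.fixingSubgroup (sV L V) _ _ (sV_mk L V v)

/-- `ω̄⁻¹` is helper4's `EulerCoind.quotCharInv`. -/
lemma ωbarV_inv_eq_quotCharInv :
    (ωbarV L V hμp)⁻¹ = EulerCoind.quotCharInv L.fixingSubgroup V (ExtCitation.cycloChar p)
      (cycloChar_eq_one_of_mem_fixingSubgroup L hμp) := by
  refine MonoidHom.ext fun c => ?_
  induction c using QuotientGroup.induction_on with | H v =>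
  rw [MonoidHom.inv_apply, ωbarV_mk, EulerCoind.quotCharInv_mk]

variable [NumberField L] [hn : Normal ℚ L]

/-- `ω̄` is helper11's `DirichletInst.omegaV`. -/
lemma ωbarV_eq_omegaV {ζ : Qbar} (hζ : IsPrimitiveRoot ζ p) (hζL : ζ ∈ L) :
    ωbarV L V hμp = DirichletInst.omegaV L V hζ hζL := by
  refine MonoidHom.ext fun c => ?_
  induction c using QuotientGroup.induction_on with | H v =>
  rw [ωbarV_mk, DirichletInst.omegaV_mk]

lemma galHom_sV_mk (v : V) :
    galHom L (sV L V) (QuotientGroup.mk v) = AlgEquiv.restrictNormalHom L (v : Γ) :=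
  galHom_apply_of_eq L (sV L V) (sV_mk L V v)

/-- `galHom` is helper11's `DirichletInst.phiV`. -/
lemma galHom_sV_eq_phiV : galHom L (sV L V) = DirichletInst.phiV L V := by
  refine MonoidHom.ext fun c => ?_
  induction c using QuotientGroup.induction_on with | H v =>
  rw [galHom_sV_mk, DirichletInst.phiV_mk]
  rfl

variable (S : Finset Nat.Primes) [IsOpenSub (globalLevel S) L.fixingSubgroup]

local instance isDiscrete_I1_MainQ (p : ℕ) : IsDiscrete (globalLevel S) (Twist.I1 p L) :=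
  Twist.isDiscrete_I1 S L p

/-- `Kummer.repA` for `C = V ⧸ G_L` is helper4's `RegularRep.cohRepQ`. -/
theorem repA_sV (n : ℕ) :
    repA S L (sV L V) p n =
      RegularRep.cohRepQ L.fixingSubgroup V (globalLevel S) (Twist.triv p) n := by
  refine MonoidHom.ext fun c => ?_
  induction c using QuotientGroup.induction_on with | H v =>
  rw [repA, pull_apply_of_eq L.fixingSubgroup (sV L V) _ _ (sV_mk L V v)]
  rfl

end Quot

section QuotCount

variable (S : Finset Nat.Primes) {p : ℕ} [hpF : Fact p.Prime] (hp2 : p ≠ 2)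
  (hpS : (⟨p, hpF.out⟩ : Nat.Primes) ∈ S) (L : IntermediateField ℚ Qbar) [NumberField L]
  (hL : L.IsUnramifiedOutside S) [hn : Normal ℚ L] (hμp : ∀ ω : Qbar, ω ^ p = 1 → ω ∈ L)
  [hU : L.fixingSubgroup.Normal] [IsOpenSub (globalLevel S) L.fixingSubgroup]
  (V : Subgroup Γ) [Fintype (↥V ⧸ L.fixingSubgroup.subgroupOf V)]
  (hC : ¬ p ∣ Fintype.card (↥V ⧸ L.fixingSubgroup.subgroupOf V))
  {N : Type*} [AddCommGroup N] [Module (ZMod p) N] [FiniteDimensional (ZMod p) N]
  (ρN : Representation (ZMod p) (↥V ⧸ L.fixingSubgroup.subgroupOf V) N)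

local instance isDiscrete_I1_MainQC (p : ℕ) : IsDiscrete (globalLevel S) (Twist.I1 p L) :=
  Twist.isDiscrete_I1 S L p

include hp2 hpS hL hμp hC in
/-- **THEOREM D4 modulo identity (C), for `C = V ⧸ G_L`**, in helper4's vocabulary
(`RegularRep.cohRepQ`). -/
theorem equivariant_count_quot_of_imLoc {Xi Xf' : Type}
    [MulAction (↥V ⧸ L.fixingSubgroup.subgroupOf V) Xi]
    [MulAction (↥V ⧸ L.fixingSubgroup.subgroupOf V) Xf']
    (einf : Xi ≃ InfinitePlace L)
    (heinf : ∀ (v : V) (x : Xi),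
      einf ((QuotientGroup.mk v : ↥V ⧸ L.fixingSubgroup.subgroupOf V) • x) =
        AlgEquiv.restrictNormalHom L (v : Γ) • einf x)
    (ef : Xf' ≃ primesAbove L S)
    (hef : ∀ (v : V) (x : Xf'),
      ef ((QuotientGroup.mk v : ↥V ⧸ L.fixingSubgroup.subgroupOf V) • x) =
        AlgEquiv.restrictNormalHom L (v : Γ) • ef x)
    (hCid : mult ρN (repIm S L (sV L V) p 2) + mult ρN (charRep (ωbarV L V hμp)⁻¹) =
      mult ρN (twist (permRep (ZMod p) (↥V ⧸ L.fixingSubgroup.subgroupOf V) Xf')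
        (ωbarV L V hμp)⁻¹)) :
    mult ρN (RegularRep.cohRepQ L.fixingSubgroup V (globalLevel S) (Twist.triv p) 0) +
        mult ρN (RegularRep.cohRepQ L.fixingSubgroup V (globalLevel S) (Twist.triv p) 2) +
        mult ρN (twist (permRep (ZMod p) (↥V ⧸ L.fixingSubgroup.subgroupOf V) Xi)
          (ωbarV L V hμp)⁻¹) =
      mult ρN (RegularRep.cohRepQ L.fixingSubgroup V (globalLevel S) (Twist.triv p) 1) := by
  rw [← repA_sV L V S 0, ← repA_sV L V S 1, ← repA_sV L V S 2]
  refine equivariant_count_of_imLoc S hp2 hpS L hL hμp hC (sV L V) ρN einf (fun c x => ?_) ef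
    (fun c x => ?_) hCid
  · induction c using QuotientGroup.induction_on with | H v =>
    rw [heinf, galHom_sV_mk]
  · induction c using QuotientGroup.induction_on with | H v =>
    rw [hef, galHom_sV_mk]

end QuotCount

end Fermat.Agent.S56.GEC.Equivariant.Main
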