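/-
S56 / GEC-D3 (r5), abstract finite-group form (helper13). Mathlib + `Equivariant/Mult` only.

* `eqFun X ρ` : `C`-equivariant functions from a `C`-set `X` to a representation `ρ` on `N`;
  `finrank_eqFun` : for finite `X`, `finrank (eqFun X ρ) = mult ρ (permRep k C X)`
  (`N ⊗ k[X] ≅ (X → N)`, invariants = equivariant functions).
* `indFun C ρN` (`C ≤ G`) : `{F : G → N | F (c x) = c • F x}` (= `Ind_C^G N`, `G` acting by right translation),
  `minusFun k N c₀` : `{F | F (x c₀) = −F x}`.
* **`finrank_indFun_inf_minusFun`** : for `χ : G →* kˣ` with `χ c₀ = −1`: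
  `finrank (indFun C ρN ⊓ minusFun k N c₀) = mult ρN (twist (permRep k C (G ⧸ zpowers c₀)) (χ|_C)⁻¹)`
  via `h ↦ (y ↦ χ(y) • h(ȳ))` (no double-coset case analysis).
-/
import Mathlib
import Fermat.Agent.S56.GEC.Equivariant.Mult

set_option autoImplicit false
set_option linter.unusedSectionVars false
set_option linter.style.haveILetI false

namespace Fermat.Agent.S56.GEC.Equivariant.MinusInd

open Module TensorProduct Fermat.Agent.S56.GEC.Equivariant.Mult

variable {k : Type*} [Field k] {C : Type*} [Group C]
variable {N : Type*} [AddCommGroup N] [Module k N]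

section EqFun

variable (X : Type*) [MulAction C X]

/-- `C`-equivariant functions from a `C`-set `X` to a representation `N`. -/
def eqFun (ρ : Representation k C N) : Submodule k (X → N) where
  carrier := {h | ∀ (c : C) (x : X), h (c • x) = ρ c (h x)}
  add_mem' := fun {a b} ha hb c x => by
    simp only [Pi.add_apply, map_add, ha c x, hb c x]
  zero_mem' := fun c x => by simp
  smul_mem' := fun r a ha c x => by
    simp only [Pi.smul_apply, map_smul, ha c x]

theorem mem_eqFun {ρ : Representation k C N} {h : X → N} :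
    h ∈ eqFun X ρ ↔ ∀ (c : C) (x : X), h (c • x) = ρ c (h x) := Iff.rfl

/-- the representation of `C` on all functions `X → N`: `(c·h)(y) = c (h (c⁻¹ y))` -/
def funRep (ρ : Representation k C N) : Representation k C (X → N) where
  toFun c :=
    { toFun := fun h y => ρ c (h (c⁻¹ • y))
      map_add' := fun a b => by ext y; simp
      map_smul' := fun r a => by ext y; simp }
  map_one' := by
    ext h y
    simp
  map_mul' a b := by
    ext h y
    simp [mul_smul]

@[simp] theorem funRep_apply (ρ : Representation k C N) (c : C) (h : X → N) (y : X) :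
    funRep X ρ c h y = ρ c (h (c⁻¹ • y)) := rfl

theorem invariants_funRep (ρ : Representation k C N) : (funRep X ρ).invariants = eqFun X ρ := by
  ext h
  rw [Representation.mem_invariants, mem_eqFun]
  constructor
  · intro hh c x
    have := congrFun (hh c) (c • x)
    rw [funRep_apply, inv_smul_smul] at this
    exact this.symm
  · intro hh c
    ext y
    rw [funRep_apply, ← hh c (c⁻¹ • y), smul_inv_smul]

theorem permRep_apply_apply (c : C) (f : X →₀ k) (y : X) :
    permRep k C X c f y = f (c⁻¹ • y) := by
  have h : y = c • (c⁻¹ • y) := (smul_inv_smul c y).symm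
  conv_lhs => rw [h]
  show (Finsupp.lmapDomain k k (c • ·) f) (c • (c⁻¹ • y)) = _
  rw [Finsupp.lmapDomain_apply]
  exact Finsupp.mapDomain_apply (MulAction.injective c) f (c⁻¹ • y)

open Classical in
/-- `N ⊗ k[X] ≅ (X → N)` for a finite `C`-set `X`. -/
noncomputable def tensorFunEquiv [Finite X] : N ⊗[k] (X →₀ k) ≃ₗ[k] (X → N) :=
  (TensorProduct.finsuppScalarRight k k N X).trans (Finsupp.linearEquivFunOnFinite k N X)

theorem tensorFunEquiv_tmul [Finite X] (n : N) (f : X →₀ k) (y : X) :
    tensorFunEquiv (N := N) X (n ⊗ₜ[k] f) y = f y • n := by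
  simp [tensorFunEquiv]

/-- **equivariant functions on a finite `C`-set = multiplicity of the permutation module** -/
theorem finrank_eqFun [Finite X] (ρ : Representation k C N) :
    finrank k (eqFun X ρ) = mult ρ (permRep k C X) := by
  rw [← invariants_funRep]
  unfold mult
  symm
  refine finrank_invariants_eq_of_equiv _ _ (tensorFunEquiv X) (fun c t => ?_)
  induction t using TensorProduct.induction_on with
  | zero => simp
  | add a b ha hb => simp only [map_add, ha, hb]
  | tmul n f =>
    ext y
    rw [Representation.tprod_apply, TensorProduct.map_tmul, tensorFunEquiv_tmul, funRep_apply,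
      tensorFunEquiv_tmul, permRep_apply_apply, (ρ c).map_smul]

end EqFun

section Minus

variable {G : Type*} [Group G] (C : Subgroup G) (c₀ : G)

/-- functions `F : G → N` with `F (c x) = c • F x` for `c ∈ C` (the induced module `Ind_C^G N`, on which
`G` acts by right translation) -/
def indFun (ρN : Representation k C N) : Submodule k (G → N) where
  carrier := {F | ∀ (c : C) (x : G), F ((c : G) * x) = ρN c (F x)}
  add_mem' := fun {a b} ha hb c x => by
    simp only [Pi.add_apply, map_add, ha c x, hb c x]
  zero_mem' := fun c x => by simp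
  smul_mem' := fun r a ha c x => by
    simp only [Pi.smul_apply, (ρN c).map_smul, ha c x]

variable (k N) in
/-- functions with `F (x c₀) = - F x`: the `(−1)`-eigenspace of right translation by `c₀` -/
def minusFun : Submodule k (G → N) where
  carrier := {F | ∀ x : G, F (x * c₀) = - F x}
  add_mem' := fun {a b} ha hb x => by
    simp only [Pi.add_apply, ha x, hb x]; abel
  zero_mem' := fun x => by simp
  smul_mem' := fun r a ha x => by
    simp only [Pi.smul_apply, ha x, smul_neg]

theorem mem_indFun {ρN : Representation k C N} {F : G → N} :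
    F ∈ indFun C ρN ↔ ∀ (c : C) (x : G), F ((c : G) * x) = ρN c (F x) := Iff.rfl

theorem mem_minusFun {F : G → N} : F ∈ minusFun k N c₀ ↔ ∀ x : G, F (x * c₀) = - F x := Iff.rfl

/-- `h ↦ (y ↦ χ(y) • h(ȳ))` -/
def liftFun (χ : G →* kˣ) : ((G ⧸ Subgroup.zpowers c₀) → N) →ₗ[k] (G → N) where
  toFun h y := (χ y : k) • h (y : G ⧸ Subgroup.zpowers c₀)
  map_add' a b := by ext y; simp
  map_smul' r a := by
    ext y
    show (χ y : k) • (r • a) (y : G ⧸ Subgroup.zpowers c₀) =
      r • ((χ y : k) • a (y : G ⧸ Subgroup.zpowers c₀))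
    rw [Pi.smul_apply, smul_comm]

@[simp] theorem liftFun_apply (χ : G →* kˣ) (h : (G ⧸ Subgroup.zpowers c₀) → N) (y : G) :
    liftFun (N := N) c₀ χ h y = (χ y : k) • h (y : G ⧸ Subgroup.zpowers c₀) := rfl

theorem liftFun_injective (χ : G →* kˣ) : Function.Injective (liftFun (N := N) c₀ χ) := by
  intro a b hab
  ext q
  obtain ⟨y, rfl⟩ := QuotientGroup.mk_surjective q
  have := congrFun hab y
  rw [liftFun_apply, liftFun_apply] at this
  exact smul_right_injective N (Units.ne_zero (χ y)) this

/-- **(r5), abstract form.** For `c₀ ∈ G` and a character `χ` of `G` with `χ c₀ = -1`: the `C`-induced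
functions on `G` which are anti-invariant under right translation by `c₀` are counted by the multiplicity
of the permutation module of the `C`-set `G/⟨c₀⟩` twisted by `χ⁻¹`. -/
theorem finrank_indFun_inf_minusFun [Finite G] (χ : G →* kˣ) (hχ : χ c₀ = -1)
    (ρN : Representation k C N) :
    finrank k ↥(indFun C ρN ⊓ minusFun k N c₀) =
      mult ρN (twist (permRep k C (G ⧸ Subgroup.zpowers c₀)) (χ.comp C.subtype)⁻¹) := by
  set θ : C →* kˣ := (χ.comp C.subtype)⁻¹ with hθ
  have hθc : ∀ c : C, ((θ c : kˣ) : k) * (χ (c : G) : k) = 1 := fun c => by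
    rw [hθ, MonoidHom.inv_apply, MonoidHom.comp_apply, Subgroup.coe_subtype, ← Units.val_mul,
      inv_mul_cancel, Units.val_one]
  rw [mult_twist, ← finrank_eqFun]
  -- the image of `eqFun` under `liftFun` is `indFun ⊓ minusFun`
  have hmap : Submodule.map (liftFun c₀ χ) (eqFun (G ⧸ Subgroup.zpowers c₀) (twist ρN θ)) =
      indFun C ρN ⊓ minusFun k N c₀ := by
    ext F
    constructor
    · rintro ⟨h, hh, rfl⟩
      refine ⟨fun c x => ?_, fun x => ?_⟩
      · rw [liftFun_apply, liftFun_apply]
        have h1 : ((((c : G) * x : G)) : G ⧸ Subgroup.zpowers c₀) =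
            c • (x : G ⧸ Subgroup.zpowers c₀) := rfl
        rw [h1, hh c, twist_apply, (ρN c).map_smul, map_mul, Units.val_mul, smul_smul]
        congr 1
        rw [mul_comm (χ (c : G) : k), mul_assoc, mul_comm (χ (c : G) : k), hθc, mul_one]
      · rw [liftFun_apply, liftFun_apply, QuotientGroup.mk_mul_of_mem x (Subgroup.mem_zpowers c₀),
          map_mul, hχ, Units.val_mul, Units.val_neg, Units.val_one, mul_neg, mul_one, neg_smul]
    · rintro ⟨hF1, hF2⟩
      -- `g y := χ(y)⁻¹ • F y` is right-invariant under `⟨c₀⟩`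
      let g : G → N := fun y => ((χ y)⁻¹ : kˣ) • F y
      let K : Subgroup G :=
        { carrier := {z | ∀ y, g (y * z) = g y}
          one_mem' := fun y => by rw [mul_one]
          mul_mem' := fun {a b} ha hb y => by rw [← mul_assoc, hb, ha]
          inv_mem' := fun {a} ha y => by
            have := ha (y * a⁻¹)
            rw [inv_mul_cancel_right] at this
            exact this.symm }
      have hc₀K : c₀ ∈ K := fun y => by
        show ((χ (y * c₀))⁻¹ : kˣ) • F (y * c₀) = ((χ y)⁻¹ : kˣ) • F y
        rw [hF2 y, map_mul, hχ, mul_neg, mul_one, Units.smul_def, Units.smul_def, inv_neg,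
          Units.val_neg, neg_smul, smul_neg, neg_neg]
      have hK : Subgroup.zpowers c₀ ≤ K := (Subgroup.zpowers_le).2 hc₀K
      have hgout : ∀ y : G, g (Quotient.out (y : G ⧸ Subgroup.zpowers c₀)) = g y := by
        intro y
        obtain ⟨z, hz⟩ := QuotientGroup.mk_out_eq_mul (Subgroup.zpowers c₀) y
        rw [hz]
        exact hK z.2 y
      refine ⟨fun q => g (Quotient.out q), ?_, ?_⟩
      · intro c q
        obtain ⟨y, rfl⟩ := QuotientGroup.mk_surjective q
        have h1 : c • (QuotientGroup.mk y : G ⧸ Subgroup.zpowers c₀) =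
            QuotientGroup.mk ((c : G) * y) := rfl
        show g (Quotient.out (c • (QuotientGroup.mk y : G ⧸ Subgroup.zpowers c₀))) =
          twist ρN θ c (g (Quotient.out (QuotientGroup.mk y : G ⧸ Subgroup.zpowers c₀)))
        rw [h1, hgout, hgout, twist_apply]
        show ((χ ((c : G) * y))⁻¹ : kˣ) • F ((c : G) * y) = (θ c : k) • ρN c (((χ y)⁻¹ : kˣ) • F y)
        rw [hF1 c y, Units.smul_def, Units.smul_def, (ρN c).map_smul, smul_smul, map_mul, mul_inv,
          Units.val_mul]
        have h2 : ((θ c : kˣ) : k) = (((χ (c : G))⁻¹ : kˣ) : k) := by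
          rw [hθ, MonoidHom.inv_apply, MonoidHom.comp_apply, Subgroup.coe_subtype]
        rw [h2]
      · ext y
        rw [liftFun_apply]
        show (χ y : k) • g (Quotient.out (y : G ⧸ Subgroup.zpowers c₀)) = F y
        rw [hgout]
        show (χ y : k) • (((χ y)⁻¹ : kˣ) • F y) = F y
        rw [Units.smul_def, smul_smul, ← Units.val_mul, mul_inv_cancel, Units.val_one, one_smul]
  rw [← hmap]
  exact (LinearEquiv.finrank_eq (Submodule.equivMapOfInjective (liftFun c₀ χ)
    (liftFun_injective c₀ χ) _)).symm

/-- `Ind_C^G N` = `C`-equivariant functions on the left `C`-set `G`. -/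
theorem indFun_eq_eqFun (ρN : Representation k C N) : indFun C ρN = eqFun G ρN := by
  ext F
  rfl

/-- `dim Ind_C^G N = mult N k[G]` (`G` as a left `C`-set). -/
theorem finrank_indFun [Finite G] (ρN : Representation k C N) :
    finrank k ↥(indFun C ρN) = mult ρN (permRep k C G) := by
  rw [indFun_eq_eqFun, finrank_eqFun]

end Minus

end Fermat.Agent.S56.GEC.Equivariant.MinusInd
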