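/-
S56 / GEC-D5 (1) (helper13; shape requested by helper4): the `(−1)`-eigenspace of `c` on the regular module
`J = coind_U^G 𝟙` as a twisted permutation module.

`U ≤ G` normal, `c : G`, `χ : G →* kˣ` with `χ|_U = 1`, `χ c = −1`; `W := U ⊔ ⟨c⟩`;
`E := minusPart c (coindRes U 𝟙) = {f : G → k | f (u x) = f x, f (x c) = − f x}` with `τ ∈ G` acting by
`minusMap c (leftTr U 𝟙 τ)` (`(L_τ f)(x) = f (τ⁻¹ x)`).

* `minusRep U c : Representation k G E`.
* `Phi`, `PhiEquiv U c χ hχU hχc : ((G ⧸ W) → k) ≃ₗ[k] E`, `(Φ h)(x) = χ(x) • h(xW)`.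
* `minusRep_Phi` : `L_τ (Φ h) = Φ (q ↦ χ(τ)⁻¹ • h (τ⁻¹ q))`.
* `mult_of_lifts` / `mult_minusRep` : `mult N E = mult N (k[G/W] ⊗ χ⁻¹)` for any group acting through
  elements of `G`.
-/
import Mathlib
import Fermat.Agent.S56.GEC.Additive
import Fermat.Agent.S56.GEC.Regular
import Fermat.Agent.S56.GEC.Equivariant.Mult
import Fermat.Agent.S56.GEC.Equivariant.MinusInd

set_option autoImplicit false
set_option linter.unusedSectionVars false
set_option linter.style.haveILetI false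

namespace Fermat.Agent.S56.GEC.Equivariant.MinusRegular

open CategoryTheory Module Fermat.Agent.S55.Devissage Fermat.Agent.S56.GEC.Additive
  Fermat.Agent.S56.GEC.Regular Fermat.Agent.S56.GEC.Equivariant.Mult
  Fermat.Agent.S56.GEC.Equivariant.MinusInd

universe u

variable {k G : Type u} [Field k] [Group G]
variable (U : Subgroup G) [hU : U.Normal] (c : G)

/-- the trivial representation `𝟙 = k` -/
noncomputable abbrev one (k G : Type u) [Field k] [Group G] : Rep.{u} k G := Rep.trivial k G k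

variable (k) in
/-- `E = (coind_U^G 𝟙)^{c = −1}` -/
noncomputable abbrev E : Submodule k (coindRes U (one k G)) := minusPart c (coindRes U (one k G))

theorem E_apply_mul_left (f : E k U c) {u : G} (hu : u ∈ U) (x : G) : f.1.1 (u * x) = f.1.1 x := by
  have := coindRes_apply_mul (one k G) f.1 u hu x
  rw [this]
  rfl

theorem E_apply_mul_c (f : E k U c) (x : G) : f.1.1 (x * c) = - f.1.1 x := by
  have h := (mem_minusPart (c := c) (Y := coindRes U (one k G))).1 f.2
  have h2 := congrFun (congrArg Subtype.val h) x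
  rw [coindRes_ρ_apply] at h2
  exact h2

/-- the representation of `G` on `E` through the commuting action `L_τ` -/
noncomputable def minusRep : Representation k G (E k U c) where
  toFun τ := minusMap c (leftTr U (one k G) τ)
  map_one' := by
    ext f x
    show ((leftTr U (one k G) 1).hom f.1).1 x = f.1.1 x
    rw [leftTr_one]
    rfl
  map_mul' σ τ := by
    ext f x
    show ((leftTr U (one k G) (σ * τ)).hom f.1).1 x =
      ((leftTr U (one k G) σ).hom ((leftTr U (one k G) τ).hom f.1)).1 x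
    rw [leftTr_mul]
    rfl

theorem minusRep_apply_apply (τ : G) (f : E k U c) (x : G) :
    (minusRep U c τ f).1.1 x = f.1.1 (τ⁻¹ * x) := rfl

variable (χ : G →* kˣ)

/-- `W = U · ⟨c⟩` -/
abbrev W : Subgroup G := U ⊔ Subgroup.zpowers c

theorem mk_mul_left_of_mem {u : G} (hu : u ∈ U) (x : G) :
    ((u * x : G) : G ⧸ W U c) = (x : G ⧸ W U c) := by
  rw [QuotientGroup.eq]
  have h1 : (u * x)⁻¹ * x = x⁻¹ * u⁻¹ * x := by group
  rw [h1]
  have h2 : x⁻¹ * u⁻¹ * x ∈ U := by
    have := hU.conj_mem u⁻¹ (U.inv_mem hu) x⁻¹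
    simpa using this
  exact (le_sup_left : U ≤ W U c) h2

theorem mk_mul_c (x : G) : ((x * c : G) : G ⧸ W U c) = (x : G ⧸ W U c) :=
  QuotientGroup.mk_mul_of_mem x ((le_sup_right : Subgroup.zpowers c ≤ W U c)
    (Subgroup.mem_zpowers c))

/-- `h ↦ (x ↦ χ(x) • h(xW))`, from functions on `G/W` to `E`. -/
noncomputable def Phi (hχU : ∀ u ∈ U, χ u = 1) (hχc : χ c = -1) :
    ((G ⧸ W U c) → k) →ₗ[k] E k U c where
  toFun h := ⟨⟨fun x => (χ x : k) * h (x : G ⧸ W U c), by
      intro u x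
      show (χ ((u : G) * x) : k) * h (((u : G) * x : G) : G ⧸ W U c) =
        (χ x : k) * h (x : G ⧸ W U c)
      rw [mk_mul_left_of_mem U c u.2, map_mul, hχU _ u.2, one_mul]⟩, by
      rw [mem_minusPart]
      apply Subtype.ext
      funext x
      show (χ (x * c) : k) * h ((x * c : G) : G ⧸ W U c) = -((χ x : k) * h (x : G ⧸ W U c))
      rw [mk_mul_c, map_mul, hχc, Units.val_mul, Units.val_neg, Units.val_one, mul_neg, mul_one,
        neg_mul]⟩
  map_add' a b := by
    apply Subtype.ext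
    apply Subtype.ext
    funext x
    show (χ x : k) * (a + b) (x : G ⧸ W U c) = (χ x : k) * a _ + (χ x : k) * b _
    rw [Pi.add_apply, mul_add]
  map_smul' r a := by
    apply Subtype.ext
    apply Subtype.ext
    funext x
    show (χ x : k) * (r • a) (x : G ⧸ W U c) = r * ((χ x : k) * a _)
    rw [Pi.smul_apply, smul_eq_mul, mul_left_comm]

theorem Phi_apply (hχU : ∀ u ∈ U, χ u = 1) (hχc : χ c = -1) (h : (G ⧸ W U c) → k) (x : G) :
    (Phi U c χ hχU hχc h).1.1 x = (χ x : k) * h (x : G ⧸ W U c) := rfl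

theorem Phi_injective (hχU : ∀ u ∈ U, χ u = 1) (hχc : χ c = -1) :
    Function.Injective (Phi U c χ hχU hχc) := by
  intro a b hab
  funext q
  obtain ⟨y, rfl⟩ := QuotientGroup.mk_surjective q
  have := congrFun (congrArg (fun f : E k U c => f.1.1) hab) y
  dsimp only at this
  rw [Phi_apply, Phi_apply] at this
  exact mul_left_cancel₀ (Units.ne_zero (χ y)) this

theorem Phi_surjective (hχU : ∀ u ∈ U, χ u = 1) (hχc : χ c = -1) :
    Function.Surjective (Phi U c χ hχU hχc) := by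
  intro f
  -- `g y := χ(y)⁻¹ f(y)` is right-invariant under `W`
  let g : G → k := fun y => (((χ y)⁻¹ : kˣ) : k) * f.1.1 y
  let K : Subgroup G :=
    { carrier := {z | ∀ y, g (y * z) = g y}
      one_mem' := fun y => by rw [mul_one]
      mul_mem' := fun {a b} ha hb y => by rw [← mul_assoc, hb, ha]
      inv_mem' := fun {a} ha y => by
        have := ha (y * a⁻¹)
        rw [inv_mul_cancel_right] at this
        exact this.symm }
  have hUK : U ≤ K := fun u hu y => by
    show (((χ (y * u))⁻¹ : kˣ) : k) * f.1.1 (y * u) = (((χ y)⁻¹ : kˣ) : k) * f.1.1 y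
    have h1 : y * u = (y * u * y⁻¹) * y := by group
    have h2 : y * u * y⁻¹ ∈ U := hU.conj_mem u hu y
    rw [map_mul, hχU u hu, mul_one]
    congr 1
    rw [h1, E_apply_mul_left U c f h2]
  have hcK : c ∈ K := fun y => by
    show (((χ (y * c))⁻¹ : kˣ) : k) * f.1.1 (y * c) = (((χ y)⁻¹ : kˣ) : k) * f.1.1 y
    have h1 : (χ y * -1)⁻¹ = -(χ y)⁻¹ := by rw [mul_neg, mul_one, inv_neg]
    rw [E_apply_mul_c, map_mul, hχc, h1, Units.val_neg, neg_mul_neg]
  have hWK : W U c ≤ K := sup_le hUK ((Subgroup.zpowers_le).2 hcK)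
  have hgout : ∀ y : G, g (Quotient.out (y : G ⧸ W U c)) = g y := by
    intro y
    obtain ⟨z, hz⟩ := QuotientGroup.mk_out_eq_mul (W U c) y
    rw [hz]
    exact hWK z.2 y
  refine ⟨fun q => g (Quotient.out q), ?_⟩
  apply Subtype.ext
  apply Subtype.ext
  funext x
  rw [Phi_apply]
  show (χ x : k) * g (Quotient.out (x : G ⧸ W U c)) = f.1.1 x
  rw [hgout]
  show (χ x : k) * ((((χ x)⁻¹ : kˣ) : k) * f.1.1 x) = f.1.1 x
  rw [← mul_assoc, ← Units.val_mul, mul_inv_cancel, Units.val_one, one_mul]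

/-- **`Φ : (G/W → k) ≃ E`** -/
noncomputable def PhiEquiv (hχU : ∀ u ∈ U, χ u = 1) (hχc : χ c = -1) :
    ((G ⧸ W U c) → k) ≃ₗ[k] E k U c :=
  LinearEquiv.ofBijective (Phi U c χ hχU hχc)
    ⟨Phi_injective U c χ hχU hχc, Phi_surjective U c χ hχU hχc⟩

/-- equivariance: `L_τ (Φ h) = Φ (χ(τ)⁻¹ • (τ·h))`, `(τ·h)(q) = h(τ⁻¹ q)` -/
theorem minusRep_Phi (hχU : ∀ u ∈ U, χ u = 1) (hχc : χ c = -1) (τ : G) (h : (G ⧸ W U c) → k) :
    minusRep U c τ (Phi U c χ hχU hχc h) =
      Phi U c χ hχU hχc (fun q => (((χ τ)⁻¹ : kˣ) : k) * h (τ⁻¹ • q)) := by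
  apply Subtype.ext
  apply Subtype.ext
  funext x
  rw [minusRep_apply_apply, Phi_apply, Phi_apply, map_mul, map_inv, Units.val_mul]
  have : (τ⁻¹ • (x : G ⧸ W U c)) = ((τ⁻¹ * x : G) : G ⧸ W U c) := rfl
  rw [this]
  ring

/-- **the `mult` form, general**: `C` any group acting on `E` by `ρE`, on `G/W` and with a character `θ`
such that every `a : C` is "represented" by some `τ : G` (`ρE a = L_τ`, `a • q = τ • q`, `θ a = χ(τ)⁻¹`) —
covers `C →* G` as well as quotients `V/U`: `mult N E = mult N (k[G/W] ⊗ θ)`. -/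
theorem mult_of_lifts [Finite (G ⧸ W U c)] (hχU : ∀ u ∈ U, χ u = 1) (hχc : χ c = -1)
    {C : Type*} [Group C] [MulAction C (G ⧸ W U c)] (ρE : Representation k C (E k U c))
    (θ : C →* kˣ)
    (hlift : ∀ a : C, ∃ τ : G, ρE a = minusRep U c τ ∧ (∀ q : G ⧸ W U c, a • q = τ • q) ∧
      θ a = (χ τ)⁻¹)
    {N : Type*} [AddCommGroup N] [Module k N] (ρN : Representation k C N) :
    mult ρN ρE = mult ρN (twist (permRep k C (G ⧸ W U c)) θ) := by
  symm
  refine mult_congr_right ρN _ _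
    ((Finsupp.linearEquivFunOnFinite k k (G ⧸ W U c)).trans (PhiEquiv U c χ hχU hχc))
    (fun a f => ?_)
  obtain ⟨τ, h1, h2, h3⟩ := hlift a
  show Phi U c χ hχU hχc (⇑(twist (permRep k C (G ⧸ W U c)) θ a f)) =
    ρE a (Phi U c χ hχU hχc ⇑f)
  rw [h1, minusRep_Phi]
  congr 1
  funext q
  have h4 : a⁻¹ • q = τ⁻¹ • q := by
    rw [inv_smul_eq_iff, h2, smul_inv_smul]
  rw [twist_apply, Finsupp.smul_apply, permRep_apply_apply, smul_eq_mul, h4, h3]

/-- **the `mult` form** for a group `C` acting through `φ : C →* G`: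
`mult N E = mult N (k[G/W] ⊗ (χ∘φ)⁻¹)`. -/
theorem mult_minusRep [Finite (G ⧸ W U c)] (hχU : ∀ u ∈ U, χ u = 1) (hχc : χ c = -1)
    {C : Type*} [Group C] (φ : C →* G) [MulAction C (G ⧸ W U c)]
    (hφ : ∀ (a : C) (q : G ⧸ W U c), a • q = φ a • q)
    {N : Type*} [AddCommGroup N] [Module k N] (ρN : Representation k C N) :
    mult ρN ((minusRep U c).comp φ) =
      mult ρN (twist (permRep k C (G ⧸ W U c)) (χ.comp φ)⁻¹) :=
  mult_of_lifts U c χ hχU hχc ((minusRep U c).comp φ) ((χ.comp φ)⁻¹)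
    (fun a => ⟨φ a, rfl, hφ a, by rw [MonoidHom.inv_apply, MonoidHom.comp_apply]⟩) ρN

end Fermat.Agent.S56.GEC.Equivariant.MinusRegular
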