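/-
S56 / GEC-D4 [C1] (helper21): **the `(0,2)`-end of the Poitou–Tate sequence, functorially in the
coefficients.**

`D` local data over `(G, 𝒰)` with finitely many places, `χ` a character, `tr` a linear form on
`Hc³(k(χ))`.  For a finite dimensional discrete `M` with `M' = M.dualTwist χ` put
`P⁰(M') = ∏_v H⁰(G_v, M')` and

  `Θ : P⁰(M') → H²(G, M)^*`,  `Θ w x = ∑_v inv_v (w_v ∪ loc_v x)`.

* `Theta_eq_Phi`     : `Θ w = Φ¹(∂ w)` (`Φ¹ : Hc¹(M') → H²(G, M)^*` the global duality map);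
* `ker_Theta`        : `ker Θ = range (loc⁰ : H⁰(G, M') → P⁰(M'))` (from `MainConclusion`);
* `range_Theta`      : `range Θ = (ker (loc² : H²(G, M) → P²(M)))^⊥` (from local duality);
  hence `P⁰(M') / H⁰(G, M') ≃ (H²(G, M) / Ш²(M))^* ≃ (range loc²)^*` (`ThetaEquiv`, `imLocPairing`);
* `Theta_adjoint`    : for adjoint coefficient maps `a : M₁ ⟶ M₂`, `a' : M₂' ⟶ M₁'` one has
  `Θ_{M₁} (a'_* w) x = Θ_{M₂} w (a_* x)`; in particular for `a' = dualTwistMap χ a`.
-/
import Fermat.Agent.S56.PT.Selmer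
import Fermat.Agent.S56.PT.LocalDuality
import Fermat.Agent.S56.PT.MiddleExact
import Fermat.Agent.S56.PT.UnramTate
import Fermat.Agent.S55.ConeFunct
import Fermat.Agent.S55.ConePairing

set_option autoImplicit false
set_option linter.unusedSectionVars false

open CategoryTheory groupCohomology

namespace Fermat.Agent.S56.GEC.Equivariant.DualP0

open Fermat.Agent.S55.Level Fermat.Agent.S55.Cone Fermat.Agent.S55.DualTwist
  Fermat.Agent.S55.LevelDuality Fermat.Agent.S55.Main Fermat.Agent.S55.CF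
  Fermat.Agent.S56.PT.LocalDuality Fermat.Agent.S56.PT.Selmer

universe u

variable {k G : Type u} [Field k] [Group G] {𝒰 : LevelStructure G} (D : LocalData 𝒰)
  (χ : G →* kˣ) [IsDiscrete 𝒰 (ofChar χ)] (tr : Hc D (ofChar χ) 3 →ₗ[k] k)

section Def

variable (M : Rep.{u} k G) [IsDiscrete 𝒰 M] [IsDiscrete 𝒰 (M.dualTwist χ)]

/-- **`Θ : P⁰(M') → H²(G, M)^*`**, `Θ w x = ∑_v inv_v (w_v ∪ loc_v x)`. -/
noncomputable def Theta :
    (∀ v, levelCohomology (D.𝒱 v) (Rep.res (D.r v) (M.dualTwist χ)) 0) →ₗ[k]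
      Module.Dual k (levelCohomology 𝒰 M 2) :=
  (LinearMap.lcomp k k (locH D M 2)) ∘ₗ
    (locDual D (evalPairing χ M) (evalPairing_equivariant χ M) 0 2 2 rfl tr)

theorem Theta_apply (w : ∀ v, levelCohomology (D.𝒱 v) (Rep.res (D.r v) (M.dualTwist χ)) 0)
    (x : levelCohomology 𝒰 M 2) :
    Theta D χ tr M w x =
      locDual D (evalPairing χ M) (evalPairing_equivariant χ M) 0 2 2 rfl tr w
        (locH D M 2 x) := rfl

/-- `Θ = Φ¹ ∘ ∂`. -/
theorem Theta_eq_Phi (w : ∀ v, levelCohomology (D.𝒱 v) (Rep.res (D.r v) (M.dualTwist χ)) 0)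
    (x : levelCohomology 𝒰 M 2) :
    Theta D χ tr M w x =
      Phi D (evalPairing χ M) (evalPairing_equivariant χ M) 1 2 3 rfl tr
        (HcBd D (M.dualTwist χ) 0 w) x :=
  (Phi_HcBd D (evalPairing χ M) (evalPairing_equivariant χ M) 0 2 2 rfl tr w x).symm

/-- `Θ` kills the global invariants. -/
theorem Theta_locH (y : levelCohomology 𝒰 (M.dualTwist χ) 0) :
    Theta D χ tr M (locH D (M.dualTwist χ) 0 y) = 0 := by
  ext x
  rw [Theta_eq_Phi]
  have h2 : HcBd D (M.dualTwist χ) 0 (locH D (M.dualTwist χ) 0 y) = 0 := by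
    have : locH D (M.dualTwist χ) 0 y ∈ LinearMap.ker (HcBd D (M.dualTwist χ) 0) := by
      rw [ker_HcBd_eq_range_locH]
      exact ⟨y, rfl⟩
    exact this
  rw [h2, map_zero]

/-- The values of `Θ` kill `Ш²(M)`. -/
theorem Theta_apply_of_mem_ker
    (w : ∀ v, levelCohomology (D.𝒱 v) (Rep.res (D.r v) (M.dualTwist χ)) 0)
    {x : levelCohomology 𝒰 M 2} (hx : x ∈ LinearMap.ker (locH D M 2)) :
    Theta D χ tr M w x = 0 := by
  rw [Theta_apply, LinearMap.mem_ker.1 hx, map_zero]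

end Def

section Exact

variable (M : Rep.{u} k G) [IsDiscrete 𝒰 M] [FiniteDimensional k M]
  [IsDiscrete 𝒰 (M.dualTwist χ)]

/-- **Exactness at `P⁰(M')`**: `ker Θ = range loc⁰`. -/
theorem ker_Theta (hmain : MainConclusion D χ tr) :
    LinearMap.ker (Theta D χ tr M) = LinearMap.range (locH D (M.dualTwist χ) 0) := by
  apply le_antisymm
  · intro w hw
    rw [← ker_HcBd_eq_range_locH, LinearMap.mem_ker]
    apply (injective_Phi_of_main D χ tr hmain M).1
    rw [map_zero]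
    ext x
    rw [← Theta_eq_Phi, LinearMap.mem_ker.1 hw]
  · rintro _ ⟨y, rfl⟩
    exact LinearMap.mem_ker.2 (Theta_locH D χ tr M y)

variable [DecidableEq D.ι] [Finite D.ι]

/-- **Exactness at `H²(G, M)^*`**: `range Θ` is the annihilator of `Ш²(M) = ker loc²`. -/
theorem range_Theta (hloc : LocalHyp D χ tr) :
    LinearMap.range (Theta D χ tr M) = (LinearMap.ker (locH D M 2)).dualAnnihilator := by
  apply le_antisymm
  · rintro _ ⟨w, rfl⟩
    rw [Submodule.mem_dualAnnihilator]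
    intro x hx
    exact Theta_apply_of_mem_ker D χ tr M w hx
  · intro φ hφ
    rw [Submodule.mem_dualAnnihilator] at hφ
    -- `φ` factors through `loc²`
    have hker : LinearMap.ker (locH D M 2) ≤ LinearMap.ker φ := fun x hx =>
      LinearMap.mem_ker.2 (hφ x hx)
    obtain ⟨ψ, hψ⟩ := exists_dual_comp_eq (locH D M 2) φ hker
    obtain ⟨w, hw⟩ := (locDual_bijective_zero_two M hloc).2 ψ
    refine ⟨w, ?_⟩
    ext x
    rw [Theta_apply, hw, ← hψ]
    rfl

end Exact

/-! ### Adjointness for coefficient maps -/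

section Adjoint

variable {M₁ M₂ : Rep.{u} k G} [IsDiscrete 𝒰 M₁] [IsDiscrete 𝒰 (M₁.dualTwist χ)]
  [IsDiscrete 𝒰 M₂] [IsDiscrete 𝒰 (M₂.dualTwist χ)]
  (a : M₁ ⟶ M₂) (a' : M₂.dualTwist χ ⟶ M₁.dualTwist χ)
  (hadj : ∀ (ξ : M₂.dualTwist χ) (m : M₁),
    evalPairing χ M₁ (a'.hom ξ) m = evalPairing χ M₂ ξ (a.hom m))

include hadj in
/-- **Adjointness of the sums of the local pairings** `P⁰(M') × P²(M) → k`: for adjoint coefficient
maps `a : M₁ ⟶ M₂`, `a' : M₂' ⟶ M₁'` one has `⟨a'_* w, q⟩_{M₁} = ⟨w, a_* q⟩_{M₂}`. -/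
theorem locDual_adjoint
    (w : ∀ v, levelCohomology (D.𝒱 v) (Rep.res (D.r v) (M₂.dualTwist χ)) 0)
    (q : ∀ v, levelCohomology (D.𝒱 v) (Rep.res (D.r v) M₁) 2) :
    locDual D (evalPairing χ M₁) (evalPairing_equivariant χ M₁) 0 2 2 rfl tr
        (locHMap D a' 0 w) q =
      locDual D (evalPairing χ M₂) (evalPairing_equivariant χ M₂) 0 2 2 rfl tr w
        (locHMap D a 2 q) := by
  rw [locDual_apply, locDual_apply]
  congr 2
  funext v
  exact Fermat.Agent.S56.PT.UnramTate.cupLoc_lmap_left D (evalPairing χ M₂)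
    (evalPairing_equivariant χ M₂) (evalPairing χ M₁) (evalPairing_equivariant χ M₁) a' a hadj
    v rfl (w v) (q v)

include hadj in
/-- **Adjointness of `Θ`**: `Θ_{M₁} (a'_* w) x = Θ_{M₂} w (a_* x)`. -/
theorem Theta_adjoint
    (w : ∀ v, levelCohomology (D.𝒱 v) (Rep.res (D.r v) (M₂.dualTwist χ)) 0)
    (x : levelCohomology 𝒰 M₁ 2) :
    Theta D χ tr M₁ (locHMap D a' 0 w) x = Theta D χ tr M₂ w ((Hmap 𝒰 a 2).hom x) := by
  rw [Theta_apply, Theta_apply, locH_Hmap, locDual_adjoint D χ tr a a' hadj]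

/-- `locDual_adjoint` for the canonical adjoint `a' = dualTwistMap χ a`. -/
theorem locDual_dualTwistMap
    (w : ∀ v, levelCohomology (D.𝒱 v) (Rep.res (D.r v) (M₂.dualTwist χ)) 0)
    (q : ∀ v, levelCohomology (D.𝒱 v) (Rep.res (D.r v) M₁) 2) :
    locDual D (evalPairing χ M₁) (evalPairing_equivariant χ M₁) 0 2 2 rfl tr
        (locHMap D (dualTwistMap χ a) 0 w) q =
      locDual D (evalPairing χ M₂) (evalPairing_equivariant χ M₂) 0 2 2 rfl tr w
        (locHMap D a 2 q) :=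
  locDual_adjoint D χ tr a (dualTwistMap χ a) (fun _ _ => rfl) w q

/-- `Theta_adjoint` for the canonical adjoint `a' = dualTwistMap χ a`. -/
theorem Theta_dualTwistMap
    (w : ∀ v, levelCohomology (D.𝒱 v) (Rep.res (D.r v) (M₂.dualTwist χ)) 0)
    (x : levelCohomology 𝒰 M₁ 2) :
    Theta D χ tr M₁ (locHMap D (dualTwistMap χ a) 0 w) x =
      Theta D χ tr M₂ w ((Hmap 𝒰 a 2).hom x) :=
  Theta_adjoint D χ tr a (dualTwistMap χ a) (fun _ _ => rfl) w x

end Adjoint

/-! ### The perfect pairing `P⁰(M') / H⁰(G, M') × range loc² → k` -/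

section Perfect

variable (M : Rep.{u} k G) [IsDiscrete 𝒰 M] [FiniteDimensional k M]
  [IsDiscrete 𝒰 (M.dualTwist χ)]

/-- The pairing `P⁰(M') → (range loc²)^*`, `w ↦ (q ↦ ∑_v inv_v (w_v ∪ q_v))`. -/
noncomputable def pairRange :
    (∀ v, levelCohomology (D.𝒱 v) (Rep.res (D.r v) (M.dualTwist χ)) 0) →ₗ[k]
      Module.Dual k (LinearMap.range (locH D M 2)) :=
  (LinearMap.lcomp k k (LinearMap.range (locH D M 2)).subtype) ∘ₗ
    (locDual D (evalPairing χ M) (evalPairing_equivariant χ M) 0 2 2 rfl tr)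

theorem pairRange_apply (w : ∀ v, levelCohomology (D.𝒱 v) (Rep.res (D.r v) (M.dualTwist χ)) 0)
    (q : LinearMap.range (locH D M 2)) :
    pairRange D χ tr M w q =
      locDual D (evalPairing χ M) (evalPairing_equivariant χ M) 0 2 2 rfl tr w q.1 := rfl

theorem pairRange_rangeRestrict
    (w : ∀ v, levelCohomology (D.𝒱 v) (Rep.res (D.r v) (M.dualTwist χ)) 0)
    (x : levelCohomology 𝒰 M 2) :
    pairRange D χ tr M w ((locH D M 2).rangeRestrict x) = Theta D χ tr M w x := rfl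

theorem ker_pairRange (hmain : MainConclusion D χ tr) :
    LinearMap.ker (pairRange D χ tr M) = LinearMap.range (locH D (M.dualTwist χ) 0) := by
  rw [← ker_Theta D χ tr M hmain]
  ext w
  rw [LinearMap.mem_ker, LinearMap.mem_ker]
  constructor
  · intro h
    ext x
    rw [← pairRange_rangeRestrict, h]
    rfl
  · intro h
    ext ⟨q, x, rfl⟩
    have := LinearMap.congr_fun h x
    exact this

variable [DecidableEq D.ι] [Finite D.ι]

theorem pairRange_surjective (hloc : LocalHyp D χ tr) :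
    Function.Surjective (pairRange D χ tr M) := by
  intro φ
  obtain ⟨ψ, hψ⟩ := LinearMap.exists_extend φ
  obtain ⟨w, hw⟩ := (locDual_bijective_zero_two M hloc).2 ψ
  refine ⟨w, ?_⟩
  ext q
  rw [pairRange_apply, hw, ← hψ]
  rfl

/-- **The perfect pairing** `P⁰(M') / H⁰(G, M') → (range loc²)^*`. -/
noncomputable def pairQuot (hmain : MainConclusion D χ tr) :
    ((∀ v, levelCohomology (D.𝒱 v) (Rep.res (D.r v) (M.dualTwist χ)) 0) ⧸
        LinearMap.range (locH D (M.dualTwist χ) 0)) →ₗ[k]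
      Module.Dual k (LinearMap.range (locH D M 2)) :=
  (LinearMap.range (locH D (M.dualTwist χ) 0)).liftQ (pairRange D χ tr M)
    (ker_pairRange D χ tr M hmain).ge

theorem pairQuot_mk (hmain : MainConclusion D χ tr)
    (w : ∀ v, levelCohomology (D.𝒱 v) (Rep.res (D.r v) (M.dualTwist χ)) 0)
    (q : LinearMap.range (locH D M 2)) :
    pairQuot D χ tr M hmain (Submodule.Quotient.mk w) q =
      locDual D (evalPairing χ M) (evalPairing_equivariant χ M) 0 2 2 rfl tr w q.1 := rfl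

/-- **Poitou–Tate at the `(0,2)`-end**: `P⁰(M') / H⁰(G, M') ≃ (range loc²)^*`. -/
theorem pairQuot_bijective (h : PTHyp D χ tr) :
    Function.Bijective (pairQuot D χ tr M h.main) := by
  constructor
  · rw [← LinearMap.ker_eq_bot]
    unfold pairQuot
    rw [Submodule.ker_liftQ_eq_bot']
    exact (ker_pairRange D χ tr M h.main).symm
  · intro φ
    obtain ⟨w, hw⟩ := pairRange_surjective D χ tr M h.loc φ
    exact ⟨Submodule.Quotient.mk w, hw⟩

end Perfect

end Fermat.Agent.S56.GEC.Equivariant.DualP0
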