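/-
S56 / GEC-D4 (C), formal part (helper21): **the image of `loc²` as a `G`-module.**

`U` a normal subgroup of `G`, `I(A) = coind_U^G res_U A` with the commuting action `L_τ` of `G`
(`Regular.leftTr`), `J' = I(A).dualTwist χ` with the contragredient action
`L'_τ = dualTwistMap χ (L_{τ⁻¹})`.  Then

* `dualCohRep`, `dualLocRep` : the actions of `G` on `Hⁿ(G, J')` and on `Pⁿ(J') = ∏_v Hⁿ(G_v, J')`;
  the localisation maps are equivariant;
* `locDual_invariant` : the sum of the local pairings `P⁰(J') × P²(I A) → k` is `G`-invariant;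
* `mult_imLoc2` : for every finite group `C` acting through `G` with `|C|` invertible in `k`,
  `mult N (range loc²) + mult N^* H⁰(G, J') = mult N^* P⁰(J')`  (Poitou–Tate at the `(0,2)`-end);
* `descend` : the representation of `V ⧸ U` induced by a representation of `G` trivial on `U`,
  and `mult_imLoc2_descend`, the same statement for the descended representations.
-/
import Fermat.Agent.S56.GEC.Equivariant.CoindAct
import Fermat.Agent.S56.GEC.Equivariant.DualP0
import Fermat.Agent.S56.GEC.Equivariant.MultGlue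

set_option autoImplicit false
set_option linter.unusedSectionVars false
set_option linter.unusedVariables false

open CategoryTheory groupCohomology

namespace Fermat.Agent.S56.GEC.Equivariant.ImLoc2

open Fermat.Agent.S55.Level Fermat.Agent.S55.Cone Fermat.Agent.S55.DualTwist
  Fermat.Agent.S55.LevelDuality Fermat.Agent.S55.Main Fermat.Agent.S55.CF
  Fermat.Agent.S55.Devissage Fermat.Agent.S56.PT.LocalDuality Fermat.Agent.S56.PT.Selmer
  Fermat.Agent.S56.GEC.Regular Fermat.Agent.S56.GEC.Equivariant.CoindAct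
  Fermat.Agent.S56.GEC.Equivariant.DualP0 Fermat.Agent.S56.GEC.Equivariant.Mult
  Fermat.Agent.S56.GEC.Equivariant.MultGlue

universe u

variable {k G : Type u} [Field k] [Group G]

/-! ### The contragredient action on `I(A)'` -/

section DualAct

variable (U : Subgroup G) [hU : U.Normal] (A : Rep.{u} k G) (χ : G →* kˣ)

/-- **The contragredient action** `L'_τ = (L_{τ⁻¹})^∨` of `G` on `I(A)' = I(A).dualTwist χ`. -/
noncomputable def dualLeftTr (τ : G) :
    (coindRes U A).dualTwist χ ⟶ (coindRes U A).dualTwist χ :=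
  dualTwistMap χ (leftTr U A τ⁻¹)

lemma dualLeftTr_apply (τ : G) (ξ : (coindRes U A).dualTwist χ) (f : coindRes U A) :
    evalPairing χ (coindRes U A) ((dualLeftTr U A χ τ).hom ξ) f =
      evalPairing χ (coindRes U A) ξ ((leftTr U A τ⁻¹).hom f) := rfl

lemma dualLeftTr_one : dualLeftTr U A χ 1 = 𝟙 _ := by
  unfold dualLeftTr
  rw [inv_one, leftTr_one, dualTwistMap_id]

lemma dualLeftTr_mul (σ τ : G) :
    dualLeftTr U A χ (σ * τ) = dualLeftTr U A χ τ ≫ dualLeftTr U A χ σ := by
  unfold dualLeftTr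
  rw [mul_inv_rev, leftTr_mul, dualTwistMap_comp]

lemma dualLeftTr_of_mem {u : G} (hu : u ∈ U) : dualLeftTr U A χ u = 𝟙 _ := by
  unfold dualLeftTr
  rw [leftTr_of_mem U A (U.inv_mem hu), dualTwistMap_id]

/-- The evaluation pairing `I(A)' × I(A) → k(χ)` is invariant under `(L'_τ, L_τ)`. -/
lemma evalPairing_dualLeftTr_leftTr (τ : G) (ξ : (coindRes U A).dualTwist χ)
    (f : coindRes U A) :
    evalPairing χ (coindRes U A) ((dualLeftTr U A χ τ).hom ξ) ((leftTr U A τ).hom f) =
      evalPairing χ (coindRes U A) ξ f := by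
  rw [dualLeftTr_apply]
  have h := congrArg (fun φ : coindRes U A ⟶ coindRes U A => φ.hom f) (leftTr_comp_inv U A τ)
  exact congrArg (evalPairing χ (coindRes U A) ξ) h

end DualAct

/-! ### The induced actions on cohomology -/

section DualCoh

variable {𝒰 : LevelStructure G} (D : LocalData.{u} 𝒰) (U : Subgroup G) [hU : U.Normal]
  (A : Rep.{u} k G) (χ : G →* kˣ) [IsDiscrete 𝒰 ((coindRes U A).dualTwist χ)]

/-- The action of `G` on `Hⁿ(G, I(A)')`. -/
noncomputable def dualCohRep (n : ℕ) :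
    Representation k G (levelCohomology 𝒰 ((coindRes U A).dualTwist χ) n) where
  toFun τ := (Hmap 𝒰 (dualLeftTr U A χ τ) n).hom
  map_one' := by rw [dualLeftTr_one, Hmap_id]; rfl
  map_mul' σ τ := by rw [dualLeftTr_mul, Hmap_comp]; rfl

lemma dualCohRep_apply (n : ℕ) (τ : G)
    (x : levelCohomology 𝒰 ((coindRes U A).dualTwist χ) n) :
    dualCohRep (𝒰 := 𝒰) U A χ n τ x = (Hmap 𝒰 (dualLeftTr U A χ τ) n).hom x := rfl

lemma dualCohRep_of_mem (n : ℕ) {u : G} (hu : u ∈ U) :
    dualCohRep (𝒰 := 𝒰) U A χ n u = 1 := by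
  ext x
  rw [dualCohRep_apply, dualLeftTr_of_mem U A χ hu, Hmap_id]
  rfl

/-- The action of `G` on `Pⁿ(I(A)') = ∏_v Hⁿ(G_v, I(A)')`. -/
noncomputable def dualLocRep (n : ℕ) :
    Representation k G
      (∀ v, levelCohomology (D.𝒱 v) (Rep.res (D.r v) ((coindRes U A).dualTwist χ)) n) where
  toFun τ := locHMap D (dualLeftTr U A χ τ) n
  map_one' := by rw [dualLeftTr_one, locHMap_id]; rfl
  map_mul' σ τ := by rw [dualLeftTr_mul, locHMap_comp]; rfl

lemma dualLocRep_apply (n : ℕ) (τ : G)
    (y : ∀ v, levelCohomology (D.𝒱 v) (Rep.res (D.r v) ((coindRes U A).dualTwist χ)) n) :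
    dualLocRep D U A χ n τ y = locHMap D (dualLeftTr U A χ τ) n y := rfl

lemma dualLocRep_of_mem (n : ℕ) {u : G} (hu : u ∈ U) : dualLocRep D U A χ n u = 1 := by
  ext y
  rw [dualLocRep_apply, dualLeftTr_of_mem U A χ hu, locHMap_id]
  rfl

/-- The localisation maps of `I(A)'` are equivariant. -/
theorem locH_dualCohRep (n : ℕ) (τ : G)
    (x : levelCohomology 𝒰 ((coindRes U A).dualTwist χ) n) :
    locH D ((coindRes U A).dualTwist χ) n (dualCohRep (𝒰 := 𝒰) U A χ n τ x) =
      dualLocRep D U A χ n τ (locH D ((coindRes U A).dualTwist χ) n x) := by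
  rw [dualCohRep_apply, locH_Hmap, dualLocRep_apply]

end DualCoh

/-! ### Invariance of the local pairing and the count -/

section Pairing

variable {𝒰 : LevelStructure G} (D : LocalData.{u} 𝒰) (U : Subgroup G) [hU : U.Normal]
  [IsOpenSub 𝒰 U] (A : Rep.{u} k G) [IsDiscrete 𝒰 A] (χ : G →* kˣ) [IsDiscrete 𝒰 (ofChar χ)]
  (tr : Hc D (ofChar χ) 3 →ₗ[k] k) [IsDiscrete 𝒰 ((coindRes U A).dualTwist χ)]

/-- **The sum of the local pairings `P⁰(I(A)') × P²(I(A)) → k` is `G`-invariant.** -/
theorem locDual_invariant (τ : G)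
    (w : ∀ v, levelCohomology (D.𝒱 v) (Rep.res (D.r v) ((coindRes U A).dualTwist χ)) 0)
    (q : ∀ v, levelCohomology (D.𝒱 v) (Rep.res (D.r v) (coindRes U A)) 2) :
    locDual D (evalPairing χ (coindRes U A)) (evalPairing_equivariant χ (coindRes U A)) 0 2 2 rfl
        tr (dualLocRep D U A χ 0 τ w) (locRep D U A 2 τ q) =
      locDual D (evalPairing χ (coindRes U A)) (evalPairing_equivariant χ (coindRes U A)) 0 2 2
        rfl tr w q := by
  rw [dualLocRep_apply, dualLeftTr, locDual_dualTwistMap, locRep_apply, ← locHMap_comp_apply,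
    leftTr_comp_inv, locHMap_id]
  rfl

end Pairing

section Count

variable {𝒰 : LevelStructure G} (D : LocalData.{u} 𝒰) [DecidableEq D.ι] [Finite D.ι]
  [Nonempty D.ι] (U : Subgroup G) [hU : U.Normal] [IsOpenSub 𝒰 U] (A : Rep.{u} k G)
  [IsDiscrete 𝒰 A] (χ : G →* kˣ) [IsDiscrete 𝒰 (ofChar χ)]
  (tr : Hc D (ofChar χ) 3 →ₗ[k] k) [IsDiscrete 𝒰 ((coindRes U A).dualTwist χ)]
  [FiniteDimensional k (coindRes U A)]

/-- **(C), formal part.**  Let a finite group `C` with `|C|` invertible in `k` act on `P⁰(I(A)')`,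
`P²(I(A))`, `H⁰(G, I(A)')` and `range loc²` through a surjection `π : V → C` from a subgroup `V` of
`G`, compatibly with the actions of `G`.  Then, for every finite dimensional representation `N` of
`C`, `mult N (range loc²) + mult N^* H⁰(G, I(A)') = mult N^* P⁰(I(A)')`. -/
theorem mult_imLoc2 (h : PTHyp D χ tr) {C : Type*} [Group C] [Fintype C]
    (hC : (Fintype.card C : k) ≠ 0) {N : Type*} [AddCommGroup N] [Module k N]
    [FiniteDimensional k N] (ρN : Representation k C N) {V : Subgroup G} (π : V →* C)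
    (hπ : Function.Surjective π)
    (ρX : Representation k C
      (∀ v, levelCohomology (D.𝒱 v) (Rep.res (D.r v) ((coindRes U A).dualTwist χ)) 0))
    (hρX : ∀ v : V, ρX (π v) = dualLocRep D U A χ 0 (v : G))
    (ρY : Representation k C
      (∀ v, levelCohomology (D.𝒱 v) (Rep.res (D.r v) (coindRes U A)) 2))
    (hρY : ∀ v : V, ρY (π v) = locRep D U A 2 (v : G))
    (ρW : Representation k C (levelCohomology 𝒰 ((coindRes U A).dualTwist χ) 0))
    (hρW : ∀ v : V, ρW (π v) = dualCohRep (𝒰 := 𝒰) U A χ 0 (v : G))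
    (ρZ : Representation k C (LinearMap.range (locH D (coindRes U A) 2)))
    (hρZ : ∀ v : V, ρZ (π v) = imLocRep D U A 2 (v : G)) :
    mult ρN ρZ + mult ρN.dual ρW = mult ρN.dual ρX := by
  have : Fintype D.ι := Fintype.ofFinite _
  have hfdJ' : FiniteDimensional k ((coindRes U A).dualTwist χ) :=
    inferInstanceAs (FiniteDimensional k (Module.Dual k (coindRes U A)))
  have hX : FiniteDimensional k
      (∀ v, levelCohomology (D.𝒱 v) (Rep.res (D.r v) ((coindRes U A).dualTwist χ)) 0) :=
    finiteDimensional_prod h ((coindRes U A).dualTwist χ) 0 (by norm_num)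
  have hY : FiniteDimensional k
      (∀ v, levelCohomology (D.𝒱 v) (Rep.res (D.r v) (coindRes U A)) 2) :=
    finiteDimensional_prod h (coindRes U A) 2 le_rfl
  have hW : FiniteDimensional k (levelCohomology 𝒰 ((coindRes U A).dualTwist χ) 0) :=
    finiteDimensional_levelCohomology_zero 𝒰 _
  refine mult_annihilator hC ρN ρX ρY ρW ρZ
    (locDual D (evalPairing χ (coindRes U A)) (evalPairing_equivariant χ (coindRes U A)) 0 2 2 rfl
      tr) ?_ ?_ (locH D ((coindRes U A).dualTwist χ) 0)
    (locH_zero_injective D ((coindRes U A).dualTwist χ)) ?_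
    (LinearMap.range (locH D (coindRes U A) 2)).subtype (Submodule.subtype_injective _) ?_ ?_
  · intro c x y
    obtain ⟨v, rfl⟩ := hπ c
    rw [hρX, hρY]
    exact locDual_invariant D U A χ tr (v : G) x y
  · exact (LinearMap.flip_bijective_iff₁).2 (locDual_bijective_zero_two (coindRes U A) h.loc)
  · intro c w
    obtain ⟨v, rfl⟩ := hπ c
    rw [hρW, hρX]
    exact locH_dualCohRep D U A χ 0 (v : G) w
  · intro c z
    obtain ⟨v, rfl⟩ := hπ c
    rw [hρZ, hρY]
    rfl
  · intro y
    rw [← Fermat.Agent.S56.PT.MiddleExact.mem_range_locH_two_iff D χ tr (coindRes U A) h.main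
      (fun v _ => ((h.loc.mono v) (Rep.res (D.r v) (coindRes U A))).2.2) y]
    constructor
    · rintro ⟨z, rfl⟩
      exact z.2
    · intro hy
      exact ⟨⟨y, hy⟩, rfl⟩

end Count

/-! ### Descent to the finite quotients `V ⧸ U` -/

section Descend

variable (U : Subgroup G) [hU : U.Normal] (V : Subgroup G)

/-- **The representation of `V ⧸ U` induced by a representation of `G` which is trivial on `U`**
(same convention as `Regular.leftTrQ`). -/
noncomputable def descend {X : Type*} [AddCommGroup X] [Module k X] (ρ : Representation k G X)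
    (hρ : ∀ u ∈ U, ρ u = 1) : Representation k (↥V ⧸ U.subgroupOf V) X :=
  QuotientGroup.lift (U.subgroupOf V) (ρ.comp V.subtype)
    (fun v hv => hρ (v : G) (Subgroup.mem_subgroupOf.1 hv))

lemma descend_mk {X : Type*} [AddCommGroup X] [Module k X] (ρ : Representation k G X)
    (hρ : ∀ u ∈ U, ρ u = 1) (v : V) :
    descend U V ρ hρ (QuotientGroup.mk v) = ρ (v : G) := rfl

lemma descend_mk' {X : Type*} [AddCommGroup X] [Module k X] (ρ : Representation k G X)
    (hρ : ∀ u ∈ U, ρ u = 1) (v : V) :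
    descend U V ρ hρ (QuotientGroup.mk' (U.subgroupOf V) v) = ρ (v : G) := rfl

end Descend

section DescendCount

variable {𝒰 : LevelStructure G} (D : LocalData.{u} 𝒰) (U : Subgroup G) [hU : U.Normal]
  [IsOpenSub 𝒰 U] (A : Rep.{u} k G) [IsDiscrete 𝒰 A]

lemma imLocRep_of_mem (n : ℕ) {u : G} (hu : u ∈ U) : imLocRep D U A n u = 1 := by
  ext y : 2
  show (locRep D U A n u) y.1 = y.1
  rw [locRep_of_mem D U A n hu]
  rfl

lemma shaRep_of_mem (n : ℕ) {u : G} (hu : u ∈ U) : shaRep D U A n u = 1 := by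
  ext x
  show (cohRep U A 𝒰 n u) x.1 = x.1
  rw [cohRep_of_mem A 𝒰 n hu]
  rfl

variable [DecidableEq D.ι] [Finite D.ι] [Nonempty D.ι] (χ : G →* kˣ) [IsDiscrete 𝒰 (ofChar χ)]
  (tr : Hc D (ofChar χ) 3 →ₗ[k] k) [IsDiscrete 𝒰 ((coindRes U A).dualTwist χ)]
  [FiniteDimensional k (coindRes U A)]

/-- **(C), formal part, for the finite quotient `C = V ⧸ U`** (`U ≤ V` not needed) and the
descended representations. -/
theorem mult_imLoc2_descend (h : PTHyp D χ tr) (V : Subgroup G)
    [Fintype (↥V ⧸ U.subgroupOf V)]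
    (hC : (Fintype.card (↥V ⧸ U.subgroupOf V) : k) ≠ 0) {N : Type*} [AddCommGroup N]
    [Module k N] [FiniteDimensional k N] (ρN : Representation k (↥V ⧸ U.subgroupOf V) N) :
    mult ρN (descend U V (imLocRep D U A 2) (fun _ hu => imLocRep_of_mem D U A 2 hu)) +
        mult ρN.dual (descend U V (dualCohRep (𝒰 := 𝒰) U A χ 0)
          (fun _ hu => dualCohRep_of_mem U A χ 0 hu)) =
      mult ρN.dual (descend U V (dualLocRep D U A χ 0)
        (fun _ hu => dualLocRep_of_mem D U A χ 0 hu)) :=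
  mult_imLoc2 D U A χ tr h hC ρN (QuotientGroup.mk' (U.subgroupOf V))
    (QuotientGroup.mk'_surjective _) _ (fun _ => rfl)
    (descend U V (locRep D U A 2) (fun _ hu => locRep_of_mem D U A 2 hu)) (fun _ => rfl)
    _ (fun _ => rfl) _ (fun _ => rfl)

end DescendCount

end Fermat.Agent.S56.GEC.Equivariant.ImLoc2
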