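/-
S56 / [GEC-D4] leaf D4-PL part 2 = (c4) (helper8; spec = moonshots row 52 §4 (C)(c4); dispatch #2507):
**the degree-0 computation `P⁰(J') ≅ 𝔽_p[X_f] ⊗ χ`, `H⁰(J') ≅ χ`.**

ABSTRACT (`k` a field, `U ◁ G` of finite index, `χ : G →* kˣ` trivial on `U`, `r : H →* G`):
`J = I(𝟙) = coind_U^G 𝟙` has the basis `deltaQ q` (`q ∈ G ⧸ U`), permuted by right translation
(`ρ_deltaQ`) and by helper11's `leftTr` (`leftTr_deltaQ`).  For `J' = J.dualTwist χ` and a
parametrisation `𝒟 : DoubleCosets U r X` of `U \ G / r(H)` by a `G`-set `X`: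

* `Psi χ 𝒟 hχ : (Rep.res r J').ρ.invariants ≃ₗ[k] (X → k)`, `Psi l (dc x) = χ(x) · l(δ_{Ux})` (`Psi_dc`);
* `actJ' U χ γ := dualTwistMap χ (leftTr U 𝟙 γ⁻¹) : J' ⟶ J'` (`actJ'_one/_mul/_of_mem`), and
  `Psi (γ · l) w = χ(γ) · Psi l (γ⁻¹ • w)` (`Psi_actJ'`);
* `invLine U χ hχ : J'.ρ.invariants ≃ₗ[k] k` (`l ↦ l(δ_U)`), `invLine (γ · l) = χ(γ) · invLine l`
  (`invLine_actJ'`), and `Psi l w = invLine l` for `G`-invariant `l` (`Psi_of_invariant'`).

CONCRETE (`Γ = Gal(ℚ̄/ℚ)`, `L` finite normal, `U = G_L`, `χ = cycloChar p` trivial on `U`,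
`D = localData S`, `X = PlacesGSet.Xf S L`): `compEquiv`, `P0Equiv : P⁰(J') ≃ₗ (Xf S L → ZMod p)`,
`H0Equiv : H⁰(G_S, J') ≃ₗ ZMod p`, `P0Equiv_locHMap_actL`, `H0Equiv_Hmap_actL`, `P0Equiv_locH`
(the localisation map is the diagonal), `locH_zero_injective`; the representations `P0Rep`, `H0Rep`
and, in helper13's vocabulary, `P0EquivF_P0Rep` (`P⁰(J') ≅ twist (permRep 𝔽_p Γ X_f) χ`),
`H0Equiv_H0Rep` (`H⁰(J') ≅ charRep χ`).
-/
import Mathlib
import Fermat.Agent.S55.DevissageRep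
import Fermat.Agent.S55.DualTwist
import Fermat.Agent.S55.CF.LowDegree
import Fermat.Agent.S55.ConeFunct
import Fermat.Agent.S55.Assembly
import Fermat.Agent.S56.GEC.Regular
import Fermat.Agent.S56.GEC.Equivariant.PlacesGSet
import Fermat.Agent.S56.GEC.Equivariant.CoindAct
import Fermat.Agent.S56.GEC.Equivariant.Mult

set_option autoImplicit false
set_option linter.unusedSectionVars false
set_option linter.unusedVariables false

open CategoryTheory

namespace Fermat.Agent.S56.GEC.Equivariant.PlacesH0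

open Fermat.Agent.S55.Level Fermat.Agent.S55.CF Fermat.Agent.S55.Devissage
  Fermat.Agent.S55.DualTwist Fermat.Agent.S56.GEC.Regular

universe u

section Abstract

variable (k : Type u) {G : Type u} [Field k] [Group G] (U : Subgroup G) [hU : U.Normal]

/-- `J = I(𝟙) = coind_U^G 𝟙`: functions on `U \ G`. -/
noncomputable abbrev J : Rep.{u} k G := coindRes U (Rep.trivial k G k)

variable {k U}

/-- elements of `J` are functions on `G ⧸ U` -/
theorem J_apply_eq_of_mk_eq (f : J k U) {x y : G}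
    (h : (QuotientGroup.mk x : G ⧸ U) = QuotientGroup.mk y) : f.1 x = f.1 y := by
  have h1 : x * y⁻¹ ∈ U := by
    have h2 : x⁻¹ * y ∈ U := QuotientGroup.eq.1 h
    have h3 := hU.conj_mem _ (U.inv_mem h2) x
    simpa [mul_assoc] using h3
  have h4 : x = (x * y⁻¹) * y := by group
  rw [h4, coindRes_apply_mul (Rep.trivial k G k) f _ h1]
  rfl

variable (k U)

open Classical in
/-- the indicator function of the coset `q` -/
noncomputable def deltaQ (q : G ⧸ U) : J k U :=
  ⟨fun y => if (QuotientGroup.mk y : G ⧸ U) = q then 1 else 0, fun u x => by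
    show (if (QuotientGroup.mk ((u : G) * x) : G ⧸ U) = q then (1 : k) else 0) =
      (if (QuotientGroup.mk x : G ⧸ U) = q then (1 : k) else 0)
    rw [QuotientGroup.mk_mul, (QuotientGroup.eq_one_iff (u : G)).2 u.2, one_mul]⟩

variable {k U}

open Classical in
theorem deltaQ_apply (q : G ⧸ U) (y : G) :
    (deltaQ k U q).1 y = if (QuotientGroup.mk y : G ⧸ U) = q then 1 else 0 := rfl

theorem deltaQ_apply_mk (y : G) : (deltaQ k U (QuotientGroup.mk y)).1 y = 1 := by
  classical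
  rw [deltaQ_apply, if_pos rfl]

theorem deltaQ_apply_of_ne {q : G ⧸ U} {y : G} (h : (QuotientGroup.mk y : G ⧸ U) ≠ q) :
    (deltaQ k U q).1 y = 0 := by
  classical
  rw [deltaQ_apply, if_neg h]

/-- right translation permutes the indicator functions -/
theorem ρ_deltaQ (g : G) (q : G ⧸ U) :
    (J k U).ρ g (deltaQ k U q) = deltaQ k U (q * (QuotientGroup.mk g)⁻¹) := by
  classical
  refine Subtype.ext (funext fun y => ?_)
  rw [coindRes_ρ_apply, deltaQ_apply, deltaQ_apply, QuotientGroup.mk_mul]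
  simp only [eq_mul_inv_iff_mul_eq]

/-- left translation permutes the indicator functions -/
theorem leftTr_deltaQ (γ : G) (q : G ⧸ U) :
    (leftTr U (Rep.trivial k G k) γ).hom (deltaQ k U q) =
      deltaQ k U (QuotientGroup.mk γ * q) := by
  classical
  refine Subtype.ext (funext fun y => ?_)
  rw [leftTr_apply, deltaQ_apply, deltaQ_apply, QuotientGroup.mk_mul, QuotientGroup.mk_inv]
  show (if _ then (1 : k) else 0) = _
  simp only [inv_mul_eq_iff_eq_mul]

/-- the indicator functions span `J` -/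
theorem eq_sum_deltaQ [Fintype (G ⧸ U)] (f : J k U) :
    f = ∑ q : G ⧸ U, f.1 q.out • deltaQ k U q := by
  classical
  refine Subtype.ext (funext fun y => ?_)
  have h1 : (∑ q : G ⧸ U, f.1 q.out • deltaQ k U q).1 y =
      ∑ q : G ⧸ U, f.1 q.out * (deltaQ k U q).1 y := by
    have := map_sum ((LinearMap.proj y : (G → k) →ₗ[k] k) ∘ₗ
      (((Rep.res U.subtype (Rep.trivial k G k)).ρ.coindV U.subtype).subtype))
      (fun q : G ⧸ U => f.1 q.out • deltaQ k U q) Finset.univ
    exact this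
  rw [h1, Finset.sum_eq_single (QuotientGroup.mk y : G ⧸ U)]
  · rw [deltaQ_apply_mk, mul_one]
    exact J_apply_eq_of_mk_eq f (QuotientGroup.out_eq' _).symm
  · intro q _ hq
    rw [deltaQ_apply_of_ne (Ne.symm hq), mul_zero]
  · intro h; exact absurd (Finset.mem_univ _) h

/-- a linear form on `J` is determined by its values on the indicator functions -/
theorem dual_ext [Finite (G ⧸ U)] {l m : Module.Dual k (J k U)}
    (h : ∀ q : G ⧸ U, l (deltaQ k U q) = m (deltaQ k U q)) : l = m := by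
  have := Fintype.ofFinite (G ⧸ U)
  refine LinearMap.ext fun f => ?_
  rw [eq_sum_deltaQ f, map_sum, map_sum]
  refine Finset.sum_congr rfl fun q _ => ?_
  rw [map_smul, map_smul, h q]


/-! ### the twisted dual `J' = J^*(χ)` and its invariants under a subgroup `r(H)` -/

variable (k U)

/-- `J' = J.dualTwist χ` -/
noncomputable abbrev J' (χ : G →* kˣ) : Rep.{u} k G := (J k U).dualTwist χ

variable {k U} (χ : G →* kˣ)

/-- the coordinates of a linear form on `J`, normalised by `χ`: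
`M_l(x) = χ(x) · l(δ_{Ux})`. -/
noncomputable def Mfun (l : J' k U χ) (x : G) : k :=
  (χ x : k) * (l : Module.Dual k (J k U)) (deltaQ k U (QuotientGroup.mk x))

theorem Mfun_add (l m : J' k U χ) (x : G) : Mfun χ (l + m) x = Mfun χ l x + Mfun χ m x := by
  unfold Mfun
  rw [← mul_add]
  rfl

theorem Mfun_smul (c : k) (l : J' k U χ) (x : G) : Mfun χ (c • l) x = c * Mfun χ l x := by
  unfold Mfun
  rw [mul_left_comm]
  rfl

/-- `M_l` is left `U`-invariant when `χ` is trivial on `U` -/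
theorem Mfun_mul_left (hχ : ∀ u ∈ U, χ u = 1) (l : J' k U χ) {u : G} (hu : u ∈ U) (x : G) :
    Mfun χ l (u * x) = Mfun χ l x := by
  unfold Mfun
  rw [map_mul, hχ u hu, one_mul, QuotientGroup.mk_mul, (QuotientGroup.eq_one_iff u).2 hu, one_mul]

variable {H : Type u} [Group H] (r : H →* G)

/-- the `r(H)`-invariance of a twisted linear form, in coordinates -/
theorem mem_invariants_iff [Finite (G ⧸ U)] (l : J' k U χ) :
    l ∈ (Rep.res r (J' k U χ)).ρ.invariants ↔
      ∀ (h : H) (q : G ⧸ U), (χ (r h) : k) *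
        (l : Module.Dual k (J k U)) (deltaQ k U (q * QuotientGroup.mk (r h))) =
          (l : Module.Dual k (J k U)) (deltaQ k U q) := by
  rw [Representation.mem_invariants]
  constructor
  · intro hl h q
    have h1 := congrArg (fun m : J' k U χ => (m : Module.Dual k (J k U)) (deltaQ k U q)) (hl h)
    have h2 : ((Rep.res r (J' k U χ)).ρ h l : Module.Dual k (J k U)) (deltaQ k U q) =
        (χ (r h) : k) * (l : Module.Dual k (J k U)) ((J k U).ρ (r h)⁻¹ (deltaQ k U q)) := rfl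
    simp only at h1
    rw [h2, ρ_deltaQ, QuotientGroup.mk_inv, inv_inv] at h1
    exact h1
  · intro hl h
    refine dual_ext (l := ((Rep.res r (J' k U χ)).ρ h l : Module.Dual k (J k U)))
      (m := (l : Module.Dual k (J k U))) fun q => ?_
    have h2 : ((Rep.res r (J' k U χ)).ρ h l : Module.Dual k (J k U)) (deltaQ k U q) =
        (χ (r h) : k) * (l : Module.Dual k (J k U)) ((J k U).ρ (r h)⁻¹ (deltaQ k U q)) := rfl
    rw [h2, ρ_deltaQ, QuotientGroup.mk_inv, inv_inv]
    exact hl h q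

/-- `M_l` is right `r(H)`-invariant for an `r(H)`-invariant `l` -/
theorem Mfun_mul_right [Finite (G ⧸ U)] {l : J' k U χ}
    (hl : l ∈ (Rep.res r (J' k U χ)).ρ.invariants) (x : G) (h : H) :
    Mfun χ l (x * r h) = Mfun χ l x := by
  unfold Mfun
  rw [map_mul, Units.val_mul, mul_assoc, QuotientGroup.mk_mul,
    (mem_invariants_iff χ r l).1 hl h (QuotientGroup.mk x)]


/-! ### double cosets -/

/-- A parametrisation `dc : G → X` of the double cosets `U \ G / r(H)` by a `G`-set `X`,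
equivariant for left multiplication. -/
structure DoubleCosets (U : Subgroup G) (r : H →* G) (X : Type*) [MulAction G X] where
  /-- the double coset map -/
  dc : G → X
  surj : Function.Surjective dc
  eq_iff : ∀ x y, dc x = dc y ↔ ∃ u ∈ U, ∃ h : H, y = u * x * r h
  mul : ∀ γ x, dc (γ * x) = γ • dc x

variable {r} {X : Type*} [MulAction G X] (𝒟 : DoubleCosets U r X)

theorem Mfun_eq_of_dc_eq [Finite (G ⧸ U)] (hχ : ∀ u ∈ U, χ u = 1) {l : J' k U χ}
    (hl : l ∈ (Rep.res r (J' k U χ)).ρ.invariants) {x y : G} (h : 𝒟.dc x = 𝒟.dc y) :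
    Mfun χ l x = Mfun χ l y := by
  obtain ⟨u, hu, h', rfl⟩ := (𝒟.eq_iff x y).1 h
  rw [Mfun_mul_right χ r hl, Mfun_mul_left χ hχ l hu]

/-- **The coordinates of an `r(H)`-invariant twisted linear form on the double cosets.** -/
noncomputable def PsiLin : (Rep.res r (J' k U χ)).ρ.invariants →ₗ[k] (X → k) where
  toFun l w := Mfun χ l.1 (Function.surjInv 𝒟.surj w)
  map_add' l m := funext fun w => Mfun_add χ l.1 m.1 _
  map_smul' c l := funext fun w => Mfun_smul χ c l.1 _

theorem PsiLin_dc [Finite (G ⧸ U)] (hχ : ∀ u ∈ U, χ u = 1)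
    (l : (Rep.res r (J' k U χ)).ρ.invariants) (x : G) :
    PsiLin χ 𝒟 l (𝒟.dc x) = (χ x : k) *
      (l.1 : Module.Dual k (J k U)) (deltaQ k U (QuotientGroup.mk x)) :=
  Mfun_eq_of_dc_eq χ 𝒟 hχ l.2 (Function.surjInv_eq 𝒟.surj (𝒟.dc x))

theorem PsiLin_injective [Finite (G ⧸ U)] (hχ : ∀ u ∈ U, χ u = 1) :
    Function.Injective (PsiLin χ 𝒟) := by
  rw [injective_iff_map_eq_zero]
  intro l hl
  refine Subtype.ext (dual_ext (l := (l.1 : Module.Dual k (J k U))) (m := 0) fun q => ?_)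
  induction q using QuotientGroup.induction_on with | H x =>
  have h1 := congrFun hl (𝒟.dc x)
  rw [PsiLin_dc χ 𝒟 hχ] at h1
  have h2 : ((χ x : kˣ) : k) ≠ 0 := Units.ne_zero _
  exact (mul_eq_zero.1 h1).resolve_left h2


/-- left multiplication by `U` does not change the double coset -/
theorem DoubleCosets.dc_mul_left {u : G} (hu : u ∈ U) (x : G) : 𝒟.dc (u * x) = 𝒟.dc x :=
  ((𝒟.eq_iff x (u * x)).2 ⟨u, hu, 1, by rw [map_one, mul_one]⟩).symm

/-- right multiplication by `r(H)` does not change the double coset -/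
theorem DoubleCosets.dc_mul_right (x : G) (h : H) : 𝒟.dc (x * r h) = 𝒟.dc x :=
  ((𝒟.eq_iff x (x * r h)).2 ⟨1, U.one_mem, h, by rw [one_mul]⟩).symm

/-- evaluation at a point, a linear form on `J` -/
noncomputable def evalAt (y : G) : Module.Dual k (J k U) :=
  (LinearMap.proj y : (G → k) →ₗ[k] k) ∘ₗ
    (((Rep.res U.subtype (Rep.trivial k G k)).ρ.coindV U.subtype).subtype)

theorem evalAt_apply (y : G) (f : J k U) : evalAt (k := k) (U := U) y f = f.1 y := rfl

/-- the coefficient function of the linear form attached to `F : X → k` -/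
noncomputable def coeffOf (F : X → k) (q : G ⧸ U) : k :=
  (((χ q.out)⁻¹ : kˣ) : k) * F (𝒟.dc q.out)

theorem coeffOf_mk (hχ : ∀ u ∈ U, χ u = 1) (F : X → k) (x : G) :
    coeffOf χ 𝒟 F (QuotientGroup.mk x) = (((χ x)⁻¹ : kˣ) : k) * F (𝒟.dc x) := by
  obtain ⟨u', hu'⟩ := QuotientGroup.mk_out_eq_mul U x
  have hv : x * (u' : G) * x⁻¹ ∈ U := hU.conj_mem _ u'.2 x
  have h1 : (QuotientGroup.mk x : G ⧸ U).out = (x * (u' : G) * x⁻¹) * x := by
    rw [hu']; group
  unfold coeffOf
  rw [h1, 𝒟.dc_mul_left hv, map_mul, hχ _ hv, one_mul]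

/-- the linear form attached to `F : X → k` -/
noncomputable def formOf [Fintype (G ⧸ U)] (F : X → k) : J' k U χ :=
  (∑ q : G ⧸ U, coeffOf χ 𝒟 F q • evalAt (k := k) (U := U) q.out : Module.Dual k (J k U))

theorem formOf_deltaQ [Fintype (G ⧸ U)] (F : X → k) (q : G ⧸ U) :
    (formOf χ 𝒟 F : Module.Dual k (J k U)) (deltaQ k U q) = coeffOf χ 𝒟 F q := by
  classical
  unfold formOf
  rw [LinearMap.sum_apply, Finset.sum_eq_single q]
  · rw [LinearMap.smul_apply, evalAt_apply, deltaQ_apply, if_pos (QuotientGroup.out_eq' q),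
      smul_eq_mul, mul_one]
  · intro q' _ hq'
    rw [LinearMap.smul_apply, evalAt_apply, deltaQ_apply,
      if_neg (by rw [QuotientGroup.out_eq']; exact hq'), smul_zero]
  · intro h; exact absurd (Finset.mem_univ _) h

theorem formOf_mem [Fintype (G ⧸ U)] (hχ : ∀ u ∈ U, χ u = 1) (F : X → k) :
    formOf χ 𝒟 F ∈ (Rep.res r (J' k U χ)).ρ.invariants := by
  rw [mem_invariants_iff]
  intro h q
  induction q using QuotientGroup.induction_on with | H x =>
  rw [formOf_deltaQ, formOf_deltaQ, ← QuotientGroup.mk_mul, coeffOf_mk χ 𝒟 hχ,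
    coeffOf_mk χ 𝒟 hχ, 𝒟.dc_mul_right, map_mul, mul_inv_rev, Units.val_mul, ← mul_assoc,
    ← mul_assoc, ← Units.val_mul, mul_inv_cancel, Units.val_one, one_mul]

theorem PsiLin_surjective [Finite (G ⧸ U)] (hχ : ∀ u ∈ U, χ u = 1) :
    Function.Surjective (PsiLin χ 𝒟) := by
  have := Fintype.ofFinite (G ⧸ U)
  intro F
  refine ⟨⟨formOf χ 𝒟 F, formOf_mem χ 𝒟 hχ F⟩, funext fun w => ?_⟩
  obtain ⟨x, rfl⟩ := 𝒟.surj w
  rw [PsiLin_dc χ 𝒟 hχ]
  show (χ x : k) * (formOf χ 𝒟 F : Module.Dual k (J k U)) (deltaQ k U (QuotientGroup.mk x)) = _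
  rw [formOf_deltaQ, coeffOf_mk χ 𝒟 hχ, ← mul_assoc, ← Units.val_mul, mul_inv_cancel,
    Units.val_one, one_mul]

/-- **(c4), abstract form**: the `r(H)`-invariants of `J' = J^*(χ)` are the functions on the double
cosets `U \ G / r(H)`. -/
noncomputable def Psi [Finite (G ⧸ U)] (hχ : ∀ u ∈ U, χ u = 1) :
    (Rep.res r (J' k U χ)).ρ.invariants ≃ₗ[k] (X → k) :=
  LinearEquiv.ofBijective (PsiLin χ 𝒟) ⟨PsiLin_injective χ 𝒟 hχ, PsiLin_surjective χ 𝒟 hχ⟩

theorem Psi_dc [Finite (G ⧸ U)] (hχ : ∀ u ∈ U, χ u = 1)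
    (l : (Rep.res r (J' k U χ)).ρ.invariants) (x : G) :
    Psi χ 𝒟 hχ l (𝒟.dc x) = (χ x : k) *
      (l.1 : Module.Dual k (J k U)) (deltaQ k U (QuotientGroup.mk x)) :=
  PsiLin_dc χ 𝒟 hχ l x


/-! ### the action of `G` on `J'` -/

variable (U) in
/-- **The action of `γ` on `J'`**: the transpose of `L_{γ⁻¹}`. -/
noncomputable def actJ' (γ : G) : J' k U χ ⟶ J' k U χ :=
  dualTwistMap χ (leftTr U (Rep.trivial k G k) γ⁻¹)

theorem actJ'_apply (γ : G) (l : J' k U χ) (f : J k U) :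
    ((actJ' U χ γ).hom l : Module.Dual k (J k U)) f =
      (l : Module.Dual k (J k U)) ((leftTr U (Rep.trivial k G k) γ⁻¹).hom f) := rfl

theorem actJ'_one : actJ' U χ (1 : G) = 𝟙 (J' k U χ) := by
  unfold actJ'
  rw [inv_one, leftTr_one, dualTwistMap_id]

theorem actJ'_mul (σ τ : G) : actJ' U χ (σ * τ) = actJ' (k := k) U χ τ ≫ actJ' U χ σ := by
  unfold actJ'
  rw [mul_inv_rev, leftTr_mul, dualTwistMap_comp]

theorem actJ'_of_mem {u : G} (hu : u ∈ U) : actJ' U χ u = 𝟙 (J' k U χ) := by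
  unfold actJ'
  rw [leftTr_of_mem U _ (U.inv_mem hu), dualTwistMap_id]

theorem actJ'_deltaQ (γ : G) (l : J' k U χ) (q : G ⧸ U) :
    ((actJ' U χ γ).hom l : Module.Dual k (J k U)) (deltaQ k U q) =
      (l : Module.Dual k (J k U)) (deltaQ k U ((QuotientGroup.mk γ)⁻¹ * q)) := by
  rw [actJ'_apply, leftTr_deltaQ, QuotientGroup.mk_inv]

/-- the action preserves the invariants of any subgroup -/
theorem actJ'_mem_invariants (γ : G) {l : J' k U χ}
    (hl : l ∈ (Rep.res r (J' k U χ)).ρ.invariants) :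
    (actJ' U χ γ).hom l ∈ (Rep.res r (J' k U χ)).ρ.invariants := by
  rw [Representation.mem_invariants] at hl ⊢
  intro h
  show (J' k U χ).ρ (r h) ((actJ' U χ γ).hom l) = _
  rw [← Rep.hom_comm_apply]
  exact congrArg (actJ' U χ γ).hom (hl h)

/-- **Equivariance of (c4)**: `γ · e_O = χ(γ) e_{γ O}`. -/
theorem Psi_actJ' [Finite (G ⧸ U)] (hχ : ∀ u ∈ U, χ u = 1) (γ : G)
    (l : (Rep.res r (J' k U χ)).ρ.invariants) (w : X) :
    Psi χ 𝒟 hχ ⟨(actJ' U χ γ).hom l.1, actJ'_mem_invariants χ γ l.2⟩ w =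
      (χ γ : k) * Psi χ 𝒟 hχ l (γ⁻¹ • w) := by
  obtain ⟨x, rfl⟩ := 𝒟.surj w
  rw [← 𝒟.mul, Psi_dc, Psi_dc]
  show (χ x : k) * ((actJ' U χ γ).hom l.1 : Module.Dual k (J k U)) _ = _
  rw [actJ'_deltaQ, ← QuotientGroup.mk_inv, ← QuotientGroup.mk_mul, ← mul_assoc,
    ← Units.val_mul, ← map_mul, mul_inv_cancel_left]

/-- a `G`-invariant form has constant coordinates -/
theorem Psi_of_invariant [Finite (G ⧸ U)] (hχ : ∀ u ∈ U, χ u = 1) {l : J' k U χ}
    (hl : l ∈ (J' k U χ).ρ.invariants) (w : X) :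
    Psi χ 𝒟 hχ ⟨l, fun h => hl (r h)⟩ w =
      (l : Module.Dual k (J k U)) (deltaQ k U (QuotientGroup.mk 1)) := by
  obtain ⟨x, rfl⟩ := 𝒟.surj w
  rw [Psi_dc]
  have h1 := (mem_invariants_iff χ (MonoidHom.id G) l).1 hl x (QuotientGroup.mk 1)
  rw [← QuotientGroup.mk_mul, one_mul] at h1
  exact h1


/-! ### the global invariants: `H⁰(G, J') = χ`-line -/

variable (U) in
/-- the one-point double coset datum `U \ G / G` -/
def DoubleCosets.point : DoubleCosets U (MonoidHom.id G) PUnit.{1} where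
  dc _ := PUnit.unit
  surj _ := ⟨1, rfl⟩
  eq_iff x y := ⟨fun _ => ⟨1, U.one_mem, x⁻¹ * y, by simp⟩, fun _ => rfl⟩
  mul _ _ := rfl

variable (U) in
/-- **`(J')^G` is a line**, with coordinate `l ↦ l(δ_U)`. -/
noncomputable def invLine [Finite (G ⧸ U)] (hχ : ∀ u ∈ U, χ u = 1) :
    (J' k U χ).ρ.invariants ≃ₗ[k] k :=
  (Psi χ (DoubleCosets.point U) hχ).trans (LinearEquiv.funUnique PUnit.{1} k k)

theorem invLine_apply [Finite (G ⧸ U)] (hχ : ∀ u ∈ U, χ u = 1)
    (l : (J' k U χ).ρ.invariants) :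
    invLine U χ hχ l = (l.1 : Module.Dual k (J k U)) (deltaQ k U (QuotientGroup.mk 1)) :=
  Psi_of_invariant χ (DoubleCosets.point U) hχ l.2 PUnit.unit

/-- `G` acts on the line `(J')^G` through `χ` -/
theorem invLine_actJ' [Finite (G ⧸ U)] (hχ : ∀ u ∈ U, χ u = 1) (γ : G)
    (l : (J' k U χ).ρ.invariants) :
    invLine U χ hχ ⟨(actJ' U χ γ).hom l.1,
      actJ'_mem_invariants (r := MonoidHom.id G) χ γ l.2⟩ = (χ γ : k) * invLine U χ hχ l :=
  Psi_actJ' χ (DoubleCosets.point U) hχ γ l PUnit.unit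

/-- the coordinates of a `G`-invariant form on the double cosets of any `r(H)` are constant, equal
to its coordinate on the line -/
theorem Psi_of_invariant' [Finite (G ⧸ U)] (hχ : ∀ u ∈ U, χ u = 1)
    (l : (J' k U χ).ρ.invariants) (w : X) :
    Psi χ 𝒟 hχ ⟨l.1, fun h => l.2 (r h)⟩ w = invLine U χ hχ l := by
  rw [invLine_apply, Psi_of_invariant χ 𝒟 hχ l.2]

end Abstract

/-! ### restriction on `H⁰` -/

section ResH0

variable {k G H : Type u} [CommRing k] [Group G] [Group H] (𝒰 : LevelStructure G)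
  (𝒱 : LevelStructure H) (f : H →* G) (hf : 𝒱.Refines 𝒰 f) (A : Rep.{u} k G)
  [IsDiscrete 𝒰 A] [IsDiscrete 𝒱 (Rep.res f A)]

/-- restriction on `H⁰` is the inclusion of the invariants -/
theorem levelCohomologyMap_id_levelH0π (a : A.ρ.invariants) :
    (levelCohomologyMap f hf (𝟙 (Rep.res f A)) 0).hom (levelH0π 𝒰 A a) =
      levelH0π 𝒱 (Rep.res f A) ⟨a.1, fun h => a.2 (f h)⟩ :=
  levelCohomologyMap_levelπ f hf (𝟙 _) 0 _ _ (fun g => rfl)

end ResH0

/-! ### the places of a good field -/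

section Concrete

open ExtCitation Fermat.Agent.S55.Assembly Fermat.Agent.S55.Cone Fermat.Agent.S55.LevelGlobal
  Fermat.Agent.S55.GL.Places Fermat.Agent.S56.GEC.Equivariant.PlacesGSet

local notation "Qbar" => AlgebraicClosure ℚ
local notation "Γ" => (AlgebraicClosure ℚ ≃ₐ[ℚ] AlgebraicClosure ℚ)

local instance factPrime_ph0 (q : Nat.Primes) : Fact (q : ℕ).Prime := ⟨q.2⟩

variable (p : ℕ) [hp : Fact p.Prime] (S : Finset Nat.Primes) (L : IntermediateField ℚ Qbar)
  [FiniteDimensional ℚ L] [hn : Normal ℚ L]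

local instance normal_fixingSubgroup_ph0 : L.fixingSubgroup.Normal := normal_fixingSubgroup hn

local instance finite_quotient_ph0 : Finite (Γ ⧸ L.fixingSubgroup) := by
  have := finiteIndex_fixingSubgroup L inferInstance
  exact Subgroup.finite_quotient_of_finiteIndex

/-- `J = I(𝟙)` for `U = G_L` -/
noncomputable abbrev JL : Rep (ZMod p) Γ := J (ZMod p) L.fixingSubgroup

/-- `J' = J^*(χ_cyc)` -/
noncomputable abbrev JL' : Rep (ZMod p) Γ := J' (ZMod p) L.fixingSubgroup (cycloChar p)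

/-- the action of `Γ` (through `Gal(L/ℚ)`) on `J'` -/
noncomputable abbrev actL (γ : Γ) : JL' p L ⟶ JL' p L := actJ' L.fixingSubgroup (cycloChar p) γ

theorem actL_one : actL p L 1 = 𝟙 (JL' p L) := actJ'_one (cycloChar p)

theorem actL_mul (σ τ : Γ) : actL p L (σ * τ) = actL p L τ ≫ actL p L σ :=
  actJ'_mul (cycloChar p) σ τ

theorem actL_of_mem {u : Γ} (hu : u ∈ L.fixingSubgroup) : actL p L u = 𝟙 (JL' p L) :=
  actJ'_of_mem (cycloChar p) hu

/-- the places of `L` over `q` are the double cosets `G_L \ Γ / G_q` -/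
noncomputable def placesDC (q : Nat.Primes) :
    DoubleCosets L.fixingSubgroup (primeLocalToGlobal q) (PlacesOver (q : ℕ) L) where
  dc := dc L (q : ℕ)
  surj := dc_surjective L (q : ℕ)
  eq_iff x y := dc_eq_iff L (q : ℕ)
  mul := dc_mul L (q : ℕ)


variable (hχ : ∀ u ∈ L.fixingSubgroup, cycloChar p u = 1)
  [hd : IsDiscrete (globalLevel S) (JL' p L)]

/-- the restrictions of `J'` to the local groups are discrete (explicit form, found by instance
search) -/
instance isDiscrete_res_JL' (q : (localData S).ι) :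
    IsDiscrete ((localData S).𝒱 q) (Rep.res ((localData S).r q) (JL' p L)) :=
  (localData S).isDiscrete_res (JL' p L) q

variable {S} in
/-- the prime of a place of `localData S` (whose index type is `↥S`) -/
abbrev primeOf (q : (localData S).ι) : Nat.Primes := Subtype.val (p := (· ∈ S)) q

/-- `H⁰(ℚ_q, J') ≃ 𝔽_p[places of L over q]` -/
noncomputable def compEquiv (q : (localData S).ι) :
    levelCohomology ((localData S).𝒱 q) (Rep.res ((localData S).r q) (JL' p L)) 0 ≃ₗ[ZMod p]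
      (PlacesOver ((primeOf q : Nat.Primes) : ℕ) L → ZMod p) :=
  (levelH0Equiv ((localData S).𝒱 q) (Rep.res ((localData S).r q) (JL' p L))).symm ≪≫ₗ
    Psi (cycloChar p) (placesDC L (primeOf q)) hχ

theorem compEquiv_levelH0π (q : (localData S).ι)
    (a : (Rep.res ((localData S).r q) (JL' p L)).ρ.invariants) :
    compEquiv p S L hχ q (levelH0π ((localData S).𝒱 q) _ a) =
      Psi (cycloChar p) (placesDC L (primeOf q)) hχ a := by
  unfold compEquiv
  rw [LinearEquiv.trans_apply, ← levelH0Equiv_apply, LinearEquiv.symm_apply_apply]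
  rfl

/-- **(c4): `P⁰(J') = ∏_{q ∈ S} H⁰(ℚ_q, J') ≃ 𝔽_p[X_f]`.** -/
noncomputable def P0Equiv :
    (∀ q : (localData S).ι,
      levelCohomology ((localData S).𝒱 q) (Rep.res ((localData S).r q) (JL' p L)) 0) ≃ₗ[ZMod p]
      (Xf S L → ZMod p) :=
  (LinearEquiv.piCongrRight fun q : (localData S).ι => compEquiv p S L hχ q) ≪≫ₗ
    (LinearEquiv.piCurry (ZMod p)
      (fun (q : ↥S) (_ : PlacesOver ((q : Nat.Primes) : ℕ) L) => ZMod p)).symm

theorem P0Equiv_apply
    (y : ∀ q : (localData S).ι,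
      levelCohomology ((localData S).𝒱 q) (Rep.res ((localData S).r q) (JL' p L)) 0)
    (q : (localData S).ι) (w : PlacesOver ((primeOf q : Nat.Primes) : ℕ) L) :
    P0Equiv p S L hχ y (Xf.mk q w) = compEquiv p S L hχ q (y q) w := rfl

/-- **(c4): `H⁰(G_S, J') ≃ 𝔽_p`.** -/
noncomputable def H0Equiv : levelCohomology (globalLevel S) (JL' p L) 0 ≃ₗ[ZMod p] ZMod p :=
  (levelH0Equiv (globalLevel S) (JL' p L)).symm ≪≫ₗ invLine L.fixingSubgroup (cycloChar p) hχ

theorem H0Equiv_levelH0π (a : (JL' p L).ρ.invariants) :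
    H0Equiv p S L hχ (levelH0π (globalLevel S) _ a) =
      invLine L.fixingSubgroup (cycloChar p) hχ a := by
  unfold H0Equiv
  rw [LinearEquiv.trans_apply, ← levelH0Equiv_apply, LinearEquiv.symm_apply_apply]

/-- **`Γ` acts on `H⁰(G_S, J')` through `χ_cyc`.** -/
theorem H0Equiv_Hmap_actL (γ : Γ) (y : levelCohomology (globalLevel S) (JL' p L) 0) :
    H0Equiv p S L hχ ((Hmap (globalLevel S) (actL p L γ) 0).hom y) =
      (cycloChar p γ : ZMod p) * H0Equiv p S L hχ y := by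
  obtain ⟨a, rfl⟩ := levelH0π_surjective (globalLevel S) _ y
  rw [Hmap_levelH0π (globalLevel S) (actL p L γ) a
    ⟨(actL p L γ).hom a.1, actJ'_mem_invariants (r := MonoidHom.id Γ) (cycloChar p) γ a.2⟩ rfl,
    H0Equiv_levelH0π, H0Equiv_levelH0π]
  exact invLine_actJ' (cycloChar p) hχ γ a

theorem P0Equiv_locHMap_actL_mk (γ : Γ)
    (y : ∀ q : (localData S).ι,
      levelCohomology ((localData S).𝒱 q) (Rep.res ((localData S).r q) (JL' p L)) 0)
    (q : (localData S).ι) (w : PlacesOver ((primeOf q : Nat.Primes) : ℕ) L) :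
    P0Equiv p S L hχ (locHMap (localData S) (actL p L γ) 0 y) (Xf.mk q w) =
      (cycloChar p γ : ZMod p) * P0Equiv p S L hχ y (Xf.mk q (γ⁻¹ • w)) := by
  rw [P0Equiv_apply, P0Equiv_apply, locHMap_apply]
  obtain ⟨a, ha⟩ := levelH0π_surjective ((localData S).𝒱 q) _ (y q)
  rw [← ha, Hmap_levelH0π ((localData S).𝒱 q) ((Rep.resFunctor ((localData S).r q)).map
      (actL p L γ)) a ⟨(actL p L γ).hom a.1, actJ'_mem_invariants (cycloChar p) γ a.2⟩ rfl,
    compEquiv_levelH0π, compEquiv_levelH0π]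
  exact Psi_actJ' (cycloChar p) (placesDC L (primeOf q)) hχ γ a w

/-- **`Γ` permutes the places and twists by `χ_cyc`**:
`P0Equiv (γ · y) = χ(γ) · (P0Equiv y ∘ γ⁻¹)`. -/
theorem P0Equiv_locHMap_actL (γ : Γ)
    (y : ∀ q : (localData S).ι,
      levelCohomology ((localData S).𝒱 q) (Rep.res ((localData S).r q) (JL' p L)) 0)
    (x : Xf S L) :
    P0Equiv p S L hχ (locHMap (localData S) (actL p L γ) 0 y) x =
      (cycloChar p γ : ZMod p) * P0Equiv p S L hχ y (γ⁻¹ • x) := by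
  obtain ⟨q, w⟩ := x
  exact P0Equiv_locHMap_actL_mk p S L hχ γ y q w

theorem P0Equiv_locH_mk (y : levelCohomology (globalLevel S) (JL' p L) 0)
    (q : (localData S).ι) (w : PlacesOver ((primeOf q : Nat.Primes) : ℕ) L) :
    P0Equiv p S L hχ (locH (localData S) (JL' p L) 0 y) (Xf.mk q w) = H0Equiv p S L hχ y := by
  rw [P0Equiv_apply]
  obtain ⟨a, rfl⟩ := levelH0π_surjective (globalLevel S) _ y
  have h1 : locH (localData S) (JL' p L) 0 (levelH0π (globalLevel S) _ a) q =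
      levelH0π ((localData S).𝒱 q) (Rep.res ((localData S).r q) (JL' p L))
        ⟨a.1, fun h => a.2 ((localData S).r q h)⟩ :=
    levelCohomologyMap_id_levelH0π (globalLevel S) ((localData S).𝒱 q) ((localData S).r q)
      ((localData S).refines q) (JL' p L) a
  rw [h1, compEquiv_levelH0π, H0Equiv_levelH0π]
  exact Psi_of_invariant' (cycloChar p) (placesDC L (primeOf q)) hχ a w

/-- **the localisation map `H⁰(G_S, J') → P⁰(J')` is the diagonal `𝔽_p → 𝔽_p[X_f]`** -/
theorem P0Equiv_locH (y : levelCohomology (globalLevel S) (JL' p L) 0) (x : Xf S L) :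
    P0Equiv p S L hχ (locH (localData S) (JL' p L) 0 y) x = H0Equiv p S L hχ y := by
  obtain ⟨q, w⟩ := x
  exact P0Equiv_locH_mk p S L hχ y q w

/-! ### the representations of `Γ` on `P⁰(J')`, `H⁰(J')` and helper13's vocabulary -/

open Fermat.Agent.S56.GEC.Equivariant.CoindAct Fermat.Agent.S56.GEC.Equivariant.Mult

/-- **The action of `Γ` on `P⁰(J') = ∏_q H⁰(ℚ_q, J')`.** -/
noncomputable def P0Rep : Representation (ZMod p) Γ (∀ q : (localData S).ι,
    levelCohomology ((localData S).𝒱 q) (Rep.res ((localData S).r q) (JL' p L)) 0) where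
  toFun γ := locHMap (localData S) (actL p L γ) 0
  map_one' := by rw [actL_one, locHMap_id]; rfl
  map_mul' σ τ := by rw [actL_mul, locHMap_comp]; rfl

theorem P0Rep_apply (γ : Γ) (y : ∀ q : (localData S).ι,
    levelCohomology ((localData S).𝒱 q) (Rep.res ((localData S).r q) (JL' p L)) 0) :
    P0Rep p S L γ y = locHMap (localData S) (actL p L γ) 0 y := rfl

/-- **The action of `Γ` on `H⁰(G_S, J')`.** -/
noncomputable def H0Rep : Representation (ZMod p) Γ (levelCohomology (globalLevel S) (JL' p L) 0) where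
  toFun γ := (Hmap (globalLevel S) (actL p L γ) 0).hom
  map_one' := by rw [actL_one, Hmap_id]; rfl
  map_mul' σ τ := by rw [actL_mul, Hmap_comp]; rfl

theorem H0Rep_apply (γ : Γ) (y : levelCohomology (globalLevel S) (JL' p L) 0) :
    H0Rep p S L γ y = (Hmap (globalLevel S) (actL p L γ) 0).hom y := rfl

/-- the localisation map is equivariant -/
theorem locH_H0Rep (γ : Γ) (y : levelCohomology (globalLevel S) (JL' p L) 0) :
    locH (localData S) (JL' p L) 0 (H0Rep p S L γ y) =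
      P0Rep p S L γ (locH (localData S) (JL' p L) 0 y) :=
  locH_Hmap (localData S) (actL p L γ) 0 y

/-- **`H⁰(G_S, J') ≅ 𝔽_p(χ_cyc)`** -/
theorem H0Equiv_H0Rep (γ : Γ) (y : levelCohomology (globalLevel S) (JL' p L) 0) :
    H0Equiv p S L hχ (H0Rep p S L γ y) = charRep (cycloChar p) γ (H0Equiv p S L hχ y) := by
  rw [charRep_apply]
  exact H0Equiv_Hmap_actL p S L hχ γ y

/-- `P⁰(J') ≃ 𝔽_p[X_f]`, as finitely supported functions -/
noncomputable def P0EquivF :
    (∀ q : (localData S).ι,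
      levelCohomology ((localData S).𝒱 q) (Rep.res ((localData S).r q) (JL' p L)) 0) ≃ₗ[ZMod p]
      (Xf S L →₀ ZMod p) :=
  P0Equiv p S L hχ ≪≫ₗ (Finsupp.linearEquivFunOnFinite (ZMod p) (ZMod p) (Xf S L)).symm

theorem P0EquivF_apply (y : ∀ q : (localData S).ι,
      levelCohomology ((localData S).𝒱 q) (Rep.res ((localData S).r q) (JL' p L)) 0)
    (x : Xf S L) : P0EquivF p S L hχ y x = P0Equiv p S L hχ y x := rfl

/-- **`P⁰(J') ≅ 𝔽_p[X_f] ⊗ χ_cyc`** as representations of `Γ` -/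
theorem P0EquivF_P0Rep (γ : Γ) (y : ∀ q : (localData S).ι,
      levelCohomology ((localData S).𝒱 q) (Rep.res ((localData S).r q) (JL' p L)) 0) :
    P0EquivF p S L hχ (P0Rep p S L γ y) =
      twist (permRep (ZMod p) Γ (Xf S L)) (cycloChar p) γ (P0EquivF p S L hχ y) := by
  ext x
  rw [twist_apply, Finsupp.smul_apply, smul_eq_mul, P0EquivF_apply, P0Rep_apply,
    P0Equiv_locHMap_actL]
  congr 1
  have h1 : x = γ • (γ⁻¹ • x) := by rw [smul_inv_smul]
  conv_rhs => rw [h1]
  show _ = Finsupp.mapDomain (γ • ·) (P0EquivF p S L hχ y) (γ • (γ⁻¹ • x))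
  rw [Finsupp.mapDomain_apply (MulAction.injective γ)]
  rfl

/-- the image of `H⁰(G_S, J')` in `P⁰(J')` is the diagonal -/
theorem P0EquivF_locH (y : levelCohomology (globalLevel S) (JL' p L) 0) (x : Xf S L) :
    P0EquivF p S L hχ (locH (localData S) (JL' p L) 0 y) x = H0Equiv p S L hχ y :=
  P0Equiv_locH p S L hχ y x

omit [FiniteDimensional ℚ L] in
theorem nonempty_Xf (hS : S.Nonempty) : Nonempty (Xf S L) := by
  obtain ⟨q, hq⟩ := hS
  exact ⟨Xf.mk ⟨q, hq⟩ (placeOf (q : ℕ) L 1)⟩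

include hχ in
/-- `H⁰(G_S, J') → P⁰(J')` is injective (`S ≠ ∅`, `χ_cyc` trivial on `G_L`) -/
theorem locH_zero_injective (hS : S.Nonempty) :
    Function.Injective (locH (localData S) (JL' p L) 0) := by
  obtain ⟨x⟩ := nonempty_Xf S L hS
  rw [injective_iff_map_eq_zero]
  intro y hy
  have h1 := P0Equiv_locH p S L hχ y x
  rw [hy, map_zero] at h1
  exact (H0Equiv p S L hχ).map_eq_zero_iff.1 h1.symm

end Concrete

end Fermat.Agent.S56.GEC.Equivariant.PlacesH0
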