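/-
S56 / [GEC-D4] identity (C) (helper8; spec = moonshots row 52 §3–§4 (C); seam of helper25's
`Main.equivariant_count_of_imLoc`, #2643/#2681):
**`mult N (im loc²) + mult N ω̄⁻¹ = mult N (𝔽_p[X_f] ⊗ ω̄⁻¹)`.**

* Mathlib-only: `dual_twist`, `mult_dual_twist_of_selfDual`, `permDualEquiv` (self-duality of a
  permutation module), `mult_dual_twist_permRep`, `mult_dual_charRep`;
* `Pull` complements: `pull_trivial`, `domLCongr_permRep`;
* `mult_imLoc2_pull`: helper21's `ImLoc2.mult_imLoc2` for a finite group `C` acting through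
  `s : C →* G ⧸ U` (helper25's `Pull` format);
* `imLoc_identity` (any `C`-set with an equivariant bijection to `PlacesGSet.Xf S L`),
  `imLoc_identity_primes` (… to `primesAbove L S`, equivariant for `Main.galHom L s`),
  `imLoc_identity_galHom`: identity (C), from `mult_imLoc2_pull` + (c4) (`PlacesH0.P0EquivF_P0Rep`,
  `PlacesH0.H0Equiv_Hmap_actL`) + the duality lemmas.
-/
import Mathlib
import Fermat.Agent.S56.GEC.Equivariant.ImLoc2
import Fermat.Agent.S56.GEC.Equivariant.Pull
import Fermat.Agent.S56.GEC.Equivariant.Kummer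
import Fermat.Agent.S56.GEC.Equivariant.PlacesH0
import Fermat.Agent.S56.GEC.Equivariant.MainCore

set_option autoImplicit false
set_option linter.unusedSectionVars false
set_option linter.unusedVariables false
set_option linter.style.haveILetI false

open CategoryTheory groupCohomology

namespace Fermat.Agent.S56.GEC.Equivariant.ImLocFinal

open Module Fermat.Agent.S56.GEC.Equivariant.Mult Fermat.Agent.S56.GEC.Equivariant.MultGlue

/-! ### duals of twisted self-dual modules (Mathlib-only) -/

section DualTwist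

variable {k : Type*} [Field k] {C : Type*} [Group C]
  {N X : Type*} [AddCommGroup N] [Module k N] [AddCommGroup X] [Module k X]

/-- the dual of a twist is the inverse twist of the dual -/
theorem dual_twist (ρ : Representation k C X) (θ : C →* kˣ) :
    (twist ρ θ).dual = twist ρ.dual θ⁻¹ := by
  ext c φ v
  rw [dual_apply_apply, twist_apply, twist_apply, map_smul, LinearMap.smul_apply,
    dual_apply_apply, map_inv, MonoidHom.inv_apply]

variable [Fintype C] [FiniteDimensional k N] [FiniteDimensional k X]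

/-- for a self-dual `X`: `mult N^* (X ⊗ θ) = mult N (X ⊗ θ⁻¹)` -/
theorem mult_dual_twist_of_selfDual (hC : (Fintype.card C : k) ≠ 0) (ρN : Representation k C N)
    (ρX : Representation k C X) (θ : C →* kˣ) (e : X ≃ₗ[k] Module.Dual k X)
    (he : ∀ c x, e (ρX c x) = ρX.dual c (e x)) :
    mult ρN.dual (twist ρX θ) = mult ρN (twist ρX θ⁻¹) := by
  rw [← mult_dual_right hC ρN (twist ρX θ), dual_twist]
  exact (mult_congr_right ρN (twist ρX θ⁻¹) (twist ρX.dual θ⁻¹) e
    (twist_equivariant ρX ρX.dual θ⁻¹ e.toLinearMap he)).symm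

end DualTwist

section Perm

variable {k : Type*} [Field k] {C : Type*} [Group C] {T : Type*} [MulAction C T] [Finite T]

variable (k T) in
/-- the self-duality of the permutation module: `G ↦ (F ↦ ∑ F(t) G(t))` -/
noncomputable def permDualEquiv : (T →₀ k) ≃ₗ[k] Module.Dual k (T →₀ k) :=
  (Finsupp.linearEquivFunOnFinite k k T).trans (Finsupp.llift k k k T)

theorem permDualEquiv_apply_single (G : T →₀ k) (t : T) (a : k) :
    permDualEquiv k T G (Finsupp.single t a) = a * G t := by
  simp [permDualEquiv]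

theorem mapDomain_smul_apply (c : C) (G : T →₀ k) (t : T) :
    Finsupp.mapDomain (c • ·) G t = G (c⁻¹ • t) := by
  have h1 : t = c • (c⁻¹ • t) := by rw [smul_inv_smul]
  conv_lhs => rw [h1]
  exact Finsupp.mapDomain_apply (MulAction.injective c) G _

theorem permRep_apply_apply (c : C) (G : T →₀ k) (t : T) :
    permRep k C T c G t = G (c⁻¹ • t) := mapDomain_smul_apply c G t

theorem permDualEquiv_permRep (c : C) (G : T →₀ k) :
    permDualEquiv k T (permRep k C T c G) = (permRep k C T).dual c (permDualEquiv k T G) := by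
  refine Finsupp.lhom_ext fun t a => ?_
  rw [dual_apply_apply, permRep_single, permDualEquiv_apply_single, permDualEquiv_apply_single,
    permRep_apply_apply]

variable [Fintype C] {N : Type*} [AddCommGroup N] [Module k N] [FiniteDimensional k N]

/-- **`mult N^* (𝔽[T] ⊗ θ) = mult N (𝔽[T] ⊗ θ⁻¹)`** -/
theorem mult_dual_twist_permRep (hC : (Fintype.card C : k) ≠ 0) (ρN : Representation k C N)
    (θ : C →* kˣ) :
    mult ρN.dual (twist (permRep k C T) θ) = mult ρN (twist (permRep k C T) θ⁻¹) :=
  mult_dual_twist_of_selfDual hC ρN (permRep k C T) θ (permDualEquiv k T) permDualEquiv_permRep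

/-- **`mult N^* θ = mult N θ⁻¹`** -/
theorem mult_dual_charRep (hC : (Fintype.card C : k) ≠ 0) (ρN : Representation k C N)
    (θ : C →* kˣ) : mult ρN.dual (charRep θ) = mult ρN (charRep θ⁻¹) := by
  unfold charRep
  refine mult_dual_twist_of_selfDual hC ρN (Representation.trivial k C k) θ
    (LinearMap.ringLmapEquivSelf k k k).symm (fun c x => ?_)
  refine LinearMap.ext fun y => ?_
  rw [dual_apply_apply]
  rfl

end Perm

/-! ### `Pull` complements -/

section PullMore

open Fermat.Agent.S56.GEC.Equivariant.Pull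

variable {G : Type*} [Group G] (U : Subgroup G) [hU : U.Normal] {C : Type*} [Group C]
  (s : C →* G ⧸ U) {k : Type*} [Field k]

/-- the pull-back of a trivial representation is trivial -/
theorem pull_trivial {X : Type*} [AddCommGroup X] [Module k X]
    (h : ∀ u ∈ U, Representation.trivial k G X u = 1) :
    pull U s (Representation.trivial k G X) h = Representation.trivial k C X := by
  ext c x
  obtain ⟨τ, hτ⟩ := exists_eq_mk U s c
  rw [pull_apply_of_eq U s _ h hτ]
  rfl

/-- the pull-back of a permutation representation, along an equivariant bijection -/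
theorem domLCongr_permRep {T T' : Type*} [MulAction G T] [MulAction C T']
    (h : ∀ u ∈ U, permRep k G T u = 1) (e : T' ≃ T)
    (he : ∀ (c : C) (τ : G), s c = (τ : G ⧸ U) → ∀ x, e (c • x) = τ • e x) (c : C)
    (F : T →₀ k) :
    Finsupp.domLCongr (R := k) (M := k) e.symm (pull U s (permRep k G T) h c F) =
      permRep k C T' c (Finsupp.domLCongr (R := k) (M := k) e.symm F) := by
  obtain ⟨τ, hτ⟩ := exists_eq_mk U s c
  rw [pull_apply_of_eq U s _ h hτ]
  induction F using Finsupp.induction_linear with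
  | zero => simp
  | add a b ha hb => simp only [map_add, ha, hb]
  | single x a =>
    rw [permRep_single, Finsupp.domLCongr_single, Finsupp.domLCongr_single, permRep_single]
    congr 1
    apply e.injective
    rw [he c τ hτ, Equiv.apply_symm_apply, Equiv.apply_symm_apply]

end PullMore

/-! ### (C), formal part, in the `Pull` format -/

section Count

open Fermat.Agent.S55.Level Fermat.Agent.S55.Cone Fermat.Agent.S55.DualTwist
  Fermat.Agent.S55.LevelDuality Fermat.Agent.S55.Main Fermat.Agent.S55.CF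
  Fermat.Agent.S55.Devissage Fermat.Agent.S56.PT.LocalDuality Fermat.Agent.S56.PT.Selmer
  Fermat.Agent.S56.GEC.Regular Fermat.Agent.S56.GEC.Equivariant.CoindAct
  Fermat.Agent.S56.GEC.Equivariant.DualP0 Fermat.Agent.S56.GEC.Equivariant.ImLoc2
  Fermat.Agent.S56.GEC.Equivariant.Pull

universe u

variable {k G : Type u} [Field k] [Group G]
  {𝒰 : LevelStructure G} (D : LocalData.{u} 𝒰) [DecidableEq D.ι] [Finite D.ι]
  [Nonempty D.ι] (U : Subgroup G) [hU : U.Normal] [IsOpenSub 𝒰 U] (A : Rep.{u} k G)
  [IsDiscrete 𝒰 A] (χ : G →* kˣ) [IsDiscrete 𝒰 (ofChar χ)]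
  (tr : Hc D (ofChar χ) 3 →ₗ[k] k) [IsDiscrete 𝒰 ((coindRes U A).dualTwist χ)]
  [FiniteDimensional k (coindRes U A)]

/-- **(C), formal part** (helper21's `ImLoc2.mult_imLoc2`), for a finite group `C` acting through
`s : C →* G ⧸ U` (helper25's `Pull` format). -/
theorem mult_imLoc2_pull (h : PTHyp D χ tr) {C : Type*} [Group C] [Fintype C]
    (hC : (Fintype.card C : k) ≠ 0) {N : Type*} [AddCommGroup N] [Module k N]
    [FiniteDimensional k N] (ρN : Representation k C N) (s : C →* G ⧸ U) :
    mult ρN (pull U s (imLocRep D U A 2) (fun _ hu => imLocRep_of_mem D U A 2 hu)) +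
        mult ρN.dual (pull U s (dualCohRep (𝒰 := 𝒰) U A χ 0)
          (fun _ hu => dualCohRep_of_mem U A χ 0 hu)) =
      mult ρN.dual (pull U s (dualLocRep D U A χ 0)
        (fun _ hu => dualLocRep_of_mem D U A χ 0 hu)) := by
  have : Fintype D.ι := Fintype.ofFinite _
  have hfdJ' : FiniteDimensional k ((coindRes U A).dualTwist χ) :=
    inferInstanceAs (FiniteDimensional k (Module.Dual k (coindRes U A)))
  have hX : FiniteDimensional k
      (∀ v, levelCohomology (D.𝒱 v) (Rep.res (D.r v) ((coindRes U A).dualTwist χ)) 0) :=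
    finiteDimensional_prod h ((coindRes U A).dualTwist χ) 0 (by norm_num)
  have hY : FiniteDimensional k
      (∀ v, levelCohomology (D.𝒱 v) (Rep.res (D.r v) (coindRes U A)) 2) :=
    finiteDimensional_prod h (coindRes U A) 2 le_rfl
  have hW : FiniteDimensional k (levelCohomology 𝒰 ((coindRes U A).dualTwist χ) 0) :=
    finiteDimensional_levelCohomology_zero 𝒰 _
  refine mult_annihilator hC ρN
    (pull U s (dualLocRep D U A χ 0) (fun _ hu => dualLocRep_of_mem D U A χ 0 hu))
    (pull U s (locRep D U A 2) (fun _ hu => locRep_of_mem D U A 2 hu))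
    (pull U s (dualCohRep (𝒰 := 𝒰) U A χ 0) (fun _ hu => dualCohRep_of_mem U A χ 0 hu))
    (pull U s (imLocRep D U A 2) (fun _ hu => imLocRep_of_mem D U A 2 hu))
    (locDual D (evalPairing χ (coindRes U A)) (evalPairing_equivariant χ (coindRes U A)) 0 2 2 rfl
      tr) ?_ ?_ (locH D ((coindRes U A).dualTwist χ) 0)
    (locH_zero_injective D ((coindRes U A).dualTwist χ)) ?_
    (LinearMap.range (locH D (coindRes U A) 2)).subtype (Submodule.subtype_injective _) ?_ ?_
  · intro c x y
    obtain ⟨τ, hτ⟩ := exists_eq_mk U s c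
    rw [pull_apply_of_eq U s _ _ hτ, pull_apply_of_eq U s _ _ hτ]
    exact locDual_invariant D U A χ tr τ x y
  · exact (LinearMap.flip_bijective_iff₁).2 (locDual_bijective_zero_two (coindRes U A) h.loc)
  · intro c w
    obtain ⟨τ, hτ⟩ := exists_eq_mk U s c
    rw [pull_apply_of_eq U s _ _ hτ, pull_apply_of_eq U s _ _ hτ]
    exact locH_dualCohRep D U A χ 0 τ w
  · intro c z
    obtain ⟨τ, hτ⟩ := exists_eq_mk U s c
    rw [pull_apply_of_eq U s _ _ hτ, pull_apply_of_eq U s _ _ hτ]
    rfl
  · intro y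
    rw [← Fermat.Agent.S56.PT.MiddleExact.mem_range_locH_two_iff D χ tr (coindRes U A) h.main
      (fun v _ => ((h.loc.mono v) (Rep.res (D.r v) (coindRes U A))).2.2) y]
    constructor
    · rintro ⟨z, rfl⟩
      exact z.2
    · intro hy
      exact ⟨⟨y, hy⟩, rfl⟩

end Count

/-! ### identity (C) of [GEC-D4] -/

section Concrete

open ExtCitation Fermat.Agent.S55.Level Fermat.Agent.S55.Cone Fermat.Agent.S55.Assembly
  Fermat.Agent.S55.Devissage Fermat.Agent.S55.DualTwist Fermat.Agent.S55.LevelDuality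
  Fermat.Agent.S55.CF Fermat.Agent.S56.GEC.Regular
  Fermat.Agent.S56.GEC.Equivariant.CoindAct Fermat.Agent.S56.GEC.Equivariant.ImLoc2
  Fermat.Agent.S56.GEC.Equivariant.Pull Fermat.Agent.S56.GEC.Equivariant.PlacesGSet
  Fermat.Agent.S56.GEC.Equivariant.PlacesH0

local notation "Qbar" => AlgebraicClosure ℚ
local notation "Γ" => (AlgebraicClosure ℚ ≃ₐ[ℚ] AlgebraicClosure ℚ)

variable (S : Finset Nat.Primes) {p : ℕ} [hpF : Fact p.Prime] (hp2 : p ≠ 2)
  (hpS : (⟨p, hpF.out⟩ : Nat.Primes) ∈ S) (L : IntermediateField ℚ Qbar) [NumberField L]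
  (hnorm : Normal ℚ L) (hμp : ∀ ω : Qbar, ω ^ p = 1 → ω ∈ L)
  [hU : L.fixingSubgroup.Normal] [IsOpenSub (globalLevel S) L.fixingSubgroup]
  {C : Type} [Group C] [Fintype C] (hC : ¬ p ∣ Fintype.card C) (s : C →* Γ ⧸ L.fixingSubgroup)

/-- `G_L` acts trivially on `𝔽_p[X_f]` -/
theorem permRep_Xf_of_mem [Normal ℚ L] {u : Γ} (hu : u ∈ L.fixingSubgroup) :
    permRep (ZMod p) Γ (Xf S L) u = 1 := by
  refine Finsupp.lhom_ext fun x a => ?_
  rw [permRep_single, Xf.smul_eq_self_of_mem S L hu]
  rfl

include hp2 hpS hnorm hμp hC in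
/-- **Identity (C) of [GEC-D4]**: for every f.d. `𝔽_p[C]`-module `N` and every `C`-set `X₂` with an
equivariant bijection to the set `X_f` of places of `L` over `S`,
`mult N (im loc²) + mult N ω̄⁻¹ = mult N (𝔽_p[X_f] ⊗ ω̄⁻¹)`. -/
theorem imLoc_identity {N : Type*} [AddCommGroup N] [Module (ZMod p) N]
    [FiniteDimensional (ZMod p) N] (ρN : Representation (ZMod p) C N)
    {X₂ : Type} [MulAction C X₂] (e₂ : X₂ ≃ Xf S L)
    (he₂ : ∀ (c : C) (τ : Γ), s c = (τ : Γ ⧸ L.fixingSubgroup) → ∀ x, e₂ (c • x) = τ • e₂ x) :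
    mult ρN (Kummer.repIm S L s p 2) + mult ρN (charRep (Kummer.ωbar L s hμp)⁻¹) =
      mult ρN (twist (permRep (ZMod p) C X₂) (Kummer.ωbar L s hμp)⁻¹) := by
  haveI := hnorm
  have hχ := Fermat.Agent.S55.GL.Kummer.cycloChar_eq_one_of_mem_fixingSubgroup L hμp
  haveI : IsDiscrete (globalLevel S) (ofChar (k := ZMod p) (cycloChar p)) :=
    Fermat.Agent.S56.PT.MainExport.isDiscrete_mu S hpS
  haveI : IsDiscrete (globalLevel S) (Twist.I1 p L) := Twist.isDiscrete_I1 S L p
  haveI : L.fixingSubgroup.FiniteIndex := IsOpenSub.finiteIndex (𝒰 := globalLevel S)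
  haveI : FiniteDimensional (ZMod p) (Twist.I1 p L) :=
    finite_coindRes (U := L.fixingSubgroup) (Twist.triv p)
  haveI : IsDiscrete (globalLevel S) ((Twist.I1 p L).dualTwist (cycloChar p)) :=
    isDiscrete_dualTwist (globalLevel S) (cycloChar p) (Twist.I1 p L)
  haveI : Nonempty (localData S).ι := Fermat.Agent.S55.Chain.nonempty_localData_ι S hpS
  haveI : Finite X₂ := Finite.of_equiv _ e₂.symm
  obtain ⟨tr, htr⟩ := Fermat.Agent.S56.PT.Instance.exists_tr_ptHyp S hp2 hpS
  have hC' : (Fintype.card C : ZMod p) ≠ 0 :=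
    Fermat.Agent.S56.GEC.Equivariant.MultTorsion.card_ne_zero_of_not_dvd hC
  have h1 := mult_imLoc2_pull (localData S) L.fixingSubgroup (Twist.triv p) (cycloChar p) tr htr
    hC' ρN s
  -- (c4) for `H⁰(J')`
  have h2 : mult ρN.dual (pull L.fixingSubgroup s
      (dualCohRep (𝒰 := globalLevel S) L.fixingSubgroup (Twist.triv p) (cycloChar p) 0)
      (fun _ hu => dualCohRep_of_mem L.fixingSubgroup (Twist.triv p) (cycloChar p) 0 hu)) =
      mult ρN.dual (charRep (Kummer.ωbar L s hμp)) := by
    refine mult_congr_right ρN.dual _ _ (H0Equiv p S L hχ) (fun c y => ?_)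
    obtain ⟨τ, hτ⟩ := exists_eq_mk L.fixingSubgroup s c
    rw [pull_apply_of_eq L.fixingSubgroup s _ _ hτ, charRep_apply]
    have h3 : Kummer.ωbar L s hμp c = cycloChar p τ :=
      pullHom_apply_of_eq L.fixingSubgroup s (cycloChar p) _ hτ
    rw [h3]
    exact H0Equiv_Hmap_actL p S L hχ τ y
  -- (c4) for `P⁰(J')`
  have h4 : mult ρN.dual (pull L.fixingSubgroup s
      (dualLocRep (localData S) L.fixingSubgroup (Twist.triv p) (cycloChar p) 0)
      (fun _ hu => dualLocRep_of_mem (localData S) L.fixingSubgroup (Twist.triv p)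
        (cycloChar p) 0 hu)) =
      mult ρN.dual (twist (permRep (ZMod p) C X₂) (Kummer.ωbar L s hμp)) := by
    refine mult_congr_right ρN.dual _ _ ((P0EquivF p S L hχ).trans
      (Finsupp.domLCongr (R := ZMod p) (M := ZMod p) e₂.symm)) (fun c y => ?_)
    obtain ⟨τ, hτ⟩ := exists_eq_mk L.fixingSubgroup s c
    have h3 : Kummer.ωbar L s hμp c = cycloChar p τ :=
      pullHom_apply_of_eq L.fixingSubgroup s (cycloChar p) _ hτ
    rw [pull_apply_of_eq L.fixingSubgroup s _ _ hτ, twist_apply, h3, LinearEquiv.trans_apply,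
      LinearEquiv.trans_apply]
    have h5 : P0EquivF p S L hχ
        (dualLocRep (localData S) L.fixingSubgroup (Twist.triv p) (cycloChar p) 0 τ y) =
        twist (permRep (ZMod p) Γ (Xf S L)) (cycloChar p) τ (P0EquivF p S L hχ y) :=
      P0EquivF_P0Rep p S L hχ τ y
    rw [h5, twist_apply, map_smul]
    congr 1
    have h6 := domLCongr_permRep (k := ZMod p) L.fixingSubgroup s
      (fun u hu => permRep_Xf_of_mem S L hu) e₂ he₂ c (P0EquivF p S L hχ y)
    rw [pull_apply_of_eq L.fixingSubgroup s _ _ hτ] at h6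
    exact h6
  rw [h2, h4, mult_dual_charRep hC', mult_dual_twist_permRep hC'] at h1
  exact h1

/-! ### the same, in the shape of helper25's `Main.equivariant_count_of_imLoc` -/

section Primes

open NumberField IsDedekindDomain Fermat.Agent.S55.GL.Kummer Fermat.Agent.S55.SUnitGalois
  Fermat.Agent.S56.GEC.Equivariant.UnitsInv

variable [hn : Normal ℚ L]

include hp2 hpS hμp hC in
/-- **Identity (C) of [GEC-D4]**, for a `C`-set `Xf'` with a bijection to `primesAbove L S`,
equivariant for `Main.galHom L s : C →* Gal(L/ℚ)` — verbatim the hypothesis `hCid` of helper25's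
`Main.equivariant_count_of_imLoc`. -/
theorem imLoc_identity_primes {N : Type*} [AddCommGroup N] [Module (ZMod p) N]
    [FiniteDimensional (ZMod p) N] (ρN : Representation (ZMod p) C N)
    {Xf' : Type} [MulAction C Xf'] (ef : Xf' ≃ primesAbove L S)
    (hef : ∀ (c : C) (x : Xf'), ef (c • x) = Main.galHom L s c • ef x) :
    mult ρN (Kummer.repIm S L s p 2) + mult ρN (charRep (Kummer.ωbar L s hμp)⁻¹) =
      mult ρN (twist (permRep (ZMod p) C Xf') (Kummer.ωbar L s hμp)⁻¹) := by
  refine imLoc_identity S hp2 hpS L hn hμp hC s ρN (ef.trans (xfEquiv S L).symm)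
    (fun c τ hτ x => ?_)
  apply (xfEquiv S L).injective
  rw [Equiv.trans_apply, Equiv.trans_apply, Equiv.apply_symm_apply, hef,
    Main.galHom_apply_of_eq L s hτ]
  refine Subtype.ext ?_
  have h := coe_xfEquiv_smul S L τ ((xfEquiv S L).symm (ef x))
  rw [Equiv.apply_symm_apply] at h
  exact h.symm

include hp2 hpS hμp hC in
/-- **Identity (C)** for `X_f = primesAbove L S` with `C` acting through `Main.galHom L s`. -/
theorem imLoc_identity_galHom {N : Type*} [AddCommGroup N] [Module (ZMod p) N]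
    [FiniteDimensional (ZMod p) N] (ρN : Representation (ZMod p) C N) :
    letI : MulAction C (primesAbove L S) := MulAction.compHom _ (Main.galHom L s)
    mult ρN (Kummer.repIm S L s p 2) + mult ρN (charRep (Kummer.ωbar L s hμp)⁻¹) =
      mult ρN (twist (permRep (ZMod p) C (primesAbove L S)) (Kummer.ωbar L s hμp)⁻¹) := by
  letI : MulAction C (primesAbove L S) := MulAction.compHom _ (Main.galHom L s)
  exact imLoc_identity_primes S hp2 hpS L hμp hC s ρN (Equiv.refl _) (fun _ _ => rfl)

end Primes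

end Concrete

end Fermat.Agent.S56.GEC.Equivariant.ImLocFinal
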