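/-
S56 / [GEC-D4] (`moonshots` row 52): THE BRIDGE `ℤ ↔ k` FOR COEFFICIENTS, natural in coefficient maps.

The Kummer side of D4 lives in `Rep ℤ Γ` (`I(μ_p)`, `I(E_S)`), the counting side in `Rep (ZMod p) Γ`
(`I(𝟙)`).  S55 `LevelScalars` identifies `Hⁿ(𝒰, toIntRep A) ≃+ Hⁿ(𝒰, A)`; here, once for everybody:

* (a) `intEquiv_Hmap`: `levelCohomologyIntEquiv` is natural in coefficient maps
  (`Hmap 𝒰 (toIntRepMap φ)` ↔ `Hmap 𝒰 φ`); `toIntRepMap_id/_comp`, `toIntRepIso`;
* (b) `coindResIntIso U A : coindRes U (toIntRep A) ≅ toIntRep (coindRes U A)` (identity on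
  functions);
* (c) `coindIntEquiv U A 𝒰 n : Hⁿ(𝒰, coindRes U (toIntRep A)) ≃+ Hⁿ(𝒰, coindRes U A)`, natural for
  pairs of morphisms agreeing on functions (`coindIntEquiv_natural`), in particular for the
  commuting action `Regular.leftTr` (`coindIntEquiv_leftTr`) and for coinduced coefficient maps
  (`coindIntEquiv_coindMap`);
* (d) compatibility with the localisation maps `locH` (`locH_coindIntEquiv`,
  `locH_coindIntEquiv_eq_zero_iff`).
-/
import Fermat.Agent.S55.LevelScalars
import Fermat.Agent.S55.CF.LESElem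
import Fermat.Agent.S55.DevissageRep
import Fermat.Agent.S55.LocalDataMatch
import Fermat.Agent.S56.GEC.Regular
import Fermat.Agent.S56.GEC.RegularTensor

set_option autoImplicit false
set_option linter.unusedSectionVars false

open CategoryTheory

namespace Fermat.Agent.S56.GEC.Equivariant.IntBridge

open Fermat.Agent.S55.Level Fermat.Agent.S55.CF Fermat.Agent.S55.Devissage
  Fermat.Agent.S55.LevelScalars Fermat.Agent.S55.Cone Fermat.Agent.S55.LocalDataMatch
  Fermat.Agent.S56.GEC.Regular

variable {k G : Type} [CommRing k] [Group G]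

/-! ### (a) naturality of the comparison of scalars in the coefficients -/

section Coeff

variable {A B C : Rep.{0} k G}

lemma toIntRepMap_id : toIntRepMap (𝟙 A) = 𝟙 (toIntRep A) := rfl

lemma toIntRepMap_comp (φ : A ⟶ B) (ψ : B ⟶ C) :
    toIntRepMap (φ ≫ ψ) = toIntRepMap φ ≫ toIntRepMap ψ := rfl

/-- The underlying isomorphism of `ℤ`-linear representations. -/
noncomputable def toIntRepIso (e : A ≅ B) : toIntRep A ≅ toIntRep B where
  hom := toIntRepMap e.hom
  inv := toIntRepMap e.inv
  hom_inv_id := by rw [← toIntRepMap_comp, e.hom_inv_id, toIntRepMap_id]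
  inv_hom_id := by rw [← toIntRepMap_comp, e.inv_hom_id, toIntRepMap_id]

variable (𝒰 : LevelStructure G) [IsDiscrete 𝒰 A] [IsDiscrete 𝒰 B]

/-- **The comparison of scalars is natural in the coefficients.** -/
theorem intEquiv_Hmap (φ : A ⟶ B) (n : ℕ) (x : levelCohomology 𝒰 (toIntRep A) n) :
    levelCohomologyIntEquiv B 𝒰 n ((Hmap 𝒰 (toIntRepMap φ) n).hom x) =
      (Hmap 𝒰 φ n).hom (levelCohomologyIntEquiv A 𝒰 n x) :=
  (levelIntComparison A 𝒰).fwd.mapH_natural (levelIntComparison B 𝒰).fwd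
    (levelMap 𝒰 (toIntRepMap φ)) (levelMap 𝒰 φ) (fun _ _ => rfl) n x

theorem intEquiv_symm_Hmap (φ : A ⟶ B) (n : ℕ) (y : levelCohomology 𝒰 A n) :
    (levelCohomologyIntEquiv B 𝒰 n).symm ((Hmap 𝒰 φ n).hom y) =
      (Hmap 𝒰 (toIntRepMap φ) n).hom ((levelCohomologyIntEquiv A 𝒰 n).symm y) := by
  rw [AddEquiv.symm_apply_eq, intEquiv_Hmap, AddEquiv.apply_symm_apply]

end Coeff

/-! ### (b) coinduction commutes with the restriction of scalars -/

section Coind

variable (U : Subgroup G) (A : Rep.{0} k G)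

/-- A function of `coind_U^G res_U (toIntRep A)` as a function of `coind_U^G res_U A`. -/
def toK (f : coindRes U (toIntRep A)) : coindRes U A := ⟨f.1, f.2⟩

/-- A function of `coind_U^G res_U A` as a function of `coind_U^G res_U (toIntRep A)`. -/
def ofK (f : coindRes U A) : coindRes U (toIntRep A) := ⟨f.1, f.2⟩

@[simp] lemma toK_apply (f : coindRes U (toIntRep A)) (x : G) : (toK U A f).1 x = f.1 x := rfl
@[simp] lemma ofK_apply (f : coindRes U A) (x : G) : (ofK U A f).1 x = f.1 x := rfl
@[simp] lemma toK_ofK (f : coindRes U A) : toK U A (ofK U A f) = f := rfl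
@[simp] lemma ofK_toK (f : coindRes U (toIntRep A)) : ofK U A (toK U A f) = f := rfl

/-- The additive identification of the two coinduced modules. -/
def coindResAddEquiv : coindRes U (toIntRep A) ≃+ coindRes U A where
  toFun := toK U A
  invFun := ofK U A
  left_inv _ := rfl
  right_inv _ := rfl
  map_add' _ _ := rfl

/-- **Coinduction commutes with the restriction of scalars to `ℤ`** (identity on functions). -/
noncomputable def coindResIntIso : coindRes U (toIntRep A) ≅ toIntRep (coindRes U A) :=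
  Rep.mkIso (Representation.Equiv.mk (coindResAddEquiv U A).toIntLinearEquiv fun g => by
    refine LinearMap.ext fun f => ?_
    rfl)

lemma coindResIntIso_hom_apply (f : coindRes U (toIntRep A)) :
    (coindResIntIso U A).hom.hom f = toK U A f := rfl

lemma coindResIntIso_inv_apply (f : coindRes U A) :
    (coindResIntIso U A).inv.hom f = ofK U A f := rfl

variable (𝒰 : LevelStructure G) [IsDiscrete 𝒰 (coindRes U A)]

instance isDiscrete_coindRes_toIntRep : IsDiscrete 𝒰 (coindRes U (toIntRep A)) :=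
  ⟨fun f => by
    obtain ⟨V, hV, h⟩ := IsDiscrete.exists_fix (𝒰 := 𝒰) (A := coindRes U A) (toK U A f)
    exact ⟨V, hV, fun v hv => congrArg (ofK U A) (h v hv)⟩⟩

end Coind

/-! ### (c) the comparison on the cohomology of coinduced modules -/

section CoindH

variable (U : Subgroup G) (A B : Rep.{0} k G) (𝒰 : LevelStructure G)
  [IsDiscrete 𝒰 (coindRes U A)] [IsDiscrete 𝒰 (coindRes U B)]

/-- **`Hⁿ(𝒰, coind_U^G res_U (toIntRep A)) ≃+ Hⁿ(𝒰, coind_U^G res_U A)`**: the coefficient
isomorphism `coindResIntIso` followed by the comparison of scalars. -/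
noncomputable def coindIntEquiv (n : ℕ) :
    levelCohomology 𝒰 (coindRes U (toIntRep A)) n ≃+ levelCohomology 𝒰 (coindRes U A) n :=
  (HmapIsoEquiv (coindResIntIso U A) n).toAddEquiv.trans
    (levelCohomologyIntEquiv (coindRes U A) 𝒰 n)

lemma coindIntEquiv_apply (n : ℕ) (x : levelCohomology 𝒰 (coindRes U (toIntRep A)) n) :
    coindIntEquiv U A 𝒰 n x = levelCohomologyIntEquiv (coindRes U A) 𝒰 n
      ((Hmap 𝒰 (coindResIntIso U A).hom n).hom x) := rfl

variable {A B}

/-- **Naturality**: two morphisms of coinduced modules, over `ℤ` and over `k`, which agree on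
functions induce corresponding maps on cohomology. -/
theorem coindIntEquiv_natural (φ' : coindRes U (toIntRep A) ⟶ coindRes U (toIntRep B))
    (φ : coindRes U A ⟶ coindRes U B)
    (h : ∀ f : coindRes U (toIntRep A), toK U B (φ'.hom f) = φ.hom (toK U A f)) (n : ℕ)
    (x : levelCohomology 𝒰 (coindRes U (toIntRep A)) n) :
    coindIntEquiv U B 𝒰 n ((Hmap 𝒰 φ' n).hom x) =
      (Hmap 𝒰 φ n).hom (coindIntEquiv U A 𝒰 n x) := by
  have hc : φ' ≫ (coindResIntIso U B).hom = (coindResIntIso U A).hom ≫ toIntRepMap φ := by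
    refine Rep.hom_ext ?_
    ext f
    exact h f
  rw [coindIntEquiv_apply, coindIntEquiv_apply, ← Hmap_comp_apply, hc, Hmap_comp_apply,
    intEquiv_Hmap]

end CoindH

/-! ### Special cases: the commuting action, coinduced coefficient maps -/

section Special

variable (U : Subgroup G) {A B : Rep.{0} k G} (𝒰 : LevelStructure G)
  [IsDiscrete 𝒰 (coindRes U A)] [IsDiscrete 𝒰 (coindRes U B)]

/-- **The comparison intertwines the commuting actions** `L_τ` (`Regular.leftTr`) over `ℤ` and
over `k`. -/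
theorem coindIntEquiv_leftTr [U.Normal] (τ : G) (n : ℕ)
    (x : levelCohomology 𝒰 (coindRes U (toIntRep A)) n) :
    coindIntEquiv U A 𝒰 n ((Hmap 𝒰 (leftTr U (toIntRep A) τ) n).hom x) =
      (Hmap 𝒰 (leftTr U A τ) n).hom (coindIntEquiv U A 𝒰 n x) :=
  coindIntEquiv_natural U 𝒰 (leftTr U (toIntRep A) τ) (leftTr U A τ) (fun _ => rfl) n x

/-- The morphism `coind_U^G res_U A ⟶ coind_U^G res_U B` induced by a morphism of coefficients. -/
noncomputable def coindResMapOf (ψ : A ⟶ B) : coindRes U A ⟶ coindRes U B :=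
  Rep.coindMap U.subtype ((Rep.resFunctor U.subtype).map ψ)

lemma coindResMapOf_apply (ψ : A ⟶ B) (f : coindRes U A) (x : G) :
    ((coindResMapOf U ψ).hom f).1 x = ψ.hom (f.1 x) := rfl

/-- **The comparison is natural for coinduced coefficient maps.** -/
theorem coindIntEquiv_coindMap (ψ : A ⟶ B) (n : ℕ)
    (x : levelCohomology 𝒰 (coindRes U (toIntRep A)) n) :
    coindIntEquiv U B 𝒰 n ((Hmap 𝒰 (coindResMapOf U (toIntRepMap ψ)) n).hom x) =
      (Hmap 𝒰 (coindResMapOf U ψ) n).hom (coindIntEquiv U A 𝒰 n x) :=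
  coindIntEquiv_natural U 𝒰 (coindResMapOf U (toIntRepMap ψ)) (coindResMapOf U ψ)
    (fun _ => rfl) n x

/-- **The comparison is natural for the maps `f ↦ ℓ ∘ f`** (`Regular.coefMap`) induced by
`U`-equivariant linear maps of the coefficients. -/
theorem coindIntEquiv_coefMap (ℓ : A →ₗ[k] B)
    (hℓ : ∀ u ∈ U, ∀ a : A, ℓ (A.ρ u a) = B.ρ u (ℓ a)) (n : ℕ)
    (x : levelCohomology 𝒰 (coindRes U (toIntRep A)) n) :
    coindIntEquiv U B 𝒰 n ((Hmap 𝒰 (coefMap U (A := toIntRep A) (B := toIntRep B)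
        ℓ.toAddMonoidHom.toIntLinearMap hℓ) n).hom x) =
      (Hmap 𝒰 (coefMap U ℓ hℓ) n).hom (coindIntEquiv U A 𝒰 n x) :=
  coindIntEquiv_natural U 𝒰 _ (coefMap U ℓ hℓ) (fun _ => rfl) n x

/-- Scalars of `k` act on `Hⁿ(𝒰, coind_U^G res_U A)`; under the comparison they correspond to the
coefficient endomorphisms `f ↦ c • f` over `ℤ`. -/
theorem coindIntEquiv_smul (c : k) (φ' : coindRes U (toIntRep A) ⟶ coindRes U (toIntRep A))
    (h : ∀ f : coindRes U (toIntRep A), toK U A (φ'.hom f) = c • toK U A f) (n : ℕ)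
    (x : levelCohomology 𝒰 (coindRes U (toIntRep A)) n) :
    coindIntEquiv U A 𝒰 n ((Hmap 𝒰 φ' n).hom x) = c • coindIntEquiv U A 𝒰 n x := by
  have h1 := coindIntEquiv_natural U 𝒰 φ' (c • 𝟙 (coindRes U A)) (fun f => by
    rw [h f]
    rfl) n x
  rw [h1, Hmap_smul_id_apply]

end Special

/-! ### (d) compatibility with the localisation maps -/

section Loc

variable (U : Subgroup G) (A : Rep.{0} k G) {𝒰 : LevelStructure G} (D : LocalData 𝒰)
  [IsDiscrete 𝒰 (coindRes U A)]

/-- **Localisation commutes with the comparison.** -/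
theorem locH_coindIntEquiv (n : ℕ) (x : levelCohomology 𝒰 (coindRes U (toIntRep A)) n) :
    locH D (coindRes U A) n (coindIntEquiv U A 𝒰 n x) =
      prodIntEquiv D (coindRes U A) n
        (locHMap D (coindResIntIso U A).hom n (locH D (coindRes U (toIntRep A)) n x)) := by
  rw [coindIntEquiv_apply, ← prodIntEquiv_locH, locH_Hmap]

/-- Kernels of the localisation maps correspond. -/
theorem locH_coindIntEquiv_eq_zero_iff (n : ℕ)
    (x : levelCohomology 𝒰 (coindRes U (toIntRep A)) n) :
    locH D (coindRes U A) n (coindIntEquiv U A 𝒰 n x) = 0 ↔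
      locH D (coindRes U (toIntRep A)) n x = 0 := by
  rw [locH_coindIntEquiv, AddEquiv.map_eq_zero_iff]
  exact (locHMapEquiv D (coindResIntIso U A) n).map_eq_zero_iff

end Loc

end Fermat.Agent.S56.GEC.Equivariant.IntBridge
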