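/-
S56 / [GEC-D4] leaf D4-A3 (`moonshots` row 52, §4 (A.2)+(A.3)): NON-equivariant transport of the two
arithmetic facts of S55 over a good field `L` from the `G_L`-side to the `Γ`-side.

`L ⊆ ℚ̄` a good field (number field, unramified outside `S ∋ p`, normal, `μ_p ⊂ L`), `p` odd,
`U = G_L = L.fixingSubgroup`, `𝒰 = globalLevel S`, `D = localData S`, `I(A) = coindRes U A`.

* `Iμ`, `IE`, `Iι`, `Iι_comp_nsmul`, `IKummer_shortExact`: the coinduced Kummer sequence
  `0 → I(μ_p) → I(E_S) --p--> I(E_S) → 0` over `Γ`, in the `CF.kummerδ` shape;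
* `levelSh_kummerδ`: Shapiro commutes with the Kummer boundaries;
* (n1) `finite_H1_IE`: `H¹(Γ, I(E_S))` is finite;
* `locH_Iμ_eq_zero_iff`: Shapiro + Mackey + `localMatch`: `locH D (I μ_p) 2 x = 0` iff the Shapiro
  image of `x` is killed by all `locμ v`, `v | S`;
* (n2) `locH_Iμ_eq_zero_iff_exists_kummerδ`, `ker_locH_Iμ_eq_range`, `finite_ker_locH_Iμ`:
  `Ш²(I μ_p) = ker (locH D (I μ_p) 2)` is the image of the Kummer boundary
  `δ¹ : H¹(Γ, I(E_S)) → H²(Γ, I(μ_p))` (stated with `= 0` / additive subgroups: over `k = ℤ` the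
  `Module ℤ` instance on the product of the local groups found by instance search is not the
  `Pi.module` of `locH`, so `LinearMap.ker (locH …)` does not elaborate).
-/
import Fermat.Agent.S55.GL.BrauerAll
import Fermat.Agent.S55.GL.RecipFinal
import Fermat.Agent.S55.GL.HasseFieldInst
import Fermat.Agent.S55.GL.BrauerExistFinal
import Fermat.Agent.S55.GL.PhiFieldInst
import Fermat.Agent.S55.GL.MackeyBrauerMatch
import Fermat.Agent.S55.GL.BrauerFinal
import Fermat.Agent.S55.ShapiroTransport
import Fermat.Agent.S55.LocalDataMatch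
import Fermat.Agent.S55.DevissageRep

set_option autoImplicit false
set_option linter.unusedSectionVars false

open CategoryTheory IntermediateField

namespace Fermat.Agent.S56.GEC.Equivariant.ShaTransport

open Fermat.Agent.S55.Level Fermat.Agent.S55.Cone Fermat.Agent.S55.GaloisLevel
  Fermat.Agent.S55.GL.Places Fermat.Agent.S55.GL.BrauerLocal Fermat.Agent.S55.GL.BrauerData
  Fermat.Agent.S55.GL.BrauerInst Fermat.Agent.S55.GL.BrauerFinal Fermat.Agent.S55.GL.QSMod
  Fermat.Agent.S55.GL.MackeyBrauerMatch Fermat.Agent.S55.LocalDataMatch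
  Fermat.Agent.S55.Assembly Fermat.Agent.S55.ShapiroTransport Fermat.Agent.S55.CF
  Fermat.Agent.S55.CFAbs Fermat.Agent.S55.Devissage Fermat.Agent.S55.LevelGlobal
  Fermat.Agent.S55.Local.PadicCFT

local notation "Qbar" => AlgebraicClosure ℚ
local notation "Γ" => (AlgebraicClosure ℚ ≃ₐ[ℚ] AlgebraicClosure ℚ)

local instance isGaloisQbar_ST : IsGalois ℚ Qbar := Fermat.Agent.S55.Level.isGalois_Qbar
local instance factPrime_ST (q : Nat.Primes) : Fact (q : ℕ).Prime := ⟨q.2⟩

variable (S : Finset Nat.Primes) (p : ℕ) (L : IntermediateField ℚ Qbar)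

/-! ### The coinduced Kummer sequence over `Γ` -/

/-- `I(μ_p) = coind_{G_L}^Γ res μ_p`. -/
noncomputable abbrev Iμ : Rep.{0} ℤ Γ := coindRes L.fixingSubgroup (muP S p)

/-- `I(E_S) = coind_{G_L}^Γ res E_S`. -/
noncomputable abbrev IE : Rep.{0} ℤ Γ := coindRes L.fixingSubgroup (ESUnits S)

/-- `I(μ_p) → I(E_S)`. -/
noncomputable def Iι : Iμ S p L ⟶ IE S L := Rep.coindMap L.fixingSubgroup.subtype (ιL p S L)

lemma Iι_apply (f : Iμ S p L) (x : Γ) : ((Iι S p L).hom f).1 x = (muPι S p).hom (f.1 x) := rfl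

lemma Iι_comp_nsmul : Iι S p L ≫ (p • 𝟙 (IE S L)) = 0 := by
  refine kummer_zero_of (Iι S p L) p fun f => ?_
  refine Subtype.ext (funext fun x => ?_)
  have hz : p • (f.1 x) = 0 := by
    have h := ιL_comp_nsmul p S L
    have hinj : Function.Injective (muPι S p).hom := fun _ _ h => Subtype.ext h
    apply hinj
    rw [map_nsmul, map_zero]
    exact (show muSubmodule S p from f.1 x).2
  exact hz

/-- **The coinduced Kummer sequence** `0 → I(μ_p) → I(E_S) --p--> I(E_S) → 0` over `Γ`. -/
theorem IKummer_shortExact (hp : p.Prime) (hpS : (⟨p, hp⟩ : Nat.Primes) ∈ S) :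
    (ShortComplex.mk (Iι S p L) (p • 𝟙 (IE S L)) (Iι_comp_nsmul S p L)).ShortExact := by
  have h := Fermat.Agent.S55.GC.Shapiro.coind_shortExact L.fixingSubgroup
    (kummerL_shortExact p S L hp hpS)
  have hg : (Rep.coindFunctor.{0} ℤ L.fixingSubgroup.subtype).map
      (p • 𝟙 (resL L (ESUnits S))) = p • 𝟙 (IE S L) := by
    refine Rep.hom_ext ?_
    ext f
    refine ((nsmul_id_hom_apply (E := IE S L) p f).trans ?_).symm
    refine Subtype.ext (funext fun x => ?_)
    exact (nsmul_id_hom_apply (E := resL L (ESUnits S)) p (f.1 x)).symm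
  let e : (ShortComplex.mk (ιL p S L) (p • 𝟙 (resL L (ESUnits S))) (ιL_comp_nsmul p S L)).map
      (Rep.coindFunctor.{0} ℤ L.fixingSubgroup.subtype) ≅
      ShortComplex.mk (Iι S p L) (p • 𝟙 (IE S L)) (Iι_comp_nsmul S p L) :=
    ShortComplex.isoMk (Iso.refl _) (Iso.refl _) (Iso.refl _) (by rfl) (by
      change 𝟙 (IE S L) ≫ (p • 𝟙 (IE S L)) =
        (Rep.coindFunctor.{0} ℤ L.fixingSubgroup.subtype).map (p • 𝟙 (resL L (ESUnits S))) ≫
          𝟙 (IE S L)
      exact (Category.id_comp (p • 𝟙 (IE S L))).trans (hg.symm.trans (Category.comp_id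
        ((Rep.coindFunctor.{0} ℤ L.fixingSubgroup.subtype).map
          (p • 𝟙 (resL L (ESUnits S))))).symm))
  exact ShortComplex.shortExact_of_iso e h

/-! ### Shapiro and the Kummer boundaries -/

section Shapiro

variable [IsOpenSub (globalLevel S) L.fixingSubgroup]

/-- **Shapiro commutes with the Kummer boundaries**: `sh ∘ δ_{I(Kummer)} = δ_{Kummer over G_L} ∘ sh`. -/
theorem levelSh_kummerδ (hp : p.Prime) (hpS : (⟨p, hp⟩ : Nat.Primes) ∈ S) (n : ℕ) :
    kummerδ (globalLevel S) (IKummer_shortExact S p L hp hpS) n ≫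
        levelSh (globalLevel S) L.fixingSubgroup (resL L (muP S p)) (n + 1) =
      levelSh (globalLevel S) L.fixingSubgroup (resL L (ESUnits S)) n ≫
        kummerδ (levelLS S L) (kummerL_shortExact p S L hp hpS) n :=
  levelδ_naturality L.fixingSubgroup.subtype ((globalLevel S).restrict_refines L.fixingSubgroup)
    (IKummer_shortExact S p L hp hpS) (kummerL_shortExact p S L hp hpS)
    (Fermat.Agent.S55.GC.Shapiro.coindEval L.fixingSubgroup (resL L (muP S p)))
    (Fermat.Agent.S55.GC.Shapiro.coindEval L.fixingSubgroup (resL L (ESUnits S)))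
    (Fermat.Agent.S55.GC.Shapiro.coindEval L.fixingSubgroup (resL L (ESUnits S)))
    (fun _ => rfl)
    (fun a => by
      have h1 : ((p • 𝟙 (IE S L) : IE S L ⟶ IE S L).hom a) = p • a :=
        nsmul_id_hom_apply (E := IE S L) p a
      have h2 := nsmul_id_hom_apply (E := resL L (ESUnits S)) p
        ((Fermat.Agent.S55.GC.Shapiro.coindEval L.fixingSubgroup (resL L (ESUnits S))).hom a)
      refine Eq.trans ?_ h2.symm
      show (Fermat.Agent.S55.GC.Shapiro.coindEval L.fixingSubgroup (resL L (ESUnits S))).hom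
        ((p • 𝟙 (IE S L) : IE S L ⟶ IE S L).hom a) = _
      rw [h1]
      rfl)
    n (n + 1) rfl

theorem levelSh_kummerδ_apply (hp : p.Prime) (hpS : (⟨p, hp⟩ : Nat.Primes) ∈ S) (n : ℕ)
    (a : levelCohomology (globalLevel S) (IE S L) n) :
    (levelSh (globalLevel S) L.fixingSubgroup (resL L (muP S p)) (n + 1)).hom
        ((kummerδ (globalLevel S) (IKummer_shortExact S p L hp hpS) n).hom a) =
      (kummerδ (levelLS S L) (kummerL_shortExact p S L hp hpS) n).hom
        ((levelSh (globalLevel S) L.fixingSubgroup (resL L (ESUnits S)) n).hom a) :=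
  congrArg (fun φ => ModuleCat.Hom.hom φ a) (levelSh_kummerδ S p L hp hpS n)

end Shapiro

/-! ### (n1): `H¹(Γ, I(E_S))` is finite -/

section N1

variable [IsOpenSub (globalLevel S) L.fixingSubgroup]

/-- **(n1)** `Q = H¹(Γ, I(E_S))` is finite (Shapiro + `H¹(G_{L,S}, E_S) ↪ Cl_S(L)`). -/
theorem finite_H1_IE [NumberField L] (hL : L.IsUnramifiedOutside S) :
    Finite (levelCohomology (globalLevel S) (IE S L) 1) := by
  have h1 : Finite (levelCohomology (levelLS S L) (resL L (ESUnits S)) 1) :=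
    Finite.of_injective _ (Fermat.Agent.S55.GL.PhiFieldInst.phi_injective hL)
  exact Finite.of_injective _
    (levelSh_bijective (globalLevel S) L.fixingSubgroup 1 (resL L (ESUnits S))).1

end N1

/-! ### (n2): `Ш²(I μ_p)` is the image of the Kummer boundary -/

section N2

/-- Explicit instance for the Mackey family (the discrimination tree does not see through
`Rep.res ∘ Rep.res`). -/
local instance isDiscrete_mackeyData_mu_ST
    (w : (mackeyData (localData S) L.fixingSubgroup (sigma S L)).ι) :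
    IsDiscrete ((mackeyData (localData S) L.fixingSubgroup (sigma S L)).𝒱 w)
      (Rep.res ((mackeyData (localData S) L.fixingSubgroup (sigma S L)).r w)
        (resL L (muP S p))) :=
  LocalData.isDiscrete_res _ _ w

/-- The kernel of `locL` on `μ_p`-coefficients is the kernel of the localisation map of
`brauerData L S`. -/
theorem locL_mu_eq_zero_iff [FiniteDimensional ℚ L]
    (y : levelCohomology (levelLS S L) (resL L (muP S p)) 2) :
    locL (localData S) L.fixingSubgroup (resL L (muP S p)) (sigma S L) 2 y = 0 ↔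
      locH (brauerData L S) (resL L (muP S p)) 2 y = 0 := by
  let M := localMatch S L
  let A := resL L (muP S p)
  let e1 := curryEquiv (localData S) L.fixingSubgroup (sigma S L) A 2
  let e2 := M.prodEquiv A 2
  have h1 : e2 (locH (brauerData L S) A 2 y) =
      locH (mackeyData (localData S) L.fixingSubgroup (sigma S L)) A 2 y :=
    M.prodEquiv_locH A 2 y
  have h2 : e1 (locH (mackeyData (localData S) L.fixingSubgroup (sigma S L)) A 2 y) =
      locL (localData S) L.fixingSubgroup A (sigma S L) 2 y :=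
    curryEquiv_locH (localData S) L.fixingSubgroup (sigma S L) A 2 y
  rw [← h2, ← h1, LinearEquiv.map_eq_zero_iff, LinearEquiv.map_eq_zero_iff]

variable [hpF : Fact p.Prime] [NumberField L] [IsOpenSub (globalLevel S) L.fixingSubgroup]

/-- Shapiro + Mackey: a class of `H²(Γ, I(μ_p))` is locally trivial at the places of `S` iff its
Shapiro image is locally trivial at the places of `L` above `S`. -/
theorem locH_Iμ_eq_zero_iff (x : levelCohomology (globalLevel S) (Iμ S p L) 2) :
    locH (localData S) (Iμ S p L) 2 x = 0 ↔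
      ∀ v, v ∈ placesAbove L S → locμ p S L v
        ((levelSh (globalLevel S) L.fixingSubgroup (resL L (muP S p)) 2).hom x) = 0 := by
  have h := Fermat.Agent.S55.ShapiroTransport.mem_ker_locH_iff (localData S) L.fixingSubgroup
    (resL L (muP S p)) (sigma S L) (sigma_cov S L)
    (fun v i j u hu h hij => sigma_disj S L v i j u hu h hij) 2 x
  have h' : locH (localData S) (Iμ S p L) 2 x = 0 ↔
      locL (localData S) L.fixingSubgroup (resL L (muP S p)) (sigma S L) 2
        ((levelSh (globalLevel S) L.fixingSubgroup (resL L (muP S p)) 2).hom x) = 0 := h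
  rw [h', locL_mu_eq_zero_iff, Fermat.Agent.S55.GL.BrauerFinal.locH_eq_zero_iff]

/-- **(n2)** A class of `H²(Γ, I(μ_p))` is locally trivial at the places of `S` iff it is the
Kummer boundary of a class of `H¹(Γ, I(E_S))` (`L` good, `p` odd). -/
theorem locH_Iμ_eq_zero_iff_exists_kummerδ (hp2 : p ≠ 2)
    (hpS : (⟨p, hpF.out⟩ : Nat.Primes) ∈ S)
    (hL : L.IsUnramifiedOutside S) (hnorm : Normal ℚ L) (hμp : ∀ ω : Qbar, ω ^ p = 1 → ω ∈ L)
    (x : levelCohomology (globalLevel S) (Iμ S p L) 2) :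
    locH (localData S) (Iμ S p L) 2 x = 0 ↔
      ∃ a : levelCohomology (globalLevel S) (IE S L) 1,
        (kummerδ (globalLevel S) (IKummer_shortExact S p L hpF.out hpS) 1).hom a = x := by
  have H : BrauerInput p S L (cftPlace L) :=
    Fermat.Agent.S55.GL.BrauerAll.brauerInput_cft hpS
      (Fermat.Agent.S55.GL.RecipFinal.recipField p hp2 S)
      (Fermat.Agent.S55.GL.HasseFieldInst.hasseField p hp2 S hpS)
      (Fermat.Agent.S55.GL.BrauerExistFinal.existField hp2 hpS
        (Fermat.Agent.S55.GL.RecipFinal.recipField p hp2 S)) L hL hnorm hμp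
  have hsh2 := levelSh_bijective (globalLevel S) L.fixingSubgroup 2 (resL L (muP S p))
  have hsh1 := levelSh_bijective (globalLevel S) L.fixingSubgroup 1 (resL L (ESUnits S))
  rw [locH_Iμ_eq_zero_iff, H.locμ_eq_zero_iff hpF.out hpS]
  constructor
  · rintro ⟨b, hb⟩
    obtain ⟨a, rfl⟩ := hsh1.2 b
    refine ⟨a, hsh2.1 ?_⟩
    rw [levelSh_kummerδ_apply S p L hpF.out hpS 1 a]
    exact hb
  · rintro ⟨a, rfl⟩
    exact ⟨_, (levelSh_kummerδ_apply S p L hpF.out hpS 1 a).symm⟩

/-- **(n2), subgroup form**: `Ш²(I μ_p) = ker (locH D (I μ_p) 2) = range δ¹` as additive subgroups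
of `H²(Γ, I(μ_p))`. -/
theorem ker_locH_Iμ_eq_range (hp2 : p ≠ 2) (hpS : (⟨p, hpF.out⟩ : Nat.Primes) ∈ S)
    (hL : L.IsUnramifiedOutside S) (hnorm : Normal ℚ L) (hμp : ∀ ω : Qbar, ω ^ p = 1 → ω ∈ L) :
    (locH (localData S) (Iμ S p L) 2).toAddMonoidHom.ker =
      (kummerδ (globalLevel S) (IKummer_shortExact S p L hpF.out hpS) 1).hom.toAddMonoidHom.range :=
  AddSubgroup.ext fun x =>
    (locH_Iμ_eq_zero_iff_exists_kummerδ S p L hp2 hpS hL hnorm hμp x)

/-- `Ш²(I μ_p)` is finite. -/
theorem finite_ker_locH_Iμ (hp2 : p ≠ 2) (hpS : (⟨p, hpF.out⟩ : Nat.Primes) ∈ S)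
    (hL : L.IsUnramifiedOutside S) (hnorm : Normal ℚ L) (hμp : ∀ ω : Qbar, ω ^ p = 1 → ω ∈ L) :
    Finite {x : levelCohomology (globalLevel S) (Iμ S p L) 2 //
      locH (localData S) (Iμ S p L) 2 x = 0} := by
  have := finite_H1_IE S L hL
  have hsub : {x : levelCohomology (globalLevel S) (Iμ S p L) 2 |
      locH (localData S) (Iμ S p L) 2 x = 0} ⊆
      Set.range (kummerδ (globalLevel S) (IKummer_shortExact S p L hpF.out hpS) 1).hom :=
    fun x hx => (locH_Iμ_eq_zero_iff_exists_kummerδ S p L hp2 hpS hL hnorm hμp x).1 hx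
  exact ((Set.finite_range _).subset hsub).to_subtype

end N2

end Fermat.Agent.S56.GEC.Equivariant.ShaTransport
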