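/-
S56 / [GEC-D4] (`moonshots` row 52, §4 (A)): THE KUMMER SEQUENCE IN TERMS OF `I(𝟙)`, equivariantly.

On top of `ShaTransport` (the coinduced Kummer sequence `0 → I(μ_p) → I(E_S) --p--> I(E_S) → 0`,
(n1), (n2)), helper25's `Twist` (`Θⁿ : Hⁿ(I μ_p) ≃+ Hⁿ(I 𝟙)`, twisted equivariance) and helper21's
`CoindAct` (`levelδ_endo`): with `Dⁿ = Hⁿ(Γ, I E_S)`, `Aⁿ = Hⁿ(Γ, I 𝟙)`,

  `Dⁿ --p--> Dⁿ --κ--> Aⁿ⁺¹ --j--> Dⁿ⁺¹ --p--> Dⁿ⁺¹`      (`κ = Θ ∘ δ`, `j = Hⁿ(Iι) ∘ Θ⁻¹`)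

* `κJ`, `jJ`; exactness: `κJ_eq_zero_iff` (`ker κ = p Dⁿ`), `jJ_eq_zero_iff` (`ker j = range κ`),
  `jJ_κJ`, `nsmul_eq_zero_iff_exists_jJ` (`range j = Dⁿ[p]`);
* equivariance: `Iι_leftTr`, `kummerδ_cohRep`, `Hmap_Iι_cohRep`, ★ `κJ_cohRep`
  (`κ (τ a) = χ(τ) • τ (κ a)`), ★ `jJ_cohRep` (`j (χ(τ) • τ b) = τ (j b)`);
* ★ `mem_ker_locH_I1_iff`, `ker_locH_I1_eq_range`: `Ш²(I 𝟙) = ker (locH D (I 𝟙) 2) = range κ¹`
  (`L` good, `p` odd) — (n2) on the `𝔽_p`-side.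
These are exactly the hypotheses of `MultGlue.mult_of_kummer_exact` / `isCotorsOf_of_range`.
-/
import Fermat.Agent.S56.GEC.Equivariant.ShaTransport
import Fermat.Agent.S56.GEC.Equivariant.Twist
import Fermat.Agent.S56.GEC.Equivariant.CoindAct

set_option autoImplicit false
set_option linter.unusedSectionVars false

open CategoryTheory IntermediateField ExtCitation

namespace Fermat.Agent.S56.GEC.Equivariant.KummerSeq

open Fermat.Agent.S55.Level Fermat.Agent.S55.CF Fermat.Agent.S55.Devissage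
  Fermat.Agent.S55.Cone Fermat.Agent.S55.GL.QSMod Fermat.Agent.S55.GL.MuTriv
  Fermat.Agent.S55.LevelGlobal Fermat.Agent.S55.Assembly
  Fermat.Agent.S56.GEC.Regular Fermat.Agent.S56.GEC.Equivariant.ShaTransport
  Fermat.Agent.S56.GEC.Equivariant.CoindAct
  Fermat.Agent.S56.GEC.Equivariant.Twist

local notation "Qbar" => AlgebraicClosure ℚ
local notation "Γ" => (AlgebraicClosure ℚ ≃ₐ[ℚ] AlgebraicClosure ℚ)

local instance isDiscrete_triv_KS (k : Type) [CommRing k] {G : Type} [Group G]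
    (𝒰 : LevelStructure G) : IsDiscrete 𝒰 (Rep.trivial k G k) := isDiscrete_trivial k 𝒰

variable (S : Finset Nat.Primes) {p : ℕ} [hpF : Fact p.Prime]
  (hpS : (⟨p, hpF.out⟩ : Nat.Primes) ∈ S)
  {ζ : Qbar} (hζ : IsPrimitiveRoot ζ p) (L : IntermediateField ℚ Qbar) (hζL : ζ ∈ L)
  [hN : L.fixingSubgroup.Normal] [IsOpenSub (globalLevel S) L.fixingSubgroup]

local instance isDiscrete_I1_KS : IsDiscrete (globalLevel S) (I1 p L) := isDiscrete_I1 S L p

/-! ### The maps -/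

/-- `κ : Hⁿ(Γ, I E_S) → Hⁿ⁺¹(Γ, I 𝟙)`, the Kummer boundary followed by the twist `Θ`. -/
noncomputable def κJ (n : ℕ) :
    levelCohomology (globalLevel S) (IE S L) n →+ levelCohomology (globalLevel S) (I1 p L) (n + 1) :=
  (Θ S hpS hζ L hζL (n + 1)).toAddMonoidHom.comp
    (kummerδ (globalLevel S) (IKummer_shortExact S p L hpF.out hpS) n).hom.toAddMonoidHom

/-- `j : Hⁿ(Γ, I 𝟙) → Hⁿ(Γ, I E_S)`, the inverse twist followed by `Hⁿ(I μ_p) → Hⁿ(I E_S)`. -/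
noncomputable def jJ (n : ℕ) :
    levelCohomology (globalLevel S) (I1 p L) n →+ levelCohomology (globalLevel S) (IE S L) n :=
  (Hmap (globalLevel S) (Iι S p L) n).hom.toAddMonoidHom.comp
    (Θ S hpS hζ L hζL n).symm.toAddMonoidHom

lemma κJ_apply (n : ℕ) (a : levelCohomology (globalLevel S) (IE S L) n) :
    κJ S hpS hζ L hζL n a = Θ S hpS hζ L hζL (n + 1)
      ((kummerδ (globalLevel S) (IKummer_shortExact S p L hpF.out hpS) n).hom a) := rfl

lemma jJ_apply (n : ℕ) (b : levelCohomology (globalLevel S) (I1 p L) n) :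
    jJ S hpS hζ L hζL n b =
      (Hmap (globalLevel S) (Iι S p L) n).hom ((Θ S hpS hζ L hζL n).symm b) := rfl

/-! ### Exactness -/

/-- `ker κ = p Hⁿ(I E_S)`. -/
theorem κJ_eq_zero_iff (n : ℕ) (a : levelCohomology (globalLevel S) (IE S L) n) :
    κJ S hpS hζ L hζL n a = 0 ↔ ∃ a' : levelCohomology (globalLevel S) (IE S L) n, p • a' = a := by
  rw [κJ_apply, AddEquiv.map_eq_zero_iff]
  exact kummerδ_eq_zero_iff (globalLevel S) (IKummer_shortExact S p L hpF.out hpS) n a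

/-- `ker j = range κ`. -/
theorem jJ_eq_zero_iff (n : ℕ) (b : levelCohomology (globalLevel S) (I1 p L) (n + 1)) :
    jJ S hpS hζ L hζL (n + 1) b = 0 ↔
      ∃ a : levelCohomology (globalLevel S) (IE S L) n, κJ S hpS hζ L hζL n a = b := by
  rw [jJ_apply, Hmap_ι_eq_zero_iff (globalLevel S) (IKummer_shortExact S p L hpF.out hpS) n]
  constructor
  · rintro ⟨a, ha⟩
    exact ⟨a, by rw [κJ_apply, ha, AddEquiv.apply_symm_apply]⟩
  · rintro ⟨a, rfl⟩
    exact ⟨a, by rw [κJ_apply, AddEquiv.symm_apply_apply]⟩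

theorem jJ_κJ (n : ℕ) (a : levelCohomology (globalLevel S) (IE S L) n) :
    jJ S hpS hζ L hζL (n + 1) (κJ S hpS hζ L hζL n a) = 0 :=
  (jJ_eq_zero_iff S hpS hζ L hζL n _).2 ⟨a, rfl⟩

/-- `range j = Hⁿ(I E_S)[p]`. -/
theorem nsmul_eq_zero_iff_exists_jJ (n : ℕ) (d : levelCohomology (globalLevel S) (IE S L) n) :
    p • d = 0 ↔ ∃ b : levelCohomology (globalLevel S) (I1 p L) n, jJ S hpS hζ L hζL n b = d := by
  rw [kummer_nsmul_eq_zero_iff (globalLevel S) (IKummer_shortExact S p L hpF.out hpS) n d]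
  constructor
  · rintro ⟨z, hz⟩
    exact ⟨Θ S hpS hζ L hζL n z, by rw [jJ_apply, AddEquiv.symm_apply_apply, hz]⟩
  · rintro ⟨b, hb⟩
    exact ⟨_, hb⟩

/-! ### Equivariance -/

/-- `Iι` commutes with the commuting actions. -/
theorem Iι_leftTr (τ : Γ) :
    Iι S p L ≫ leftTr L.fixingSubgroup (ESUnits S) τ =
      leftTr L.fixingSubgroup (muP S p) τ ≫ Iι S p L :=
  coindResHom_leftTr L.fixingSubgroup (muPι S p) τ

/-- The Kummer boundaries of `I(Kummer)` are equivariant. -/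
theorem kummerδ_cohRep (n : ℕ) (τ : Γ) (a : levelCohomology (globalLevel S) (IE S L) n) :
    (kummerδ (globalLevel S) (IKummer_shortExact S p L hpF.out hpS) n).hom
        (cohRep L.fixingSubgroup (ESUnits S) (globalLevel S) n τ a) =
      cohRep L.fixingSubgroup (muP S p) (globalLevel S) (n + 1) τ
        ((kummerδ (globalLevel S) (IKummer_shortExact S p L hpF.out hpS) n).hom a) :=
  (levelδ_endo_apply (globalLevel S) (IKummer_shortExact S p L hpF.out hpS)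
    (leftTr L.fixingSubgroup (muP S p) τ) (leftTr L.fixingSubgroup (ESUnits S) τ)
    (leftTr L.fixingSubgroup (ESUnits S) τ) (Iι_leftTr S L τ)
    (nsmul_id_leftTr L.fixingSubgroup (ESUnits S) p τ) n (n + 1) rfl a).symm

/-- `Hⁿ(I μ_p) → Hⁿ(I E_S)` is equivariant. -/
theorem Hmap_Iι_cohRep (n : ℕ) (τ : Γ) (x : levelCohomology (globalLevel S) (ShaTransport.Iμ S p L) n) :
    (Hmap (globalLevel S) (Iι S p L) n).hom
        (cohRep L.fixingSubgroup (muP S p) (globalLevel S) n τ x) =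
      cohRep L.fixingSubgroup (ESUnits S) (globalLevel S) n τ
        ((Hmap (globalLevel S) (Iι S p L) n).hom x) :=
  Hmap_coindResHom_cohRep (globalLevel S) L.fixingSubgroup (muPι S p) n τ x

/-- Multiplication by `p` on `Hⁿ(I E_S)` is equivariant (`cohRep` is additive). -/
theorem cohRep_nsmul (n : ℕ) (τ : Γ) (m : ℕ) (a : levelCohomology (globalLevel S) (IE S L) n) :
    cohRep L.fixingSubgroup (ESUnits S) (globalLevel S) n τ (m • a) =
      m • cohRep L.fixingSubgroup (ESUnits S) (globalLevel S) n τ a :=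
  map_nsmul _ m a

/-- **`κ` is equivariant up to the twist**: `κ (τ a) = χ(τ) • τ (κ a)`. -/
theorem κJ_cohRep (n : ℕ) (τ : Γ) (a : levelCohomology (globalLevel S) (IE S L) n) :
    κJ S hpS hζ L hζL n (cohRep L.fixingSubgroup (ESUnits S) (globalLevel S) n τ a) =
      ((cycloChar p τ : (ZMod p)ˣ) : ZMod p) •
        cohRep L.fixingSubgroup (triv p) (globalLevel S) (n + 1) τ (κJ S hpS hζ L hζL n a) := by
  rw [κJ_apply, κJ_apply, kummerδ_cohRep S hpS L n τ a, Θ_cohRep]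

/-- **`j` is equivariant up to the twist**: `j (χ(τ) • τ b) = τ (j b)`. -/
theorem jJ_cohRep (n : ℕ) (τ : Γ) (b : levelCohomology (globalLevel S) (I1 p L) n) :
    jJ S hpS hζ L hζL n (((cycloChar p τ : (ZMod p)ˣ) : ZMod p) •
        cohRep L.fixingSubgroup (triv p) (globalLevel S) n τ b) =
      cohRep L.fixingSubgroup (ESUnits S) (globalLevel S) n τ (jJ S hpS hζ L hζL n b) := by
  rw [jJ_apply, jJ_apply, Θ_symm_cohRep, Hmap_Iι_cohRep]

/-! ### `Ш²(I 𝟙)` -/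

/-- **(n2) for `I(𝟙)`**: `Ш²(I 𝟙) = ker (locH D (I 𝟙) 2)` is the image of
`κ¹ : H¹(Γ, I E_S) → H²(Γ, I 𝟙)` (`L` good, `p` odd). -/
theorem mem_ker_locH_I1_iff [NumberField L] (hp2 : p ≠ 2) (hL : L.IsUnramifiedOutside S)
    (hnorm : Normal ℚ L) (hμp : ∀ ω : Qbar, ω ^ p = 1 → ω ∈ L)
    (y : levelCohomology (globalLevel S) (I1 p L) 2) :
    y ∈ LinearMap.ker (locH (localData S) (I1 p L) 2) ↔
      ∃ a : levelCohomology (globalLevel S) (IE S L) 1, κJ S hpS hζ L hζL 1 a = y := by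
  obtain ⟨x, rfl⟩ := (Θ S hpS hζ L hζL 2).surjective y
  rw [LinearMap.mem_ker, locH_Θ_eq_zero_iff,
    locH_Iμ_eq_zero_iff_exists_kummerδ S p L hp2 hpS hL hnorm hμp x]
  constructor
  · rintro ⟨a, ha⟩
    exact ⟨a, by rw [κJ_apply, ha]⟩
  · rintro ⟨a, ha⟩
    exact ⟨a, (Θ S hpS hζ L hζL 2).injective ha⟩

/-- `Ш²(I 𝟙)` as the range of `κ¹`. -/
theorem ker_locH_I1_eq_range [NumberField L] (hp2 : p ≠ 2) (hL : L.IsUnramifiedOutside S)
    (hnorm : Normal ℚ L) (hμp : ∀ ω : Qbar, ω ^ p = 1 → ω ∈ L) :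
    (LinearMap.ker (locH (localData S) (I1 p L) 2)).toAddSubgroup =
      (κJ S hpS hζ L hζL 1).range :=
  AddSubgroup.ext fun y => mem_ker_locH_I1_iff S hpS hζ L hζL hp2 hL hnorm hμp y

end Fermat.Agent.S56.GEC.Equivariant.KummerSeq
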