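/-
S56, [GEC-D4] (`moonshots` row 52), **THEOREM D4 = the equivariant count** (helper25).

Setting: `p` odd, `S ∋ p`, `L ⊂ ℚ̄` good (number field, normal, unramified outside `S`, `μ_p ⊂ L`),
`U := G_L = L.fixingSubgroup`, `𝒰 := globalLevel S`, `Aⁿ := Hⁿ(G_S, coind_U^Γ 𝔽_p)`; a finite group
`C` with `p ∤ |C|` and `s : C →* Γ ⧸ U`, acting on `Aⁿ` through `Regular.cohRep` (`Kummer.repA`),
on the archimedean places of `L` through `galHom L s : C →* Gal(L/ℚ)`.  Then, for every finite
dimensional `𝔽_p[C]`-module `N`,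

  `mult N A⁰ + mult N A² + mult N (𝔽_p[X_∞] ⊗ ω̄⁻¹) = mult N A¹`.

Proof: (A0) `Main.mult_repA_zero`, (A) `Kummer.kummer_identity`, (B) helper11's
`DirichletMult.mult_dirichlet_zeta` (assembled in `MainCore.lean`), (C) helper8's
`ImLocFinal.imLoc_identity_primes`.

* `equivariant_count` : the master form (`C`, `s`);
* `equivariant_count_quot` : the form for `C = V ⧸ G_L` in helper4's vocabulary
  (`RegularRep.cohRepQ`), consumed by D5 (`GEC/MainOf.EquivariantCountQuot`).

(Same namespace as `MainCore.lean`.)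
-/
import Mathlib
import Fermat.Agent.S56.GEC.Equivariant.MainCore
import Fermat.Agent.S56.GEC.Equivariant.ImLocFinal

set_option autoImplicit false
set_option linter.unusedSectionVars false
set_option linter.unusedVariables false
set_option linter.style.haveILetI false

open CategoryTheory IntermediateField

namespace Fermat.Agent.S56.GEC.Equivariant.Main

open NumberField IsDedekindDomain
open Fermat.Agent.S55.Level Fermat.Agent.S55.GL.Kummer
  Fermat.Agent.S56.GEC.Equivariant.Mult Fermat.Agent.S56.GEC.Equivariant.Kummer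
  Fermat.Agent.S56.GEC.Equivariant.UnitsInv

local notation "Qbar" => AlgebraicClosure ℚ
local notation "Γ" => (AlgebraicClosure ℚ ≃ₐ[ℚ] AlgebraicClosure ℚ)

section Final

variable (S : Finset Nat.Primes) {p : ℕ} [hpF : Fact p.Prime] (hp2 : p ≠ 2)
  (hpS : (⟨p, hpF.out⟩ : Nat.Primes) ∈ S) (L : IntermediateField ℚ Qbar) [NumberField L]
  (hL : L.IsUnramifiedOutside S) [hn : Normal ℚ L] (hμp : ∀ ω : Qbar, ω ^ p = 1 → ω ∈ L)
  [hU : L.fixingSubgroup.Normal] [IsOpenSub (globalLevel S) L.fixingSubgroup]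

local instance isDiscrete_I1_MainF (p : ℕ) : IsDiscrete (globalLevel S) (Twist.I1 p L) :=
  Twist.isDiscrete_I1 S L p

include hp2 hpS hL hμp in
/-- **THEOREM D4 (the equivariant count).** -/
theorem equivariant_count {C : Type} [Group C] [Fintype C] (hC : ¬ p ∣ Fintype.card C)
    (s : C →* Γ ⧸ L.fixingSubgroup)
    {N : Type*} [AddCommGroup N] [Module (ZMod p) N] [FiniteDimensional (ZMod p) N]
    (ρN : Representation (ZMod p) C N)
    {Xi : Type} [MulAction C Xi] (einf : Xi ≃ InfinitePlace L)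
    (heinf : ∀ (c : C) (x : Xi), einf (c • x) = galHom L s c • einf x) :
    mult ρN (repA S L s p 0) + mult ρN (repA S L s p 2) +
        mult ρN (twist (permRep (ZMod p) C Xi) (ωbar L s hμp)⁻¹) =
      mult ρN (repA S L s p 1) := by
  letI : MulAction C (primesAbove L S) := MulAction.compHom _ (galHom L s)
  exact equivariant_count_of_imLoc S hp2 hpS L hL hμp hC s ρN einf heinf (Equiv.refl _)
    (fun _ _ => rfl)
    (ImLocFinal.imLoc_identity_primes S hp2 hpS L hμp hC s ρN (Equiv.refl _) (fun _ _ => rfl))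

include hp2 hpS hL hμp in
/-- **THEOREM D4 for `C = V ⧸ G_L`**, in helper4's vocabulary (`RegularRep.cohRepQ`); this is
`GEC/MainOf.EquivariantCountQuot S p`. -/
theorem equivariant_count_quot (V : Subgroup Γ) [Fintype (↥V ⧸ L.fixingSubgroup.subgroupOf V)]
    (hC : ¬ p ∣ Fintype.card (↥V ⧸ L.fixingSubgroup.subgroupOf V))
    {N : Type*} [AddCommGroup N] [Module (ZMod p) N] [FiniteDimensional (ZMod p) N]
    (ρN : Representation (ZMod p) (↥V ⧸ L.fixingSubgroup.subgroupOf V) N)
    {Xi : Type} [MulAction (↥V ⧸ L.fixingSubgroup.subgroupOf V) Xi]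
    (einf : Xi ≃ InfinitePlace L)
    (heinf : ∀ (v : V) (x : Xi),
      einf ((QuotientGroup.mk v : ↥V ⧸ L.fixingSubgroup.subgroupOf V) • x) =
        AlgEquiv.restrictNormalHom L (v : Γ) • einf x) :
    mult ρN (RegularRep.cohRepQ L.fixingSubgroup V (globalLevel S) (Twist.triv p) 0) +
        mult ρN (RegularRep.cohRepQ L.fixingSubgroup V (globalLevel S) (Twist.triv p) 2) +
        mult ρN (twist (permRep (ZMod p) (↥V ⧸ L.fixingSubgroup.subgroupOf V) Xi)
          (ωbarV L V hμp)⁻¹) =
      mult ρN (RegularRep.cohRepQ L.fixingSubgroup V (globalLevel S) (Twist.triv p) 1) := by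
  have h := equivariant_count S hp2 hpS L hL hμp hC (sV L V) ρN einf (fun c x => by
    induction c using QuotientGroup.induction_on with | H v =>
    rw [heinf v x, galHom_sV_mk])
  rw [repA_sV, repA_sV, repA_sV] at h
  exact h

end Final

end Fermat.Agent.S56.GEC.Equivariant.Main
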