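/-
S56 / GEC-D4 (A.5) (helper21): **`Hⁿ(I A)` splits into `Шⁿ(I A)` and the image of the localisation
map, in the `mult` vocabulary.**

`0 → Шⁿ(I A) → Hⁿ(G, I A) → range locⁿ → 0` is an exact sequence of `G`-modules (`CoindAct`), hence
for every finite group `C` acting through `G` with `|C|` invertible in `k`:

  `mult N Hⁿ(G, I A) = mult N Шⁿ(I A) + mult N (range locⁿ)`.
-/
import Fermat.Agent.S56.GEC.Equivariant.CoindAct
import Fermat.Agent.S56.GEC.Equivariant.ImLoc2
import Fermat.Agent.S56.GEC.Equivariant.Mult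

set_option autoImplicit false
set_option linter.unusedSectionVars false
set_option linter.unusedVariables false

open CategoryTheory

namespace Fermat.Agent.S56.GEC.Equivariant.ShaSplit

open Fermat.Agent.S55.Level Fermat.Agent.S55.Cone Fermat.Agent.S55.CF
  Fermat.Agent.S55.Devissage Fermat.Agent.S56.GEC.Regular
  Fermat.Agent.S56.GEC.Equivariant.CoindAct Fermat.Agent.S56.GEC.Equivariant.ImLoc2
  Fermat.Agent.S56.GEC.Equivariant.Mult

universe u

variable {k G : Type u} [Field k] [Group G] {𝒰 : LevelStructure G} (D : LocalData.{u} 𝒰)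
  (U : Subgroup G) [hU : U.Normal] [IsOpenSub 𝒰 U] (A : Rep.{u} k G) [IsDiscrete 𝒰 A]

/-- **(A.5).**  For a finite group `C` with `|C|` invertible in `k`, acting on `Hⁿ(G, I A)`,
`Шⁿ(I A)` and `range locⁿ` through a surjection `π : V → C` from a subgroup `V` of `G`, compatibly
with the actions of `G`: `mult N Hⁿ(G, I A) = mult N Шⁿ(I A) + mult N (range locⁿ)`. -/
theorem mult_coh_eq_sha_add_imLoc (n : ℕ)
    [FiniteDimensional k (levelCohomology 𝒰 (coindRes U A) n)] {C : Type*} [Group C] [Fintype C]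
    (hC : (Fintype.card C : k) ≠ 0) {N : Type*} [AddCommGroup N] [Module k N]
    [FiniteDimensional k N] (ρN : Representation k C N) {V : Subgroup G} (π : V →* C)
    (hπ : Function.Surjective π)
    (ρH : Representation k C (levelCohomology 𝒰 (coindRes U A) n))
    (hρH : ∀ v : V, ρH (π v) = cohRep U A 𝒰 n (v : G))
    (ρS : Representation k C (LinearMap.ker (locH D (coindRes U A) n)))
    (hρS : ∀ v : V, ρS (π v) = shaRep D U A n (v : G))
    (ρZ : Representation k C (LinearMap.range (locH D (coindRes U A) n)))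
    (hρZ : ∀ v : V, ρZ (π v) = imLocRep D U A n (v : G)) :
    mult ρN ρH = mult ρN ρS + mult ρN ρZ := by
  refine mult_add_of_exact hC ρN ρS ρH ρZ
    (LinearMap.ker (locH D (coindRes U A) n)).subtype (locH D (coindRes U A) n).rangeRestrict
    ?_ ?_ (Submodule.subtype_injective _) (LinearMap.surjective_rangeRestrict _) ?_
  · intro c x
    obtain ⟨v, rfl⟩ := hπ c
    rw [hρS, hρH]
    rfl
  · intro c x
    obtain ⟨v, rfl⟩ := hπ c
    rw [hρH, hρZ]
    exact rangeRestrict_locH_cohRep D U A n (v : G) x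
  · intro x
    constructor
    · intro hx
      refine ⟨⟨x, ?_⟩, rfl⟩
      rw [LinearMap.mem_ker]
      exact congrArg Subtype.val hx
    · rintro ⟨y, rfl⟩
      exact Subtype.ext (LinearMap.mem_ker.1 y.2)

/-- (A.5) for the finite quotient `C = V ⧸ U` and the descended representations. -/
theorem mult_coh_eq_sha_add_imLoc_descend (n : ℕ)
    [FiniteDimensional k (levelCohomology 𝒰 (coindRes U A) n)] (V : Subgroup G)
    [Fintype (↥V ⧸ U.subgroupOf V)]
    (hC : (Fintype.card (↥V ⧸ U.subgroupOf V) : k) ≠ 0) {N : Type*} [AddCommGroup N]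
    [Module k N] [FiniteDimensional k N] (ρN : Representation k (↥V ⧸ U.subgroupOf V) N) :
    mult ρN (descend U V (cohRep U A 𝒰 n) (fun _ hu => cohRep_of_mem A 𝒰 n hu)) =
      mult ρN (descend U V (shaRep D U A n) (fun _ hu => shaRep_of_mem D U A n hu)) +
        mult ρN (descend U V (imLocRep D U A n) (fun _ hu => imLocRep_of_mem D U A n hu)) :=
  mult_coh_eq_sha_add_imLoc D U A n hC ρN (QuotientGroup.mk' (U.subgroupOf V))
    (QuotientGroup.mk'_surjective _) _ (fun _ => rfl) _ (fun _ => rfl) _ (fun _ => rfl)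

end Fermat.Agent.S56.GEC.Equivariant.ShaSplit
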